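import Mathlib
import Fermat.Agent.BAD.NodalGood
import Fermat.Agent.BAD.KerRed
import Fermat.Agent.BAD.FrobDescent
import Fermat.Agent.CAR.Inst.LevelN

/-!
# TR / node side: the EXPLICIT nodal datum of `X₀(Mq)` at `q` (brick J-DATUM)

`BadU.NodalFibreAt h W` (and `NodalGood.nodalFibreAt_of_good`) hide the divisors `E1`, `E2` of the
nodal datum behind an existential.  For the node-thickness argument one needs to know that the
modular unit `Δ(q)/Δ(q^p)` lies in the chart ring `⋃ L(n • (E1 + E2)) ∩ O`; this file re-exports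
the datum with its divisors:

* `nodalFibreFor_chartBase` : for a chart base `X`, `KerRed.NodalFibreFor h W E1 E2` with
  `E1 = (x)_∞`, `E2 = (x^q - x - 1)_0`, `x = α^* X · β^* X` (`SpecialFibre.xN`);
* `exists_mem_L_of_isIntegral` : a function integral over `ℚ̄[x]` lies in `L(n • (x)_∞)` for
  some `n`;
* `isIntegral_alpha_jLevel` : for `X = J(q^M)` the function `α^* j` is integral over `ℚ̄[x]`
  (the poles of `x` are all the cusps);
* `exists_mem_L_of_isIntegral_alpha_jLevel` : hence every function integral over `ℚ̄[α^* j]`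
  (e.g. a modular unit, regular off the cusps) lies in `L(n • E1)` for some `n`;
* `nodalFibreFor_J` : the datum at residue characteristic `≥ 5`.
-/

set_option autoImplicit false

noncomputable section

namespace Fermat.Agent.TR.Node.JDatum

open Polynomial AlgebraicCurve ModularCurve Fermat.Agent.Lib.Red Fermat.Agent.Lib.FF
  Fermat.Agent.BAD Fermat.Agent.BAD.TwoVal Fermat.Agent.BAD.NodalPlaces
  Fermat.Agent.BAD.SpecialFibre Fermat.Agent.BAD.ChartDiv Fermat.Agent.BAD.KerRed
  Fermat.Agent.ESJ.Cong.LevelGen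

local notation "Qb" => AlgebraicClosure ℚ

variable {A : ValuationSubring Qb} {k : Type} [Field k] {π : A →+* k}
  {M q : ℕ} [NeZero M] [NeZero q]
  {W : laurentBaseChange Qb (modularFunctionFieldFull (M * q)) ≃ₐ[Qb]
    laurentBaseChange Qb (modularFunctionFieldFull (M * q))}

set_option maxHeartbeats 1000000 in
/-- **The nodal fibre datum of a chart base, with explicit divisors**: `E1 = (x)_∞` and
`E2 = (x^q - x - 1)_0` for `x = α^* X · β^* X`. -/
theorem nodalFibreFor_chartBase [IsAlgClosed k] (h : BadSetup A π M q) (hW : IsAL M q W)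
    (hsurj : Function.Surjective π)
    {X : ↥(laurentBaseChange Qb (modularFunctionFieldFull M))} (hX : IsChartBase h X)
    (hg : genusFF k ↥(modularFunctionFieldFullC k M) + genusFF k ↥(modularFunctionFieldFullC k M)
      ≤ genusFF Qb ↥(laurentBaseChange Qb (modularFunctionFieldFull (M * q))))
    (hFN : IsFF1 Qb ↥(laurentBaseChange Qb (modularFunctionFieldFull (M * q))) (xN Qb M q X)) :
    NodalFibreFor h W hFN.poleDiv (zeroDiv hFN (xN Qb M q X ^ q - xN Qb M q X - 1)) := by
  have : Fact q.Prime := ⟨h.hℓ⟩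
  have : CharP k q := h.charP
  have hxO := SpecialFibre.xN_mem_OPair_X h hW hX
  have hxO' := SpecialFibre.inv_xN_mem_OPair h hW hX
  have hredx := SpecialFibre.redPair_xN_X h hW hX hxO
  have hrat := SpecialFibre.frobAut_smul_redX hX
  have hF1 := SpecialFibre.isFF1_redX_pow hX
  -- chart 1
  obtain ⟨T, hT, hTfin, hTB⟩ := SpecialFibre.exists_nodes_fin_X h hW hsurj hX
  obtain ⟨r, β, hβO, hβR, hgen⟩ := LatChart.exists_chart_gen_finRing h hW X hX
  obtain ⟨ι, hι, e₁, e₂, hinj₁, hinj₂, hfin, hval, -, hB₁⟩ :=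
    ChartNodesInst.chart_fin_of_points h hFN hxO hX.ffRed hrat hredx T hT hTfin hTB
      β hβO hβR hgen
  -- chart 2
  obtain ⟨T', hT', hTfin', hTB', hcusp⟩ := SpecialFibre.exists_nodes_inf_X h hW hsurj hX
  obtain ⟨r', β', hβO', hβR', hgen'⟩ := LatChart.exists_chart_gen_inv_finRing h hW X hX
  obtain ⟨ι', hι', e₁', e₂', -, -, hov, hB₂⟩ :=
    ChartNodesInst.chart_inf_of_points h hFN hxO hxO' hX.ffRed hrat hredx T' hT' hTfin' hTB'
      hcusp β' hβO' hβR' hgen'
  -- the bi-unit `z = x^q - x - 1`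
  have hz := ChartX.hasRed_chartZ h hW hX.mem hX.rat
  have hz' := ChartX.hasRed_inv_chartZ h hW hX.mem hX.rat hX.ffRed.transcendental
  -- the assembly
  obtain ⟨hne, hP₁, hZ₁, hP₂, hZ₂, hd₁, hd₂, hdegP₁, hdegP₂, hE1, hE2, hdisj, hdegE1, hdegE2,
    hgal, N₀, hS2⟩ :=
    NodalFibreAsm.nodalFibre_of_charts (A := A) (O := OPair h W) (fun a => OPair_hOA h a)
      (redPair h W) π hsurj h.pi_eq_zero_iff (fun a => ChartNodesInst.redPair_const h a)
      (redPair_eq_zero_iff h) hFN hxO hxO' hF1 hF1 hredx q h.hℓ.two_le hz.mem hz'.mem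
      e₁ e₂ hinj₂ hfin hval hB₁ e₁' e₂' hov hB₂ β hβO hβR hgen
      (fun n => BadU.latAt hsurj h W hW _) hg
  refine ⟨ι, hι, hne, e₁, e₂, _, _, _, _, hinj₁, hinj₂, hP₁, hZ₁, hP₂, hZ₂, hd₁, hd₂,
    hdegP₁, hdegP₂, hE1, hE2, hdisj, hdegE1, hdegE2, fun σ _ => ?_, N₀, hS2⟩
  exact hgal (arithmeticGalois (modularFunctionFieldFull (M * q)) σ)
    (ChartX.galois_smul_chartX σ (hX.gal σ))

/-- A function integral over `ℚ̄[x]` lies in `L(n • (x)_∞)` for some `n`. -/
theorem exists_mem_L_of_isIntegral {K F : Type*} [Field K] [Field F] [Algebra K F] {x : F}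
    (hF : IsFF1 K F x) {g : F} (hg : IsIntegral (Algebra.adjoin K ({x} : Set F)) g) :
    ∃ n : ℕ, g ∈ riemannRochSpace (n • hF.poleDiv) :=
  FrobDescent.exists_mem_L_of_mem_finRing hF ((mem_finRing_iff_isIntegral hF g).mpr hg)

/-- `x = α^* J(q^M) · β^* J(q^M)` is a chart function of level `M q`: its poles are the cusps. -/
theorem isJChart_xN_xL (M q : ℕ) [NeZero M] [NeZero q] :
    Fermat.Agent.CAR.Inst.LevelN.IsJChart Qb (xN Qb M q (xL Qb M)) :=
  Fermat.Agent.CAR.Inst.LevelN.isJChart_mul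
    (Fermat.Agent.CAR.Inst.LevelN.isJ_heckeAlphaBar M q
      (Fermat.Agent.CAR.Inst.LevelN.isJ_xL Qb M))
    (Fermat.Agent.CAR.Inst.LevelN.isJ_heckeBetaBar M q
      (Fermat.Agent.CAR.Inst.LevelN.isJ_xL Qb M))

/-- `α^* j` is integral over `ℚ̄[x]`, `x = α^* J(q^M) · β^* J(q^M)`. -/
theorem isIntegral_alpha_jLevel (M q : ℕ) [NeZero M] [NeZero q] :
    IsIntegral (Algebra.adjoin Qb
        ({xN Qb M q (xL Qb M)} : Set ↥(laurentBaseChange Qb (modularFunctionFieldFull (M * q)))))
      (heckeAlphaBar Qb M q (jLevel Qb M)) :=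
  (isJChart_xN_xL M q).isIntegral_of_isJ
    (Fermat.Agent.CAR.Inst.LevelN.isJ_heckeAlphaBar M q
      (Fermat.Agent.CAR.Inst.LevelN.isJ_jLevel Qb M))

/-- Every function integral over `ℚ̄[α^* j]` (a function regular off the cusps of `X₀(Mq)`)
lies in `L(n • (x)_∞)` for some `n`, `x = α^* J(q^M) · β^* J(q^M)`. -/
theorem exists_mem_L_of_isIntegral_alpha_jLevel
    (hFN : IsFF1 Qb ↥(laurentBaseChange Qb (modularFunctionFieldFull (M * q)))
      (xN Qb M q (xL Qb M)))
    {g : ↥(laurentBaseChange Qb (modularFunctionFieldFull (M * q)))}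
    (hg : IsIntegral (Algebra.adjoin Qb
        ({heckeAlphaBar Qb M q (jLevel Qb M)} :
          Set ↥(laurentBaseChange Qb (modularFunctionFieldFull (M * q))))) g) :
    ∃ n : ℕ, g ∈ riemannRochSpace (n • hFN.poleDiv) :=
  exists_mem_L_of_isIntegral hFN
    (Fermat.Agent.CAR.Glob.ChartX.isIntegral_adjoin_trans (isIntegral_alpha_jLevel M q) hg)

/-- **The nodal datum at residue characteristic `≥ 5`** (`X = J(q^M)`): `E1 = (x)_∞` is
supported on the cusps, and every function regular off the cusps (integral over `ℚ̄[α^* j]`)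
lies in `L(n • E1)` for some `n`. -/
theorem nodalFibreFor_J (A : ValuationSubring Qb) (M q : ℕ) [NeZero M] [NeZero q]
    (h : BadSetup A (IsLocalRing.residue A) M q) (hq5 : 5 ≤ q)
    (W : laurentBaseChange Qb (modularFunctionFieldFull (M * q)) ≃ₐ[Qb]
      laurentBaseChange Qb (modularFunctionFieldFull (M * q))) (hW : IsAL M q W) :
    ∃ E1 E2 : Divisor Qb ↥(laurentBaseChange Qb (modularFunctionFieldFull (M * q))),
      NodalFibreFor h W E1 E2 ∧
      ∀ g : ↥(laurentBaseChange Qb (modularFunctionFieldFull (M * q))),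
        IsIntegral (Algebra.adjoin Qb
          ({heckeAlphaBar Qb M q (jLevel Qb M)} :
            Set ↥(laurentBaseChange Qb (modularFunctionFieldFull (M * q))))) g →
        ∃ n : ℕ, g ∈ riemannRochSpace (n • E1) := by
  have : IsAlgClosed (IsLocalRing.ResidueField A) := CharP.isAlgClosed_residueField A
  have : Fact q.Prime := ⟨h.hℓ⟩
  have : CharP (IsLocalRing.ResidueField A) q := h.charP
  have h1728 : ((1728 : ℕ) : IsLocalRing.ResidueField A) ≠ 0 := by
    refine natCast_ne_zero_of_badSetup h 1728 ?_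
    intro hd
    have e : (1728 : ℕ) = 2 ^ 6 * 3 ^ 3 := by norm_num
    rw [e] at hd
    rcases (Nat.Prime.dvd_mul h.hℓ).1 hd with hd | hd
    · have := Nat.le_of_dvd (by norm_num) (h.hℓ.dvd_of_dvd_pow hd)
      omega
    · have := Nat.le_of_dvd (by norm_num) (h.hℓ.dvd_of_dvd_pow hd)
      omega
  have hX : IsChartBase h (xL Qb M) :=
    isChartBase_ofJ h IsLocalRing.residue_surjective (by exact_mod_cast h1728)
  have hFN := SpecialFibre.isFF1_xN_X h hW hX
  refine ⟨_, _, nodalFibreFor_chartBase h hW IsLocalRing.residue_surjective hX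
    (NodeCountInst.genusFF_add_le_good M q h.hℓ h.not_dvd (Or.inl hq5) A (IsLocalRing.residue A)
      h.hπ IsLocalRing.residue_surjective h.hℓk) hFN, fun g hg => ?_⟩
  exact exists_mem_L_of_isIntegral_alpha_jLevel hFN hg

end Fermat.Agent.TR.Node.JDatum
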