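/-
TR (node side): the local ring of a two-component nodal curve at a node, on the special fibre,
in BAD's `gluedSpace` / `Cong` vocabulary.

`F₁`, `F₂` function fields of one variable over `K` (`IsFF1`), glued along the pairs of places
`(e₁ i, e₂ i)` (both families injective), `D₁`, `D₂` effective divisors of positive degree
avoiding the nodes, `G N := gluedSpace e₁ e₂ 1 (N • D₁) (N • D₂)` (the functions on the nodal
curve regular off `supp D`), and a node `i₀`.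

* `cong_inv`, `cong_div` : values of inverses and quotients.
* `exists_den_one` (one component): a denominator `f ∈ L(N • D)` with value `1` at `e i₀`,
  vanishing at the other nodes, such that `f * a ∈ L(N • D)` vanishes at the other nodes
  (`a` regular at `e i₀`).
* **`exists_denominator`** (INT): for a pair `(a, b)` of germs regular at the node with equal
  values there are `N` and `τ ∈ G N` with value `1` at the node, vanishing at the other nodes,
  such that `τ * (a, b) ∈ G N`.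
* `cong_of_denominator` (LOC): conversely, `τ ∈ G N` with value `1` at the node and
  `τ * h ∈ G N` force `h` to be regular at the node with equal values on the two branches.
* `exists_branch_fst` / `exists_branch_snd` (UNIF): `(t, 0) ∈ G N` (resp. `(0, t) ∈ G N`) with
  `t` a uniformiser at `e₁ i₀` (resp. `e₂ i₀`).
* `exists_gen` (GEN): every pair of germs vanishing at the node is `α * (t₁, 0) + β * (0, t₂)`
  with `α`, `β` pairs of germs regular at the node with equal values.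
-/
import Mathlib
import Fermat.Agent.BAD.NodalRiemann

set_option autoImplicit false

noncomputable section

namespace Fermat.Agent.TR.Node.NodalLocal

open AlgebraicCurve WithZero Fermat.Agent.Lib.FF Fermat.Agent.BAD.NodalRiemann

variable {K : Type*} [Field K]

/-! ### One field -/

section OneField

variable {F : Type*} [Field F] [Algebra K F] {x : F}

theorem cong_zero_iff' {P : Place K F} {f : F} : Cong P f 0 ↔ P.adicValuation f < 1 := by
  unfold Cong
  rw [map_zero, sub_zero]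

theorem exp_neg_one_lt_one : (exp (-1 : ℤ) : ℤᵐ⁰) < 1 := by
  rw [← exp_zero, exp_lt_exp]
  norm_num

theorem val_le_exp_neg_one_of_lt_one (P : Place K F) {f : F} (h : P.adicValuation f < 1) :
    P.adicValuation f ≤ exp (-1 : ℤ) := by
  by_cases hf : f = 0
  · subst hf
    simp
  · rw [P.adicValuation_eq_exp_neg_ord hf, ← exp_zero, exp_lt_exp] at h
    rw [P.adicValuation_eq_exp_neg_ord hf, exp_le_exp]
    omega

/-- The value of a function with non-zero value at `P` is a unit of the valuation. -/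
theorem val_eq_one_of_cong {P : Place K F} {f : F} {c : K} (h : Cong P f c) (hc : c ≠ 0) :
    P.adicValuation f = 1 := by
  have h1 : P.adicValuation (algebraMap K F c) = 1 := adicValuation_algebraMap_eq_one P hc
  have h2 : P.adicValuation (f - algebraMap K F c) < P.adicValuation (algebraMap K F c) := by
    rw [h1]
    exact h
  have h3 := Valuation.map_add_eq_of_lt_right P.adicValuation h2
  rw [sub_add_cancel] at h3
  rw [h3, h1]

/-- The value of the inverse. -/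
theorem cong_inv {P : Place K F} {f : F} {c : K} (h : Cong P f c) (hc : c ≠ 0) :
    Cong P f⁻¹ c⁻¹ := by
  have hf1 := val_eq_one_of_cong h hc
  have hf0 : f ≠ 0 := by
    rintro rfl
    rw [map_zero] at hf1
    exact zero_ne_one hf1
  have hc0 : algebraMap K F c ≠ 0 := by simpa using hc
  have e : f⁻¹ - algebraMap K F c⁻¹ = -((f - algebraMap K F c) * f⁻¹ * (algebraMap K F c)⁻¹) := by
    rw [map_inv₀]
    field_simp
    ring
  unfold Cong
  rw [e, Valuation.map_neg, map_mul, map_mul, map_inv₀, map_inv₀, hf1,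
    adicValuation_algebraMap_eq_one P hc, inv_one, mul_one, mul_one]
  exact h

/-- The value of a quotient. -/
theorem cong_div {P : Place K F} {f g : F} {c d : K} (hf : Cong P f c) (hg : Cong P g d)
    (hd : d ≠ 0) : Cong P (f / g) (c / d) := by
  rw [div_eq_mul_inv, div_eq_mul_inv]
  exact hf.mul (cong_inv hg hd)

theorem exists_nat_val_le (P : Place K F) (y : F) :
    ∃ N : ℕ, P.adicValuation y ≤ exp ((N : ℕ) : ℤ) := by
  by_cases hy : y = 0
  · exact ⟨0, by subst hy; simp⟩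
  · refine ⟨(-P.ord y).toNat, ?_⟩
    rw [P.adicValuation_eq_exp_neg_ord hy, exp_le_exp]
    exact Int.self_le_toNat _

theorem exists_pos_of_degree_pos {D : Divisor K F} (hD0 : 0 ≤ D) (hd : 0 < Divisor.degree D) :
    ∃ P₀ : Place K F, 0 < D P₀ := by
  by_contra hcon
  push Not at hcon
  have h0 : D = 0 := Finsupp.ext fun v => le_antisymm (hcon v) (Finsupp.le_def.mp hD0 v)
  rw [h0, map_zero] at hd
  exact lt_irrefl _ hd

theorem exp_le_exp_nsmul {D : Divisor K F} (hD0 : 0 ≤ D) (N : ℕ) (v : Place K F) :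
    (1 : ℤᵐ⁰) ≤ exp ((N • D) v) := by
  rw [← exp_zero, exp_le_exp, Finsupp.smul_apply]
  exact nsmul_nonneg (Finsupp.le_def.mp hD0 v) N

theorem mem_L_nsmul_of_le {D : Divisor K F} (hD0 : 0 ≤ D) {N N' : ℕ} (h : N ≤ N') {y : F}
    (hy : y ∈ riemannRochSpace (N • D)) : y ∈ riemannRochSpace (N' • D) := by
  intro v
  refine (hy v).trans (exp_le_exp.mpr ?_)
  rw [Finsupp.smul_apply, Finsupp.smul_apply, nsmul_eq_mul, nsmul_eq_mul]
  have h0 : (0 : ℤ) ≤ D v := Finsupp.le_def.mp hD0 v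
  have h1 : (N : ℤ) ≤ (N' : ℤ) := by exact_mod_cast h
  exact mul_le_mul_of_nonneg_right h1 h0

/-- **Denominators on one component**: a function of `L(N • D)` with value `1` at `e i₀`,
vanishing at the other nodes, killing the poles of `a` off `supp D` and the values of `a` at the
other nodes. -/
theorem exists_den_one (h : IsFF1 K F x) {ι : Type*} [Fintype ι] (e : ι → Place K F)
    (he : Function.Injective e) (D : Divisor K F) (hD0 : 0 ≤ D) (hDe : ∀ i, D (e i) = 0)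
    (hd : 0 < Divisor.degree D) (i₀ : ι) (a : F) (ha : (e i₀).adicValuation a ≤ 1) :
    ∃ (N : ℕ) (f : F), f ∈ riemannRochSpace (N • D) ∧ Cong (e i₀) f 1 ∧
      (∀ i, i ≠ i₀ → Cong (e i) f 0) ∧ f * a ∈ riemannRochSpace (N • D) ∧
      (∀ i, i ≠ i₀ → Cong (e i) (f * a) 0) := by
  classical
  obtain ⟨P₀, hP₀⟩ := exists_pos_of_degree_pos hD0 hd
  have hP₀e : ∀ i, e i ≠ P₀ := fun i hi => by
    rw [← hi, hDe i] at hP₀
    exact lt_irrefl _ hP₀
  -- the poles of `a`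
  obtain ⟨Sa, hSa⟩ : ∃ Sa : Finset (Place K F), ∀ v : Place K F, v ∉ Sa →
      v.adicValuation a ≤ 1 := by
    by_cases ha0 : a = 0
    · exact ⟨∅, fun v _ => by subst ha0; simp⟩
    · obtain ⟨Da, hDa, -⟩ := h.hasPrincipalDivisors.exists_divisor a ha0
      refine ⟨Da.support, fun v hv => ?_⟩
      rw [Finsupp.notMem_support_iff, hDa v] at hv
      rw [v.adicValuation_eq_exp_neg_ord ha0, hv, neg_zero, exp_zero]
  set S : Finset (Place K F) := Finset.univ.image e ∪ Sa.erase P₀ with hS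
  have hP₀S : P₀ ∉ S := by
    rw [hS, Finset.mem_union, not_or]
    refine ⟨fun hmem => ?_, Finset.notMem_erase P₀ Sa⟩
    obtain ⟨i, -, hi⟩ := Finset.mem_image.mp hmem
    exact hP₀e i hi
  have hnodeS : ∀ i, e i ∈ S := fun i =>
    Finset.mem_union_left _ (Finset.mem_image_of_mem e (Finset.mem_univ i))
  -- strong approximation
  obtain ⟨f, hf1, hf2⟩ := h.strong_approximation S P₀ hP₀S
    (fun v => if v = e i₀ then 1 else 0)
    (fun v => if v = e i₀ then 1 else 1 + max 0 (-(v.ord a)))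
  have hfi₀ : (e i₀).adicValuation (f - 1) ≤ exp (-1 : ℤ) := by
    have h' := hf1 (e i₀) (hnodeS i₀)
    rwa [if_pos rfl, if_pos rfl] at h'
  have hfS : ∀ v ∈ S, v ≠ e i₀ → v.adicValuation f ≤ exp (-(1 + max 0 (-(v.ord a)))) := by
    intro v hv hne
    have h' := hf1 v hv
    rwa [if_neg hne, if_neg hne, sub_zero] at h'
  have hfS1 : ∀ v ∈ S, v ≠ e i₀ → v.adicValuation f ≤ exp (-1 : ℤ) := by
    intro v hv hne
    refine (hfS v hv hne).trans (exp_le_exp.mpr ?_)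
    have := le_max_left (0 : ℤ) (-(v.ord a))
    omega
  have hfaS : ∀ v ∈ S, v ≠ e i₀ → v.adicValuation (f * a) ≤ exp (-1 : ℤ) := by
    intro v hv hne
    by_cases ha0 : a = 0
    · subst ha0
      simp
    · rw [map_mul, v.adicValuation_eq_exp_neg_ord ha0]
      refine (mul_le_mul' (hfS v hv hne) le_rfl).trans ?_
      rw [← exp_add, exp_le_exp]
      have := le_max_right (0 : ℤ) (-(v.ord a))
      omega
  have hcong : Cong (e i₀) f 1 := by
    unfold Cong
    rw [map_one]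
    exact lt_of_le_of_lt hfi₀ exp_neg_one_lt_one
  have hfi₀' : (e i₀).adicValuation f ≤ 1 := hcong.le_one
  -- the pole orders at `P₀`
  obtain ⟨N₁, hN₁⟩ := exists_nat_val_le P₀ f
  obtain ⟨N₂, hN₂⟩ := exists_nat_val_le P₀ (f * a)
  have hexpP₀ : ∀ n : ℕ, (exp ((n : ℕ) : ℤ) : ℤᵐ⁰) ≤ exp (((max N₁ N₂) • D) P₀) ↔
      (n : ℤ) ≤ ((max N₁ N₂ : ℕ) : ℤ) * D P₀ := fun n => by
    rw [exp_le_exp, Finsupp.smul_apply, nsmul_eq_mul]
  have hmax : ∀ n : ℕ, n ≤ max N₁ N₂ → (n : ℤ) ≤ ((max N₁ N₂ : ℕ) : ℤ) * D P₀ := by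
    intro n hn
    have h1 : (n : ℤ) ≤ ((max N₁ N₂ : ℕ) : ℤ) := by exact_mod_cast hn
    have h2 : (0 : ℤ) ≤ ((max N₁ N₂ : ℕ) : ℤ) := Int.natCast_nonneg _
    nlinarith
  refine ⟨max N₁ N₂, f, ?_, hcong, ?_, ?_, ?_⟩
  · intro v
    by_cases hvP : v = P₀
    · subst hvP
      exact hN₁.trans ((hexpP₀ N₁).2 (hmax N₁ (le_max_left _ _)))
    · refine le_trans ?_ (exp_le_exp_nsmul hD0 _ v)
      by_cases hvS : v ∈ S
      · by_cases hvi : v = e i₀
        · rw [hvi]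
          exact hfi₀'
        · exact (hfS1 v hvS hvi).trans exp_neg_one_lt_one.le
      · exact hf2 v hvS hvP
  · intro i hi
    refine cong_zero_iff'.2 (lt_of_le_of_lt (hfS1 (e i) (hnodeS i) ?_) exp_neg_one_lt_one)
    exact fun h' => hi (he h')
  · intro v
    by_cases hvP : v = P₀
    · subst hvP
      exact hN₂.trans ((hexpP₀ N₂).2 (hmax N₂ (le_max_right _ _)))
    · refine le_trans ?_ (exp_le_exp_nsmul hD0 _ v)
      by_cases hvS : v ∈ S
      · by_cases hvi : v = e i₀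
        · rw [hvi, map_mul]
          exact mul_le_one' hfi₀' ha
        · exact (hfaS v hvS hvi).trans exp_neg_one_lt_one.le
      · rw [map_mul]
        refine mul_le_one' (hf2 v hvS hvP) (hSa v fun hmem => hvS ?_)
        exact Finset.mem_union_right _ (Finset.mem_erase.mpr ⟨hvP, hmem⟩)
  · intro i hi
    refine cong_zero_iff'.2 (lt_of_le_of_lt (hfaS (e i) (hnodeS i) ?_) exp_neg_one_lt_one)
    exact fun h' => hi (he h')

theorem val_le_exp_nsmul_of_le {D : Divisor K F} {P₀ : Place K F} (hP₀ : 0 < D P₀) {y : F}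
    {n N : ℕ} (hy : P₀.adicValuation y ≤ exp ((n : ℕ) : ℤ)) (hn : n ≤ N) :
    P₀.adicValuation y ≤ exp ((N • D) P₀) := by
  refine hy.trans ?_
  rw [exp_le_exp, Finsupp.smul_apply, nsmul_eq_mul]
  have h1 : (n : ℤ) ≤ (N : ℤ) := by exact_mod_cast hn
  have h2 : (0 : ℤ) ≤ (N : ℤ) := Int.natCast_nonneg _
  nlinarith

/-- **A uniformiser at `e i₀` vanishing at all the nodes**, regular off `supp D`. -/
theorem exists_unif_one (h : IsFF1 K F x) {ι : Type*} [Fintype ι] (e : ι → Place K F)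
    (D : Divisor K F) (hD0 : 0 ≤ D) (hDe : ∀ i, D (e i) = 0) (hd : 0 < Divisor.degree D) :
    ∃ (N : ℕ) (t : F), t ∈ riemannRochSpace (N • D) ∧
      ∀ i, (e i).adicValuation t = exp (-1 : ℤ) := by
  classical
  obtain ⟨P₀, hP₀⟩ := exists_pos_of_degree_pos hD0 hd
  have hP₀S : P₀ ∉ Finset.univ.image e := by
    intro hmem
    obtain ⟨i, -, hi⟩ := Finset.mem_image.mp hmem
    rw [← hi, hDe i] at hP₀
    exact lt_irrefl _ hP₀
  obtain ⟨f, hf0, hfS, hfout⟩ := h.exists_ord_eq (Finset.univ.image e) P₀ hP₀S (fun _ => 1)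
  obtain ⟨N, hN⟩ := exists_nat_val_le P₀ f
  have hval : ∀ i, (e i).adicValuation f = exp (-1 : ℤ) := fun i => by
    rw [(e i).adicValuation_eq_exp_neg_ord hf0,
      hfS (e i) (Finset.mem_image_of_mem e (Finset.mem_univ i))]
  refine ⟨N, f, fun v => ?_, hval⟩
  by_cases hvP : v = P₀
  · subst hvP
    exact val_le_exp_nsmul_of_le hP₀ hN le_rfl
  · refine le_trans ?_ (exp_le_exp_nsmul hD0 _ v)
    by_cases hvS : v ∈ Finset.univ.image e
    · obtain ⟨i, -, rfl⟩ := Finset.mem_image.mp hvS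
      rw [hval i]
      exact exp_neg_one_lt_one.le
    · exact v.adicValuation_le_one_iff.2 (Or.inr (hfout v hvS hvP))

end OneField

/-! ### The nodal curve -/

section TwoFields

variable {F₁ F₂ : Type*} [Field F₁] [Field F₂] [Algebra K F₁] [Algebra K F₂]
variable {ι : Type*} {x₁ : F₁} {x₂ : F₂}

theorem gluedSpace_nsmul_mono {e₁ : ι → Place K F₁} {e₂ : ι → Place K F₂} {D₁ : Divisor K F₁}
    {D₂ : Divisor K F₂} (hD₁0 : 0 ≤ D₁) (hD₂0 : 0 ≤ D₂) {N N' : ℕ} (h : N ≤ N') :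
    gluedSpace e₁ e₂ (fun _ => (1 : K)) (N • D₁) (N • D₂) ≤
      gluedSpace e₁ e₂ (fun _ => (1 : K)) (N' • D₁) (N' • D₂) := by
  rintro t ⟨h1, h2, h3⟩
  exact ⟨mem_L_nsmul_of_le hD₁0 h h1, mem_L_nsmul_of_le hD₂0 h h2, h3⟩

/-- **(INT) Node-local interpolation.**  A pair `(a, b)` of germs regular at the node `i₀` with
equal values becomes a section after multiplication by a section `τ` with value `1` at the
node (vanishing at the other nodes). -/
theorem exists_denominator [Fintype ι] (h₁ : IsFF1 K F₁ x₁) (h₂ : IsFF1 K F₂ x₂)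
    {e₁ : ι → Place K F₁} {e₂ : ι → Place K F₂} (he₁ : Function.Injective e₁)
    (he₂ : Function.Injective e₂) (D₁ : Divisor K F₁) (D₂ : Divisor K F₂)
    (hD₁ : ∀ i, D₁ (e₁ i) = 0) (hD₂ : ∀ i, D₂ (e₂ i) = 0) (hD₁0 : 0 ≤ D₁) (hD₂0 : 0 ≤ D₂)
    (hd₁ : 0 < Divisor.degree D₁) (hd₂ : 0 < Divisor.degree D₂) (i₀ : ι) {a : F₁} {b : F₂}
    {c : K} (ha : Cong (e₁ i₀) a c) (hb : Cong (e₂ i₀) b c) :
    ∃ (N : ℕ) (τ : F₁ × F₂), τ ∈ gluedSpace e₁ e₂ (fun _ => (1 : K)) (N • D₁) (N • D₂) ∧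
      Cong (e₁ i₀) τ.1 1 ∧ Cong (e₂ i₀) τ.2 1 ∧
      (∀ i, i ≠ i₀ → Cong (e₁ i) τ.1 0 ∧ Cong (e₂ i) τ.2 0) ∧
      τ * (a, b) ∈ gluedSpace e₁ e₂ (fun _ => (1 : K)) (N • D₁) (N • D₂) := by
  classical
  obtain ⟨N₁, f₁, hf₁L, hf₁1, hf₁0, hfa₁L, hfa₁0⟩ :=
    exists_den_one h₁ e₁ he₁ D₁ hD₁0 hD₁ hd₁ i₀ a ha.le_one
  obtain ⟨N₂, f₂, hf₂L, hf₂1, hf₂0, hfb₂L, hfb₂0⟩ :=
    exists_den_one h₂ e₂ he₂ D₂ hD₂0 hD₂ hd₂ i₀ b hb.le_one
  refine ⟨max N₁ N₂, (f₁, f₂), ⟨mem_L_nsmul_of_le hD₁0 (le_max_left _ _) hf₁L,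
    mem_L_nsmul_of_le hD₂0 (le_max_right _ _) hf₂L, fun i => ?_⟩, hf₁1, hf₂1,
    fun i hi => ⟨hf₁0 i hi, hf₂0 i hi⟩,
    ⟨mem_L_nsmul_of_le hD₁0 (le_max_left _ _) hfa₁L,
      mem_L_nsmul_of_le hD₂0 (le_max_right _ _) hfb₂L, fun i => ?_⟩⟩
  · by_cases hi : i = i₀
    · subst hi
      refine ⟨1, hf₁1, ?_⟩
      show Cong (e₂ i) f₂ (1 * 1)
      rw [mul_one]
      exact hf₂1
    · refine ⟨0, hf₁0 i hi, ?_⟩
      show Cong (e₂ i) f₂ (1 * 0)
      rw [mul_zero]
      exact hf₂0 i hi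
  · by_cases hi : i = i₀
    · subst hi
      refine ⟨1 * c, hf₁1.mul ha, ?_⟩
      show Cong (e₂ i) (f₂ * b) (1 * (1 * c))
      rw [one_mul]
      exact hf₂1.mul hb
    · refine ⟨0, hfa₁0 i hi, ?_⟩
      show Cong (e₂ i) (f₂ * b) (1 * 0)
      rw [mul_zero]
      exact hfb₂0 i hi

/-- **(LOC)** A pair which becomes a section after multiplication by a section with value `1`
at the node is a pair of germs regular at the node with equal values. -/
theorem cong_of_denominator {e₁ : ι → Place K F₁} {e₂ : ι → Place K F₂} {B₁ : Divisor K F₁}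
    {B₂ : Divisor K F₂} (i₀ : ι) {τ h : F₁ × F₂} (hτ1 : Cong (e₁ i₀) τ.1 1)
    (hτ2 : Cong (e₂ i₀) τ.2 1)
    (hτh : τ * h ∈ gluedSpace e₁ e₂ (fun _ => (1 : K)) B₁ B₂) :
    ∃ c : K, Cong (e₁ i₀) h.1 c ∧ Cong (e₂ i₀) h.2 c := by
  obtain ⟨c, hc1, hc2⟩ := hτh.2.2 i₀
  have hc2' : Cong (e₂ i₀) (τ.2 * h.2) c := by
    have h' : Cong (e₂ i₀) (τ.2 * h.2) (1 * c) := hc2
    rwa [one_mul] at h'
  have hc1' : Cong (e₁ i₀) (τ.1 * h.1) c := hc1
  have hτ10 : τ.1 ≠ 0 := by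
    intro h0
    have h' := val_eq_one_of_cong hτ1 one_ne_zero
    rw [h0, map_zero] at h'
    exact zero_ne_one h'
  have hτ20 : τ.2 ≠ 0 := by
    intro h0
    have h' := val_eq_one_of_cong hτ2 one_ne_zero
    rw [h0, map_zero] at h'
    exact zero_ne_one h'
  refine ⟨c, ?_, ?_⟩
  · have h' := cong_div hc1' hτ1 one_ne_zero
    rwa [div_one, mul_div_cancel_left₀ _ hτ10] at h'
  · have h' := cong_div hc2' hτ2 one_ne_zero
    rwa [div_one, mul_div_cancel_left₀ _ hτ20] at h'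

/-- **(UNIF)** A section supported on the first component which is a uniformiser at every
node of that component. -/
theorem exists_branch_fst [Fintype ι] (h₁ : IsFF1 K F₁ x₁)
    {e₁ : ι → Place K F₁} {e₂ : ι → Place K F₂} (D₁ : Divisor K F₁) (D₂ : Divisor K F₂)
    (hD₁ : ∀ i, D₁ (e₁ i) = 0) (hD₁0 : 0 ≤ D₁) (hd₁ : 0 < Divisor.degree D₁) :
    ∃ (N : ℕ) (t : F₁), (t, (0 : F₂)) ∈ gluedSpace e₁ e₂ (fun _ => (1 : K)) (N • D₁) (N • D₂) ∧
      ∀ i, (e₁ i).adicValuation t = exp (-1 : ℤ) := by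
  obtain ⟨N, t, htL, ht⟩ := exists_unif_one h₁ e₁ D₁ hD₁0 hD₁ hd₁
  refine ⟨N, t, ⟨htL, zero_mem _, fun i => ⟨0, cong_zero_iff'.2 ?_, ?_⟩⟩, ht⟩
  · show (e₁ i).adicValuation t < 1
    rw [ht i]
    exact exp_neg_one_lt_one
  · show Cong (e₂ i) (0 : F₂) (1 * 0)
    rw [mul_zero]
    exact cong_zero _

/-- **(UNIF)** A section supported on the second component which is a uniformiser at every
node of that component. -/
theorem exists_branch_snd [Fintype ι] (h₂ : IsFF1 K F₂ x₂)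
    {e₁ : ι → Place K F₁} {e₂ : ι → Place K F₂} (D₁ : Divisor K F₁) (D₂ : Divisor K F₂)
    (hD₂ : ∀ i, D₂ (e₂ i) = 0) (hD₂0 : 0 ≤ D₂) (hd₂ : 0 < Divisor.degree D₂) :
    ∃ (N : ℕ) (t : F₂), ((0 : F₁), t) ∈ gluedSpace e₁ e₂ (fun _ => (1 : K)) (N • D₁) (N • D₂) ∧
      ∀ i, (e₂ i).adicValuation t = exp (-1 : ℤ) := by
  obtain ⟨N, t, htL, ht⟩ := exists_unif_one h₂ e₂ D₂ hD₂0 hD₂ hd₂
  refine ⟨N, t, ⟨zero_mem _, htL, fun i => ⟨0, cong_zero _, ?_⟩⟩, ht⟩
  show Cong (e₂ i) t (1 * 0)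
  rw [mul_zero]
  refine cong_zero_iff'.2 ?_
  rw [ht i]
  exact exp_neg_one_lt_one

/-- **(GEN)** The maximal ideal of the node is generated by the two branch uniformisers: a pair
of germs vanishing at the node is `α * (t₁, 0) + β * (0, t₂)` with `α`, `β` pairs of germs
regular at the node with equal values. -/
theorem exists_gen (h₁ : IsFF1 K F₁ x₁) (h₂ : IsFF1 K F₂ x₂)
    {e₁ : ι → Place K F₁} {e₂ : ι → Place K F₂} (i₀ : ι) {t₁ : F₁} {t₂ : F₂}
    (ht₁ : (e₁ i₀).adicValuation t₁ = exp (-1 : ℤ))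
    (ht₂ : (e₂ i₀).adicValuation t₂ = exp (-1 : ℤ))
    {a : F₁} {b : F₂} (ha : Cong (e₁ i₀) a 0) (hb : Cong (e₂ i₀) b 0) :
    ∃ α β : F₁ × F₂, (∃ c : K, Cong (e₁ i₀) α.1 c ∧ Cong (e₂ i₀) α.2 c) ∧
      (∃ c : K, Cong (e₁ i₀) β.1 c ∧ Cong (e₂ i₀) β.2 c) ∧
      (a, b) = α * (t₁, 0) + β * (0, t₂) := by
  have ht₁0 : t₁ ≠ 0 := by
    rintro rfl
    rw [map_zero] at ht₁
    exact exp_ne_zero ht₁.symm
  have ht₂0 : t₂ ≠ 0 := by
    rintro rfl
    rw [map_zero] at ht₂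
    exact exp_ne_zero ht₂.symm
  have hle₁ : (e₁ i₀).adicValuation (a / t₁) ≤ 1 := by
    rw [map_div₀, ht₁]
    exact div_le_one_of_le₀ (val_le_exp_neg_one_of_lt_one _ (cong_zero_iff'.1 ha)) zero_le
  have hle₂ : (e₂ i₀).adicValuation (b / t₂) ≤ 1 := by
    rw [map_div₀, ht₂]
    exact div_le_one_of_le₀ (val_le_exp_neg_one_of_lt_one _ (cong_zero_iff'.1 hb)) zero_le
  obtain ⟨c₁, hc₁⟩ := exists_cong (h₁.resK _) hle₁
  obtain ⟨c₂, hc₂⟩ := exists_cong (h₂.resK _) hle₂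
  refine ⟨(a / t₁, algebraMap K F₂ c₁), (algebraMap K F₁ c₂, b / t₂),
    ⟨c₁, hc₁, cong_algebraMap _ _⟩, ⟨c₂, cong_algebraMap _ _, hc₂⟩, ?_⟩
  refine Prod.ext ?_ ?_
  · show a = a / t₁ * t₁ + algebraMap K F₁ c₂ * 0
    rw [mul_zero, add_zero, div_mul_cancel₀ _ ht₁0]
  · show b = algebraMap K F₂ c₁ * 0 + b / t₂ * t₂
    rw [mul_zero, zero_add, div_mul_cancel₀ _ ht₂0]

end TwoFields

end Fermat.Agent.TR.Node.NodalLocal
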