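/-
TR (node side): the local ring of the model at a node, at the lattice level, in the abstract
nodal setting — the hypotheses (glue), (loc), (surj), (sat), (red) of
`ThickPlace.exists_node_package_of_red` as theorems.

Setting of `Lib/Red/Deform` (`L ⊆ F` a function field, `A` a valuation subring of `L`, `O` a
subring of `F` with `O ∩ L = A`, `red : O →+* F₁ × F₂` with kernel the small elements), an
effective divisor `E` of `F` whose lattices reduce to the sections of a two-component nodal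
curve (`red Λ(N • E) = gluedSpace e₁ e₂ 1 (N • D₁) (N • D₂)` for `N ≥ N₀`), and a subring `Fx`
of `F` stable under inverses (the inertia-fixed functions) such that every element of
`Λ(N • E)` has a lift in `Fx` with the same reduction (`hfixlift`).

* `nodeRing red Fx E e₁ e₂ i : Subring F` : the functions `g ∈ Fx` with a denominator
  `t ∈ Λ(N • E) ∩ Fx`, `red t` with a non-zero value at the node `i`, `t * g ∈ Λ(N • E)`.
* `mem_O`, `chart_mem`, `algebraMap_mem`.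
* (glue) `exists_cong`, (loc) `inv_mem`, (surj) `exists_red_eq`, (sat) `mem_of_mul_mem`,
  (red) `exists_eq_mul_of_red_eq_zero`.
-/
import Mathlib
import Fermat.Agent.TR.Node.NodalLocal
import Fermat.Agent.Lib.Red.Deform

set_option autoImplicit false

noncomputable section

namespace Fermat.Agent.TR.Node.NodeRingAbs

open AlgebraicCurve WithZero Fermat.Agent.Lib.FF Fermat.Agent.BAD.NodalRiemann
  Fermat.Agent.Lib.Red.Deform Fermat.Agent.TR.Node.NodalLocal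

variable {L F : Type*} [Field L] [Field F] [Algebra L F] {A : ValuationSubring L} {O : Subring F}
  {k F₁ F₂ : Type*} [Field k] [Field F₁] [Field F₂] [Algebra k F₁] [Algebra k F₂]
  {ι : Type*} {x₁ : F₁} {x₂ : F₂}

/-! ### Preliminaries -/

theorem mul_mem_L_nsmul' {E : Divisor L F} {N N' : ℕ} {y z : F}
    (hy : y ∈ riemannRochSpace (N • E)) (hz : z ∈ riemannRochSpace (N' • E)) :
    y * z ∈ riemannRochSpace ((N + N') • E) := by
  intro v
  rw [add_smul, map_mul, Finsupp.add_apply, exp_add]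
  exact mul_le_mul' (hy v) (hz v)

theorem one_mem_L_nsmul {E : Divisor L F} (hE : 0 ≤ E) (N : ℕ) :
    (1 : F) ∈ riemannRochSpace (N • E) := by
  intro v
  rw [map_one]
  exact exp_le_exp_nsmul hE N v

theorem algebraMap_mem_L_nsmul {E : Divisor L F} (hE : 0 ≤ E) (N : ℕ) (c : L) :
    algebraMap L F c ∈ riemannRochSpace (N • E) := by
  intro v
  exact (v.adicValuation_algebraMap_le_one c).trans (exp_le_exp_nsmul hE N v)

theorem cong_one'' {K' F' : Type*} [Field K'] [Field F'] [Algebra K' F'] (Q : Place K' F') :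
    Cong Q (1 : F') (1 : K') := by
  have h := cong_algebraMap Q (1 : K')
  rwa [map_one] at h

theorem ne_zero_of_cong {K' F' : Type*} [Field K'] [Field F'] [Algebra K' F'] {Q : Place K' F'}
    {f : F'} {c : K'} (h : Cong Q f c) (hc : c ≠ 0) : f ≠ 0 := by
  intro h0
  have h' := val_eq_one_of_cong h hc
  rw [h0, map_zero] at h'
  exact zero_ne_one h'

theorem prod_cancel {u s t : F₁ × F₂} (h1 : u.1 ≠ 0) (h2 : u.2 ≠ 0) (h : u * s = u * t) :
    s = t := by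
  have e1 : u.1 * s.1 = u.1 * t.1 := congrArg Prod.fst h
  have e2 : u.2 * s.2 = u.2 * t.2 := congrArg Prod.snd h
  exact Prod.ext (mul_left_cancel₀ h1 e1) (mul_left_cancel₀ h2 e2)

/-- (SAT): an element of `O` whose reduction is non-zero on both components divides in `O` only
elements of `O`. -/
theorem mem_O_of_mul_mem (hOA : ∀ x : L, algebraMap L F x ∈ O ↔ x ∈ A)
    (hval : ∀ y : F, y ≠ 0 → ∃ c : L, c ≠ 0 ∧ algebraMap L F c * y ∈ O ∧
      ¬ Small A O (algebraMap L F c * y))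
    (red : O →+* F₁ × F₂) (π : A →+* k)
    (hπker : ∀ a : A, π a = 0 ↔ A.valuation (a : L) < 1)
    (hconst : ∀ a : A, red ⟨algebraMap L F (a : L), (hOA _).2 a.2⟩ =
      algebraMap k (F₁ × F₂) (π a))
    (hker : ∀ y : O, red y = 0 ↔ Small A O (y : F))
    {u : O} (hu1 : (red u).1 ≠ 0) (hu2 : (red u).2 ≠ 0) {g : F} (h : (u : F) * g ∈ O) :
    g ∈ O := by
  by_cases hg : g = 0
  · subst hg
    exact O.zero_mem
  obtain ⟨c, hc0, hcO, hns⟩ := hval g hg
  by_cases hv : A.valuation c < 1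
  · exfalso
    have hcA : c ∈ A := (A.valuation_le_one_iff c).1 hv.le
    apply hns
    have h1 : red ⟨algebraMap L F c, (hOA _).2 hcA⟩ = 0 := by
      have h' := hconst ⟨c, hcA⟩
      rw [h', (hπker ⟨c, hcA⟩).2 hv, map_zero]
    have h2 : u * (⟨algebraMap L F c * g, hcO⟩ : O) =
        ⟨algebraMap L F c, (hOA _).2 hcA⟩ * ⟨(u : F) * g, h⟩ :=
      Subtype.ext (by
        show (u : F) * (algebraMap L F c * g) = algebraMap L F c * ((u : F) * g)
        ring)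
    have h3 : red u * red ⟨algebraMap L F c * g, hcO⟩ = red u * 0 := by
      rw [← map_mul, h2, map_mul, h1, zero_mul, mul_zero]
    exact (hker ⟨_, hcO⟩).1 (prod_cancel hu1 hu2 h3)
  · have hcinv : c⁻¹ ∈ A := by
      rw [← A.valuation_le_one_iff, map_inv₀]
      exact inv_le_one_of_one_le₀ (not_lt.1 hv)
    have e : g = algebraMap L F c⁻¹ * (algebraMap L F c * g) := by
      rw [← mul_assoc, ← map_mul, inv_mul_cancel₀ hc0, map_one, one_mul]
    rw [e]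
    exact O.mul_mem ((hOA _).2 hcinv) hcO

/-! ### The node ring -/

/-- **The local ring of the model at the node `i`**: the functions of `Fx` which become
integral chart functions after multiplication by an integral chart function of `Fx` whose
reduction has a non-zero value at the node. -/
def nodeRing (red : O →+* F₁ × F₂) (Fx : Subring F) (E : Divisor L F) (e₁ : ι → Place k F₁)
    (e₂ : ι → Place k F₂) (i : ι) : Subring F where
  carrier := {g | g ∈ Fx ∧ ∃ (N : ℕ) (t : O), (t : F) ∈ riemannRochSpace (N • E) ∧ (t : F) ∈ Fx ∧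
    (∃ c : k, c ≠ 0 ∧ Cong (e₁ i) (red t).1 c ∧ Cong (e₂ i) (red t).2 c) ∧
    ∃ y : O, (y : F) = (t : F) * g ∧ (y : F) ∈ riemannRochSpace (N • E)}
  mul_mem' := by
    rintro g h ⟨hgF, N, t, htL, htF, ⟨c, hc0, hc1, hc2⟩, y, hy, hyL⟩
      ⟨hhF, N', s, hsL, hsF, ⟨d, hd0, hd1, hd2⟩, z, hz, hzL⟩
    refine ⟨Fx.mul_mem hgF hhF, N + N', t * s, mul_mem_L_nsmul' htL hsL, Fx.mul_mem htF hsF,
      ⟨c * d, mul_ne_zero hc0 hd0, ?_, ?_⟩, y * z, ?_, mul_mem_L_nsmul' hyL hzL⟩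
    · rw [map_mul]
      exact hc1.mul hd1
    · rw [map_mul]
      exact hc2.mul hd2
    · show (y : F) * (z : F) = (t : F) * (s : F) * (g * h)
      rw [hy, hz]
      ring
  one_mem' := ⟨Fx.one_mem, 0, 1, by
      intro v
      simp, Fx.one_mem, ⟨1, one_ne_zero, by
        rw [map_one]
        exact cong_one'' _, by
        rw [map_one]
        exact cong_one'' _⟩, 1, by
      show (1 : F) = 1 * 1
      rw [mul_one], by
      intro v
      simp⟩
  add_mem' := by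
    rintro g h ⟨hgF, N, t, htL, htF, ⟨c, hc0, hc1, hc2⟩, y, hy, hyL⟩
      ⟨hhF, N', s, hsL, hsF, ⟨d, hd0, hd1, hd2⟩, z, hz, hzL⟩
    refine ⟨Fx.add_mem hgF hhF, N + N', t * s, mul_mem_L_nsmul' htL hsL, Fx.mul_mem htF hsF,
      ⟨c * d, mul_ne_zero hc0 hd0, ?_, ?_⟩, y * s + t * z, ?_,
      add_mem (mul_mem_L_nsmul' hyL hsL) (mul_mem_L_nsmul' htL hzL)⟩
    · rw [map_mul]
      exact hc1.mul hd1
    · rw [map_mul]
      exact hc2.mul hd2
    · show (y : F) * (s : F) + (t : F) * (z : F) = (t : F) * (s : F) * (g + h)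
      rw [hy, hz]
      ring
  zero_mem' := ⟨Fx.zero_mem, 0, 1, by
      intro v
      simp, Fx.one_mem, ⟨1, one_ne_zero, by
        rw [map_one]
        exact cong_one'' _, by
        rw [map_one]
        exact cong_one'' _⟩, 0, by
      show (0 : F) = 1 * 0
      rw [mul_zero], zero_mem _⟩
  neg_mem' := by
    rintro g ⟨hgF, N, t, htL, htF, hc, y, hy, hyL⟩
    refine ⟨Fx.neg_mem hgF, N, t, htL, htF, hc, -y, ?_, neg_mem hyL⟩
    show -(y : F) = (t : F) * -g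
    rw [hy]
    ring

theorem mem_nodeRing {red : O →+* F₁ × F₂} {Fx : Subring F} {E : Divisor L F}
    {e₁ : ι → Place k F₁} {e₂ : ι → Place k F₂} {i : ι} {g : F} :
    g ∈ nodeRing red Fx E e₁ e₂ i ↔ g ∈ Fx ∧ ∃ (N : ℕ) (t : O),
      (t : F) ∈ riemannRochSpace (N • E) ∧ (t : F) ∈ Fx ∧
      (∃ c : k, c ≠ 0 ∧ Cong (e₁ i) (red t).1 c ∧ Cong (e₂ i) (red t).2 c) ∧
      ∃ y : O, (y : F) = (t : F) * g ∧ (y : F) ∈ riemannRochSpace (N • E) := Iff.rfl

theorem mem_Fx {red : O →+* F₁ × F₂} {Fx : Subring F} {E : Divisor L F}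
    {e₁ : ι → Place k F₁} {e₂ : ι → Place k F₂} {i : ι} {g : F}
    (hg : g ∈ nodeRing red Fx E e₁ e₂ i) : g ∈ Fx := hg.1

/-- The functions of the node ring are integral. -/
theorem mem_O (hOA : ∀ x : L, algebraMap L F x ∈ O ↔ x ∈ A)
    (hval : ∀ y : F, y ≠ 0 → ∃ c : L, c ≠ 0 ∧ algebraMap L F c * y ∈ O ∧
      ¬ Small A O (algebraMap L F c * y))
    (red : O →+* F₁ × F₂) (π : A →+* k)
    (hπker : ∀ a : A, π a = 0 ↔ A.valuation (a : L) < 1)
    (hconst : ∀ a : A, red ⟨algebraMap L F (a : L), (hOA _).2 a.2⟩ =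
      algebraMap k (F₁ × F₂) (π a))
    (hker : ∀ y : O, red y = 0 ↔ Small A O (y : F))
    (Fx : Subring F) (E : Divisor L F) (e₁ : ι → Place k F₁) (e₂ : ι → Place k F₂) (i : ι)
    {g : F} (hg : g ∈ nodeRing red Fx E e₁ e₂ i) : g ∈ O := by
  obtain ⟨-, N, t, -, -, ⟨c, hc0, hc1, hc2⟩, y, hy, -⟩ := hg
  exact mem_O_of_mul_mem hOA hval red π hπker hconst hker (u := t) (ne_zero_of_cong hc1 hc0)
    (ne_zero_of_cong hc2 hc0) (hy ▸ y.2)

/-- The integral chart functions of `Fx` lie in the node ring. -/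
theorem chart_mem (red : O →+* F₁ × F₂) (Fx : Subring F) {E : Divisor L F} (hE : 0 ≤ E)
    (e₁ : ι → Place k F₁) (e₂ : ι → Place k F₂) (i : ι) {N : ℕ} {y : F} (hyO : y ∈ O)
    (hyL : y ∈ riemannRochSpace (N • E)) (hyF : y ∈ Fx) : y ∈ nodeRing red Fx E e₁ e₂ i := by
  refine ⟨hyF, N, 1, one_mem_L_nsmul hE N, Fx.one_mem, ⟨1, one_ne_zero, ?_, ?_⟩, ⟨y, hyO⟩, ?_, hyL⟩
  · rw [map_one]
    exact cong_one'' _
  · rw [map_one]
    exact cong_one'' _
  · show y = 1 * y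
    rw [one_mul]

/-- The integral constants of `Fx` lie in the node ring. -/
theorem algebraMap_mem (hOA : ∀ x : L, algebraMap L F x ∈ O ↔ x ∈ A) (red : O →+* F₁ × F₂)
    (Fx : Subring F) {E : Divisor L F} (hE : 0 ≤ E) (e₁ : ι → Place k F₁) (e₂ : ι → Place k F₂)
    (i : ι) {c : L} (hc : c ∈ A) (hcF : algebraMap L F c ∈ Fx) :
    algebraMap L F c ∈ nodeRing red Fx E e₁ e₂ i :=
  chart_mem red Fx hE e₁ e₂ i ((hOA c).2 hc) (algebraMap_mem_L_nsmul hE 0 c) hcF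

/-- The reduction of a function of the node ring, through a denominator. -/
theorem red_mul_eq (hOA : ∀ x : L, algebraMap L F x ∈ O ↔ x ∈ A)
    (hval : ∀ y : F, y ≠ 0 → ∃ c : L, c ≠ 0 ∧ algebraMap L F c * y ∈ O ∧
      ¬ Small A O (algebraMap L F c * y))
    (red : O →+* F₁ × F₂) (π : A →+* k)
    (hπker : ∀ a : A, π a = 0 ↔ A.valuation (a : L) < 1)
    (hconst : ∀ a : A, red ⟨algebraMap L F (a : L), (hOA _).2 a.2⟩ =
      algebraMap k (F₁ × F₂) (π a))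
    (hker : ∀ y : O, red y = 0 ↔ Small A O (y : F))
    (Fx : Subring F) (E : Divisor L F) (e₁ : ι → Place k F₁) (e₂ : ι → Place k F₂) (i : ι)
    {g : F} (hg : g ∈ nodeRing red Fx E e₁ e₂ i) (t y : O) (hy : (y : F) = (t : F) * g) :
    red y = red t * red ⟨g, mem_O hOA hval red π hπker hconst hker Fx E e₁ e₂ i hg⟩ := by
  rw [← map_mul]
  exact congrArg red (Subtype.ext hy)

/-- **(glue)**: the two reductions of a function of the node ring are regular at the node and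
take the same value there. -/
theorem exists_cong (hOA : ∀ x : L, algebraMap L F x ∈ O ↔ x ∈ A)
    (hval : ∀ y : F, y ≠ 0 → ∃ c : L, c ≠ 0 ∧ algebraMap L F c * y ∈ O ∧
      ¬ Small A O (algebraMap L F c * y))
    (red : O →+* F₁ × F₂) (π : A →+* k)
    (hπker : ∀ a : A, π a = 0 ↔ A.valuation (a : L) < 1)
    (hconst : ∀ a : A, red ⟨algebraMap L F (a : L), (hOA _).2 a.2⟩ =
      algebraMap k (F₁ × F₂) (π a))
    (hker : ∀ y : O, red y = 0 ↔ Small A O (y : F))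
    (Fx : Subring F) (E : Divisor L F) (e₁ : ι → Place k F₁) (e₂ : ι → Place k F₂) (i : ι)
    (hE : 0 ≤ E) {D₁ : Divisor k F₁} {D₂ : Divisor k F₂}
    (hS : ∃ N₀ : ℕ, ∀ N, N₀ ≤ N → ∀ t : F₁ × F₂,
      (∃ y : O, (y : F) ∈ riemannRochSpace (N • E) ∧ red y = t) ↔
        t ∈ gluedSpace e₁ e₂ (fun _ => (1 : k)) (N • D₁) (N • D₂))
    {g : F} (hg : g ∈ nodeRing red Fx E e₁ e₂ i) :
    ∃ c : k, Cong (e₁ i) (red ⟨g, mem_O hOA hval red π hπker hconst hker Fx E e₁ e₂ i hg⟩).1 c ∧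
      Cong (e₂ i) (red ⟨g, mem_O hOA hval red π hπker hconst hker Fx E e₁ e₂ i hg⟩).2 c := by
  have hmul := red_mul_eq hOA hval red π hπker hconst hker Fx E e₁ e₂ i hg
  have hg' := hg
  obtain ⟨-, N, t, -, -, ⟨c, hc0, hc1, hc2⟩, y, hy, hyL⟩ := hg'
  obtain ⟨N₀, hN₀⟩ := hS
  have hyL' : (y : F) ∈ riemannRochSpace (max N N₀ • E) :=
    mem_L_nsmul_of_le hE (le_max_left _ _) hyL
  have hyG := (hN₀ (max N N₀) (le_max_right _ _) _).1 ⟨y, hyL', rfl⟩
  obtain ⟨c', hc'1, hc'2⟩ := hyG.2.2 i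
  have hc'2' : Cong (e₂ i) (red y).2 c' := by
    have h' : Cong (e₂ i) (red y).2 (1 * c') := hc'2
    rwa [one_mul] at h'
  have ht1 : (red t).1 ≠ 0 := ne_zero_of_cong hc1 hc0
  have ht2 : (red t).2 ≠ 0 := ne_zero_of_cong hc2 hc0
  have hm := hmul t y hy
  have hgO := mem_O hOA hval red π hπker hconst hker Fx E e₁ e₂ i hg
  refine ⟨c' / c, ?_, ?_⟩
  · have h' := cong_div hc'1 hc1 hc0
    rw [hm] at h'
    have e : (red t * red ⟨g, hgO⟩).1 / (red t).1 = (red ⟨g, hgO⟩).1 := by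
      rw [Prod.fst_mul, mul_div_cancel_left₀ _ ht1]
    rwa [e] at h'
  · have h' := cong_div hc'2' hc2 hc0
    rw [hm] at h'
    have e : (red t * red ⟨g, hgO⟩).2 / (red t).2 = (red ⟨g, hgO⟩).2 := by
      rw [Prod.snd_mul, mul_div_cancel_left₀ _ ht2]
    rwa [e] at h'

/-- **(loc)**: a function of the node ring whose reduction does not vanish at the node is a unit
of the node ring. -/
theorem inv_mem (hOA : ∀ x : L, algebraMap L F x ∈ O ↔ x ∈ A)
    (hval : ∀ y : F, y ≠ 0 → ∃ c : L, c ≠ 0 ∧ algebraMap L F c * y ∈ O ∧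
      ¬ Small A O (algebraMap L F c * y))
    (red : O →+* F₁ × F₂) (π : A →+* k)
    (hπker : ∀ a : A, π a = 0 ↔ A.valuation (a : L) < 1)
    (hconst : ∀ a : A, red ⟨algebraMap L F (a : L), (hOA _).2 a.2⟩ =
      algebraMap k (F₁ × F₂) (π a))
    (hker : ∀ y : O, red y = 0 ↔ Small A O (y : F))
    (Fx : Subring F) (E : Divisor L F) (e₁ : ι → Place k F₁) (e₂ : ι → Place k F₂) (i : ι)
    (hE : 0 ≤ E) {D₁ : Divisor k F₁} {D₂ : Divisor k F₂}
    (hS : ∃ N₀ : ℕ, ∀ N, N₀ ≤ N → ∀ t : F₁ × F₂,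
      (∃ y : O, (y : F) ∈ riemannRochSpace (N • E) ∧ red y = t) ↔
        t ∈ gluedSpace e₁ e₂ (fun _ => (1 : k)) (N • D₁) (N • D₂))
    (hinv : ∀ g ∈ Fx, g⁻¹ ∈ Fx)
    {g : F} (hg : g ∈ nodeRing red Fx E e₁ e₂ i)
    (hg0 : ¬ Cong (e₁ i) (red ⟨g, mem_O hOA hval red π hπker hconst hker Fx E e₁ e₂ i hg⟩).1 0) :
    g⁻¹ ∈ nodeRing red Fx E e₁ e₂ i := by
  obtain ⟨c'', h1, h2⟩ := exists_cong hOA hval red π hπker hconst hker Fx E e₁ e₂ i hE hS hg
  have hc''0 : c'' ≠ 0 := by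
    rintro rfl
    exact hg0 h1
  have hmul := red_mul_eq hOA hval red π hπker hconst hker Fx E e₁ e₂ i hg
  have hgO := mem_O hOA hval red π hπker hconst hker Fx E e₁ e₂ i hg
  have hgne : g ≠ 0 := by
    rintro rfl
    have h' : (red (⟨0, hgO⟩ : O)).1 ≠ 0 := ne_zero_of_cong h1 hc''0
    apply h'
    have e0 : (⟨0, hgO⟩ : O) = 0 := rfl
    rw [e0, map_zero]
    rfl
  have hg' := hg
  obtain ⟨hgF, N, t, htL, htF, ⟨c, hc0, hc1, hc2⟩, y, hy, hyL⟩ := hg'
  have hm := hmul t y hy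
  refine ⟨hinv g hgF, N, y, hyL, ?_, ⟨c * c'', mul_ne_zero hc0 hc''0, ?_, ?_⟩, t, ?_, htL⟩
  · rw [hy]
    exact Fx.mul_mem htF hgF
  · rw [hm]
    exact hc1.mul h1
  · rw [hm]
    exact hc2.mul h2
  · rw [hy, mul_assoc, mul_inv_cancel₀ hgne, mul_one]

/-- **(surj)**: every pair of germs regular at the node with equal values is the reduction of a
function of the node ring. -/
theorem exists_red_eq [Fintype ι] (h₁ : IsFF1 k F₁ x₁) (h₂ : IsFF1 k F₂ x₂)
    (hOA : ∀ x : L, algebraMap L F x ∈ O ↔ x ∈ A)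
    (hval : ∀ y : F, y ≠ 0 → ∃ c : L, c ≠ 0 ∧ algebraMap L F c * y ∈ O ∧
      ¬ Small A O (algebraMap L F c * y))
    (red : O →+* F₁ × F₂) (π : A →+* k)
    (hπker : ∀ a : A, π a = 0 ↔ A.valuation (a : L) < 1)
    (hconst : ∀ a : A, red ⟨algebraMap L F (a : L), (hOA _).2 a.2⟩ =
      algebraMap k (F₁ × F₂) (π a))
    (hker : ∀ y : O, red y = 0 ↔ Small A O (y : F))
    (Fx : Subring F) (E : Divisor L F) (e₁ : ι → Place k F₁) (e₂ : ι → Place k F₂) (i : ι)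
    (he₁ : Function.Injective e₁) (he₂ : Function.Injective e₂)
    (D₁ : Divisor k F₁) (D₂ : Divisor k F₂) (hD₁ : ∀ j, D₁ (e₁ j) = 0)
    (hD₂ : ∀ j, D₂ (e₂ j) = 0) (hD₁0 : 0 ≤ D₁) (hD₂0 : 0 ≤ D₂)
    (hd₁ : 0 < Divisor.degree D₁) (hd₂ : 0 < Divisor.degree D₂)
    (hS : ∃ N₀ : ℕ, ∀ N, N₀ ≤ N → ∀ t : F₁ × F₂,
      (∃ y : O, (y : F) ∈ riemannRochSpace (N • E) ∧ red y = t) ↔
        t ∈ gluedSpace e₁ e₂ (fun _ => (1 : k)) (N • D₁) (N • D₂))
    (hinv : ∀ g ∈ Fx, g⁻¹ ∈ Fx)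
    (hfixlift : ∀ (N : ℕ) (y : O), (y : F) ∈ riemannRochSpace (N • E) →
      ∃ y' : O, (y' : F) ∈ riemannRochSpace (N • E) ∧ (y' : F) ∈ Fx ∧ red y' = red y)
    {a : F₁} {b : F₂} {c : k} (ha : Cong (e₁ i) a c) (hb : Cong (e₂ i) b c) :
    ∃ (g : F) (hg : g ∈ nodeRing red Fx E e₁ e₂ i),
      red ⟨g, mem_O hOA hval red π hπker hconst hker Fx E e₁ e₂ i hg⟩ = (a, b) := by
  obtain ⟨N, τ, hτG, hτ1, hτ2, -, hτab⟩ :=
    exists_denominator h₁ h₂ he₁ he₂ D₁ D₂ hD₁ hD₂ hD₁0 hD₂0 hd₁ hd₂ i ha hb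
  obtain ⟨N₀, hN₀⟩ := hS
  have hmono := gluedSpace_nsmul_mono (e₁ := e₁) (e₂ := e₂) hD₁0 hD₂0 (le_max_left N N₀)
  obtain ⟨t₀, ht₀L, ht₀⟩ := (hN₀ (max N N₀) (le_max_right _ _) τ).2 (hmono hτG)
  obtain ⟨t, htL, htF, ht⟩ := hfixlift _ t₀ ht₀L
  obtain ⟨y₀, hy₀L, hy₀⟩ := (hN₀ (max N N₀) (le_max_right _ _) (τ * (a, b))).2 (hmono hτab)
  obtain ⟨y, hyL, hyF, hy⟩ := hfixlift _ y₀ hy₀L
  rw [ht₀] at ht
  rw [hy₀] at hy
  have hτ10 : τ.1 ≠ 0 := ne_zero_of_cong hτ1 one_ne_zero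
  have hτ20 : τ.2 ≠ 0 := ne_zero_of_cong hτ2 one_ne_zero
  have htne : (t : F) ≠ 0 := by
    intro h0
    have e0 : t = 0 := Subtype.ext h0
    rw [e0, map_zero] at ht
    exact hτ10 (congrArg Prod.fst ht).symm
  have hmem : (y : F) / (t : F) ∈ nodeRing red Fx E e₁ e₂ i := by
    refine ⟨?_, max N N₀, t, htL, htF, ⟨1, one_ne_zero, ?_, ?_⟩, y, ?_, hyL⟩
    · rw [div_eq_mul_inv]
      exact Fx.mul_mem hyF (hinv _ htF)
    · rw [ht]
      exact hτ1
    · rw [ht]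
      exact hτ2
    · rw [mul_div_cancel₀ _ htne]
  refine ⟨(y : F) / (t : F), hmem, ?_⟩
  have hm := red_mul_eq hOA hval red π hπker hconst hker Fx E e₁ e₂ i hmem t y
    (by rw [mul_div_cancel₀ _ htne])
  rw [hy, ht] at hm
  exact (prod_cancel hτ10 hτ20 hm).symm

/-- **(sat)**: the node ring is saturated in `O` with respect to the constants of `Fx`. -/
theorem mem_of_mul_mem (red : O →+* F₁ × F₂) (Fx : Subring F) (E : Divisor L F)
    (e₁ : ι → Place k F₁) (e₂ : ι → Place k F₂) (i : ι) (hinv : ∀ g ∈ Fx, g⁻¹ ∈ Fx)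
    {p : L} (hp0 : p ≠ 0) (hpF : algebraMap L F p ∈ Fx) {g : F} (hgO : g ∈ O)
    (h : algebraMap L F p * g ∈ nodeRing red Fx E e₁ e₂ i) :
    g ∈ nodeRing red Fx E e₁ e₂ i := by
  have hp0' : algebraMap L F p ≠ 0 := by simpa using hp0
  obtain ⟨hpgF, N, t, htL, htF, hc, y, hy, hyL⟩ := h
  have hgF : g ∈ Fx := by
    have e : g = (algebraMap L F p)⁻¹ * (algebraMap L F p * g) := by
      rw [← mul_assoc, inv_mul_cancel₀ hp0', one_mul]
    rw [e]
    exact Fx.mul_mem (hinv _ hpF) hpgF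
  refine ⟨hgF, N, t, htL, htF, hc, t * ⟨g, hgO⟩, rfl, ?_⟩
  have e : (t : F) * g = p⁻¹ • (y : F) := by
    rw [hy, Algebra.smul_def, map_inv₀]
    field_simp
  show (t : F) * g ∈ riemannRochSpace (N • E)
  rw [e]
  exact Submodule.smul_mem _ _ hyL

/-- **(red)**: a function of the node ring with zero reduction is divisible by `p` in the node
ring (reducedness of the special fibre; `hdisc` = discreteness of the fixed functions). -/
theorem exists_eq_mul_of_red_eq_zero (hOA : ∀ x : L, algebraMap L F x ∈ O ↔ x ∈ A)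
    (hval : ∀ y : F, y ≠ 0 → ∃ c : L, c ≠ 0 ∧ algebraMap L F c * y ∈ O ∧
      ¬ Small A O (algebraMap L F c * y))
    (red : O →+* F₁ × F₂) (π : A →+* k)
    (hπker : ∀ a : A, π a = 0 ↔ A.valuation (a : L) < 1)
    (hconst : ∀ a : A, red ⟨algebraMap L F (a : L), (hOA _).2 a.2⟩ =
      algebraMap k (F₁ × F₂) (π a))
    (hker : ∀ y : O, red y = 0 ↔ Small A O (y : F))
    (Fx : Subring F) (E : Divisor L F) (e₁ : ι → Place k F₁) (e₂ : ι → Place k F₂) (i : ι)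
    (hinv : ∀ g ∈ Fx, g⁻¹ ∈ Fx) {p : L} (hp0 : p ≠ 0) (hpF : algebraMap L F p ∈ Fx)
    (hdisc : ∀ g ∈ Fx, Small A O g → ∃ o ∈ O, g = algebraMap L F p * o)
    {g : F} (hg : g ∈ nodeRing red Fx E e₁ e₂ i)
    (h0 : red ⟨g, mem_O hOA hval red π hπker hconst hker Fx E e₁ e₂ i hg⟩ = 0) :
    ∃ γ ∈ nodeRing red Fx E e₁ e₂ i, g = algebraMap L F p * γ := by
  have hp0' : algebraMap L F p ≠ 0 := by simpa using hp0
  have hmul := red_mul_eq hOA hval red π hπker hconst hker Fx E e₁ e₂ i hg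
  have hg' := hg
  obtain ⟨hgF, N, t, htL, htF, hc, y, hy, hyL⟩ := hg'
  have hm := hmul t y hy
  rw [h0, mul_zero] at hm
  have hyF : (y : F) ∈ Fx := by
    rw [hy]
    exact Fx.mul_mem htF hgF
  obtain ⟨o, hoO, ho⟩ := hdisc _ hyF ((hker y).1 hm)
  have hγF : (algebraMap L F p)⁻¹ * g ∈ Fx := Fx.mul_mem (hinv _ hpF) hgF
  have hto : (t : F) * ((algebraMap L F p)⁻¹ * g) = o := by
    have e1 : (t : F) * g = algebraMap L F p * o := by rw [← hy, ho]
    calc (t : F) * ((algebraMap L F p)⁻¹ * g) = (algebraMap L F p)⁻¹ * ((t : F) * g) := by ring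
      _ = o := by rw [e1, ← mul_assoc, inv_mul_cancel₀ hp0', one_mul]
  refine ⟨(algebraMap L F p)⁻¹ * g, ⟨hγF, N, t, htL, htF, hc, ⟨o, hoO⟩, hto.symm, ?_⟩, ?_⟩
  · have e : o = p⁻¹ • (y : F) := by
      rw [ho, Algebra.smul_def, map_inv₀, ← mul_assoc, inv_mul_cancel₀ hp0', one_mul]
    show o ∈ riemannRochSpace (N • E)
    rw [e]
    exact Submodule.smul_mem _ _ hyL
  · rw [← mul_assoc, mul_inv_cancel₀ hp0', one_mul]

end Fermat.Agent.TR.Node.NodeRingAbs
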