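import Mathlib

/-!
# TR / node side (N): the thickness of a node divides the exponent of a vertical unit

Abstract local statement, no modular objects.  `F` a field with two valuation rings `O₁`, `O₂`
(for TR: the two Gauss valuation rings `O_∞`, `O_0` of `K₀·F_{pM'}`), `S ⊆ O₁ ∩ O₂` a subring
(the local ring of the `W`-model at a node `s` of the special fibre), `𝔪` an ideal of `S`
(the functions vanishing at `s`), `p ∈ S` (the uniformiser of the base).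

* `NodeRing O₁ O₂ S 𝔪 p` : `S` is local with maximal ideal `𝔪`; a function of `S` vanishing
  identically on one branch vanishes at the node (`mem₁`, `mem₂`); `S / p S` is reduced in the
  strong form "vanishing on both branches ⟹ divisible by `p`" (`red`); `S` is `p`-saturated in
  `O₁ ∩ O₂` (`sat`).
* `Coord O₁ O₂ S 𝔪 x y` : branch coordinates — `x` vanishes on the second branch and not on the
  first, `y` the other way round, and every `g ∈ 𝔪` is `α x` on the first branch and `β y` on the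
  second (`gen`; i.e. `x`, `y` restrict to uniformisers of the two branches at `s`).
* `UnitDatum … x₀ f f' e a w` : a vertical unit `f f' = p ^ e` (`e ≥ 1`), `f` a unit of `O₁`,
  `f'` a unit of `O₂` (valuation vector `(0, e)`), with `f ≡ x₀ ^ a · w` on the first branch,
  `w ∉ 𝔪` (the reduction of `f` on the first branch has order `a` at `s`).
  For TR: `f = Δ(q)/Δ(q^p)`, `f' = p¹² Δ(q^p)/Δ(q)`, `e = 12`.

Main result `exists_thickness`: there are `k` and coordinates `x ≡ x₀`, `y ≡ y₀ (mod p)` with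

  `x * y = p ^ k * u`, `u ∉ 𝔪`,  `f = x ^ a * v`, `v ∉ 𝔪`,  and  **`a * k = e`**.

So the thickness `k` of the node divides `e` (`thickness_dvd`).  Also `Coord.mem_span`:
`𝔪 = (x, y, p)`.

Proof: `x₀ y₀ = p u₁` by `red`; while `u_j ∈ 𝔪` write `u_j = α x_j + β y_j + γ p` and replace
`(x_j, y_j)` by `(x_j - p^j β, y_j - p^j α)`, whose product is `p^(j+1) (γ + p^(j-1) α β)`.
The element `x_j ^ e / f ^ j` lies in `S` (saturation: its second valuation is `≥ 0` because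
`x_j y_j = p^j u_j`), and comparing with `f ≡ x^a w` on the first branch gives `j a ≤ e`
(`bound`), so the iteration stops.  At the end `f / x ^ a ∈ S` is a unit on the first branch,
hence not in `𝔪`, hence a unit of `O₂`: `e = a k`.
-/

set_option autoImplicit false

namespace Fermat.Agent.TR.Node.Thick

/-! ### Valuation rings: units and non-units -/

section Val

variable {F : Type*} [Field F] (O : ValuationSubring F)

theorem nu_mul_left {a b : F} (ha : a ∈ O) (hb : b ∈ O.nonunits) : a * b ∈ O.nonunits := by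
  rw [ValuationSubring.mem_nonunits_iff] at hb ⊢
  rw [map_mul]
  have h1 := (O.valuation_le_one_iff a).2 ha
  calc O.valuation a * O.valuation b ≤ 1 * O.valuation b := mul_le_mul_left h1 _
    _ = O.valuation b := one_mul _
    _ < 1 := hb

theorem nu_mul_right {a b : F} (ha : a ∈ O.nonunits) (hb : b ∈ O) : a * b ∈ O.nonunits := by
  rw [mul_comm]
  exact nu_mul_left O hb ha

theorem val_eq_one_of_not_nu {a : F} (ha : a ∈ O) (h : a ∉ O.nonunits) : O.valuation a = 1 := by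
  rw [ValuationSubring.mem_nonunits_iff] at h
  exact le_antisymm ((O.valuation_le_one_iff a).2 ha) (not_lt.1 h)

theorem inv_mem_of_not_nu {a : F} (ha : a ∈ O) (h : a ∉ O.nonunits) : a⁻¹ ∈ O := by
  rw [← O.valuation_le_one_iff, map_inv₀, val_eq_one_of_not_nu O ha h, inv_one]

theorem ne_zero_of_not_nu {a : F} (h : a ∉ O.nonunits) : a ≠ 0 := by
  rintro rfl
  exact h O.nonunits.zero_mem

theorem not_nu_pow {a : F} (ha : a ∈ O) (h : a ∉ O.nonunits) (n : ℕ) : a ^ n ∉ O.nonunits := by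
  rw [ValuationSubring.mem_nonunits_iff, map_pow, val_eq_one_of_not_nu O ha h, one_pow]
  exact lt_irrefl _

theorem nu_of_unit_mul {a b : F} (ha : a ∈ O) (ha' : a ∉ O.nonunits)
    (h : a * b ∈ O.nonunits) : b ∈ O.nonunits := by
  have h1 := nu_mul_left O (inv_mem_of_not_nu O ha ha') h
  rwa [← mul_assoc, inv_mul_cancel₀ (ne_zero_of_not_nu O ha'), one_mul] at h1

theorem nu_pow {a : F} (ha : a ∈ O.nonunits) {n : ℕ} (hn : n ≠ 0) : a ^ n ∈ O.nonunits := by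
  obtain ⟨m, rfl⟩ := Nat.exists_eq_succ_of_ne_zero hn
  rw [pow_succ]
  exact nu_mul_left O (pow_mem (O.nonunits_subset ha) m) ha

end Val

/-! ### The local ring of a node -/

section Node

variable {F : Type*} [Field F] (O₁ O₂ : ValuationSubring F) (S : Subring F) (𝔪 : Ideal S)
  (p : S)

/-- **The local ring of a node**: `S ⊆ O₁ ∩ O₂` local with maximal ideal `𝔪`, `p`-saturated, with
reduced special fibre whose two branches pass through the point `𝔪`. -/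
structure NodeRing : Prop where
  le₁ : ∀ g : S, (g : F) ∈ O₁
  le₂ : ∀ g : S, (g : F) ∈ O₂
  ne_top : (1 : S) ∉ 𝔪
  loc : ∀ g : S, g ∉ 𝔪 → (g : F)⁻¹ ∈ S
  mem₁ : ∀ g : S, (g : F) ∈ O₁.nonunits → g ∈ 𝔪
  mem₂ : ∀ g : S, (g : F) ∈ O₂.nonunits → g ∈ 𝔪
  p₁ : (p : F) ∈ O₁.nonunits
  p₂ : (p : F) ∈ O₂.nonunits
  p_ne : (p : F) ≠ 0
  red : ∀ g : S, (g : F) ∈ O₁.nonunits → (g : F) ∈ O₂.nonunits → ∃ γ : S, g = p * γ
  sat : ∀ g : F, g ∈ O₁ → g ∈ O₂ → (p : F) * g ∈ S → g ∈ S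

/-- **Branch coordinates** at the node: `x` vanishes on the second branch only, `y` on the first
branch only, and every function vanishing at the node is a multiple of `x` on the first branch
and a multiple of `y` on the second. -/
structure Coord (x y : S) : Prop where
  x₁ : (x : F) ∉ O₁.nonunits
  x₂ : (x : F) ∈ O₂.nonunits
  y₁ : (y : F) ∈ O₁.nonunits
  y₂ : (y : F) ∉ O₂.nonunits
  gen : ∀ g ∈ 𝔪, ∃ α β : S,
    ((g - α * x : S) : F) ∈ O₁.nonunits ∧ ((g - β * y : S) : F) ∈ O₂.nonunits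

/-- **A vertical unit** with valuation vector `(0, e)` whose reduction on the first branch has
order `a` at the node (with respect to the coordinate `x₀`). -/
structure UnitDatum (x₀ f f' : S) (e a : ℕ) (w : S) : Prop where
  e_pos : 0 < e
  ff : f * f' = p ^ e
  f₁ : (f : F) ∉ O₁.nonunits
  f₂ : (f' : F) ∉ O₂.nonunits
  w_not : w ∉ 𝔪
  ord : ((f - x₀ ^ a * w : S) : F) ∈ O₁.nonunits

variable {O₁ O₂ S 𝔪 p}

/-- Saturation for powers of `p`. -/
theorem NodeRing.sat_pow (N : NodeRing O₁ O₂ S 𝔪 p) (n : ℕ) {g : F} (h1 : g ∈ O₁) (h2 : g ∈ O₂)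
    (h : (p : F) ^ n * g ∈ S) : g ∈ S := by
  induction n with
  | zero => simpa using h
  | succ n ih =>
    refine ih (N.sat _ (mul_mem (pow_mem (N.le₁ p) n) h1) (mul_mem (pow_mem (N.le₂ p) n) h2) ?_)
    rwa [← mul_assoc, ← pow_succ']

/-- Coordinates may be changed modulo `p`. -/
theorem Coord.congr (N : NodeRing O₁ O₂ S 𝔪 p) {x y : S} (h : Coord O₁ O₂ S 𝔪 x y) (d d' : S) :
    Coord O₁ O₂ S 𝔪 (x + p * d) (y + p * d') := by
  have hpd₁ : ∀ c : S, ((p * c : S) : F) ∈ O₁.nonunits := fun c => by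
    rw [Subring.coe_mul]
    exact nu_mul_right O₁ N.p₁ (N.le₁ c)
  have hpd₂ : ∀ c : S, ((p * c : S) : F) ∈ O₂.nonunits := fun c => by
    rw [Subring.coe_mul]
    exact nu_mul_right O₂ N.p₂ (N.le₂ c)
  refine ⟨fun hx => h.x₁ ?_, ?_, ?_, fun hy => h.y₂ ?_, fun g hg => ?_⟩
  · have h1 := O₁.nonunits.sub_mem hx (hpd₁ d)
    rwa [Subring.coe_add, add_sub_cancel_right] at h1
  · rw [Subring.coe_add]
    exact O₂.nonunits.add_mem h.x₂ (hpd₂ d)
  · rw [Subring.coe_add]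
    exact O₁.nonunits.add_mem h.y₁ (hpd₁ d')
  · have h1 := O₂.nonunits.sub_mem hy (hpd₂ d')
    rwa [Subring.coe_add, add_sub_cancel_right] at h1
  · obtain ⟨α, β, hα, hβ⟩ := h.gen g hg
    refine ⟨α, β, ?_, ?_⟩
    · have e1 : g - α * (x + p * d) = (g - α * x) - p * (α * d) := by ring
      rw [e1, AddSubgroupClass.coe_sub]
      exact O₁.nonunits.sub_mem hα (hpd₁ _)
    · have e1 : g - β * (y + p * d') = (g - β * y) - p * (β * d') := by ring
      rw [e1, AddSubgroupClass.coe_sub]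
      exact O₂.nonunits.sub_mem hβ (hpd₂ _)

/-- **`𝔪 = (x, y, p)`.** -/
theorem Coord.mem_span (N : NodeRing O₁ O₂ S 𝔪 p) {x y : S} (h : Coord O₁ O₂ S 𝔪 x y) {g : S}
    (hg : g ∈ 𝔪) : ∃ α β γ : S, g = α * x + β * y + γ * p := by
  obtain ⟨α, β, hα, hβ⟩ := h.gen g hg
  have h1 : ((g - α * x - β * y : S) : F) ∈ O₁.nonunits := by
    rw [AddSubgroupClass.coe_sub (g - α * x) (β * y)]
    refine O₁.nonunits.sub_mem hα ?_
    rw [Subring.coe_mul]
    exact nu_mul_left O₁ (N.le₁ β) h.y₁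
  have h2 : ((g - α * x - β * y : S) : F) ∈ O₂.nonunits := by
    have e1 : g - α * x - β * y = (g - β * y) - α * x := by ring
    rw [e1, AddSubgroupClass.coe_sub (g - β * y) (α * x)]
    refine O₂.nonunits.sub_mem hβ ?_
    rw [Subring.coe_mul]
    exact nu_mul_left O₂ (N.le₂ α) h.x₂
  obtain ⟨γ, hγ⟩ := N.red _ h1 h2
  exact ⟨α, β, γ, by linear_combination hγ⟩

/-- The coordinates lie in `𝔪`. -/
theorem Coord.x_mem (N : NodeRing O₁ O₂ S 𝔪 p) {x y : S} (h : Coord O₁ O₂ S 𝔪 x y) : x ∈ 𝔪 :=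
  N.mem₂ x h.x₂

theorem Coord.y_mem (N : NodeRing O₁ O₂ S 𝔪 p) {x y : S} (h : Coord O₁ O₂ S 𝔪 x y) : y ∈ 𝔪 :=
  N.mem₁ y h.y₁

theorem NodeRing.p_mem (N : NodeRing O₁ O₂ S 𝔪 p) : p ∈ 𝔪 := N.mem₁ p N.p₁

/-- The product of the coordinates is divisible by `p`. -/
theorem Coord.exists_mul_eq (N : NodeRing O₁ O₂ S 𝔪 p) {x y : S} (h : Coord O₁ O₂ S 𝔪 x y) :
    ∃ u : S, x * y = p ^ 1 * u := by
  have h1 : ((x * y : S) : F) ∈ O₁.nonunits := by
    rw [Subring.coe_mul]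
    exact nu_mul_left O₁ (N.le₁ x) h.y₁
  have h2 : ((x * y : S) : F) ∈ O₂.nonunits := by
    rw [Subring.coe_mul]
    exact nu_mul_right O₂ h.x₂ (N.le₂ y)
  obtain ⟨γ, hγ⟩ := N.red _ h1 h2
  exact ⟨γ, by rw [pow_one]; exact hγ⟩

/-- **One step of the iteration**: if `x y = p^j u` with `u ∈ 𝔪`, the coordinates can be changed
modulo `p` so that the product is divisible by `p^(j+1)`. -/
theorem Coord.step (N : NodeRing O₁ O₂ S 𝔪 p) {x y u : S} (h : Coord O₁ O₂ S 𝔪 x y) {j : ℕ}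
    (hj : 1 ≤ j) (hxy : x * y = p ^ j * u) (hu : u ∈ 𝔪) :
    ∃ x' y' u' : S, Coord O₁ O₂ S 𝔪 x' y' ∧ x' * y' = p ^ (j + 1) * u' ∧
      (∃ d, x' = x + p * d) ∧ (∃ d, y' = y + p * d) := by
  obtain ⟨m, rfl⟩ : ∃ m, j = m + 1 := ⟨j - 1, by omega⟩
  obtain ⟨α, β, γ, hαβ⟩ := h.mem_span N hu
  refine ⟨x + p * (-(p ^ m * β)), y + p * (-(p ^ m * α)), γ + p ^ m * α * β,
    h.congr N _ _, ?_, ⟨_, rfl⟩, ⟨_, rfl⟩⟩
  linear_combination hxy + p ^ (m + 1) * hαβ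

variable {x₀ f f' w : S} {e a : ℕ}

/-- The order datum is independent of the coordinate modulo `p`. -/
theorem UnitDatum.ord_congr (N : NodeRing O₁ O₂ S 𝔪 p) (U : UnitDatum O₁ O₂ S 𝔪 p x₀ f f' e a w)
    {x : S} (hx : ∃ d, x = x₀ + p * d) : ((f - x ^ a * w : S) : F) ∈ O₁.nonunits := by
  obtain ⟨d, rfl⟩ := hx
  obtain ⟨c, hc⟩ : ∃ c : S, (x₀ + p * d) ^ a = x₀ ^ a + p * c := by
    have h1 : x₀ + p * d - x₀ ∣ (x₀ + p * d) ^ a - x₀ ^ a := sub_dvd_pow_sub_pow _ _ a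
    obtain ⟨c, hc⟩ := h1
    exact ⟨d * c, by linear_combination hc⟩
  have e1 : f - (x₀ + p * d) ^ a * w = (f - x₀ ^ a * w) - p * (c * w) := by
    rw [hc]
    ring
  rw [e1, AddSubgroupClass.coe_sub]
  refine O₁.nonunits.sub_mem U.ord ?_
  rw [Subring.coe_mul]
  exact nu_mul_right O₁ N.p₁ (N.le₁ _)

/-- `f` vanishes on the second branch. -/
theorem UnitDatum.f_nu₂ (N : NodeRing O₁ O₂ S 𝔪 p) (U : UnitDatum O₁ O₂ S 𝔪 p x₀ f f' e a w) :
    (f : F) ∈ O₂.nonunits := by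
  have hF : (f : F) * (f' : F) = (p : F) ^ e := by
    have := congrArg (fun z : S => (z : F)) U.ff
    simpa using this
  have hf'0 : (f' : F) ≠ 0 := ne_zero_of_not_nu O₂ U.f₂
  have e1 : (f : F) = (p : F) ^ e * (f' : F)⁻¹ := by
    rw [← hF, mul_assoc, mul_inv_cancel₀ hf'0, mul_one]
  rw [e1]
  exact nu_mul_right O₂ (nu_pow O₂ N.p₂ U.e_pos.ne') (inv_mem_of_not_nu O₂ (N.le₂ f') U.f₂)

/-- The order `a` is positive. -/
theorem UnitDatum.a_pos (N : NodeRing O₁ O₂ S 𝔪 p) (U : UnitDatum O₁ O₂ S 𝔪 p x₀ f f' e a w) :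
    0 < a := by
  by_contra h0
  have ha : a = 0 := by omega
  have h1 : f - w ∈ 𝔪 := by
    have h2 := U.ord
    rw [ha, pow_zero, one_mul] at h2
    exact N.mem₁ _ h2
  have h3 : f ∈ 𝔪 := N.mem₂ f (U.f_nu₂ N)
  apply U.w_not
  have e1 : w = f - (f - w) := by ring
  rw [e1]
  exact 𝔪.sub_mem h3 h1

/-- **The bound**: coordinates `x ≡ x₀ (mod p)`, `y` with `x y = p^j u` force `j a ≤ e`. -/
theorem UnitDatum.bound (N : NodeRing O₁ O₂ S 𝔪 p) (U : UnitDatum O₁ O₂ S 𝔪 p x₀ f f' e a w)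
    {x y u : S} (h : Coord O₁ O₂ S 𝔪 x y) (hx : ∃ d, x = x₀ + p * d) {j : ℕ}
    (hxy : x * y = p ^ j * u) : j * a ≤ e := by
  by_contra hlt
  have hlt' : e < j * a := not_le.1 hlt
  -- identities in `F`
  have hF : (f : F) * (f' : F) = (p : F) ^ e := by
    have := congrArg (fun z : S => (z : F)) U.ff
    simpa using this
  have hxyF : (x : F) * (y : F) = (p : F) ^ j * (u : F) := by
    have := congrArg (fun z : S => (z : F)) hxy
    simpa using this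
  have hf0 : (f : F) ≠ 0 := ne_zero_of_not_nu O₁ U.f₁
  have hf'0 : (f' : F) ≠ 0 := ne_zero_of_not_nu O₂ U.f₂
  have hx0 : (x : F) ≠ 0 := ne_zero_of_not_nu O₁ h.x₁
  have hy0 : (y : F) ≠ 0 := ne_zero_of_not_nu O₂ h.y₂
  have hp0 : (p : F) ≠ 0 := N.p_ne
  -- the element `g = x^e / f^j`
  set g : F := (x : F) ^ e * ((f : F)⁻¹) ^ j with hg
  have hg₁ : g ∈ O₁ :=
    mul_mem (pow_mem (N.le₁ x) e) (pow_mem (inv_mem_of_not_nu O₁ (N.le₁ f) U.f₁) j)
  have hpp : (p : F) ^ (j * e) ≠ 0 := pow_ne_zero _ hp0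
  have hx' : (x : F) = (p : F) ^ j * ((u : F) * (y : F)⁻¹) := by
    rw [← mul_assoc, ← hxyF, mul_assoc, mul_inv_cancel₀ hy0, mul_one]
  have hfi : (f : F)⁻¹ = (f' : F) * ((p : F) ^ e)⁻¹ := by
    rw [← hF, mul_inv, mul_comm (f : F)⁻¹, ← mul_assoc, mul_inv_cancel₀ hf'0, one_mul]
  have hxe : (x : F) ^ e = (p : F) ^ (j * e) * ((u : F) * (y : F)⁻¹) ^ e := by
    rw [hx', mul_pow, ← pow_mul]
  have hfj : ((f : F)⁻¹) ^ j = (f' : F) ^ j * ((p : F) ^ (j * e))⁻¹ := by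
    rw [hfi, mul_pow, inv_pow, ← pow_mul, mul_comm e j]
  have e2 : g = ((u : F) * (y : F)⁻¹) ^ e * (f' : F) ^ j := by
    calc g = (p : F) ^ (j * e) * ((u : F) * (y : F)⁻¹) ^ e *
          ((f' : F) ^ j * ((p : F) ^ (j * e))⁻¹) := by rw [hg, hxe, hfj]
      _ = ((u : F) * (y : F)⁻¹) ^ e * (f' : F) ^ j *
          ((p : F) ^ (j * e) * ((p : F) ^ (j * e))⁻¹) := by ring
      _ = ((u : F) * (y : F)⁻¹) ^ e * (f' : F) ^ j := by rw [mul_inv_cancel₀ hpp, mul_one]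
  have hg₂ : g ∈ O₂ := by
    rw [e2]
    exact mul_mem (pow_mem (mul_mem (N.le₂ u) (inv_mem_of_not_nu O₂ (N.le₂ y) h.y₂)) e)
      (pow_mem (N.le₂ f') j)
  have hgS : g ∈ S := by
    refine N.sat_pow (j * e) hg₁ hg₂ ?_
    have e3 : (p : F) ^ (j * e) * g = (x : F) ^ e * (f' : F) ^ j := by
      calc (p : F) ^ (j * e) * g
          = (p : F) ^ (j * e) * ((x : F) ^ e * ((f' : F) ^ j * ((p : F) ^ (j * e))⁻¹)) := by
            rw [hg, hfj]
        _ = (x : F) ^ e * (f' : F) ^ j * ((p : F) ^ (j * e) * ((p : F) ^ (j * e))⁻¹) := by ring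
        _ = (x : F) ^ e * (f' : F) ^ j := by rw [mul_inv_cancel₀ hpp, mul_one]
    rw [e3]
    exact mul_mem (pow_mem x.2 e) (pow_mem f'.2 j)
  -- in `S`: `g * f^j = x^e`
  set gS : S := ⟨g, hgS⟩ with hgS'
  have hgf : gS * f ^ j = x ^ e := by
    apply Subtype.ext
    show g * (f : F) ^ j = (x : F) ^ e
    rw [hg, mul_assoc, ← mul_pow, inv_mul_cancel₀ hf0, one_pow, mul_one]
  -- the contradiction
  obtain ⟨n, hn⟩ : ∃ n, j * a = e + (n + 1) := ⟨j * a - e - 1, by omega⟩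
  set G : S := gS * x ^ (n + 1) * w ^ j with hG
  have hGm : G ∈ 𝔪 := by
    rw [hG]
    refine 𝔪.mul_mem_right _ (𝔪.mul_mem_left _ ?_)
    exact 𝔪.pow_mem_of_mem (h.x_mem N) (n + 1) (Nat.succ_pos n)
  have hG1 : G - 1 ∈ 𝔪 := by
    apply N.mem₁
    -- `x^e * (G - 1) = gS * ((x^a w)^j - f^j)`
    obtain ⟨c, hc⟩ : ∃ c : S, (x ^ a * w) ^ j - f ^ j = (x ^ a * w - f) * c :=
      sub_dvd_pow_sub_pow _ _ j
    have e5 : (x ^ a * w) ^ j = x ^ (e + (n + 1)) * w ^ j := by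
      rw [mul_pow, ← pow_mul, mul_comm a j, hn]
    have e4 : x ^ e * (G - 1) = gS * ((x ^ a * w - f) * c) := by
      calc x ^ e * (G - 1) = gS * (x ^ (e + (n + 1)) * w ^ j) - gS * f ^ j := by
            rw [hgf, hG]
            ring
        _ = gS * ((x ^ a * w) ^ j - f ^ j) := by
            rw [e5]
            ring
        _ = gS * ((x ^ a * w - f) * c) := by rw [hc]
    have h5 : ((x ^ e * (G - 1) : S) : F) ∈ O₁.nonunits := by
      rw [e4, Subring.coe_mul, Subring.coe_mul]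
      refine nu_mul_left O₁ (N.le₁ gS) (nu_mul_right O₁ ?_ (N.le₁ c))
      have h6 := O₁.nonunits.neg_mem (U.ord_congr N hx)
      have e6 : ((x ^ a * w - f : S) : F) = -((f - x ^ a * w : S) : F) := by
        rw [AddSubgroupClass.coe_sub, AddSubgroupClass.coe_sub]
        ring
      rw [e6]
      exact h6
    rw [Subring.coe_mul, Subring.coe_pow] at h5
    exact nu_of_unit_mul O₁ (pow_mem (N.le₁ x) e) (not_nu_pow O₁ (N.le₁ x) h.x₁ e) h5
  apply N.ne_top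
  have e7 : (1 : S) = G - (G - 1) := by ring
  rw [e7]
  exact 𝔪.sub_mem hGm hG1

/-- **The end of the iteration**: if `x y = p^k u` with `u ∉ 𝔪`, then `a k = e` and
`f = x^a · unit`. -/
theorem UnitDatum.final (N : NodeRing O₁ O₂ S 𝔪 p) (U : UnitDatum O₁ O₂ S 𝔪 p x₀ f f' e a w)
    {x y u : S} (h : Coord O₁ O₂ S 𝔪 x y) (hx : ∃ d, x = x₀ + p * d) {k : ℕ}
    (hxy : x * y = p ^ k * u) (hu : u ∉ 𝔪) :
    a * k = e ∧ ∃ v : S, v ∉ 𝔪 ∧ f = x ^ a * v := by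
  have hka : k * a ≤ e := U.bound N h hx hxy
  -- identities in `F`
  have hF : (f : F) * (f' : F) = (p : F) ^ e := by
    have := congrArg (fun z : S => (z : F)) U.ff
    simpa using this
  have hxyF : (x : F) * (y : F) = (p : F) ^ k * (u : F) := by
    have := congrArg (fun z : S => (z : F)) hxy
    simpa using this
  have hf'0 : (f' : F) ≠ 0 := ne_zero_of_not_nu O₂ U.f₂
  have hx0 : (x : F) ≠ 0 := ne_zero_of_not_nu O₁ h.x₁
  have hy0 : (y : F) ≠ 0 := ne_zero_of_not_nu O₂ h.y₂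
  have hp0 : (p : F) ≠ 0 := N.p_ne
  have hu0 : (u : F) ≠ 0 := by
    intro h0
    apply hu
    have : u = 0 := Subtype.ext h0
    rw [this]
    exact 𝔪.zero_mem
  have hui : (u : F)⁻¹ ∈ S := N.loc u hu
  -- the element `g = f / x^a`
  set g : F := (f : F) * ((x : F)⁻¹) ^ a with hg
  have hg₁ : g ∈ O₁ :=
    mul_mem (N.le₁ f) (pow_mem (inv_mem_of_not_nu O₁ (N.le₁ x) h.x₁) a)
  obtain ⟨n, hn⟩ : ∃ n, e = k * a + n := ⟨e - k * a, by omega⟩
  have hpk : (p : F) ^ k ≠ 0 := pow_ne_zero _ hp0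
  have hpka : (p : F) ^ (k * a) ≠ 0 := pow_ne_zero _ hp0
  have hxi : (x : F)⁻¹ = (y : F) * (u : F)⁻¹ * ((p : F) ^ k)⁻¹ := by
    have h1 : (x : F) * ((y : F) * (u : F)⁻¹ * ((p : F) ^ k)⁻¹) = 1 := by
      calc (x : F) * ((y : F) * (u : F)⁻¹ * ((p : F) ^ k)⁻¹)
          = ((x : F) * (y : F)) * ((u : F)⁻¹ * ((p : F) ^ k)⁻¹) := by ring
        _ = ((p : F) ^ k * (u : F)) * ((u : F)⁻¹ * ((p : F) ^ k)⁻¹) := by rw [hxyF]
        _ = ((p : F) ^ k * ((p : F) ^ k)⁻¹) * ((u : F) * (u : F)⁻¹) := by ring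
        _ = 1 := by rw [mul_inv_cancel₀ hpk, mul_inv_cancel₀ hu0, mul_one]
    exact (eq_inv_of_mul_eq_one_right h1).symm
  have hxa : ((x : F)⁻¹) ^ a = ((y : F) * (u : F)⁻¹) ^ a * ((p : F) ^ (k * a))⁻¹ := by
    rw [hxi, mul_pow, inv_pow, ← pow_mul]
  have hfe : (f : F) = (p : F) ^ (k * a) * (p : F) ^ n * (f' : F)⁻¹ := by
    rw [← pow_add, ← hn, ← hF, mul_assoc, mul_inv_cancel₀ hf'0, mul_one]
  have e2 : g = (p : F) ^ n * ((f' : F)⁻¹ * ((y : F) * (u : F)⁻¹) ^ a) := by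
    calc g = (p : F) ^ (k * a) * (p : F) ^ n * (f' : F)⁻¹ *
          (((y : F) * (u : F)⁻¹) ^ a * ((p : F) ^ (k * a))⁻¹) := by rw [hg, hxa, ← hfe]
      _ = (p : F) ^ n * ((f' : F)⁻¹ * ((y : F) * (u : F)⁻¹) ^ a) *
          ((p : F) ^ (k * a) * ((p : F) ^ (k * a))⁻¹) := by ring
      _ = (p : F) ^ n * ((f' : F)⁻¹ * ((y : F) * (u : F)⁻¹) ^ a) := by
          rw [mul_inv_cancel₀ hpka, mul_one]
  have hr₂ : (f' : F)⁻¹ * ((y : F) * (u : F)⁻¹) ^ a ∈ O₂ :=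
    mul_mem (inv_mem_of_not_nu O₂ (N.le₂ f') U.f₂)
      (pow_mem (mul_mem (N.le₂ y) (N.le₂ ⟨_, hui⟩)) a)
  have hg₂ : g ∈ O₂ := by
    rw [e2]
    exact mul_mem (pow_mem (N.le₂ p) n) hr₂
  have hgS : g ∈ S := by
    refine N.sat_pow (k * a) hg₁ hg₂ ?_
    have e3 : (p : F) ^ (k * a) * g = (f : F) * ((y : F) * (u : F)⁻¹) ^ a := by
      calc (p : F) ^ (k * a) * g
          = (p : F) ^ (k * a) * ((f : F) * (((y : F) * (u : F)⁻¹) ^ a *
              ((p : F) ^ (k * a))⁻¹)) := by rw [hg, hxa]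
        _ = (f : F) * ((y : F) * (u : F)⁻¹) ^ a *
              ((p : F) ^ (k * a) * ((p : F) ^ (k * a))⁻¹) := by ring
        _ = (f : F) * ((y : F) * (u : F)⁻¹) ^ a := by rw [mul_inv_cancel₀ hpka, mul_one]
    rw [e3]
    exact mul_mem f.2 (pow_mem (mul_mem y.2 hui) a)
  set gS : S := ⟨g, hgS⟩ with hgS'
  have hgx : gS * x ^ a = f := by
    apply Subtype.ext
    show g * (x : F) ^ a = (f : F)
    rw [hg, mul_assoc, ← mul_pow, inv_mul_cancel₀ hx0, one_pow, mul_one]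
  -- `gS ∉ 𝔪`
  have hgw : gS - w ∈ 𝔪 := by
    apply N.mem₁
    have e4 : x ^ a * (gS - w) = f - x ^ a * w := by
      rw [← hgx]
      ring
    have h5 : ((x ^ a * (gS - w) : S) : F) ∈ O₁.nonunits := by
      rw [e4]
      exact U.ord_congr N hx
    rw [Subring.coe_mul, Subring.coe_pow] at h5
    exact nu_of_unit_mul O₁ (pow_mem (N.le₁ x) a) (not_nu_pow O₁ (N.le₁ x) h.x₁ a) h5
  have hgm : gS ∉ 𝔪 := by
    intro hgm
    apply U.w_not
    have e5 : w = gS - (gS - w) := by ring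
    rw [e5]
    exact 𝔪.sub_mem hgm hgw
  refine ⟨?_, gS, hgm, by rw [← hgx]; ring⟩
  -- `n = 0`
  rcases Nat.eq_zero_or_pos n with h0 | hpos
  · rw [hn, h0, add_zero, mul_comm]
  · exfalso
    apply hgm
    apply N.mem₂
    show g ∈ O₂.nonunits
    rw [e2]
    exact nu_mul_right O₂ (nu_pow O₂ N.p₂ hpos.ne') hr₂

/-- The iteration, by induction on `e - j`. -/
theorem UnitDatum.exists_unit_aux (N : NodeRing O₁ O₂ S 𝔪 p)
    (U : UnitDatum O₁ O₂ S 𝔪 p x₀ f f' e a w) {y₀ : S} :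
    ∀ (n j : ℕ) (x y u : S), Coord O₁ O₂ S 𝔪 x y → (∃ d, x = x₀ + p * d) →
      (∃ d, y = y₀ + p * d) → 1 ≤ j → x * y = p ^ j * u → e - j ≤ n →
      ∃ (k : ℕ) (x' y' u' : S), Coord O₁ O₂ S 𝔪 x' y' ∧ (∃ d, x' = x₀ + p * d) ∧
        (∃ d, y' = y₀ + p * d) ∧ x' * y' = p ^ k * u' ∧ u' ∉ 𝔪 := by
  intro n
  induction n with
  | zero =>
    intro j x y u h hx hy hj hxy hn
    by_cases hu : u ∈ 𝔪
    · exfalso
      obtain ⟨x', y', u', h', hxy', ⟨d, hd⟩, -⟩ := h.step N hj hxy hu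
      obtain ⟨d₀, hd₀⟩ := hx
      have hx' : ∃ d, x' = x₀ + p * d := ⟨d₀ + d, by rw [hd, hd₀]; ring⟩
      have hb := U.bound N h' hx' hxy'
      have ha := U.a_pos N
      have h1 : j + 1 ≤ (j + 1) * a := Nat.le_mul_of_pos_right _ ha
      omega
    · exact ⟨j, x, y, u, h, hx, hy, hxy, hu⟩
  | succ n ih =>
    intro j x y u h hx hy hj hxy hn
    by_cases hu : u ∈ 𝔪
    · obtain ⟨x', y', u', h', hxy', ⟨d, hd⟩, ⟨d', hd'⟩⟩ := h.step N hj hxy hu
      obtain ⟨d₀, hd₀⟩ := hx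
      obtain ⟨d₁, hd₁⟩ := hy
      exact ih (j + 1) x' y' u' h' ⟨d₀ + d, by rw [hd, hd₀]; ring⟩
        ⟨d₁ + d', by rw [hd', hd₁]; ring⟩ (by omega) hxy' (by omega)
    · exact ⟨j, x, y, u, h, hx, hy, hxy, hu⟩

/-- **(N), abstract form: the thickness of a node.**  In the local ring `S` of a node with branch
coordinates `x₀`, `y₀` and a vertical unit `f f' = p ^ e` whose reduction on the first branch has
order `a` at the node, there are coordinates `x ≡ x₀`, `y ≡ y₀ (mod p)` and `k` with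
`x y = p ^ k · unit`, `f = x ^ a · unit` and `a k = e`. -/
theorem exists_thickness (N : NodeRing O₁ O₂ S 𝔪 p) {y₀ : S} (h₀ : Coord O₁ O₂ S 𝔪 x₀ y₀)
    (U : UnitDatum O₁ O₂ S 𝔪 p x₀ f f' e a w) :
    ∃ (k : ℕ) (x y u v : S), a * k = e ∧ u ∉ 𝔪 ∧ v ∉ 𝔪 ∧ x * y = p ^ k * u ∧ f = x ^ a * v ∧
      Coord O₁ O₂ S 𝔪 x y ∧ (∃ d, x = x₀ + p * d) ∧ (∃ d, y = y₀ + p * d) := by
  obtain ⟨u₁, hu₁⟩ := h₀.exists_mul_eq N
  obtain ⟨k, x, y, u, h, hx, hy, hxy, hu⟩ :=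
    U.exists_unit_aux N (y₀ := y₀) e 1 x₀ y₀ u₁ h₀ ⟨0, by ring⟩ ⟨0, by ring⟩ le_rfl hu₁
      (Nat.sub_le _ _)
  obtain ⟨hak, v, hv, hfv⟩ := U.final N h hx hxy hu
  exact ⟨k, x, y, u, v, hak, hu, hv, hxy, hfv, h, hx, hy⟩

/-- **The thickness divides the exponent of the vertical unit** (for TR: `k ∣ 12`). -/
theorem thickness_dvd (N : NodeRing O₁ O₂ S 𝔪 p) {y₀ : S} (h₀ : Coord O₁ O₂ S 𝔪 x₀ y₀)
    (U : UnitDatum O₁ O₂ S 𝔪 p x₀ f f' e a w) :
    ∃ (k : ℕ) (x y u : S), k ∣ e ∧ 0 < k ∧ u ∉ 𝔪 ∧ (u : F)⁻¹ ∈ S ∧ x * y = p ^ k * u ∧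
      Coord O₁ O₂ S 𝔪 x y := by
  obtain ⟨k, x, y, u, v, hak, hu, -, hxy, -, h, -, -⟩ := exists_thickness N h₀ U
  refine ⟨k, x, y, u, ⟨a, by rw [← hak, mul_comm]⟩, ?_, hu, N.loc u hu, hxy, h⟩
  rcases Nat.eq_zero_or_pos k with h0 | hpos
  · exfalso
    have := U.e_pos
    rw [← hak, h0, mul_zero] at this
    exact lt_irrefl _ this
  · exact hpos

end Node

end Fermat.Agent.TR.Node.Thick
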