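/-
TR, node side (N) (helper64): **the node coordinate and the thickness of a node**, abstract form
(steps (2) and (3) of the lead's route, report #3247).

Setting (pure valuation-ring language).  `F` a field, `p : F`; `Oi, Oz` two discrete valuation
subrings of `F` with uniformiser `p` (the two components `C_∞`, `C_0` of the special fibre);
`R` a subring of `F` contained in both (the local ring `R_s` of the model at a node `s`);
`ρ : R → κ` a ring homomorphism with kernel `R ∩ 𝔪(Oi)` and values in a discrete valuation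
subring `Vs` of `κ` (the reduction on the branch `C_∞`, `Vs` the germs at `s`).

Hypotheses.
* (SAT) `g ∈ Oi`, `g ∈ Oz`, `p ^ n * g ∈ R` imply `g ∈ R` (`R = Oi ∩ Oz ∩ R[1/p]`).
* (GEN) `x₀, y₀ ∈ R` with `x₀ ∈ 𝔪(Oz)`, `y₀ ∈ 𝔪(Oi)`, `y₀ ∉ 𝔪(Oz)`, `ρ x₀` a uniformiser of `Vs`,
  and every non-unit of `R` is `α x₀ + β y₀ + γ p`.
* (F) `f ∈ R`, a unit of `Oi`, of order `c > 0` at `Oz`, invertible in `R[1/p]`
  (instance: `f = Δ(q) / Δ(q^p)`, `c = 12`).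

Results.
* `ord_mul_le` : `ord_s (ρ f) * ord_z ξ ≤ c` for every `ξ ∈ R` with `ρ ξ` a uniformiser of `Vs`.
* `exists_coordinate` : there are `k ≥ 1`, `x ≡ x₀`, `y ≡ y₀ (mod p R)` and a unit `u` of `R` with
  `x * y = p ^ k * u`; then `ord_z x = k = ord_i y`.
* `ord_mul_eq` : for such a coordinate, `ord_s (ρ f) * k = c`.
* `exists_thickness` : the two together; `exists_thickness_dvd` : `k ∣ c`;
  `exists_thickness_twelve` : for `c = 12` and a prime `ℓ ≥ 5`, `ℓ ∤ k`.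
-/
import Mathlib
import Fermat.Agent.CAR.Formal.DiscVal

set_option autoImplicit false

namespace Fermat.Agent.TR.Node.Thickness

open Fermat.Agent.CAR.Formal

/-! ### Valuation subrings: small facts -/

section Basic

variable {K : Type*} [Field K] {V : ValuationSubring K}

theorem mem_of_nonunit {x : K} (hx : x ∈ V.nonunits) : x ∈ V :=
  (V.valuation_le_one_iff _).mp (le_of_lt (V.mem_nonunits_iff.mp hx))

theorem nonunit_add {x y : K} (hx : x ∈ V.nonunits) (hy : y ∈ V.nonunits) :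
    x + y ∈ V.nonunits := by
  rw [V.mem_nonunits_iff] at hx hy ⊢
  exact lt_of_le_of_lt (V.valuation.map_add x y) (max_lt hx hy)

theorem nonunit_neg {x : K} (hx : x ∈ V.nonunits) : -x ∈ V.nonunits := by
  rw [V.mem_nonunits_iff] at hx ⊢
  rwa [Valuation.map_neg]

theorem nonunit_sub {x y : K} (hx : x ∈ V.nonunits) (hy : y ∈ V.nonunits) :
    x - y ∈ V.nonunits := by
  rw [sub_eq_add_neg]
  exact nonunit_add hx (nonunit_neg hy)

theorem nonunit_mul {x y : K} (hx : x ∈ V.nonunits) (hy : y ∈ V) : x * y ∈ V.nonunits := by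
  have h1 : V.valuation x < 1 := V.mem_nonunits_iff.mp hx
  have h2 : V.valuation y ≤ 1 := (V.valuation_le_one_iff _).mpr hy
  rw [V.mem_nonunits_iff, map_mul]
  calc V.valuation x * V.valuation y ≤ V.valuation x * 1 := by gcongr
    _ = V.valuation x := mul_one _
    _ < 1 := h1

theorem mem_mul_nonunit {x y : K} (hx : x ∈ V) (hy : y ∈ V.nonunits) : x * y ∈ V.nonunits := by
  rw [mul_comm]
  exact nonunit_mul hy hx

theorem zero_nonunit : (0 : K) ∈ V.nonunits :=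
  (ValuationSubring.mem_nonunits_iff_or V).2 (Or.inl rfl)

/-- A member of `V` which is not a non-unit has its inverse in `V`. -/
theorem inv_mem_of_not_nonunit {x : K} (hx : x ∉ V.nonunits) : x⁻¹ ∈ V := by
  rw [ValuationSubring.mem_nonunits_iff_or] at hx
  push Not at hx
  exact hx.2

/-- If `x * z = 1` with `z ∈ V`, then `x` is not a non-unit of `V`. -/
theorem not_nonunit_of_mul_eq_one {x z : K} (hz : z ∈ V) (h : x * z = 1) : x ∉ V.nonunits := by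
  intro hx
  have h1 := nonunit_mul hx hz
  rw [h, V.mem_nonunits_iff, map_one] at h1
  exact lt_irrefl _ h1

end Basic

/-! ### The setting -/

section Node

variable {F κ : Type*} [Field F] [Field κ] {p : F} {Oi Oz : ValuationSubring F}
  (hOi : IsUnif Oi p) (hOz : IsUnif Oz p) {R : Subring F}
  (hRi : ∀ g ∈ R, g ∈ Oi) (hRz : ∀ g ∈ R, g ∈ Oz) (hp : p ∈ R)
  (hsat : ∀ g : F, g ∈ Oi → g ∈ Oz → (∃ n : ℕ, p ^ n * g ∈ R) → g ∈ R)
  {Vs : ValuationSubring κ} {t : κ} (hVs : IsUnif Vs t) (ρ : R →+* κ)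
  (hρV : ∀ g : R, ρ g ∈ Vs) (hρker : ∀ g : R, ρ g = 0 ↔ (g : F) ∈ Oi.nonunits)
  {x₀ y₀ : R} (hx₀z : (x₀ : F) ∈ Oz.nonunits) (hy₀i : (y₀ : F) ∈ Oi.nonunits)
  (hy₀z : (y₀ : F) ∉ Oz.nonunits) (hx₀ρ : hVs.ord (ρ x₀) = 1)
  (hgen : ∀ g : R, ¬ IsUnit g → ∃ α β γ : R, g = α * x₀ + β * y₀ + γ * ⟨p, hp⟩)

include hRz in
/-- A non-unit of `Oz` is a non-unit of `R`. -/
theorem not_isUnit_of_nonunit {g : R} (hg : (g : F) ∈ Oz.nonunits) : ¬ IsUnit g := by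
  rintro ⟨v, rfl⟩
  have h1 : ((v : R) : F) * (((v⁻¹ : Rˣ) : R) : F) = 1 := by
    rw [← Subring.coe_mul, Units.mul_inv, Subring.coe_one]
  exact not_nonunit_of_mul_eq_one (hRz _ ((v⁻¹ : Rˣ) : R).2) h1 hg

include hOi hρker in
theorem rho_p : ρ ⟨p, hp⟩ = 0 := (hρker _).2 hOi.mem_nonunits

include hρker hy₀i in
theorem rho_y₀ : ρ y₀ = 0 := (hρker _).2 hy₀i

include hx₀ρ in
theorem rho_x₀_ne : ρ x₀ ≠ 0 := by
  intro h
  rw [h, IsUnif.ord_zero] at hx₀ρ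
  exact zero_ne_one hx₀ρ

include hOi hρV hρker hy₀i hx₀ρ hgen in
/-- `ρ` is a local homomorphism: non-units of `R` reduce to non-units of `Vs`. -/
theorem rho_nonunit {g : R} (hg : ¬ IsUnit g) : ρ g ∈ Vs.nonunits := by
  obtain ⟨α, β, γ, rfl⟩ := hgen g hg
  rw [map_add, map_add, map_mul, map_mul, map_mul, rho_p hOi hp ρ hρker, rho_y₀ ρ hρker hy₀i,
    mul_zero, mul_zero, add_zero, add_zero]
  refine mem_mul_nonunit (hρV α) ?_
  rw [← hVs.ord_pos_iff (rho_x₀_ne hVs ρ hx₀ρ), hx₀ρ]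
  exact one_pos

/-! ### The function `f` and the bound `a_s * v₀(ξ) ≤ c` -/

variable {f : R} (hfi : (f : F) ∉ Oi.nonunits) {c : ℤ} (hfz : hOz.ord (f : F) = c) (hc : 0 < c)
  (hfinv : ∃ n : ℕ, p ^ n * (f : F)⁻¹ ∈ R)

include hfz hc in
theorem f_ne_zero : (f : F) ≠ 0 := by
  intro h
  rw [h, IsUnif.ord_zero] at hfz
  omega

include hρker hfi in
theorem rho_f_ne : ρ f ≠ 0 := fun h => hfi ((hρker f).1 h)

include hOi hRz hρV hρker hy₀i hx₀ρ hgen hfi hfz hc in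
/-- `a_s = ord_s (ρ f) ≥ 1`: `f` vanishes on the component `C_0`, hence at the node. -/
theorem ord_rho_f_pos : 0 < hVs.ord (ρ f) := by
  rw [hVs.ord_pos_iff (rho_f_ne ρ hρker hfi)]
  apply rho_nonunit hOi hp hVs ρ hρV hρker hy₀i hx₀ρ hgen
  apply not_isUnit_of_nonunit hRz
  rw [← hOz.ord_pos_iff (f_ne_zero hOz hfz hc), hfz]
  exact hc

include hOi hRi hRz hsat hρV hρker hy₀i hx₀ρ hgen hfi hfz hc hfinv in
/-- **The bound** (the correct half of the gluing argument applied to `ξ ^ a / f`): for every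
`ξ ∈ R` whose reduction on `C_∞` is a uniformiser at the node,
`ord_s (ρ f) * ord_z ξ ≤ c`. -/
theorem ord_mul_le {ξ : R} (hξρ : hVs.ord (ρ ξ) = 1) :
    hVs.ord (ρ f) * hOz.ord (ξ : F) ≤ c := by
  by_contra hlt
  push Not at hlt
  have ha := ord_rho_f_pos hOi hOz hRz hp hVs ρ hρV hρker hy₀i hx₀ρ hgen hfi hfz hc
  obtain ⟨A, hA⟩ := Int.eq_ofNat_of_zero_le ha.le
  have hρξ0 : ρ ξ ≠ 0 := by
    intro h
    rw [h, IsUnif.ord_zero] at hξρ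
    exact zero_ne_one hξρ
  have hξ0 : (ξ : F) ≠ 0 := by
    intro h
    apply hρξ0
    have : ξ = 0 := Subtype.ext h
    rw [this, map_zero]
  have hf0 := f_ne_zero hOz hfz hc
  have hg0 : (ξ : F) ^ A / (f : F) ≠ 0 := div_ne_zero (pow_ne_zero _ hξ0) hf0
  have hgi : (ξ : F) ^ A / (f : F) ∈ Oi := by
    rw [div_eq_mul_inv]
    exact Oi.mul_mem _ _ (pow_mem (hRi _ ξ.2) A) (inv_mem_of_not_nonunit hfi)
  have hgz : (ξ : F) ^ A / (f : F) ∈ Oz.nonunits := by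
    rw [← hOz.ord_pos_iff hg0, hOz.ord_div (pow_ne_zero _ hξ0) hf0, hOz.ord_pow, hfz, ← hA]
    linarith
  obtain ⟨n, hn⟩ := hfinv
  have hgR : (ξ : F) ^ A / (f : F) ∈ R := by
    refine hsat _ hgi (mem_of_nonunit hgz) ⟨n, ?_⟩
    have e : p ^ n * ((ξ : F) ^ A / (f : F)) = (ξ : F) ^ A * (p ^ n * (f : F)⁻¹) := by
      rw [div_eq_mul_inv]
      ring
    rw [e]
    exact R.mul_mem (R.pow_mem ξ.2 A) hn
  have hG : ¬ IsUnit (⟨_, hgR⟩ : R) := not_isUnit_of_nonunit hRz hgz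
  have hρG := rho_nonunit hOi hp hVs ρ hρV hρker hy₀i hx₀ρ hgen hG
  have hmul : (⟨_, hgR⟩ : R) * f = ξ ^ A := by
    apply Subtype.ext
    rw [Subring.coe_mul, Subring.coe_pow]
    exact div_mul_cancel₀ _ hf0
  have h1 : ρ ⟨_, hgR⟩ * ρ f = ρ ξ ^ A := by rw [← map_mul, hmul, map_pow]
  have hρG0 : ρ ⟨_, hgR⟩ ≠ 0 := by
    intro h0
    rw [h0, zero_mul] at h1
    exact pow_ne_zero A hρξ0 h1.symm
  have h2 := congrArg hVs.ord h1
  rw [hVs.ord_mul hρG0 (rho_f_ne ρ hρker hfi), hVs.ord_pow, hξρ, hA] at h2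
  have h3 : 0 < hVs.ord (ρ ⟨_, hgR⟩) := (hVs.ord_pos_iff hρG0).2 hρG
  omega

/-! ### The node coordinate -/

include hOi hOz hsat in
/-- Reducedness of the special fibre at the node: a function of `R` vanishing on both components
is divisible by `p` in `R`. -/
theorem div_p_mem {g : F} (hg : g ∈ R) (hgi : g ∈ Oi.nonunits) (hgz : g ∈ Oz.nonunits) :
    g / p ∈ R := by
  by_cases hg0 : g = 0
  · rw [hg0, zero_div]
    exact R.zero_mem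
  have hp0 := hOi.ne_zero
  refine hsat _ ?_ ?_ ⟨1, ?_⟩
  · rw [← hOi.ord_nonneg_iff (div_ne_zero hg0 hp0), hOi.ord_div hg0 hp0, hOi.ord_self]
    have := (hOi.ord_pos_iff hg0).2 hgi
    omega
  · rw [← hOz.ord_nonneg_iff (div_ne_zero hg0 hp0), hOz.ord_div hg0 hp0, hOz.ord_self]
    have := (hOz.ord_pos_iff hg0).2 hgz
    omega
  · rw [pow_one, mul_div_cancel₀ _ hp0]
    exact hg

include hOi hOz hRz hρker hx₀z hy₀z hx₀ρ in
/-- The facts valid at every stage `x * y = p ^ j * u`, `x ≡ x₀`, `y ≡ y₀ (mod p)`. -/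
theorem stage_facts {j : ℕ} {x y u r r' : R} (hx : x = x₀ + ⟨p, hp⟩ * r)
    (hy : y = y₀ + ⟨p, hp⟩ * r') (hxy : x * y = ⟨p, hp⟩ ^ j * u) :
    ρ x = ρ x₀ ∧ (x : F) ∈ Oz.nonunits ∧ (x : F) ≠ 0 ∧ (y : F) ≠ 0 ∧ (u : F) ≠ 0 ∧
      hOz.ord (y : F) = 0 ∧ hOz.ord (x : F) = j + hOz.ord (u : F) ∧ 0 ≤ hOz.ord (u : F) := by
  have hρx : ρ x = ρ x₀ := by
    rw [hx, map_add, map_mul, rho_p hOi hp ρ hρker, zero_mul, add_zero]
  have hxz : (x : F) ∈ Oz.nonunits := by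
    rw [hx, Subring.coe_add, Subring.coe_mul]
    exact nonunit_add hx₀z (nonunit_mul hOz.mem_nonunits (hRz _ r.2))
  have hyz : (y : F) ∉ Oz.nonunits := by
    intro h
    apply hy₀z
    have e : (y₀ : F) = (y : F) - p * (r' : F) := by
      rw [hy, Subring.coe_add, Subring.coe_mul]
      ring
    rw [e]
    exact nonunit_sub h (nonunit_mul hOz.mem_nonunits (hRz _ r'.2))
  have hx0 : (x : F) ≠ 0 := by
    intro h
    apply rho_x₀_ne hVs ρ hx₀ρ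
    have : x = 0 := Subtype.ext h
    rw [← hρx, this, map_zero]
  have hy0 : (y : F) ≠ 0 := by
    intro h
    apply hyz
    rw [h]
    exact zero_nonunit
  have hxyF : (x : F) * (y : F) = p ^ j * (u : F) := by
    have := congrArg (Subtype.val : R → F) hxy
    rwa [Subring.coe_mul, Subring.coe_mul, Subring.coe_pow] at this
  have hu0 : (u : F) ≠ 0 := by
    intro h
    rw [h, mul_zero] at hxyF
    exact mul_ne_zero hx0 hy0 hxyF
  have hyord : hOz.ord (y : F) = 0 :=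
    hOz.ord_unit (hRz _ y.2) (inv_mem_of_not_nonunit hyz) hy0
  have h1 := congrArg hOz.ord hxyF
  rw [hOz.ord_mul hx0 hy0, hOz.ord_mul (pow_ne_zero _ hOz.ne_zero) hu0, hOz.ord_pow,
    hOz.ord_self, hyord] at h1
  refine ⟨hρx, hxz, hx0, hy0, hu0, hyord, by omega, ?_⟩
  exact (hOz.ord_nonneg_iff hu0).2 (hRz _ u.2)

include hOi hOz hRi hRz hsat hρV hρker hx₀z hy₀i hy₀z hx₀ρ hgen hfi hfz hc hfinv in
theorem exists_coordinate_aux (n : ℕ) : ∀ (j : ℕ) (x y u r r' : R), 1 ≤ j → c < j + n →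
    x = x₀ + ⟨p, hp⟩ * r → y = y₀ + ⟨p, hp⟩ * r' → x * y = ⟨p, hp⟩ ^ j * u →
    ∃ (k : ℕ) (x y u : R), 0 < k ∧ IsUnit u ∧ x * y = ⟨p, hp⟩ ^ k * u ∧
      (∃ r : R, x = x₀ + ⟨p, hp⟩ * r) ∧ (∃ r : R, y = y₀ + ⟨p, hp⟩ * r) := by
  induction n with
  | zero =>
    intro j x y u r r' hj hcj hx hy hxy
    exfalso
    obtain ⟨hρx, hxz, hx0, -, -, -, hxord, huord⟩ :=
      stage_facts hOi hOz hRz hp hVs ρ hρker hx₀z hy₀z hx₀ρ hx hy hxy
    have ha := ord_rho_f_pos hOi hOz hRz hp hVs ρ hρV hρker hy₀i hx₀ρ hgen hfi hfz hc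
    have hb := ord_mul_le hOi hOz hRi hRz hp hsat hVs ρ hρV hρker hy₀i hx₀ρ hgen hfi hfz hc
      hfinv (ξ := x) (by rw [hρx]; exact hx₀ρ)
    have h1 : (j : ℤ) ≤ hOz.ord (x : F) := by omega
    have h2 : hOz.ord (x : F) ≤ hVs.ord (ρ f) * hOz.ord (x : F) := by nlinarith
    have h3 : (c : ℤ) < j := by exact_mod_cast hcj
    omega
  | succ n ih =>
    intro j x y u r r' hj hcj hx hy hxy
    by_cases hu : IsUnit u
    · exact ⟨j, x, y, u, hj, hu, hxy, ⟨r, hx⟩, ⟨r', hy⟩⟩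
    obtain ⟨α, β, γ, hαβγ⟩ := hgen u hu
    obtain ⟨j', rfl⟩ : ∃ j', j = j' + 1 := ⟨j - 1, by omega⟩
    have hx₀e : x₀ = x - ⟨p, hp⟩ * r := by rw [hx]; ring
    have hy₀e : y₀ = y - ⟨p, hp⟩ * r' := by rw [hy]; ring
    rw [hαβγ, hx₀e, hy₀e] at hxy
    refine ih (j' + 1 + 1) (x - ⟨p, hp⟩ ^ (j' + 1) * β) (y - ⟨p, hp⟩ ^ (j' + 1) * α)
      (γ - α * r - β * r' + ⟨p, hp⟩ ^ j' * α * β) (r - ⟨p, hp⟩ ^ j' * β)
      (r' - ⟨p, hp⟩ ^ j' * α) (by omega) ?_ ?_ ?_ ?_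
    · push_cast at hcj ⊢
      omega
    · rw [hx]
      ring
    · rw [hy]
      ring
    · linear_combination hxy

include hOi hOz hRi hRz hsat hρV hρker hx₀z hy₀i hy₀z hx₀ρ hgen hfi hfz hc hfinv in
/-- **The node coordinate.**  There are `k ≥ 1`, `x ≡ x₀`, `y ≡ y₀ (mod p R)` and a unit `u` of `R`
with `x * y = p ^ k * u`; then `ρ x = ρ x₀`, `ord_z x = k` and `ord_i y = k`. -/
theorem exists_coordinate :
    ∃ (k : ℕ) (x y u : R), 0 < k ∧ IsUnit u ∧ x * y = ⟨p, hp⟩ ^ k * u ∧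
      (∃ r : R, x = x₀ + ⟨p, hp⟩ * r) ∧ (∃ r : R, y = y₀ + ⟨p, hp⟩ * r) ∧
      ρ x = ρ x₀ ∧ hOz.ord (x : F) = k ∧ hOi.ord (y : F) = k := by
  have hx₀0 : (x₀ : F) ≠ 0 := by
    intro h
    apply rho_x₀_ne hVs ρ hx₀ρ
    have : x₀ = 0 := Subtype.ext h
    rw [this, map_zero]
  have hx₀i : (x₀ : F) ∉ Oi.nonunits := fun h => rho_x₀_ne hVs ρ hx₀ρ ((hρker x₀).2 h)
  have h1 : (x₀ : F) * (y₀ : F) / p ∈ R :=
    div_p_mem hOi hOz hsat (R.mul_mem x₀.2 y₀.2) (mem_mul_nonunit (hRi _ x₀.2) hy₀i)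
      (nonunit_mul hx₀z (hRz _ y₀.2))
  have hstart : x₀ * y₀ = (⟨p, hp⟩ : R) ^ 1 * ⟨_, h1⟩ := by
    apply Subtype.ext
    rw [Subring.coe_mul, Subring.coe_mul, Subring.coe_pow, pow_one]
    exact (mul_div_cancel₀ _ hOi.ne_zero).symm
  obtain ⟨k, x, y, u, hk, hu, hxy, ⟨r, hx⟩, ⟨r', hy⟩⟩ :=
    exists_coordinate_aux hOi hOz hRi hRz hp hsat hVs ρ hρV hρker hx₀z hy₀i hy₀z hx₀ρ hgen hfi
      hfz hc hfinv c.toNat 1 x₀ y₀ ⟨_, h1⟩ 0 0 le_rfl (by push_cast; omega) (by ring) (by ring)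
      hstart
  obtain ⟨hρx, hxz, hx0, hy0, hu0, hyord, hxord, huord⟩ :=
    stage_facts hOi hOz hRz hp hVs ρ hρker hx₀z hy₀z hx₀ρ hx hy hxy
  obtain ⟨v, rfl⟩ := hu
  have hvinv : ((v : R) : F) * (((v⁻¹ : Rˣ) : R) : F) = 1 := by
    rw [← Subring.coe_mul, Units.mul_inv, Subring.coe_one]
  have hvinv' : (((v⁻¹ : Rˣ) : R) : F) = ((v : R) : F)⁻¹ := eq_inv_of_mul_eq_one_right hvinv
  have huz : hOz.ord ((v : R) : F) = 0 :=
    hOz.ord_unit (hRz _ (v : R).2) (by rw [← hvinv']; exact hRz _ ((v⁻¹ : Rˣ) : R).2) hu0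
  have hui : hOi.ord ((v : R) : F) = 0 :=
    hOi.ord_unit (hRi _ (v : R).2) (by rw [← hvinv']; exact hRi _ ((v⁻¹ : Rˣ) : R).2) hu0
  have hxi : (x : F) ∉ Oi.nonunits := fun h => rho_x₀_ne hVs ρ hx₀ρ (hρx ▸ (hρker x).2 h)
  have hxiord : hOi.ord (x : F) = 0 :=
    hOi.ord_unit (hRi _ x.2) (inv_mem_of_not_nonunit hxi) hx0
  have hxyF : (x : F) * (y : F) = p ^ k * ((v : R) : F) := by
    have := congrArg (Subtype.val : R → F) hxy
    rwa [Subring.coe_mul, Subring.coe_mul, Subring.coe_pow] at this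
  have h2 := congrArg hOi.ord hxyF
  rw [hOi.ord_mul hx0 hy0, hOi.ord_mul (pow_ne_zero _ hOi.ne_zero) hu0, hOi.ord_pow,
    hOi.ord_self, hxiord, hui] at h2
  exact ⟨k, x, y, v, hk, v.isUnit, hxy, ⟨r, hx⟩, ⟨r', hy⟩, hρx, by omega, by omega⟩

/-! ### The thickness -/

include hOi hOz hRi hsat hρV hρker hx₀ρ hfi hfz hc hfinv in
/-- **`a_s * k = c`.**  For a node coordinate `x * y = p ^ k * u` (`u` a unit of `R`, `ρ x` a
uniformiser of `Vs`, `ord_z x = k`), the function `f ^ k / x ^ c` is a unit of `R` by (SAT), hence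
`ord_s (ρ f) * k = c`. -/
theorem ord_mul_eq {k : ℕ} {x y u : R} (hu : IsUnit u) (hxy : x * y = ⟨p, hp⟩ ^ k * u)
    (hρx : ρ x = ρ x₀) (hxord : hOz.ord (x : F) = k) : hVs.ord (ρ f) * k = c := by
  obtain ⟨C, hC⟩ := Int.eq_ofNat_of_zero_le hc.le
  obtain ⟨v, rfl⟩ := hu
  have hρx0 : ρ x ≠ 0 := hρx ▸ rho_x₀_ne hVs ρ hx₀ρ
  have hx0 : (x : F) ≠ 0 := by
    intro h
    apply hρx0
    have : x = 0 := Subtype.ext h
    rw [this, map_zero]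
  have hf0 := f_ne_zero hOz hfz hc
  have hxi : (x : F) ∉ Oi.nonunits := fun h => hρx0 ((hρker x).2 h)
  have hvinv : ((v : R) : F) * (((v⁻¹ : Rˣ) : R) : F) = 1 := by
    rw [← Subring.coe_mul, Units.mul_inv, Subring.coe_one]
  have hv0 : ((v : R) : F) ≠ 0 := left_ne_zero_of_mul_eq_one hvinv
  have hxyF : (x : F) * (y : F) = p ^ k * ((v : R) : F) := by
    have := congrArg (Subtype.val : R → F) hxy
    rwa [Subring.coe_mul, Subring.coe_mul, Subring.coe_pow] at this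
  have hp0 := hOi.ne_zero
  -- `p ^ k * x⁻¹ ∈ R`
  have hxinv : p ^ k * (x : F)⁻¹ ∈ R := by
    have e : p ^ k * (x : F)⁻¹ = (y : F) * (((v⁻¹ : Rˣ) : R) : F) := by
      have h1 : p ^ k = (x : F) * (y : F) * (((v⁻¹ : Rˣ) : R) : F) := by
        rw [hxyF, mul_assoc, hvinv, mul_one]
      rw [h1]
      field_simp
    rw [e]
    exact R.mul_mem y.2 ((v⁻¹ : Rˣ) : R).2
  obtain ⟨n, hn⟩ := hfinv
  -- the two quotients
  have hw0 : (f : F) ^ k / (x : F) ^ C ≠ 0 := div_ne_zero (pow_ne_zero _ hf0) (pow_ne_zero _ hx0)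
  have hword : hOz.ord ((f : F) ^ k / (x : F) ^ C) = 0 := by
    rw [hOz.ord_div (pow_ne_zero _ hf0) (pow_ne_zero _ hx0), hOz.ord_pow, hOz.ord_pow, hfz, hxord,
      hC]
    ring
  have hwR : (f : F) ^ k / (x : F) ^ C ∈ R := by
    refine hsat _ ?_ ?_ ⟨k * C, ?_⟩
    · rw [div_eq_mul_inv, ← inv_pow]
      exact Oi.mul_mem _ _ (pow_mem (hRi _ f.2) k) (pow_mem (inv_mem_of_not_nonunit hxi) C)
    · rw [← hOz.ord_nonneg_iff hw0, hword]
    · have e : p ^ (k * C) * ((f : F) ^ k / (x : F) ^ C) = (f : F) ^ k * (p ^ k * (x : F)⁻¹) ^ C := by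
        rw [div_eq_mul_inv, mul_pow, ← pow_mul, inv_pow]
        ring
      rw [e]
      exact R.mul_mem (R.pow_mem f.2 k) (R.pow_mem hxinv C)
  have hw'R : (x : F) ^ C / (f : F) ^ k ∈ R := by
    refine hsat _ ?_ ?_ ⟨n * k, ?_⟩
    · rw [div_eq_mul_inv, ← inv_pow]
      exact Oi.mul_mem _ _ (pow_mem (hRi _ x.2) C) (pow_mem (inv_mem_of_not_nonunit hfi) k)
    · have h0 : (x : F) ^ C / (f : F) ^ k ≠ 0 :=
        div_ne_zero (pow_ne_zero _ hx0) (pow_ne_zero _ hf0)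
      rw [← hOz.ord_nonneg_iff h0, hOz.ord_div (pow_ne_zero _ hx0) (pow_ne_zero _ hf0),
        hOz.ord_pow, hOz.ord_pow, hfz, hxord, hC]
      apply le_of_eq
      ring
    · have e : p ^ (n * k) * ((x : F) ^ C / (f : F) ^ k) = (x : F) ^ C * (p ^ n * (f : F)⁻¹) ^ k := by
        rw [div_eq_mul_inv, mul_pow, ← pow_mul, inv_pow]
        ring
      rw [e]
      exact R.mul_mem (R.pow_mem x.2 C) (R.pow_mem hn k)
  -- reduce
  have hmul : (⟨_, hwR⟩ : R) * x ^ C = f ^ k := by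
    apply Subtype.ext
    rw [Subring.coe_mul, Subring.coe_pow, Subring.coe_pow]
    exact div_mul_cancel₀ _ (pow_ne_zero _ hx0)
  have hone : (⟨_, hwR⟩ : R) * ⟨_, hw'R⟩ = 1 := by
    apply Subtype.ext
    rw [Subring.coe_mul, Subring.coe_one]
    field_simp
  have h1 : ρ ⟨_, hwR⟩ * ρ x ^ C = ρ f ^ k := by rw [← map_pow, ← map_mul, hmul, map_pow]
  have h2 : ρ ⟨_, hwR⟩ * ρ ⟨_, hw'R⟩ = 1 := by rw [← map_mul, hone, map_one]
  have hρw0 : ρ ⟨_, hwR⟩ ≠ 0 := left_ne_zero_of_mul_eq_one h2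
  have hρword : hVs.ord (ρ ⟨_, hwR⟩) = 0 :=
    hVs.ord_unit (hρV _) (by rw [← eq_inv_of_mul_eq_one_right h2]; exact hρV _) hρw0
  have h3 := congrArg hVs.ord h1
  rw [hVs.ord_mul hρw0 (pow_ne_zero _ hρx0), hVs.ord_pow, hVs.ord_pow, hρword, hρx, hx₀ρ] at h3
  rw [hC]
  linarith

include hOi hOz hRi hRz hsat hρV hρker hx₀z hy₀i hy₀z hx₀ρ hgen hfi hfz hc hfinv in
/-- **The node coordinate and the thickness (N).**  There are `k ≥ 1`, `x ≡ x₀`, `y ≡ y₀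
(mod p R)` and a unit `u` of `R` with `x * y = p ^ k * u`, `ρ x = ρ x₀` (a uniformiser of the
branch `C_∞` at the node), `ord_z x = k = ord_i y`, and `ord_s (ρ f) * k = c`. -/
theorem exists_thickness :
    ∃ (k : ℕ) (x y u : R), 0 < k ∧ IsUnit u ∧ x * y = ⟨p, hp⟩ ^ k * u ∧
      (∃ r : R, x = x₀ + ⟨p, hp⟩ * r) ∧ (∃ r : R, y = y₀ + ⟨p, hp⟩ * r) ∧
      ρ x = ρ x₀ ∧ hOz.ord (x : F) = k ∧ hOi.ord (y : F) = k ∧ hVs.ord (ρ f) * k = c := by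
  obtain ⟨k, x, y, u, hk, hu, hxy, hx, hy, hρx, hxord, hyord⟩ :=
    exists_coordinate hOi hOz hRi hRz hp hsat hVs ρ hρV hρker hx₀z hy₀i hy₀z hx₀ρ hgen hfi hfz hc
      hfinv
  exact ⟨k, x, y, u, hk, hu, hxy, hx, hy, hρx, hxord, hyord,
    ord_mul_eq hOi hOz hRi hp hsat hVs ρ hρV hρker hx₀ρ hfi hfz hc hfinv hu hxy hρx hxord⟩

include hOi hOz hRi hRz hsat hρV hρker hx₀z hy₀i hy₀z hx₀ρ hgen hfi hfz hc hfinv in
/-- The thickness divides `c`. -/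
theorem exists_thickness_dvd :
    ∃ (k : ℕ) (x y u : R), 0 < k ∧ IsUnit u ∧ x * y = ⟨p, hp⟩ ^ k * u ∧
      (∃ r : R, x = x₀ + ⟨p, hp⟩ * r) ∧ (∃ r : R, y = y₀ + ⟨p, hp⟩ * r) ∧
      ρ x = ρ x₀ ∧ hOz.ord (x : F) = k ∧ hOi.ord (y : F) = k ∧ (k : ℤ) ∣ c := by
  obtain ⟨k, x, y, u, hk, hu, hxy, hx, hy, hρx, hxord, hyord, hkc⟩ :=
    exists_thickness hOi hOz hRi hRz hp hsat hVs ρ hρV hρker hx₀z hy₀i hy₀z hx₀ρ hgen hfi hfz hc
      hfinv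
  exact ⟨k, x, y, u, hk, hu, hxy, hx, hy, hρx, hxord, hyord, ⟨_, by rw [← hkc]; ring⟩⟩

end Node

/-! ### `c = 12`: the thickness is prime to every prime `ℓ ≥ 5` -/

theorem not_dvd_of_dvd_twelve {k ℓ : ℕ} (hk : (k : ℤ) ∣ 12) (hℓ : ℓ.Prime) (h5 : 5 ≤ ℓ) :
    ¬ ℓ ∣ k := by
  intro h
  have h1 : (ℓ : ℤ) ∣ 12 := (Int.natCast_dvd_natCast.2 h).trans hk
  have h2 : ℓ ∣ 12 := by exact_mod_cast h1
  have h3 : ℓ ≤ 12 := Nat.le_of_dvd (by norm_num) h2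
  interval_cases ℓ <;> revert h2 hℓ <;> decide

section Twelve

variable {F κ : Type*} [Field F] [Field κ] {p : F} {Oi Oz : ValuationSubring F}
  (hOi : IsUnif Oi p) (hOz : IsUnif Oz p) {R : Subring F}
  (hRi : ∀ g ∈ R, g ∈ Oi) (hRz : ∀ g ∈ R, g ∈ Oz) (hp : p ∈ R)
  (hsat : ∀ g : F, g ∈ Oi → g ∈ Oz → (∃ n : ℕ, p ^ n * g ∈ R) → g ∈ R)
  {Vs : ValuationSubring κ} {t : κ} (hVs : IsUnif Vs t) (ρ : R →+* κ)
  (hρV : ∀ g : R, ρ g ∈ Vs) (hρker : ∀ g : R, ρ g = 0 ↔ (g : F) ∈ Oi.nonunits)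
  {x₀ y₀ : R} (hx₀z : (x₀ : F) ∈ Oz.nonunits) (hy₀i : (y₀ : F) ∈ Oi.nonunits)
  (hy₀z : (y₀ : F) ∉ Oz.nonunits) (hx₀ρ : hVs.ord (ρ x₀) = 1)
  (hgen : ∀ g : R, ¬ IsUnit g → ∃ α β γ : R, g = α * x₀ + β * y₀ + γ * ⟨p, hp⟩)
  {f : R} (hfi : (f : F) ∉ Oi.nonunits) (hfz : hOz.ord (f : F) = 12)
  (hfinv : ∃ n : ℕ, p ^ n * (f : F)⁻¹ ∈ R)

include hOi hOz hRi hRz hsat hρV hρker hx₀z hy₀i hy₀z hx₀ρ hgen hfi hfz hfinv in
/-- **(N) for `f` of order `12` on `C_0`** (`f = Δ(q) / Δ(q^p)`): the thickness `k` of the node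
satisfies `ord_s (ρ f) * k = 12`; in particular no prime `ℓ ≥ 5` divides it. -/
theorem exists_thickness_twelve :
    ∃ (k : ℕ) (x y u : R), 0 < k ∧ IsUnit u ∧ x * y = ⟨p, hp⟩ ^ k * u ∧
      (∃ r : R, x = x₀ + ⟨p, hp⟩ * r) ∧ (∃ r : R, y = y₀ + ⟨p, hp⟩ * r) ∧
      ρ x = ρ x₀ ∧ hOz.ord (x : F) = k ∧ hOi.ord (y : F) = k ∧ hVs.ord (ρ f) * k = 12 ∧
      ∀ ℓ : ℕ, ℓ.Prime → 5 ≤ ℓ → ¬ ℓ ∣ k := by
  obtain ⟨k, x, y, u, hk, hu, hxy, hx, hy, hρx, hxord, hyord, hkc⟩ :=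
    exists_thickness hOi hOz hRi hRz hp hsat hVs ρ hρV hρker hx₀z hy₀i hy₀z hx₀ρ hgen hfi hfz
      (by norm_num) hfinv
  exact ⟨k, x, y, u, hk, hu, hxy, hx, hy, hρx, hxord, hyord, hkc,
    fun ℓ hℓ h5 => not_dvd_of_dvd_twelve ⟨_, by rw [← hkc]; ring⟩ hℓ h5⟩

end Twelve

end Fermat.Agent.TR.Node.Thickness
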