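/-
TR, node side (N) (helper64): **the node package in instance-facing form** — bridge from the
gluing description of the local ring of a node (helper28's (N-abs), report #3307) to
`Thickness.exists_thickness`.

Setting.  `F` a field, `p : F`; `O₁, O₂` discrete valuation subrings of `F` with uniformiser `p`
(the components `C_∞`, `C_0`), with residue maps `red_i : O_i → κ_i` (kernel = non-units);
`V₁ ⊂ κ₁`, `V₂ ⊂ κ₂` discrete valuation subrings over a field of constants `k` (the germs at the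
two branch points `P₁, P₂` of a node), `k`-rational; `S ⊂ F` a subring (the local ring of the
model at the node) with
* (glue) `S ⊂ O₁ ∩ O₂` and every `g ∈ S` takes the same value `c ∈ k` at `P₁` and `P₂`;
* (loc) `g ∈ S` with `red₁ g` a unit at `P₁` is a unit of `S`;
* (surj) every pair of germs `(a, b)` with the same value at the node is `(red₁ g, red₂ g)`;
* (sat) `g ∈ O₁ ∩ O₂`, `p g ∈ S` imply `g ∈ S`;
* (unit) `f, f' ∈ S`, `f f' = p ^ e`, `e ≥ 1`, `f` a unit of `O₁`, `f'` a unit of `O₂`.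

Result (`exists_node_package`): there are `k a : ℕ` with `a * k = e` and `x, y, u, v ∈ S`, `u, v`
units of `S`, with `x y = p ^ k u`, `f = x ^ a v`, `red₁ x = t₁`, `red₂ x = 0`, `red₁ y = 0`,
`red₂ y = t₂` (the chosen uniformisers of the branches), and `𝔪_S = (x, y, p)`.
-/
import Mathlib
import Fermat.Agent.TR.Node.Thickness
import Fermat.Agent.TR.Node.Thick

set_option autoImplicit false

namespace Fermat.Agent.TR.Node.ThickPlace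

open Fermat.Agent.CAR.Formal Fermat.Agent.TR.Node.Thickness

/-! ### `f = x ^ a * unit` for a node coordinate -/

section Factor

variable {F κ : Type*} [Field F] [Field κ] {p : F} {Oi Oz : ValuationSubring F}
  (hOz : IsUnif Oz p) {R : Subring F}
  (hRi : ∀ g ∈ R, g ∈ Oi) (hp : p ∈ R)
  (hsat : ∀ g : F, g ∈ Oi → g ∈ Oz → (∃ n : ℕ, p ^ n * g ∈ R) → g ∈ R)
  (ρ : R →+* κ) (hρker : ∀ g : R, ρ g = 0 ↔ (g : F) ∈ Oi.nonunits)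
  {f : R} (hfi : (f : F) ∉ Oi.nonunits) {c : ℤ} (hfz : hOz.ord (f : F) = c) (hc : 0 < c)
  (hfinv : ∃ n : ℕ, p ^ n * (f : F)⁻¹ ∈ R)

include hOz hRi hsat hρker hfi hfz hc hfinv in
/-- For a node coordinate `x * y = p ^ k * u` with `ord_z x = k` and `a * k = c = ord_z f`, the
function `f / x ^ a` is a unit of `R`. -/
theorem exists_unit_factor {k a : ℕ} {x y u : R} (hu : IsUnit u)
    (hxy : x * y = ⟨p, hp⟩ ^ k * u) (hρx : ρ x ≠ 0) (hxord : hOz.ord (x : F) = k)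
    (hak : (a : ℤ) * k = c) : ∃ v : R, IsUnit v ∧ f = x ^ a * v := by
  obtain ⟨w, rfl⟩ := hu
  have hx0 : (x : F) ≠ 0 := by
    intro h
    apply hρx
    have : x = 0 := Subtype.ext h
    rw [this, map_zero]
  have hf0 := f_ne_zero hOz hfz hc
  have hxi : (x : F) ∉ Oi.nonunits := fun h => hρx ((hρker x).2 h)
  have hwinv : ((w : R) : F) * (((w⁻¹ : Rˣ) : R) : F) = 1 := by
    rw [← Subring.coe_mul, Units.mul_inv, Subring.coe_one]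
  have hxyF : (x : F) * (y : F) = p ^ k * ((w : R) : F) := by
    have := congrArg (Subtype.val : R → F) hxy
    rwa [Subring.coe_mul, Subring.coe_mul, Subring.coe_pow] at this
  have hxinv : p ^ k * (x : F)⁻¹ ∈ R := by
    have e : p ^ k * (x : F)⁻¹ = (y : F) * (((w⁻¹ : Rˣ) : R) : F) := by
      have h1 : p ^ k = (x : F) * (y : F) * (((w⁻¹ : Rˣ) : R) : F) := by
        rw [hxyF, mul_assoc, hwinv, mul_one]
      rw [h1]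
      field_simp
    rw [e]
    exact R.mul_mem y.2 ((w⁻¹ : Rˣ) : R).2
  obtain ⟨n, hn⟩ := hfinv
  have hv0 : (f : F) / (x : F) ^ a ≠ 0 := div_ne_zero hf0 (pow_ne_zero _ hx0)
  have hvord : hOz.ord ((f : F) / (x : F) ^ a) = 0 := by
    rw [hOz.ord_div hf0 (pow_ne_zero _ hx0), hOz.ord_pow, hfz, hxord, hak]
    ring
  have hvR : (f : F) / (x : F) ^ a ∈ R := by
    refine hsat _ ?_ ?_ ⟨k * a, ?_⟩
    · rw [div_eq_mul_inv, ← inv_pow]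
      exact Oi.mul_mem _ _ (hRi _ f.2) (pow_mem (inv_mem_of_not_nonunit hxi) a)
    · rw [← hOz.ord_nonneg_iff hv0, hvord]
    · have e : p ^ (k * a) * ((f : F) / (x : F) ^ a) = (f : F) * (p ^ k * (x : F)⁻¹) ^ a := by
        rw [div_eq_mul_inv, mul_pow, ← pow_mul, inv_pow]
        ring
      rw [e]
      exact R.mul_mem f.2 (R.pow_mem hxinv a)
  have hv'R : (x : F) ^ a / (f : F) ∈ R := by
    refine hsat _ ?_ ?_ ⟨n, ?_⟩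
    · rw [div_eq_mul_inv]
      exact Oi.mul_mem _ _ (pow_mem (hRi _ x.2) a) (inv_mem_of_not_nonunit hfi)
    · have h0 : (x : F) ^ a / (f : F) ≠ 0 := div_ne_zero (pow_ne_zero _ hx0) hf0
      rw [← hOz.ord_nonneg_iff h0, hOz.ord_div (pow_ne_zero _ hx0) hf0, hOz.ord_pow, hfz, hxord,
        hak]
      apply le_of_eq
      ring
    · have e : p ^ n * ((x : F) ^ a / (f : F)) = (x : F) ^ a * (p ^ n * (f : F)⁻¹) := by
        rw [div_eq_mul_inv]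
        ring
      rw [e]
      exact R.mul_mem (R.pow_mem x.2 a) hn
  have hone : (⟨_, hvR⟩ : R) * ⟨_, hv'R⟩ = 1 := by
    apply Subtype.ext
    rw [Subring.coe_mul, Subring.coe_one]
    field_simp
  refine ⟨⟨_, hvR⟩, IsUnit.of_mul_eq_one _ hone, ?_⟩
  apply Subtype.ext
  rw [Subring.coe_mul, Subring.coe_pow]
  exact (mul_div_cancel₀ _ (pow_ne_zero _ hx0)).symm

end Factor

/-! ### The gluing description of the local ring of a node -/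

section Germ

variable {F κ₁ κ₂ k : Type*} [Field F] [Field κ₁] [Field κ₂] [Field k] [Algebra k κ₁]
  [Algebra k κ₂] {p : F} {O₁ O₂ : ValuationSubring F} (hO₁ : IsUnif O₁ p) (hO₂ : IsUnif O₂ p)
  (red₁ : O₁ →+* κ₁) (red₂ : O₂ →+* κ₂)
  (hred₁ : ∀ y : O₁, red₁ y = 0 ↔ (y : F) ∈ O₁.nonunits)
  (hred₂ : ∀ y : O₂, red₂ y = 0 ↔ (y : F) ∈ O₂.nonunits)
  {V₁ : ValuationSubring κ₁} {V₂ : ValuationSubring κ₂} {t₁ : κ₁} {t₂ : κ₂}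
  (hV₁ : IsUnif V₁ t₁) (hV₂ : IsUnif V₂ t₂)
  (hk₁ : ∀ c : k, algebraMap k κ₁ c ∈ V₁)
  (hrat₁ : ∀ a ∈ V₁, ∃ c : k, a - algebraMap k κ₁ c ∈ V₁.nonunits)
  (hrat₂ : ∀ b ∈ V₂, ∃ c : k, b - algebraMap k κ₂ c ∈ V₂.nonunits)
  {S : Subring F} (hS₁ : ∀ g ∈ S, g ∈ O₁) (hS₂ : ∀ g ∈ S, g ∈ O₂) (hpS : p ∈ S)
  (hglue : ∀ (g : F) (hg : g ∈ S), ∃ c : k,
    red₁ ⟨g, hS₁ g hg⟩ - algebraMap k κ₁ c ∈ V₁.nonunits ∧
      red₂ ⟨g, hS₂ g hg⟩ - algebraMap k κ₂ c ∈ V₂.nonunits)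
  (hloc : ∀ (g : F) (hg : g ∈ S), red₁ ⟨g, hS₁ g hg⟩ ∉ V₁.nonunits → g⁻¹ ∈ S)
  (hsurj : ∀ (a : κ₁) (b : κ₂) (c : k), a - algebraMap k κ₁ c ∈ V₁.nonunits →
    b - algebraMap k κ₂ c ∈ V₂.nonunits →
    ∃ (g : F) (hg : g ∈ S), red₁ ⟨g, hS₁ g hg⟩ = a ∧ red₂ ⟨g, hS₂ g hg⟩ = b)
  (hsat : ∀ g : F, g ∈ O₁ → g ∈ O₂ → p * g ∈ S → g ∈ S)
  {f f' : F} (hf : f ∈ S) (hf' : f' ∈ S) {e : ℕ} (he : 1 ≤ e) (hff' : f * f' = p ^ e)
  (hf₁ : f ∉ O₁.nonunits) (hf'₂ : f' ∉ O₂.nonunits)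

/-- The restriction of a residue map `red : O → κ` to a subring `S ⊂ O`. -/
def rho {O : ValuationSubring F} {κ : Type*} [Field κ] {S : Subring F} (hS : ∀ g ∈ S, g ∈ O)
    (red : O →+* κ) : S →+* κ where
  toFun g := red ⟨g, hS g g.2⟩
  map_one' := map_one red
  map_mul' x y := map_mul red ⟨x, hS x x.2⟩ ⟨y, hS y y.2⟩
  map_zero' := map_zero red
  map_add' x y := map_add red ⟨x, hS x x.2⟩ ⟨y, hS y y.2⟩

theorem rho_apply {O : ValuationSubring F} {κ : Type*} [Field κ] {S : Subring F}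
    (hS : ∀ g ∈ S, g ∈ O) (red : O →+* κ) (g : S) : rho hS red g = red ⟨g, hS g g.2⟩ := rfl

/-- A non-unit of a discrete valuation subring is divisible by the uniformiser. -/
theorem exists_eq_unif_mul {κ : Type*} [Field κ] {V : ValuationSubring κ} {t : κ}
    (hV : IsUnif V t) {a : κ} (ha : a ∈ V.nonunits) : ∃ a' ∈ V, a = t * a' := by
  by_cases ha0 : a = 0
  · exact ⟨0, V.zero_mem, by rw [ha0, mul_zero]⟩
  have ht0 := hV.ne_zero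
  refine ⟨a / t, ?_, (mul_div_cancel₀ _ ht0).symm⟩
  rw [← hV.ord_nonneg_iff (div_ne_zero ha0 ht0), hV.ord_div ha0 ht0, hV.ord_self]
  have := (hV.ord_pos_iff ha0).2 ha
  omega

include hO₁ hO₂ hsat in
/-- (sat) for all powers of `p`. -/
theorem sat_pow : ∀ g : F, g ∈ O₁ → g ∈ O₂ → (∃ n : ℕ, p ^ n * g ∈ S) → g ∈ S := by
  intro g h1 h2 hn
  obtain ⟨n, hn⟩ := hn
  induction n with
  | zero => simpa using hn
  | succ n ih =>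
    apply ih
    refine hsat _ (O₁.mul_mem _ _ (pow_mem hO₁.mem n) h1) (O₂.mul_mem _ _ (pow_mem hO₂.mem n) h2) ?_
    rw [← mul_assoc, ← pow_succ']
    exact hn

include hO₁ hO₂ hred₁ hred₂ hV₁ hV₂ hk₁ hrat₁ hrat₂ hglue hsurj hsat in
/-- **The maximal ideal of the local ring of the node**: with lifts `x₀` of `(t₁, 0)` and `y₀` of
`(0, t₂)`, every `g ∈ S` vanishing at the node is `α x₀ + β y₀ + γ p`. -/
theorem exists_gen {x₀ y₀ : F} (hx₀S : x₀ ∈ S) (hy₀S : y₀ ∈ S)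
    (hx₀1 : red₁ ⟨x₀, hS₁ x₀ hx₀S⟩ = t₁) (hx₀2 : red₂ ⟨x₀, hS₂ x₀ hx₀S⟩ = 0)
    (hy₀1 : red₁ ⟨y₀, hS₁ y₀ hy₀S⟩ = 0) (hy₀2 : red₂ ⟨y₀, hS₂ y₀ hy₀S⟩ = t₂)
    (g : F) (hg : g ∈ S) (ha : red₁ ⟨g, hS₁ g hg⟩ ∈ V₁.nonunits) :
    ∃ α β γ : S, (⟨g, hg⟩ : S) = α * ⟨x₀, hx₀S⟩ + β * ⟨y₀, hy₀S⟩ + γ * ⟨p, hpS⟩ := by
  have hp0 := hO₁.ne_zero
  have hconst₁ : ∀ c : k, algebraMap k κ₁ c ∈ V₁.nonunits → c = 0 := by
    intro c hc
    by_contra h0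
    exact not_nonunit_of_mul_eq_one (hk₁ c⁻¹)
      (by rw [← map_mul, mul_inv_cancel₀ h0, map_one]) hc
  obtain ⟨c, hc1, hc2⟩ := hglue g hg
  have hc0 : c = 0 := hconst₁ c (by
    have e : algebraMap k κ₁ c
        = red₁ ⟨g, hS₁ g hg⟩ - (red₁ ⟨g, hS₁ g hg⟩ - algebraMap k κ₁ c) := by ring
    rw [e]
    exact nonunit_sub ha hc1)
  rw [hc0, map_zero, sub_zero] at hc2
  obtain ⟨a', ha'V, ha'⟩ := exists_eq_unif_mul hV₁ ha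
  obtain ⟨b', hb'V, hb'⟩ := exists_eq_unif_mul hV₂ hc2
  obtain ⟨c₁, hc₁⟩ := hrat₁ a' ha'V
  obtain ⟨c₂, hc₂⟩ := hrat₂ b' hb'V
  obtain ⟨α, hαS, hα1, hα2⟩ := hsurj a' (algebraMap k κ₂ c₁) c₁ hc₁
    (by rw [sub_self]; exact zero_nonunit)
  obtain ⟨β, hβS, hβ1, hβ2⟩ := hsurj (algebraMap k κ₁ c₂) b' c₂
    (by rw [sub_self]; exact zero_nonunit) hc₂
  have hhS : g - α * x₀ - β * y₀ ∈ S :=
    S.sub_mem (S.sub_mem hg (S.mul_mem hαS hx₀S)) (S.mul_mem hβS hy₀S)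
  have hh1 : g - α * x₀ - β * y₀ ∈ O₁.nonunits := by
    rw [← hred₁ ⟨_, hS₁ _ hhS⟩]
    have e : (⟨g - α * x₀ - β * y₀, hS₁ _ hhS⟩ : O₁) = ⟨g, hS₁ g hg⟩
        - ⟨α, hS₁ α hαS⟩ * ⟨x₀, hS₁ x₀ hx₀S⟩ - ⟨β, hS₁ β hβS⟩ * ⟨y₀, hS₁ y₀ hy₀S⟩ := rfl
    rw [e, map_sub, map_sub, map_mul, map_mul, hα1, hx₀1, hy₀1, ha', mul_zero, sub_zero]
    ring
  have hh2 : g - α * x₀ - β * y₀ ∈ O₂.nonunits := by
    rw [← hred₂ ⟨_, hS₂ _ hhS⟩]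
    have e : (⟨g - α * x₀ - β * y₀, hS₂ _ hhS⟩ : O₂) = ⟨g, hS₂ g hg⟩
        - ⟨α, hS₂ α hαS⟩ * ⟨x₀, hS₂ x₀ hx₀S⟩ - ⟨β, hS₂ β hβS⟩ * ⟨y₀, hS₂ y₀ hy₀S⟩ := rfl
    rw [e, map_sub, map_sub, map_mul, map_mul, hβ2, hx₀2, hy₀2, hb', mul_zero, sub_zero]
    ring
  have hγ := div_p_mem hO₁ hO₂ (sat_pow hO₁ hO₂ hsat) hhS hh1 hh2
  refine ⟨⟨α, hαS⟩, ⟨β, hβS⟩, ⟨_, hγ⟩, Subtype.ext ?_⟩
  show g = α * x₀ + β * y₀ + (g - α * x₀ - β * y₀) / p * p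
  rw [div_mul_cancel₀ _ hp0]
  ring

include hO₁ hO₂ hred₁ hred₂ hV₁ hV₂ hk₁ hrat₁ hrat₂ hpS hglue hloc hsurj hsat hf hf' he hff'
  hf₁ hf'₂ in
/-- **The node package (N)** from the gluing description of the local ring `S` of the node:
a node coordinate `x * y = p ^ k * u`, `f = x ^ a * v` with `a * k = e`, `u, v` units of `S`,
`(red₁ x, red₂ x) = (t₁, 0)`, `(red₁ y, red₂ y) = (0, t₂)`, `ord₂ x = k = ord₁ y`, and
`𝔪_S = (x, y, p)`. -/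
theorem exists_node_package :
    ∃ (k a : ℕ) (x y u v : S), 0 < k ∧ a * k = e ∧ IsUnit u ∧ IsUnit v ∧
      x * y = ⟨p, hpS⟩ ^ k * u ∧ (⟨f, hf⟩ : S) = x ^ a * v ∧
      red₁ ⟨x, hS₁ x x.2⟩ = t₁ ∧ red₂ ⟨x, hS₂ x x.2⟩ = 0 ∧
      red₁ ⟨y, hS₁ y y.2⟩ = 0 ∧ red₂ ⟨y, hS₂ y y.2⟩ = t₂ ∧
      hO₂.ord (x : F) = k ∧ hO₁.ord (y : F) = k ∧
      ∀ g : S, red₁ ⟨g, hS₁ g g.2⟩ ∈ V₁.nonunits →
        ∃ α β γ : S, g = α * x + β * y + γ * ⟨p, hpS⟩ := by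
  have hp0 := hO₁.ne_zero
  have hsat' := sat_pow hO₁ hO₂ hsat
  have hρV : ∀ g : S, rho hS₁ red₁ g ∈ V₁ := by
    intro g
    obtain ⟨c, hc1, -⟩ := hglue g g.2
    have e : rho hS₁ red₁ g
        = (red₁ ⟨g, hS₁ g g.2⟩ - algebraMap k κ₁ c) + algebraMap k κ₁ c := by
      rw [rho_apply]
      ring
    rw [e]
    exact V₁.add_mem _ _ (mem_of_nonunit hc1) (hk₁ c)
  have hρker : ∀ g : S, rho hS₁ red₁ g = 0 ↔ (g : F) ∈ O₁.nonunits :=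
    fun g => hred₁ ⟨g, hS₁ g g.2⟩
  -- the lifts of the branch uniformisers
  obtain ⟨x₀, hx₀S, hx₀1, hx₀2⟩ := hsurj t₁ 0 0
    (by rw [map_zero, sub_zero]; exact hV₁.mem_nonunits)
    (by rw [map_zero, sub_zero]; exact zero_nonunit)
  obtain ⟨y₀, hy₀S, hy₀1, hy₀2⟩ := hsurj 0 t₂ 0
    (by rw [map_zero, sub_zero]; exact zero_nonunit)
    (by rw [map_zero, sub_zero]; exact hV₂.mem_nonunits)
  have hx₀z : x₀ ∈ O₂.nonunits := (hred₂ ⟨x₀, hS₂ x₀ hx₀S⟩).1 hx₀2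
  have hy₀i : y₀ ∈ O₁.nonunits := (hred₁ ⟨y₀, hS₁ y₀ hy₀S⟩).1 hy₀1
  have hy₀z : y₀ ∉ O₂.nonunits := by
    intro h
    apply hV₂.ne_zero
    rw [← hy₀2]
    exact (hred₂ ⟨y₀, hS₂ y₀ hy₀S⟩).2 h
  have hx₀ρ : hV₁.ord (rho hS₁ red₁ ⟨x₀, hx₀S⟩) = 1 := by
    rw [rho_apply]
    show hV₁.ord (red₁ ⟨x₀, hS₁ x₀ hx₀S⟩) = 1
    rw [hx₀1, hV₁.ord_self]
  have hgenF := exists_gen hO₁ hO₂ red₁ red₂ hred₁ hred₂ hV₁ hV₂ hk₁ hrat₁ hrat₂ hS₁ hS₂ hpS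
    hglue hsurj hsat hx₀S hy₀S hx₀1 hx₀2 hy₀1 hy₀2
  have hnonunit : ∀ g : S, ¬ IsUnit g → red₁ ⟨g, hS₁ g g.2⟩ ∈ V₁.nonunits := by
    intro g hg
    by_contra h
    apply hg
    have hinv := hloc g g.2 h
    have hg0 : (g : F) ≠ 0 := by
      intro h0
      apply h
      have e : (⟨(g : F), hS₁ g g.2⟩ : O₁) = 0 := Subtype.ext h0
      rw [e, map_zero]
      exact zero_nonunit
    exact IsUnit.of_mul_eq_one ⟨_, hinv⟩ (Subtype.ext (mul_inv_cancel₀ hg0))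
  have hgen : ∀ g : S, ¬ IsUnit g →
      ∃ α β γ : S, g = α * ⟨x₀, hx₀S⟩ + β * ⟨y₀, hy₀S⟩ + γ * ⟨p, hpS⟩ :=
    fun g hg => hgenF g g.2 (hnonunit g hg)
  -- the function `f`
  have hpe0 : p ^ e ≠ 0 := pow_ne_zero _ hp0
  have hf0 : f ≠ 0 := fun h => hpe0 (by rw [← hff', h, zero_mul])
  have hf'0 : f' ≠ 0 := fun h => hpe0 (by rw [← hff', h, mul_zero])
  have hf'ord : hO₂.ord f' = 0 :=
    hO₂.ord_unit (hS₂ f' hf') (inv_mem_of_not_nonunit hf'₂) hf'0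
  have hfz : hO₂.ord ((⟨f, hf⟩ : S) : F) = (e : ℤ) := by
    have h1 := congrArg hO₂.ord hff'
    rw [hO₂.ord_mul hf0 hf'0, hO₂.ord_pow, hO₂.ord_self, hf'ord] at h1
    show hO₂.ord f = e
    omega
  have hc : (0 : ℤ) < (e : ℤ) := by exact_mod_cast he
  have hfinv : ∃ n : ℕ, p ^ n * (((⟨f, hf⟩ : S) : F))⁻¹ ∈ S := by
    refine ⟨e, ?_⟩
    have e1 : p ^ e * f⁻¹ = f' := by
      rw [← hff']
      field_simp
    show p ^ e * f⁻¹ ∈ S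
    rw [e1]
    exact hf'
  obtain ⟨k, x, y, u, hk, hu, hxy, ⟨r, hx⟩, ⟨r', hy⟩, hρx, hxord, hyord, hkc⟩ :=
    exists_thickness hO₁ hO₂ hS₁ hS₂ hpS hsat' hV₁ (rho hS₁ red₁) hρV hρker
      (x₀ := ⟨x₀, hx₀S⟩) (y₀ := ⟨y₀, hy₀S⟩) hx₀z hy₀i hy₀z hx₀ρ hgen (f := ⟨f, hf⟩) hf₁ hfz hc
      hfinv
  -- the exponent `a`
  have hkpos : (0 : ℤ) < (k : ℤ) := by exact_mod_cast hk
  have hapos : 0 < hV₁.ord (rho hS₁ red₁ ⟨f, hf⟩) := by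
    by_contra hle
    push Not at hle
    have : hV₁.ord (rho hS₁ red₁ ⟨f, hf⟩) * (k : ℤ) ≤ 0 :=
      mul_nonpos_of_nonpos_of_nonneg hle hkpos.le
    omega
  obtain ⟨a, ha⟩ := Int.eq_ofNat_of_zero_le hapos.le
  rw [ha] at hkc
  have hak : a * k = e := by exact_mod_cast hkc
  have hρx0 : rho hS₁ red₁ x ≠ 0 := by
    rw [hρx]
    exact rho_x₀_ne hV₁ (rho hS₁ red₁) hx₀ρ
  obtain ⟨v, hv, hfv⟩ := exists_unit_factor hO₂ hS₁ hpS hsat' (rho hS₁ red₁) hρker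
    (f := ⟨f, hf⟩) hf₁ hfz hc hfinv hu hxy hρx0 hxord hkc
  have hpz : ((⟨p, hpS⟩ : S) : F) ∈ O₂.nonunits := hO₂.mem_nonunits
  have hpi : ((⟨p, hpS⟩ : S) : F) ∈ O₁.nonunits := hO₁.mem_nonunits
  refine ⟨k, a, x, y, u, v, hk, hak, hu, hv, hxy, hfv, ?_, ?_, ?_, ?_, hxord, hyord, ?_⟩
  · have h1 : rho hS₁ red₁ x = rho hS₁ red₁ ⟨x₀, hx₀S⟩ := hρx
    rw [rho_apply, rho_apply] at h1
    rw [h1]
    exact hx₀1
  · rw [hred₂]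
    show (x : F) ∈ O₂.nonunits
    rw [hx, Subring.coe_add, Subring.coe_mul]
    exact nonunit_add hx₀z (nonunit_mul hpz (hS₂ _ r.2))
  · rw [hred₁]
    show (y : F) ∈ O₁.nonunits
    rw [hy, Subring.coe_add, Subring.coe_mul]
    exact nonunit_add hy₀i (nonunit_mul hpi (hS₁ _ r'.2))
  · have e1 : rho hS₂ red₂ y = rho hS₂ red₂ ⟨y₀, hy₀S⟩ := by
      rw [hy, map_add, map_mul]
      have e2 : rho hS₂ red₂ ⟨p, hpS⟩ = 0 := (hred₂ _).2 hpz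
      rw [e2, zero_mul, add_zero]
    rw [rho_apply, rho_apply] at e1
    rw [e1]
    exact hy₀2
  · intro g hg
    obtain ⟨α, β, γ, hαβγ⟩ := hgenF g g.2 hg
    refine ⟨α, β, γ - α * r - β * r', ?_⟩
    have e1 : g = α * ⟨x₀, hx₀S⟩ + β * ⟨y₀, hy₀S⟩ + γ * ⟨p, hpS⟩ := hαβγ
    rw [e1, hx, hy]
    ring

end Germ

/-! ### The same without discreteness of `O₁`, `O₂` (engine: `Thick.exists_thickness`) -/

section GermRed

variable {F κ₁ κ₂ k : Type*} [Field F] [Field κ₁] [Field κ₂] [Field k] [Algebra k κ₁]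
  [Algebra k κ₂] {p : F} {O₁ O₂ : ValuationSubring F}
  (hp₁ : p ∈ O₁.nonunits) (hp₂ : p ∈ O₂.nonunits) (hp0 : p ≠ 0)
  (red₁ : O₁ →+* κ₁) (red₂ : O₂ →+* κ₂)
  (hred₁ : ∀ y : O₁, red₁ y = 0 ↔ (y : F) ∈ O₁.nonunits)
  (hred₂ : ∀ y : O₂, red₂ y = 0 ↔ (y : F) ∈ O₂.nonunits)
  {V₁ : ValuationSubring κ₁} {V₂ : ValuationSubring κ₂} {t₁ : κ₁} {t₂ : κ₂}
  (hV₁ : IsUnif V₁ t₁) (hV₂ : IsUnif V₂ t₂)
  (hk₁ : ∀ c : k, algebraMap k κ₁ c ∈ V₁) (hk₂ : ∀ c : k, algebraMap k κ₂ c ∈ V₂)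
  (hrat₁ : ∀ a ∈ V₁, ∃ c : k, a - algebraMap k κ₁ c ∈ V₁.nonunits)
  (hrat₂ : ∀ b ∈ V₂, ∃ c : k, b - algebraMap k κ₂ c ∈ V₂.nonunits)
  {S : Subring F} (hS₁ : ∀ g ∈ S, g ∈ O₁) (hS₂ : ∀ g ∈ S, g ∈ O₂) (hpS : p ∈ S)
  (hglue : ∀ (g : F) (hg : g ∈ S), ∃ c : k,
    red₁ ⟨g, hS₁ g hg⟩ - algebraMap k κ₁ c ∈ V₁.nonunits ∧
      red₂ ⟨g, hS₂ g hg⟩ - algebraMap k κ₂ c ∈ V₂.nonunits)
  (hloc : ∀ (g : F) (hg : g ∈ S), red₁ ⟨g, hS₁ g hg⟩ ∉ V₁.nonunits → g⁻¹ ∈ S)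
  (hsurj : ∀ (a : κ₁) (b : κ₂) (c : k), a - algebraMap k κ₁ c ∈ V₁.nonunits →
    b - algebraMap k κ₂ c ∈ V₂.nonunits →
    ∃ (g : F) (hg : g ∈ S), red₁ ⟨g, hS₁ g hg⟩ = a ∧ red₂ ⟨g, hS₂ g hg⟩ = b)
  (hsat : ∀ g : F, g ∈ O₁ → g ∈ O₂ → p * g ∈ S → g ∈ S)
  (hredS : ∀ g : F, g ∈ S → g ∈ O₁.nonunits → g ∈ O₂.nonunits → ∃ γ ∈ S, g = p * γ)
  {f f' : F} (hf : f ∈ S) (hf' : f' ∈ S) {e : ℕ} (he : 1 ≤ e) (hff' : f * f' = p ^ e)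
  (hf₁ : f ∉ O₁.nonunits) (hf'₂ : f' ∉ O₂.nonunits)

include hk₁ hglue in
theorem rho_mem (g : S) : rho hS₁ red₁ g ∈ V₁ := by
  obtain ⟨c, hc1, -⟩ := hglue g g.2
  have e : rho hS₁ red₁ g
      = (red₁ ⟨g, hS₁ g g.2⟩ - algebraMap k κ₁ c) + algebraMap k κ₁ c := by
    rw [rho_apply]
    ring
  rw [e]
  exact V₁.add_mem _ _ (mem_of_nonunit hc1) (hk₁ c)

/-- The ideal of the node: the functions of `S` whose reduction on the first branch vanishes at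
the branch point. -/
def nodeIdeal (hρV : ∀ g : S, rho hS₁ red₁ g ∈ V₁) : Ideal S where
  carrier := {g | rho hS₁ red₁ g ∈ V₁.nonunits}
  add_mem' := fun {a b} ha hb => by
    show rho hS₁ red₁ (a + b) ∈ V₁.nonunits
    rw [map_add]
    exact nonunit_add ha hb
  zero_mem' := by
    show rho hS₁ red₁ 0 ∈ V₁.nonunits
    rw [map_zero]
    exact zero_nonunit
  smul_mem' := fun c x hx => by
    show rho hS₁ red₁ (c • x) ∈ V₁.nonunits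
    rw [smul_eq_mul, map_mul]
    exact mem_mul_nonunit (hρV c) hx

theorem mem_nodeIdeal (hρV : ∀ g : S, rho hS₁ red₁ g ∈ V₁) (g : S) :
    g ∈ nodeIdeal red₁ hS₁ hρV ↔ red₁ ⟨g, hS₁ g g.2⟩ ∈ V₁.nonunits := Iff.rfl

omit [Field k] in
/-- A nonzero constant is a unit of a valuation ring containing the constants. -/
theorem const_eq_zero_of_nonunit {κ : Type*} [Field κ] {k : Type*} [Field k] [Algebra k κ]
    {V : ValuationSubring κ} (hk : ∀ c : k, algebraMap k κ c ∈ V) {c : k}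
    (hc : algebraMap k κ c ∈ V.nonunits) : c = 0 := by
  by_contra h0
  exact not_nonunit_of_mul_eq_one (hk c⁻¹) (by rw [← map_mul, mul_inv_cancel₀ h0, map_one]) hc

include hp₁ hp₂ hp0 hred₁ hred₂ hV₁ hV₂ hk₁ hk₂ hrat₁ hrat₂ hpS hglue hloc hsurj hsat hredS hf hf'
  he hff' hf₁ hf'₂ in
/-- **The node package (N), without discreteness of `O₁`, `O₂`** (so that it applies to the Gauss
valuation rings of a function field over a non-discretely valued base, restricted to any subring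
`S` with (red)): from (glue), (loc), (surj), (sat), (red), (unit) for the local ring `S` of the
node. -/
theorem exists_node_package_of_red :
    ∃ (k a : ℕ) (x y u v : S), 0 < k ∧ a * k = e ∧ IsUnit u ∧ IsUnit v ∧
      x * y = ⟨p, hpS⟩ ^ k * u ∧ (⟨f, hf⟩ : S) = x ^ a * v ∧
      red₁ ⟨x, hS₁ x x.2⟩ = t₁ ∧ red₂ ⟨x, hS₂ x x.2⟩ = 0 ∧
      red₁ ⟨y, hS₁ y y.2⟩ = 0 ∧ red₂ ⟨y, hS₂ y y.2⟩ = t₂ ∧
      ∀ g : S, red₁ ⟨g, hS₁ g g.2⟩ ∈ V₁.nonunits →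
        ∃ α β γ : S, g = α * x + β * y + γ * ⟨p, hpS⟩ := by
  have hρV : ∀ g : S, rho hS₁ red₁ g ∈ V₁ := rho_mem red₁ red₂ hk₁ hS₁ hS₂ hglue
  set 𝔪 : Ideal S := nodeIdeal red₁ hS₁ hρV with h𝔪
  -- both reductions of a function of `𝔪` vanish at the node
  have hboth : ∀ g : S, red₁ ⟨g, hS₁ g g.2⟩ ∈ V₁.nonunits →
      red₂ ⟨g, hS₂ g g.2⟩ ∈ V₂.nonunits := by
    intro g ha
    obtain ⟨c, hc1, hc2⟩ := hglue g g.2
    have hc0 : c = 0 := const_eq_zero_of_nonunit hk₁ (by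
      have e : algebraMap k κ₁ c
          = red₁ ⟨g, hS₁ g g.2⟩ - (red₁ ⟨g, hS₁ g g.2⟩ - algebraMap k κ₁ c) := by ring
      rw [e]
      exact nonunit_sub ha hc1)
    rwa [hc0, map_zero, sub_zero] at hc2
  have hboth' : ∀ g : S, red₂ ⟨g, hS₂ g g.2⟩ ∈ V₂.nonunits →
      red₁ ⟨g, hS₁ g g.2⟩ ∈ V₁.nonunits := by
    intro g hb
    obtain ⟨c, hc1, hc2⟩ := hglue g g.2
    have hc0 : c = 0 := const_eq_zero_of_nonunit hk₂ (by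
      have e : algebraMap k κ₂ c
          = red₂ ⟨g, hS₂ g g.2⟩ - (red₂ ⟨g, hS₂ g g.2⟩ - algebraMap k κ₂ c) := by ring
      rw [e]
      exact nonunit_sub hb hc2)
    rwa [hc0, map_zero, sub_zero] at hc1
  -- the node ring
  have hN : Thick.NodeRing O₁ O₂ S 𝔪 ⟨p, hpS⟩ :=
    { le₁ := fun g => hS₁ g g.2
      le₂ := fun g => hS₂ g g.2
      ne_top := by
        intro h1
        have h2 : rho hS₁ red₁ (1 : S) ∈ V₁.nonunits := h1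
        rw [map_one] at h2
        exact not_nonunit_of_mul_eq_one V₁.one_mem (one_mul 1) h2
      loc := fun g hg => hloc g g.2 hg
      mem₁ := fun g hg => by
        show rho hS₁ red₁ g ∈ V₁.nonunits
        rw [rho_apply, (hred₁ _).2 hg]
        exact zero_nonunit
      mem₂ := fun g hg => by
        apply hboth' g
        rw [(hred₂ ⟨g, hS₂ g g.2⟩).2 hg]
        exact zero_nonunit
      p₁ := hp₁
      p₂ := hp₂
      p_ne := hp0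
      red := fun g h1 h2 => by
        obtain ⟨γ, hγS, hγ⟩ := hredS g g.2 h1 h2
        exact ⟨⟨γ, hγS⟩, Subtype.ext hγ⟩
      sat := hsat }
  -- the lifts of the branch uniformisers
  obtain ⟨x₀, hx₀S, hx₀1, hx₀2⟩ := hsurj t₁ 0 0
    (by rw [map_zero, sub_zero]; exact hV₁.mem_nonunits)
    (by rw [map_zero, sub_zero]; exact zero_nonunit)
  obtain ⟨y₀, hy₀S, hy₀1, hy₀2⟩ := hsurj 0 t₂ 0
    (by rw [map_zero, sub_zero]; exact zero_nonunit)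
    (by rw [map_zero, sub_zero]; exact hV₂.mem_nonunits)
  have hC : Thick.Coord O₁ O₂ S 𝔪 ⟨x₀, hx₀S⟩ ⟨y₀, hy₀S⟩ :=
    { x₁ := by
        intro h
        apply hV₁.ne_zero
        rw [← hx₀1]
        exact (hred₁ ⟨x₀, hS₁ x₀ hx₀S⟩).2 h
      x₂ := (hred₂ ⟨x₀, hS₂ x₀ hx₀S⟩).1 hx₀2
      y₁ := (hred₁ ⟨y₀, hS₁ y₀ hy₀S⟩).1 hy₀1
      y₂ := by
        intro h
        apply hV₂.ne_zero
        rw [← hy₀2]
        exact (hred₂ ⟨y₀, hS₂ y₀ hy₀S⟩).2 h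
      gen := by
        intro g hg
        have ha : red₁ ⟨g, hS₁ g g.2⟩ ∈ V₁.nonunits := hg
        have hb := hboth g ha
        obtain ⟨a', ha'V, ha'⟩ := exists_eq_unif_mul hV₁ ha
        obtain ⟨b', hb'V, hb'⟩ := exists_eq_unif_mul hV₂ hb
        obtain ⟨c₁, hc₁⟩ := hrat₁ a' ha'V
        obtain ⟨c₂, hc₂⟩ := hrat₂ b' hb'V
        obtain ⟨α, hαS, hα1, hα2⟩ := hsurj a' (algebraMap k κ₂ c₁) c₁ hc₁
          (by rw [sub_self]; exact zero_nonunit)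
        obtain ⟨β, hβS, hβ1, hβ2⟩ := hsurj (algebraMap k κ₁ c₂) b' c₂
          (by rw [sub_self]; exact zero_nonunit) hc₂
        refine ⟨⟨α, hαS⟩, ⟨β, hβS⟩, ?_, ?_⟩
        · have hm : (g : F) - α * x₀ ∈ S := S.sub_mem g.2 (S.mul_mem hαS hx₀S)
          show (g : F) - α * x₀ ∈ O₁.nonunits
          rw [← hred₁ ⟨_, hS₁ _ hm⟩]
          have e : (⟨(g : F) - α * x₀, hS₁ _ hm⟩ : O₁) = ⟨g, hS₁ g g.2⟩
              - ⟨α, hS₁ α hαS⟩ * ⟨x₀, hS₁ x₀ hx₀S⟩ := rfl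
          rw [e, map_sub, map_mul, hα1, hx₀1, ha']
          ring
        · have hm : (g : F) - β * y₀ ∈ S := S.sub_mem g.2 (S.mul_mem hβS hy₀S)
          show (g : F) - β * y₀ ∈ O₂.nonunits
          rw [← hred₂ ⟨_, hS₂ _ hm⟩]
          have e : (⟨(g : F) - β * y₀, hS₂ _ hm⟩ : O₂) = ⟨g, hS₂ g g.2⟩
              - ⟨β, hS₂ β hβS⟩ * ⟨y₀, hS₂ y₀ hy₀S⟩ := rfl
          rw [e, map_sub, map_mul, hβ2, hy₀2, hb']
          ring }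
  -- the unit datum
  have hρf0 : red₁ ⟨f, hS₁ f hf⟩ ≠ 0 := fun h => hf₁ ((hred₁ ⟨f, hS₁ f hf⟩).1 h)
  have hρfV : red₁ ⟨f, hS₁ f hf⟩ ∈ V₁ := hρV ⟨f, hf⟩
  obtain ⟨wb, hwbV, hwbV', hwb0, hwb⟩ := hV₁.exists_unit_eq hρf0
  have hordf : 0 ≤ hV₁.ord (red₁ ⟨f, hS₁ f hf⟩) := (hV₁.ord_nonneg_iff hρf0).2 hρfV
  obtain ⟨a, ha⟩ := Int.eq_ofNat_of_zero_le hordf
  rw [ha, zpow_natCast] at hwb
  obtain ⟨cw, hcw⟩ := hrat₁ wb hwbV
  obtain ⟨w, hwS, hw1, hw2⟩ := hsurj wb (algebraMap k κ₂ cw) cw hcw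
    (by rw [sub_self]; exact zero_nonunit)
  have hU : Thick.UnitDatum O₁ O₂ S 𝔪 ⟨p, hpS⟩ ⟨x₀, hx₀S⟩ ⟨f, hf⟩ ⟨f', hf'⟩ e a ⟨w, hwS⟩ :=
    { e_pos := he
      ff := Subtype.ext hff'
      f₁ := hf₁
      f₂ := hf'₂
      w_not := by
        intro h
        have h2 : red₁ ⟨w, hS₁ w hwS⟩ ∈ V₁.nonunits := h
        rw [hw1] at h2
        exact not_nonunit_of_mul_eq_one hwbV' (mul_inv_cancel₀ hwb0) h2
      ord := by
        have hm : f - x₀ ^ a * w ∈ S := S.sub_mem hf (S.mul_mem (S.pow_mem hx₀S a) hwS)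
        show f - x₀ ^ a * w ∈ O₁.nonunits
        rw [← hred₁ ⟨_, hS₁ _ hm⟩]
        have e1 : (⟨f - x₀ ^ a * w, hS₁ _ hm⟩ : O₁) = ⟨f, hS₁ f hf⟩
            - ⟨x₀, hS₁ x₀ hx₀S⟩ ^ a * ⟨w, hS₁ w hwS⟩ := rfl
        rw [e1, map_sub, map_mul, map_pow, hx₀1, hw1, ← hwb, sub_self] }
  obtain ⟨k, x, y, u, v, hak, hu, hv, hxy, hfv, hCxy, ⟨d, hx⟩, ⟨d', hy⟩⟩ :=
    Thick.exists_thickness hN hC hU
  have hunit : ∀ g : S, g ∉ 𝔪 → IsUnit g := by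
    intro g hg
    have hinv := hN.loc g hg
    have hg0 : (g : F) ≠ 0 := by
      intro h0
      apply hg
      have e1 : g = 0 := Subtype.ext h0
      rw [e1]
      exact 𝔪.zero_mem
    exact IsUnit.of_mul_eq_one ⟨_, hinv⟩ (Subtype.ext (mul_inv_cancel₀ hg0))
  have hk : 0 < k := by
    rcases Nat.eq_zero_or_pos k with h0 | h0
    · rw [h0, mul_zero] at hak
      omega
    · exact h0
  have hρp₁ : rho hS₁ red₁ ⟨p, hpS⟩ = 0 := (hred₁ _).2 hp₁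
  have hρp₂ : rho hS₂ red₂ ⟨p, hpS⟩ = 0 := (hred₂ _).2 hp₂
  refine ⟨k, a, x, y, u, v, hk, hak, hunit u hu, hunit v hv, hxy, hfv, ?_, ?_, ?_, ?_, ?_⟩
  · have e1 : rho hS₁ red₁ x = rho hS₁ red₁ ⟨x₀, hx₀S⟩ := by
      rw [hx, map_add, map_mul, hρp₁, zero_mul, add_zero]
    rw [rho_apply, rho_apply] at e1
    rw [e1]
    exact hx₀1
  · have e1 : rho hS₂ red₂ x = rho hS₂ red₂ ⟨x₀, hx₀S⟩ := by
      rw [hx, map_add, map_mul, hρp₂, zero_mul, add_zero]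
    rw [rho_apply, rho_apply] at e1
    rw [e1]
    exact hx₀2
  · have e1 : rho hS₁ red₁ y = rho hS₁ red₁ ⟨y₀, hy₀S⟩ := by
      rw [hy, map_add, map_mul, hρp₁, zero_mul, add_zero]
    rw [rho_apply, rho_apply] at e1
    rw [e1]
    exact hy₀1
  · have e1 : rho hS₂ red₂ y = rho hS₂ red₂ ⟨y₀, hy₀S⟩ := by
      rw [hy, map_add, map_mul, hρp₂, zero_mul, add_zero]
    rw [rho_apply, rho_apply] at e1
    rw [e1]
    exact hy₀2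
  · intro g hg
    exact hCxy.mem_span hN hg

end GermRed

end Fermat.Agent.TR.Node.ThickPlace
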