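/-
TR, node side (N) (helper64): **the node package in BAD's `Place` / `Cong` vocabulary.**

`ThickPlace.exists_node_package_of_red` restated for two Prelude places `P₁ : Place k κ₁`,
`P₂ : Place k κ₂` (the branch points `e₁ i`, `e₂ i` of a node of BAD's nodal fibre) with residue
field `k` (`RR.ResK`), the congruences written with `NodalRiemann.Cong`.

* `cong_iff_nonunit` : `Cong P a c ↔ a - algebraMap k κ c ∈ P.toValuationSubring.nonunits`.
* `exists_sub_nonunit_of_resK` : rationality of the germ ring in the shape of `ThickPlace`.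
* `exists_node_package_cong` : **(N)** from (glue), (loc), (surj), (sat), (red), (unit) for the
  local ring `S` of a node — thickness `k ∣ e`, node coordinate `x * y = p ^ k * u`,
  `f = x ^ a * v`, `a * k = e`, `ord_{P₁} (red₁ x) = 1`, `red₂ x = 0`, `red₁ y = 0`,
  `ord_{P₂} (red₂ y) = 1`, and `𝔪_S = (x, y, p)`.
-/
import Mathlib
import Fermat.Agent.TR.Node.ThickPlace
import Fermat.Agent.BAD.NodalRiemann
import Fermat.Agent.CAR.Local.Inst.PlaceBridge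
import Fermat.Agent.Lib.Red.PlaceRedLocal

set_option autoImplicit false

namespace Fermat.Agent.TR.Node.ThickCong

open AlgebraicCurve Fermat.Agent.CAR.Formal Fermat.Agent.TR.Node.Thickness
  Fermat.Agent.TR.Node.ThickPlace Fermat.Agent.BAD.NodalRiemann
  Fermat.Agent.CAR.Local.Inst

section Cong

variable {K κ : Type*} [Field K] [Field κ] [Algebra K κ]

/-- `Cong P a c` in terms of the non-units of the valuation ring of the place. -/
theorem cong_iff_nonunit (P : Place K κ) (a : κ) (c : K) :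
    Cong P a c ↔ a - algebraMap K κ c ∈ P.toValuationSubring.nonunits := by
  unfold Cong
  by_cases h0 : a - algebraMap K κ c = 0
  · rw [h0, map_zero]
    exact ⟨fun _ => zero_nonunit, fun _ => zero_lt_one⟩
  · rw [Fermat.Agent.Lib.Red.PlaceRed.adicValuation_lt_one_iff P h0,
      PlaceBridge.mem_nonunits_iff P h0]

/-- Rationality of a place with residue field `K`, in the shape used by `ThickPlace`. -/
theorem exists_sub_nonunit_of_resK {P : Place K κ} (hP : Fermat.Agent.Lib.FF.RR.ResK P) :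
    ∀ a ∈ P.toValuationSubring, ∃ c : K,
      a - algebraMap K κ c ∈ P.toValuationSubring.nonunits := by
  intro a ha
  obtain ⟨c, hc⟩ := hP ⟨a, ha⟩
  refine ⟨c, ?_⟩
  rw [ValuationSubring.mem_nonunits_iff_exists_mem_maximalIdeal]
  exact ⟨P.toValuationSubring.sub_mem ha (P.algebraMap_mem' c), hc⟩

end Cong

section Package

variable {F κ₁ κ₂ k : Type*} [Field F] [Field κ₁] [Field κ₂] [Field k] [Algebra k κ₁]
  [Algebra k κ₂] {p : F} {O₁ O₂ : ValuationSubring F}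
  (hp₁ : p ∈ O₁.nonunits) (hp₂ : p ∈ O₂.nonunits) (hp0 : p ≠ 0)
  (red₁ : O₁ →+* κ₁) (red₂ : O₂ →+* κ₂)
  (hred₁ : ∀ y : O₁, red₁ y = 0 ↔ (y : F) ∈ O₁.nonunits)
  (hred₂ : ∀ y : O₂, red₂ y = 0 ↔ (y : F) ∈ O₂.nonunits)
  (P₁ : Place k κ₁) (P₂ : Place k κ₂)
  (hP₁ : Fermat.Agent.Lib.FF.RR.ResK P₁) (hP₂ : Fermat.Agent.Lib.FF.RR.ResK P₂)
  {S : Subring F} (hS₁ : ∀ g ∈ S, g ∈ O₁) (hS₂ : ∀ g ∈ S, g ∈ O₂) (hpS : p ∈ S)
  (hglue : ∀ (g : F) (hg : g ∈ S), ∃ c : k,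
    Cong P₁ (red₁ ⟨g, hS₁ g hg⟩) c ∧ Cong P₂ (red₂ ⟨g, hS₂ g hg⟩) c)
  (hloc : ∀ (g : F) (hg : g ∈ S), ¬ Cong P₁ (red₁ ⟨g, hS₁ g hg⟩) 0 → g⁻¹ ∈ S)
  (hsurj : ∀ (a : κ₁) (b : κ₂) (c : k), Cong P₁ a c → Cong P₂ b c →
    ∃ (g : F) (hg : g ∈ S), red₁ ⟨g, hS₁ g hg⟩ = a ∧ red₂ ⟨g, hS₂ g hg⟩ = b)
  (hsat : ∀ g : F, g ∈ O₁ → g ∈ O₂ → p * g ∈ S → g ∈ S)
  (hredS : ∀ g : F, g ∈ S → g ∈ O₁.nonunits → g ∈ O₂.nonunits → ∃ γ ∈ S, g = p * γ)
  {f f' : F} (hf : f ∈ S) (hf' : f' ∈ S) {e : ℕ} (he : 1 ≤ e) (hff' : f * f' = p ^ e)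
  (hf₁ : f ∉ O₁.nonunits) (hf'₂ : f' ∉ O₂.nonunits)

include hp₁ hp₂ hp0 hred₁ hred₂ hP₁ hP₂ hpS hglue hloc hsurj hsat hredS hf hf' he hff' hf₁ hf'₂ in
/-- **The node package (N) in `Place` / `Cong` vocabulary.**  `S` the local ring of the model at a
node with branch points `P₁`, `P₂` (residue field `k`), `O₁`, `O₂` the valuation rings of the two
components with residue maps `red₁`, `red₂`, `p` a non-unit of both; (glue), (loc), (surj), (sat),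
(red) for `S`, and a vertical unit `f * f' = p ^ e` with valuation vector `(0, e)`.  Then the
node has a thickness `k ∣ e`: a node coordinate `x * y = p ^ k * u` with `f = x ^ a * v`,
`a * k = e`, `u, v` units of `S`, `red₁ x` and `red₂ y` uniformisers at `P₁`, `P₂`,
`red₂ x = 0 = red₁ y`, and `𝔪_S = (x, y, p)`. -/
theorem exists_node_package_cong :
    ∃ (k a : ℕ) (x y u v : S), 0 < k ∧ a * k = e ∧ IsUnit u ∧ IsUnit v ∧
      x * y = ⟨p, hpS⟩ ^ k * u ∧ (⟨f, hf⟩ : S) = x ^ a * v ∧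
      P₁.ord (red₁ ⟨x, hS₁ x x.2⟩) = 1 ∧ red₂ ⟨x, hS₂ x x.2⟩ = 0 ∧
      red₁ ⟨y, hS₁ y y.2⟩ = 0 ∧ P₂.ord (red₂ ⟨y, hS₂ y y.2⟩) = 1 ∧
      ∀ g : S, Cong P₁ (red₁ ⟨g, hS₁ g g.2⟩) 0 →
        ∃ α β γ : S, g = α * x + β * y + γ * ⟨p, hpS⟩ := by
  obtain ⟨t₁, ht₁⟩ := PlaceBridge.exists_isUnif P₁
  obtain ⟨t₂, ht₂⟩ := PlaceBridge.exists_isUnif P₂
  have hzero₁ : ∀ a : κ₁, Cong P₁ a 0 ↔ a ∈ P₁.toValuationSubring.nonunits := fun a => by
    rw [cong_iff_nonunit, map_zero, sub_zero]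
  obtain ⟨k', a, x, y, u, v, hk, hak, hu, hv, hxy, hfv, hx1, hx2, hy1, hy2, hgen⟩ :=
    exists_node_package_of_red hp₁ hp₂ hp0 red₁ red₂ hred₁ hred₂ ht₁ ht₂
      P₁.algebraMap_mem' P₂.algebraMap_mem' (exists_sub_nonunit_of_resK hP₁)
      (exists_sub_nonunit_of_resK hP₂) hS₁ hS₂ hpS
      (fun g hg => by
        obtain ⟨c, h1, h2⟩ := hglue g hg
        exact ⟨c, (cong_iff_nonunit _ _ _).1 h1, (cong_iff_nonunit _ _ _).1 h2⟩)
      (fun g hg h => hloc g hg (fun hc => h ((hzero₁ _).1 hc)))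
      (fun a b c h1 h2 => hsurj a b c ((cong_iff_nonunit _ _ _).2 h1)
        ((cong_iff_nonunit _ _ _).2 h2))
      hsat hredS hf hf' he hff' hf₁ hf'₂
  refine ⟨k', a, x, y, u, v, hk, hak, hu, hv, hxy, hfv, ?_, hx2, hy1, ?_, ?_⟩
  · rw [hx1]
    exact PlaceBridge.ord_isUnif P₁ ht₁
  · rw [hy2]
    exact PlaceBridge.ord_isUnif P₂ ht₂
  · intro g hg
    exact hgen g ((hzero₁ _).1 hg)

end Package

end Fermat.Agent.TR.Node.ThickCong
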