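import Mathlib
import Fermat.Agent.BAD.LatFixedLift
import Fermat.Agent.BAD.LatFixedRing
import Fermat.Agent.BAD.HenselPlaceInst
import Fermat.Agent.TR.Unit.FDelta
import Fermat.Agent.TR.Unit.FDeltaGal
import Fermat.Agent.TR.Node.JDatum
import Fermat.Agent.TR.Node.ThickCong
import Fermat.Agent.TR.Node.NodeRingAbs

/-!
# TR / node side: the node package (N) at the nodes of the special fibre of `X₀(Mq)` at `q`

Setting of `BadU` / `KerRed` (`A` a valuation subring of `ℚ̄` over `q`, `h : BadSetup A π M q`,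
`O = OPair h W = O_∞ ∩ O_0`, `redPair h W : O → κ × κ`) with a nodal datum
`(ι, e₁, e₂, P₁, Z₁, P₂, Z₂, E1, E2)` as in `KerRed.NodalFibreFor` (its conjuncts are hypotheses
here).

* `nodeRing h W E1 e₁ e₂ i` : the local ring of the model at the node `i`: the inertia-fixed
  functions `g` with `t * g ∈ Λ`, `t ∈ Λ`, `t(node i) ≠ 0`, where `Λ = O ∩ ⋃ L(n • E1)` is the
  ring of integral inertia-fixed functions of the chart `X ∖ E1`
  (`NodeRingAbs.nodeRing` at the modular objects);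
* `mem_OInf`, `mem_OZero`, `mem_fixed`, `chart_mem`, `natCast_mem_nodeRing`;
* (glue) `exists_cong`, (loc) `inv_mem`, (surj) `exists_red_eq`, (sat) `mem_of_mul_mem`,
  (red) `exists_eq_mul`;
* `exists_nodePkg` : **(N)** for a vertical unit `f * f' = q ^ e` of the chart: thickness `k`,
  node coordinates `x * y = q ^ k * u`, `f = x ^ a * v`, `a * k = e`, `a = ord_{e₁ i} (red_∞ f)`;
* `exists_nodePkg_delta` : (N) for `f_Δ = Δ(q)/Δ(q^q)`: `ord_{e₁ i} (red_∞ f_Δ) * k = 12`;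
* `exists_datum_nodePkg` : the closed form for `q ≥ 5` (datum of `JDatum.nodalFibreFor_J`).
-/

set_option autoImplicit false

noncomputable section

namespace Fermat.Agent.TR.Node.NodeRing

open AlgebraicCurve ModularCurve WithZero Fermat.Agent.Lib.FF Fermat.Agent.Lib.Red.Deform
  Fermat.Agent.BAD.NodalRiemann Fermat.Agent.BAD.TwoVal Fermat.Agent.BAD.LatFixedInst
  Fermat.Agent.BAD.LatFixedRing Fermat.Agent.TR.Unit.FDelta Fermat.Agent.CAR.V3
  Fermat.Agent.ESJ.Cong.LevelGen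

local notation "Qb" => AlgebraicClosure ℚ

variable {A : ValuationSubring Qb} {k : Type} [Field k] {π : A →+* k} {M q : ℕ} [NeZero M]
  [NeZero q]

/-! ### The two Gauss valuation rings -/

section Gauss

variable {W : laurentBaseChange Qb (modularFunctionFieldFull (M * q)) ≃ₐ[Qb]
    laurentBaseChange Qb (modularFunctionFieldFull (M * q))}
  {f : laurentBaseChange Qb (modularFunctionFieldFull (M * q))}

theorem redInf_eq_zero_iff_nonunit (h : BadSetup A π M q) (y : OInf h) :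
    redInf h y = 0 ↔
      (y : laurentBaseChange Qb (modularFunctionFieldFull (M * q))) ∈ (OInf h).nonunits := by
  rw [redInf_eq_zero_iff, ValuationSubring.coe_mem_nonunits_iff, IsLocalRing.mem_maximalIdeal,
    mem_nonunits_iff]

theorem redZero_eq_zero_iff_nonunit (h : BadSetup A π M q) (y : OZero h W) :
    redZero h W y = 0 ↔
      (y : laurentBaseChange Qb (modularFunctionFieldFull (M * q))) ∈ (OZero h W).nonunits := by
  rw [redZero_eq_zero_iff, ValuationSubring.coe_mem_nonunits_iff, IsLocalRing.mem_maximalIdeal,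
    mem_nonunits_iff]

omit [NeZero M] [NeZero q] in
theorem natCast_eq_algebraMap (n : ℕ) :
    ((n : ℕ) : laurentBaseChange Qb (modularFunctionFieldFull (M * q))) =
      algebraMap Qb (laurentBaseChange Qb (modularFunctionFieldFull (M * q))) ((n : ℕ) : Qb) :=
  (map_natCast _ n).symm

omit [NeZero M] in
theorem q_ne_zero : ((q : ℕ) : laurentBaseChange Qb (modularFunctionFieldFull (M * q))) ≠ 0 :=
  Nat.cast_ne_zero.2 (NeZero.ne q)

theorem q_mem_nonunits_OInf (hA : A.LiesOverPrime q) (h : BadSetup A π M q) :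
    ((q : ℕ) : laurentBaseChange Qb (modularFunctionFieldFull (M * q))) ∈ (OInf h).nonunits := by
  have hA' : ((q : ℕ) : Qb) ∈ A.nonunits := hA
  rw [ValuationSubring.mem_nonunits_iff_or] at hA' ⊢
  rcases hA' with h0 | h1
  · exact absurd h0 (Nat.cast_ne_zero.2 (NeZero.ne q))
  · refine Or.inr ?_
    rw [natCast_eq_algebraMap, ← map_inv₀, algebraMap_mem_OInf_iff]
    exact h1

theorem q_mem_nonunits_OZero (hA : A.LiesOverPrime q) (h : BadSetup A π M q) :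
    ((q : ℕ) : laurentBaseChange Qb (modularFunctionFieldFull (M * q))) ∈
      (OZero h W).nonunits := by
  have hA' : ((q : ℕ) : Qb) ∈ A.nonunits := hA
  rw [ValuationSubring.mem_nonunits_iff_or] at hA' ⊢
  rcases hA' with h0 | h1
  · exact absurd h0 (Nat.cast_ne_zero.2 (NeZero.ne q))
  · refine Or.inr ?_
    rw [natCast_eq_algebraMap, ← map_inv₀, algebraMap_mem_OZero_iff]
    exact h1

/-! ### The unit `f_Δ` -/

theorem f_notMem_nonunits_OInf (h : BadSetup A π M q)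
    (hf : (f : LaurentSeries Qb) = Units.u1 Qb q) : f ∉ (OInf h).nonunits := by
  rw [ValuationSubring.mem_nonunits_iff_or]
  push Not
  exact ⟨f_ne_zero hf, inv_f_mem_OInf h hf⟩

theorem g_notMem_nonunits_OZero (h : BadSetup A π M q) (hW : IsAL M q W)
    (hf : (f : LaurentSeries Qb) = Units.u1 Qb q) :
    ((q : ℕ) : laurentBaseChange Qb (modularFunctionFieldFull (M * q))) ^ 12 * f⁻¹ ∉
      (OZero h W).nonunits := by
  rw [ValuationSubring.mem_nonunits_iff_or]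
  push Not
  refine ⟨g_ne_zero h.hℓ hf, ?_⟩
  have e : (((q : ℕ) : laurentBaseChange Qb (modularFunctionFieldFull (M * q))) ^ 12 * f⁻¹)⁻¹ =
      f / ((q : ℕ) : laurentBaseChange Qb (modularFunctionFieldFull (M * q))) ^ 12 := by
    rw [mul_inv, inv_inv, div_eq_mul_inv]
    exact mul_comm _ _
  rw [e]
  exact f_div_mem_OZero h hW hf

omit [NeZero M] in
theorem f_mem_fixedSubring (hf : (f : LaurentSeries Qb) = Units.u1 Qb q) :
    f ∈ fixedSubring A (M * q) := fun σ _ => smul_f hf σ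

omit [NeZero M] in
theorem g_mem_fixedSubring (hf : (f : LaurentSeries Qb) = Units.u1 Qb q) :
    ((q : ℕ) : laurentBaseChange Qb (modularFunctionFieldFull (M * q))) ^ 12 * f⁻¹ ∈
      fixedSubring A (M * q) := fun σ _ => smul_g hf σ

end Gauss

/-! ### The node ring -/

/-- **The local ring of the model at the node `i`** (inertia-fixed functions): the functions
`g` with `t * g ∈ Λ` for some `t ∈ Λ` whose reduction has a non-zero value at the node, `Λ` the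
integral inertia-fixed functions of the chart `X ∖ E1`. -/
def nodeRing (h : BadSetup A π M q)
    (W : laurentBaseChange Qb (modularFunctionFieldFull (M * q)) ≃ₐ[Qb]
      laurentBaseChange Qb (modularFunctionFieldFull (M * q)))
    (E1 : Divisor Qb (laurentBaseChange Qb (modularFunctionFieldFull (M * q))))
    {ι : Type} (e₁ e₂ : ι → Place k (modularFunctionFieldFullC k M)) (i : ι) :
    Subring (laurentBaseChange Qb (modularFunctionFieldFull (M * q))) :=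
  NodeRingAbs.nodeRing (redPair h W) (fixedSubring A (M * q)) E1 e₁ e₂ i

section Datum

variable [IsAlgClosed k] (hA : A.LiesOverPrime q) (hπ : Function.Surjective π)
  (h : BadSetup A π M q)
  (W : laurentBaseChange Qb (modularFunctionFieldFull (M * q)) ≃ₐ[Qb]
    laurentBaseChange Qb (modularFunctionFieldFull (M * q))) (hW : IsAL M q W)
  (E1 E2 : Divisor Qb (laurentBaseChange Qb (modularFunctionFieldFull (M * q))))
  {ι : Type} [Fintype ι]
  (e₁ e₂ : ι → Place k (modularFunctionFieldFullC k M))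
  (P₁ Z₁ P₂ Z₂ : Divisor k (modularFunctionFieldFullC k M))
  (hinj₁ : Function.Injective e₁) (hinj₂ : Function.Injective e₂)
  (hP₁ : ∀ i, P₁ (e₁ i) = 0) (hP₂ : ∀ i, P₂ (e₂ i) = 0)
  (hdegP₁ : 0 < Divisor.degree P₁) (hdegP₂ : 0 < Divisor.degree P₂)
  (hE1 : ∀ v, 0 ≤ E1 v) (hE2 : ∀ v, 0 ≤ E2 v)
  (hgalE : ∀ σ ∈ A.inertiaSubgroupIn ℚ,
    arithmeticGalois (modularFunctionFieldFull (M * q)) σ • E1 = E1 ∧
    arithmeticGalois (modularFunctionFieldFull (M * q)) σ • E2 = E2)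
  (hS2 : ∃ N₀ : ℕ, ∀ n₁ n₂ : ℕ, N₀ ≤ n₁ + n₂ →
    ∀ t : ↥(modularFunctionFieldFullC k M) × ↥(modularFunctionFieldFullC k M),
      (∃ y : OPair h W,
          (y : laurentBaseChange Qb (modularFunctionFieldFull (M * q))) ∈
            riemannRochSpace (n₁ • E1 + n₂ • E2) ∧ redPair h W y = t) ↔
        t ∈ gluedSpace e₁ e₂ (fun _ => (1 : k))
          (n₁ • P₁ + n₂ • Z₁) (n₁ • P₂ + n₂ • Z₂))
  (i : ι)

omit [IsAlgClosed k] [Fintype ι] in
/-- The reduction of constants. -/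
theorem hconst (a : A) : redPair h W ⟨algebraMap Qb
      ↥(laurentBaseChange Qb (modularFunctionFieldFull (M * q))) (a : Qb),
      (OPair_hOA h _).2 a.2⟩ = algebraMap k (↥(modularFunctionFieldFullC k M) ×
      ↥(modularFunctionFieldFullC k M)) (π a) :=
  (redPair_algebraMap h a _).trans rfl

omit [NeZero M] [NeZero q] [IsAlgClosed k] [Fintype ι] in
theorem E1_nonneg (hE1 : ∀ v, 0 ≤ E1 v) :
    (0 : Divisor Qb (laurentBaseChange Qb (modularFunctionFieldFull (M * q)))) ≤ E1 :=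
  Finsupp.le_def.mpr fun v => by rw [Finsupp.zero_apply]; exact hE1 v

include hS2 in
omit [IsAlgClosed k] [Fintype ι] in
/-- The charts `X ∖ E1` of the nodal datum. -/
theorem charts_E1 : ∃ N₀ : ℕ, ∀ N, N₀ ≤ N →
    ∀ t : ↥(modularFunctionFieldFullC k M) × ↥(modularFunctionFieldFullC k M),
      (∃ y : OPair h W, (y : laurentBaseChange Qb (modularFunctionFieldFull (M * q))) ∈
          riemannRochSpace (N • E1) ∧ redPair h W y = t) ↔
        t ∈ gluedSpace e₁ e₂ (fun _ => (1 : k)) (N • P₁) (N • P₂) := by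
  obtain ⟨N₀, hN₀⟩ := hS2
  refine ⟨N₀, fun N hN t => ?_⟩
  have h1 := hN₀ N 0 (by omega) t
  simpa only [zero_smul, add_zero] using h1

omit [IsAlgClosed k] [Fintype ι] in
/-- The functions of the node ring are integral for both Gauss valuations. -/
theorem mem_OPair {g : laurentBaseChange Qb (modularFunctionFieldFull (M * q))}
    (hg : g ∈ nodeRing h W E1 e₁ e₂ i) : g ∈ OPair h W :=
  NodeRingAbs.mem_O (fun x => OPair_hOA h x) (OPair_hval h) (redPair h W) π h.pi_eq_zero_iff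
    (hconst h W) (redPair_eq_zero_iff h) (fixedSubring A (M * q)) E1 e₁ e₂ i hg

omit [IsAlgClosed k] [Fintype ι] in
theorem mem_OInf {g : laurentBaseChange Qb (modularFunctionFieldFull (M * q))}
    (hg : g ∈ nodeRing h W E1 e₁ e₂ i) : g ∈ OInf h :=
  ((mem_OPair_iff h g).1 (mem_OPair h W E1 e₁ e₂ i hg)).1

omit [IsAlgClosed k] [Fintype ι] in
theorem mem_OZero {g : laurentBaseChange Qb (modularFunctionFieldFull (M * q))}
    (hg : g ∈ nodeRing h W E1 e₁ e₂ i) : g ∈ OZero h W :=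
  ((mem_OPair_iff h g).1 (mem_OPair h W E1 e₁ e₂ i hg)).2

omit [IsAlgClosed k] [Fintype ι] in
/-- The functions of the node ring are inertia-fixed. -/
theorem mem_fixed {g : laurentBaseChange Qb (modularFunctionFieldFull (M * q))}
    (hg : g ∈ nodeRing h W E1 e₁ e₂ i) : g ∈ fixedSubring A (M * q) :=
  NodeRingAbs.mem_Fx hg

omit [IsAlgClosed k] [Fintype ι] in
/-- The integral inertia-fixed functions of the chart `X ∖ E1` lie in the node ring. -/
theorem chart_mem (hE1 : ∀ v, 0 ≤ E1 v) {N : ℕ}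
    {y : laurentBaseChange Qb (modularFunctionFieldFull (M * q))} (hyO : y ∈ OPair h W)
    (hyL : y ∈ riemannRochSpace (N • E1)) (hyF : y ∈ fixedSubring A (M * q)) :
    y ∈ nodeRing h W E1 e₁ e₂ i :=
  NodeRingAbs.chart_mem (redPair h W) (fixedSubring A (M * q)) (E1_nonneg E1 hE1) e₁ e₂ i hyO
    hyL hyF

omit [IsAlgClosed k] [Fintype ι] in
/-- The natural numbers lie in the node ring. -/
theorem natCast_mem_nodeRing (hE1 : ∀ v, 0 ≤ E1 v) (n : ℕ) :
    ((n : ℕ) : laurentBaseChange Qb (modularFunctionFieldFull (M * q))) ∈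
      nodeRing h W E1 e₁ e₂ i := by
  rw [natCast_eq_algebraMap]
  exact NodeRingAbs.algebraMap_mem (fun x => OPair_hOA h x) (redPair h W)
    (fixedSubring A (M * q)) (E1_nonneg E1 hE1) e₁ e₂ i (_root_.natCast_mem A n)
    (algebraMap_natCast_mem n)

include hE1 hS2 in
omit [IsAlgClosed k] [Fintype ι] in
/-- **(glue)**: the two reductions of a function of the node ring are regular at the node and
take the same value there. -/
theorem exists_cong {g : laurentBaseChange Qb (modularFunctionFieldFull (M * q))}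
    (hg : g ∈ nodeRing h W E1 e₁ e₂ i) :
    ∃ c : k, Cong (e₁ i) (redInf h ⟨g, mem_OInf h W E1 e₁ e₂ i hg⟩) c ∧
      Cong (e₂ i) (redZero h W ⟨g, mem_OZero h W E1 e₁ e₂ i hg⟩) c :=
  NodeRingAbs.exists_cong (fun x => OPair_hOA h x) (OPair_hval h) (redPair h W) π
    h.pi_eq_zero_iff (hconst h W) (redPair_eq_zero_iff h) (fixedSubring A (M * q)) E1 e₁ e₂ i
    (E1_nonneg E1 hE1) (charts_E1 h W E1 E2 e₁ e₂ P₁ Z₁ P₂ Z₂ hS2) hg

include hE1 hS2 in
omit [IsAlgClosed k] [Fintype ι] in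
/-- **(loc)**: a function of the node ring whose reduction does not vanish at the node is a unit
of the node ring. -/
theorem inv_mem {g : laurentBaseChange Qb (modularFunctionFieldFull (M * q))}
    (hg : g ∈ nodeRing h W E1 e₁ e₂ i)
    (hg0 : ¬ Cong (e₁ i) (redInf h ⟨g, mem_OInf h W E1 e₁ e₂ i hg⟩) 0) :
    g⁻¹ ∈ nodeRing h W E1 e₁ e₂ i :=
  NodeRingAbs.inv_mem (fun x => OPair_hOA h x) (OPair_hval h) (redPair h W) π
    h.pi_eq_zero_iff (hconst h W) (redPair_eq_zero_iff h) (fixedSubring A (M * q)) E1 e₁ e₂ i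
    (E1_nonneg E1 hE1) (charts_E1 h W E1 E2 e₁ e₂ P₁ Z₁ P₂ Z₂ hS2)
    (fun _ hx => Fermat.Agent.BAD.LatFixedRing.inv_mem hx) hg hg0

include hA hπ hW hinj₁ hinj₂ hP₁ hP₂ hdegP₁ hdegP₂ hE1 hE2 hgalE hS2 in
/-- **(surj)**: every pair of germs regular at the node with equal values is the reduction of a
function of the node ring. -/
theorem exists_red_eq {a b : ↥(modularFunctionFieldFullC k M)} {c : k}
    (ha : Cong (e₁ i) a c) (hb : Cong (e₂ i) b c) :
    ∃ (g : laurentBaseChange Qb (modularFunctionFieldFull (M * q)))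
      (hg : g ∈ nodeRing h W E1 e₁ e₂ i),
      redInf h ⟨g, mem_OInf h W E1 e₁ e₂ i hg⟩ = a ∧
        redZero h W ⟨g, mem_OZero h W E1 e₁ e₂ i hg⟩ = b := by
  obtain ⟨hP₁0, -, hP₂0, -⟩ :=
    Fermat.Agent.BAD.HenselPlaceInst.nonneg_of_datum h W E1 E2 e₁ e₂ P₁ Z₁ P₂ Z₂ hE1 hE2 hS2
  obtain ⟨g, hg, hred⟩ := NodeRingAbs.exists_red_eq (isFF1_xk k M) (isFF1_xk k M)
    (fun x => OPair_hOA h x) (OPair_hval h) (redPair h W) π
    h.pi_eq_zero_iff (hconst h W) (redPair_eq_zero_iff h) (fixedSubring A (M * q)) E1 e₁ e₂ i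
    hinj₁ hinj₂ P₁ P₂ hP₁ hP₂ hP₁0 hP₂0 hdegP₁ hdegP₂
    (charts_E1 h W E1 E2 e₁ e₂ P₁ Z₁ P₂ Z₂ hS2) (fun _ hx => Fermat.Agent.BAD.LatFixedRing.inv_mem hx)
    (fun N y hy => by
      obtain ⟨f', hf'O, hf'B, hf'fix, hf'red⟩ :=
        exists_fixed_lift_rr h.hℓ hA h hπ hW (N • E1)
          (fun σ hσ => by rw [smul_comm, (hgalE σ hσ).1]) hy y.2
      exact ⟨⟨f', hf'O⟩, hf'B, hf'fix, hf'red⟩) ha hb
  exact ⟨g, hg, congrArg Prod.fst hred, congrArg Prod.snd hred⟩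

omit [IsAlgClosed k] [Fintype ι] in
/-- **(sat)**: the node ring is saturated in `O_∞ ∩ O_0`. -/
theorem mem_of_mul_mem {g : laurentBaseChange Qb (modularFunctionFieldFull (M * q))}
    (hg1 : g ∈ OInf h) (hg2 : g ∈ OZero h W)
    (hqg : ((q : ℕ) : laurentBaseChange Qb (modularFunctionFieldFull (M * q))) * g ∈
      nodeRing h W E1 e₁ e₂ i) : g ∈ nodeRing h W E1 e₁ e₂ i := by
  rw [natCast_eq_algebraMap] at hqg
  exact NodeRingAbs.mem_of_mul_mem (redPair h W) (fixedSubring A (M * q)) E1 e₁ e₂ i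
    (fun _ hx => Fermat.Agent.BAD.LatFixedRing.inv_mem hx) (Nat.cast_ne_zero.2 (NeZero.ne q))
    (algebraMap_natCast_mem q) ((mem_OPair_iff h g).2 ⟨hg1, hg2⟩) hqg

include hA hW in
omit [IsAlgClosed k] [Fintype ι] in
/-- **(red)**: a function of the node ring vanishing on both components of the special fibre is
divisible by `q` in the node ring. -/
theorem exists_eq_mul {g : laurentBaseChange Qb (modularFunctionFieldFull (M * q))}
    (hg : g ∈ nodeRing h W E1 e₁ e₂ i) (hg1 : g ∈ (OInf h).nonunits)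
    (hg2 : g ∈ (OZero h W).nonunits) :
    ∃ γ ∈ nodeRing h W E1 e₁ e₂ i,
      g = ((q : ℕ) : laurentBaseChange Qb (modularFunctionFieldFull (M * q))) * γ := by
  have h0 : redPair h W ⟨g, mem_OPair h W E1 e₁ e₂ i hg⟩ = 0 := by
    rw [redPair_mk]
    exact Prod.ext ((redInf_eq_zero_iff_nonunit h _).2 hg1)
      ((redZero_eq_zero_iff_nonunit h _).2 hg2)
  obtain ⟨γ, hγ, e⟩ := NodeRingAbs.exists_eq_mul_of_red_eq_zero (fun x => OPair_hOA h x)
    (OPair_hval h) (redPair h W) π h.pi_eq_zero_iff (hconst h W) (redPair_eq_zero_iff h)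
    (fixedSubring A (M * q)) E1 e₁ e₂ i (fun _ hx => Fermat.Agent.BAD.LatFixedRing.inv_mem hx)
    (p := ((q : ℕ) : Qb)) (Nat.cast_ne_zero.2 (NeZero.ne q)) (algebraMap_natCast_mem q)
    (fun g hg hsm => dvd_of_fixed_small h.hℓ hA h hW hg hsm) hg h0
  exact ⟨γ, hγ, by rw [natCast_eq_algebraMap]; exact e⟩

omit [IsAlgClosed k] [Fintype ι] in
/-- The reduction on the first branch of a unit of the node ring has order zero at the node. -/
theorem ord_redInf_of_isUnit (hE1 : ∀ v, 0 ≤ E1 v)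
    (hS2 : ∃ N₀ : ℕ, ∀ n₁ n₂ : ℕ, N₀ ≤ n₁ + n₂ →
      ∀ t : ↥(modularFunctionFieldFullC k M) × ↥(modularFunctionFieldFullC k M),
        (∃ y : OPair h W,
            (y : laurentBaseChange Qb (modularFunctionFieldFull (M * q))) ∈
              riemannRochSpace (n₁ • E1 + n₂ • E2) ∧ redPair h W y = t) ↔
          t ∈ gluedSpace e₁ e₂ (fun _ => (1 : k))
            (n₁ • P₁ + n₂ • Z₁) (n₁ • P₂ + n₂ • Z₂))
    {v : nodeRing h W E1 e₁ e₂ i} (hv : IsUnit v) :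
    redInf h ⟨v, mem_OInf h W E1 e₁ e₂ i v.2⟩ ≠ 0 ∧
      (e₁ i).ord (redInf h ⟨v, mem_OInf h W E1 e₁ e₂ i v.2⟩) = 0 := by
  obtain ⟨w, hw⟩ := hv.exists_right_inv
  have hvw : redInf h ⟨v, mem_OInf h W E1 e₁ e₂ i v.2⟩ *
      redInf h ⟨w, mem_OInf h W E1 e₁ e₂ i w.2⟩ = 1 := by
    rw [← map_mul, ← map_one (redInf h)]
    congr 1
    have hw' := congrArg Subtype.val hw
    exact Subtype.ext hw'
  have hv0 : redInf h ⟨v, mem_OInf h W E1 e₁ e₂ i v.2⟩ ≠ 0 := left_ne_zero_of_mul_eq_one hvw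
  have hw0 : redInf h ⟨w, mem_OInf h W E1 e₁ e₂ i w.2⟩ ≠ 0 := right_ne_zero_of_mul_eq_one hvw
  obtain ⟨c, hc, -⟩ := exists_cong h W E1 E2 e₁ e₂ P₁ Z₁ P₂ Z₂ hE1 hS2 i v.2
  obtain ⟨d, hd, -⟩ := exists_cong h W E1 E2 e₁ e₂ P₁ Z₁ P₂ Z₂ hE1 hS2 i w.2
  have h1 := ((e₁ i).adicValuation_le_one_iff.1 hc.le_one).resolve_left hv0
  have h2 := ((e₁ i).adicValuation_le_one_iff.1 hd.le_one).resolve_left hw0
  have h3 := (e₁ i).ord_mul hv0 hw0
  rw [hvw, Place.ord_one] at h3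
  exact ⟨hv0, by omega⟩

include hA hπ hW hinj₁ hinj₂ hP₁ hP₂ hdegP₁ hdegP₂ hE1 hE2 hgalE hS2 in
/-- **The node package (N) at the node `i`**, for a vertical unit `f * f' = q ^ e` of the node
ring with `v_∞ f = 0` and `v_0 f' = 0`: the node has a thickness `k` with `a * k = e`,
`a = ord_{e₁ i} (red_∞ f)`; there are node coordinates `x`, `y` (`red_∞ x` a uniformiser of the
first branch, `red_0 x = 0`, `red_∞ y = 0`, `red_0 y` a uniformiser of the second branch) with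
`x * y = q ^ k * u`, `f = x ^ a * v`, `u`, `v` units, and the maximal ideal of the node ring is
`(x, y, q)`. -/
theorem exists_nodePkg {f f' : laurentBaseChange Qb (modularFunctionFieldFull (M * q))}
    (hf : f ∈ nodeRing h W E1 e₁ e₂ i) (hf' : f' ∈ nodeRing h W E1 e₁ e₂ i) {e : ℕ}
    (he : 1 ≤ e)
    (hff' : f * f' = ((q : ℕ) : laurentBaseChange Qb (modularFunctionFieldFull (M * q))) ^ e)
    (hf₁ : f ∉ (OInf h).nonunits) (hf'₂ : f' ∉ (OZero h W).nonunits) :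
    ∃ (k' a : ℕ) (x y u v : nodeRing h W E1 e₁ e₂ i), 0 < k' ∧ a * k' = e ∧ IsUnit u ∧
      IsUnit v ∧
      x * y = ((q : ℕ) : nodeRing h W E1 e₁ e₂ i) ^ k' * u ∧
      (⟨f, hf⟩ : nodeRing h W E1 e₁ e₂ i) = x ^ a * v ∧
      (e₁ i).ord (redInf h ⟨x, mem_OInf h W E1 e₁ e₂ i x.2⟩) = 1 ∧
      redZero h W ⟨x, mem_OZero h W E1 e₁ e₂ i x.2⟩ = 0 ∧
      redInf h ⟨y, mem_OInf h W E1 e₁ e₂ i y.2⟩ = 0 ∧
      (e₂ i).ord (redZero h W ⟨y, mem_OZero h W E1 e₁ e₂ i y.2⟩) = 1 ∧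
      (e₁ i).ord (redInf h ⟨f, mem_OInf h W E1 e₁ e₂ i hf⟩) = a ∧
      ∀ g : nodeRing h W E1 e₁ e₂ i,
        Cong (e₁ i) (redInf h ⟨g, mem_OInf h W E1 e₁ e₂ i g.2⟩) 0 →
        ∃ α β γ : nodeRing h W E1 e₁ e₂ i, g = α * x + β * y +
          γ * ((q : ℕ) : nodeRing h W E1 e₁ e₂ i) := by
  obtain ⟨k', a, x, y, u, v, hk, hak, hu, hv, hxy, hfv, hx1, hx2, hy1, hy2, hgen⟩ :=
    ThickCong.exists_node_package_cong (q_mem_nonunits_OInf hA h) (q_mem_nonunits_OZero hA h)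
      q_ne_zero (redInf h) (redZero h W) (redInf_eq_zero_iff_nonunit h)
      (redZero_eq_zero_iff_nonunit h) (e₁ i) (e₂ i) ((isFF1_xk k M).resK _)
      ((isFF1_xk k M).resK _) (fun g hg => mem_OInf h W E1 e₁ e₂ i hg)
      (fun g hg => mem_OZero h W E1 e₁ e₂ i hg) (natCast_mem_nodeRing h W E1 e₁ e₂ i hE1 q)
      (fun g hg => exists_cong h W E1 E2 e₁ e₂ P₁ Z₁ P₂ Z₂ hE1 hS2 i hg)
      (fun g hg h0 => inv_mem h W E1 E2 e₁ e₂ P₁ Z₁ P₂ Z₂ hE1 hS2 i hg h0)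
      (fun a b c ha hb => exists_red_eq hA hπ h W hW E1 E2 e₁ e₂ P₁ Z₁ P₂ Z₂ hinj₁ hinj₂ hP₁ hP₂
        hdegP₁ hdegP₂ hE1 hE2 hgalE hS2 i ha hb)
      (fun g hg1 hg2 hqg => mem_of_mul_mem h W E1 e₁ e₂ i hg1 hg2 hqg)
      (fun g hg hg1 hg2 => exists_eq_mul hA h W hW E1 e₁ e₂ i hg hg1 hg2)
      hf hf' he hff' hf₁ hf'₂
  have hq : (⟨((q : ℕ) : laurentBaseChange Qb (modularFunctionFieldFull (M * q))),
      natCast_mem_nodeRing h W E1 e₁ e₂ i hE1 q⟩ : nodeRing h W E1 e₁ e₂ i) =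
      ((q : ℕ) : nodeRing h W E1 e₁ e₂ i) := Subtype.ext rfl
  rw [hq] at hxy hgen
  refine ⟨k', a, x, y, u, v, hk, hak, hu, hv, hxy, hfv, hx1, hx2, hy1, hy2, ?_, hgen⟩
  obtain ⟨hv0, hvord⟩ := ord_redInf_of_isUnit h W E1 E2 e₁ e₂ P₁ Z₁ P₂ Z₂ i hE1 hS2 hv
  have hx0 : redInf h ⟨x, mem_OInf h W E1 e₁ e₂ i x.2⟩ ≠ 0 := by
    intro h0
    rw [h0, Place.ord_zero] at hx1
    exact zero_ne_one hx1
  have e1 : redInf h ⟨f, mem_OInf h W E1 e₁ e₂ i hf⟩ =
      redInf h ⟨x, mem_OInf h W E1 e₁ e₂ i x.2⟩ ^ a *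
        redInf h ⟨v, mem_OInf h W E1 e₁ e₂ i v.2⟩ := by
    rw [← map_pow, ← map_mul]
    congr 1
    have hfv' := congrArg Subtype.val hfv
    exact Subtype.ext hfv'
  rw [e1, (e₁ i).ord_mul (pow_ne_zero a hx0) hv0, hvord, add_zero, ← zpow_natCast,
    (e₁ i).ord_zpow, hx1, mul_one]

include hA hπ hW hinj₁ hinj₂ hP₁ hP₂ hdegP₁ hdegP₂ hE1 hE2 hgalE hS2 in
/-- **(N) for `f_Δ = Δ(q)/Δ(q^q)`**: at every node `i` of the special fibre,
`ord_{e₁ i} (red_∞ f_Δ) * k_i = 12` for the thickness `k_i` of the node, with node coordinates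
`x * y = q ^ k_i * u` and `f_Δ = x ^ a * v`.  `hint` : the functions regular off the cusps lie in
the chart ring of `E1` (`JDatum.nodalFibreFor_J`). -/
theorem exists_nodePkg_delta
    (hint : ∀ g : ↥(laurentBaseChange Qb (modularFunctionFieldFull (M * q))),
      IsIntegral (Algebra.adjoin Qb
        ({heckeAlphaBar Qb M q (jLevel Qb M)} :
          Set ↥(laurentBaseChange Qb (modularFunctionFieldFull (M * q))))) g →
      ∃ n : ℕ, g ∈ riemannRochSpace (n • E1))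
    {f : laurentBaseChange Qb (modularFunctionFieldFull (M * q))}
    (hf : (f : LaurentSeries Qb) = Units.u1 Qb q) :
    ∃ (hfS : f ∈ nodeRing h W E1 e₁ e₂ i) (k' a : ℕ) (x y u v : nodeRing h W E1 e₁ e₂ i),
      0 < k' ∧ a * k' = 12 ∧ IsUnit u ∧ IsUnit v ∧
      x * y = ((q : ℕ) : nodeRing h W E1 e₁ e₂ i) ^ k' * u ∧
      (⟨f, hfS⟩ : nodeRing h W E1 e₁ e₂ i) = x ^ a * v ∧
      (e₁ i).ord (redInf h ⟨x, mem_OInf h W E1 e₁ e₂ i x.2⟩) = 1 ∧
      redZero h W ⟨x, mem_OZero h W E1 e₁ e₂ i x.2⟩ = 0 ∧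
      redInf h ⟨y, mem_OInf h W E1 e₁ e₂ i y.2⟩ = 0 ∧
      (e₂ i).ord (redZero h W ⟨y, mem_OZero h W E1 e₁ e₂ i y.2⟩) = 1 ∧
      (e₁ i).ord (redInf h ⟨f, f_mem_OInf h hf⟩) = a ∧
      ∀ g : nodeRing h W E1 e₁ e₂ i,
        Cong (e₁ i) (redInf h ⟨g, mem_OInf h W E1 e₁ e₂ i g.2⟩) 0 →
        ∃ α β γ : nodeRing h W E1 e₁ e₂ i, g = α * x + β * y +
          γ * ((q : ℕ) : nodeRing h W E1 e₁ e₂ i) := by
  have hJ : IsIntegral (Algebra.adjoin Qb
      ({heckeAlphaBar Qb M q (jLevel Qb M)} :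
        Set ↥(laurentBaseChange Qb (modularFunctionFieldFull (M * q)))))
      (heckeAlphaBar Qb M q (jLevel Qb M)) :=
    isIntegral_algebraMap (x := (⟨heckeAlphaBar Qb M q (jLevel Qb M),
      Algebra.subset_adjoin (Set.mem_singleton _)⟩ : Algebra.adjoin Qb
      ({heckeAlphaBar Qb M q (jLevel Qb M)} :
        Set ↥(laurentBaseChange Qb (modularFunctionFieldFull (M * q))))))
  obtain ⟨hif, hig⟩ := isIntegral_f_g h.hℓ hJ hf
  obtain ⟨n, hn⟩ := hint f hif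
  obtain ⟨n', hn'⟩ := hint _ hig
  have hfS : f ∈ nodeRing h W E1 e₁ e₂ i :=
    chart_mem h W E1 e₁ e₂ i hE1 ((mem_OPair_iff h f).2 ⟨f_mem_OInf h hf, f_mem_OZero h hW hf⟩)
      hn (f_mem_fixedSubring hf)
  have hgS : ((q : ℕ) : laurentBaseChange Qb (modularFunctionFieldFull (M * q))) ^ 12 * f⁻¹ ∈
      nodeRing h W E1 e₁ e₂ i :=
    chart_mem h W E1 e₁ e₂ i hE1
      ((mem_OPair_iff h _).2 ⟨g_mem_OInf h hf, g_mem_OZero h hW hf⟩) hn' (g_mem_fixedSubring hf)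
  obtain ⟨k', a, x, y, u, v, hk, hak, hu, hv, hxy, hfv, hx1, hx2, hy1, hy2, hfa, hgen⟩ :=
    exists_nodePkg hA hπ h W hW E1 E2 e₁ e₂ P₁ Z₁ P₂ Z₂ hinj₁ hinj₂ hP₁ hP₂ hdegP₁ hdegP₂ hE1 hE2
      hgalE hS2 i hfS hgS (le_of_eq_of_le rfl (by norm_num : 1 ≤ 12)) (f_mul_g hf)
      (f_notMem_nonunits_OInf h hf) (g_notMem_nonunits_OZero h hW hf)
  exact ⟨hfS, k', a, x, y, u, v, hk, hak, hu, hv, hxy, hfv, hx1, hx2, hy1, hy2, hfa, hgen⟩

end Datum

/-! ### The closed form at residue characteristic `≥ 5` -/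

set_option synthInstance.maxHeartbeats 400000 in
set_option maxHeartbeats 1600000 in
/-- **(N), closed form**: for `q ≥ 5` the special fibre of `X₀(Mq)` at `q` has a nodal datum
(`KerRed.NodalFibreFor`) whose chart `X ∖ E1` contains the functions regular off the cusps, and
at EVERY node `i` of the datum `f_Δ = Δ(q)/Δ(q^q)` satisfies
`ord_{e₁ i} (red_∞ f_Δ) * k_i = 12` for the thickness `k_i` of the node, with node coordinates
`x * y = q ^ k_i * u`, `f_Δ = x ^ a * v` in the node ring, whose maximal ideal is `(x, y, q)`. -/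
theorem exists_datum_nodePkg (A : ValuationSubring Qb) (hA : A.LiesOverPrime q)
    (h : BadSetup A (IsLocalRing.residue A) M q) (hq5 : 5 ≤ q)
    (W : laurentBaseChange Qb (modularFunctionFieldFull (M * q)) ≃ₐ[Qb]
      laurentBaseChange Qb (modularFunctionFieldFull (M * q))) (hW : IsAL M q W)
    {f : laurentBaseChange Qb (modularFunctionFieldFull (M * q))}
    (hf : (f : LaurentSeries Qb) = Units.u1 Qb q) :
    ∃ (E1 E2 : Divisor Qb (laurentBaseChange Qb (modularFunctionFieldFull (M * q))))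
      (ι : Type) (_ : Fintype ι) (_ : Nonempty ι)
      (e₁ e₂ : ι → Place (IsLocalRing.ResidueField A)
        (modularFunctionFieldFullC (IsLocalRing.ResidueField A) M))
      (P₁ Z₁ P₂ Z₂ : Divisor (IsLocalRing.ResidueField A)
        (modularFunctionFieldFullC (IsLocalRing.ResidueField A) M)),
      (Function.Injective e₁ ∧ Function.Injective e₂ ∧
        (∀ i, P₁ (e₁ i) = 0) ∧ (∀ i, Z₁ (e₁ i) = 0) ∧ (∀ i, P₂ (e₂ i) = 0) ∧
        (∀ i, Z₂ (e₂ i) = 0) ∧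
        (∀ v, P₁ v = 0 ∨ Z₁ v = 0) ∧ (∀ v, P₂ v = 0 ∨ Z₂ v = 0) ∧
        0 < Divisor.degree P₁ ∧ 0 < Divisor.degree P₂ ∧
        (∀ v, 0 ≤ E1 v) ∧ (∀ v, 0 ≤ E2 v) ∧ (∀ v, E1 v = 0 ∨ E2 v = 0) ∧
        0 < Divisor.degree E1 ∧ 0 < Divisor.degree E2 ∧
        (∀ σ ∈ A.inertiaSubgroupIn ℚ,
          arithmeticGalois (modularFunctionFieldFull (M * q)) σ • E1 = E1 ∧
          arithmeticGalois (modularFunctionFieldFull (M * q)) σ • E2 = E2) ∧
        ∃ N₀ : ℕ, ∀ n₁ n₂ : ℕ, N₀ ≤ n₁ + n₂ →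
          ∀ t : ↥(modularFunctionFieldFullC (IsLocalRing.ResidueField A) M) ×
              ↥(modularFunctionFieldFullC (IsLocalRing.ResidueField A) M),
            (∃ y : OPair h W,
                (y : laurentBaseChange Qb (modularFunctionFieldFull (M * q))) ∈
                  riemannRochSpace (n₁ • E1 + n₂ • E2) ∧ redPair h W y = t) ↔
              t ∈ gluedSpace e₁ e₂ (fun _ => (1 : IsLocalRing.ResidueField A))
                (n₁ • P₁ + n₂ • Z₁) (n₁ • P₂ + n₂ • Z₂)) ∧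
      (∀ g : ↥(laurentBaseChange Qb (modularFunctionFieldFull (M * q))),
        IsIntegral (Algebra.adjoin Qb
          ({heckeAlphaBar Qb M q (jLevel Qb M)} :
            Set ↥(laurentBaseChange Qb (modularFunctionFieldFull (M * q))))) g →
        ∃ n : ℕ, g ∈ riemannRochSpace (n • E1)) ∧
      ∀ i : ι, ∃ (hfS : f ∈ nodeRing h W E1 e₁ e₂ i) (k' a : ℕ)
        (x y u v : nodeRing h W E1 e₁ e₂ i),
        0 < k' ∧ a * k' = 12 ∧ IsUnit u ∧ IsUnit v ∧
        x * y = ((q : ℕ) : nodeRing h W E1 e₁ e₂ i) ^ k' * u ∧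
        (⟨f, hfS⟩ : nodeRing h W E1 e₁ e₂ i) = x ^ a * v ∧
        (e₁ i).ord (redInf h ⟨x, mem_OInf h W E1 e₁ e₂ i x.2⟩) = 1 ∧
        redZero h W ⟨x, mem_OZero h W E1 e₁ e₂ i x.2⟩ = 0 ∧
        redInf h ⟨y, mem_OInf h W E1 e₁ e₂ i y.2⟩ = 0 ∧
        (e₂ i).ord (redZero h W ⟨y, mem_OZero h W E1 e₁ e₂ i y.2⟩) = 1 ∧
        (e₁ i).ord (redInf h ⟨f, f_mem_OInf h hf⟩) = a ∧
        ∀ g : nodeRing h W E1 e₁ e₂ i,
          Cong (e₁ i) (redInf h ⟨g, mem_OInf h W E1 e₁ e₂ i g.2⟩) 0 →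
          ∃ α β γ : nodeRing h W E1 e₁ e₂ i, g = α * x + β * y +
            γ * ((q : ℕ) : nodeRing h W E1 e₁ e₂ i) := by
  have : IsAlgClosed (IsLocalRing.ResidueField A) := CharP.isAlgClosed_residueField A
  obtain ⟨E1, E2, hNF, hint⟩ := JDatum.nodalFibreFor_J A M q h hq5 W hW
  obtain ⟨ι, i1, i2, e₁, e₂, P₁, Z₁, P₂, Z₂, hinj₁, hinj₂, hP₁, hZ₁, hP₂, hZ₂, hPZ₁, hPZ₂,
    hdegP₁, hdegP₂, hE1, hE2, hE12, hdegE1, hdegE2, hgalE, hS2⟩ := hNF
  exact ⟨E1, E2, ι, i1, i2, e₁, e₂, P₁, Z₁, P₂, Z₂,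
    ⟨hinj₁, hinj₂, hP₁, hZ₁, hP₂, hZ₂, hPZ₁, hPZ₂, hdegP₁, hdegP₂, hE1, hE2, hE12, hdegE1,
      hdegE2, hgalE, hS2⟩, hint,
    fun i => exists_nodePkg_delta hA IsLocalRing.residue_surjective h W hW E1 E2 e₁ e₂ P₁ Z₁ P₂
      Z₂ hinj₁ hinj₂ hP₁ hP₂ hdegP₁ hdegP₂ hE1 hE2 hgalE hS2 i hint hf⟩

end Fermat.Agent.TR.Node.NodeRing
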