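/-
TR, node side (N) (helper64): **consumer shapes of the node package.**

`ThickCong.exists_node_package_cong` with the same binders, plus the conjuncts which the
consumers of the node package ((PL), (UNIT), (EIS)) use:

* `unit_facts` : a unit of the node ring `S` has order `0` at both branch points and is a unit of
  both valuation rings;
* `unit_cong` : a unit of `S` takes a common non-zero value at the node;
* `exists_node_package_full` : the package of `ThickCong` together with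
  `ord_{P₁} (red₁ f) = a` (so `ord_{P₁} (red₁ f) * k = e`), the mirror
  `ord_{P₂} (red₂ f') = a`, `x` a unit of `O₁`, `y` a unit of `O₂`, and
  `x / p ^ k` a unit of `O₂`, `y / p ^ k` a unit of `O₁`.
-/
import Mathlib
import Fermat.Agent.TR.Node.ThickCong

set_option autoImplicit false

namespace Fermat.Agent.TR.Node.ThickCongCor

open AlgebraicCurve Fermat.Agent.CAR.Formal Fermat.Agent.TR.Node.Thickness
  Fermat.Agent.TR.Node.ThickPlace Fermat.Agent.TR.Node.ThickCong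
  Fermat.Agent.BAD.NodalRiemann Fermat.Agent.CAR.Local.Inst

section Package

variable {F κ₁ κ₂ k : Type*} [Field F] [Field κ₁] [Field κ₂] [Field k] [Algebra k κ₁]
  [Algebra k κ₂] {p : F} {O₁ O₂ : ValuationSubring F}
  (hp₁ : p ∈ O₁.nonunits) (hp₂ : p ∈ O₂.nonunits) (hp0 : p ≠ 0)
  (red₁ : O₁ →+* κ₁) (red₂ : O₂ →+* κ₂)
  (hred₁ : ∀ y : O₁, red₁ y = 0 ↔ (y : F) ∈ O₁.nonunits)
  (hred₂ : ∀ y : O₂, red₂ y = 0 ↔ (y : F) ∈ O₂.nonunits)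
  (P₁ : Place k κ₁) (P₂ : Place k κ₂)
  (hP₁ : Fermat.Agent.Lib.FF.RR.ResK P₁) (hP₂ : Fermat.Agent.Lib.FF.RR.ResK P₂)
  {S : Subring F} (hS₁ : ∀ g ∈ S, g ∈ O₁) (hS₂ : ∀ g ∈ S, g ∈ O₂) (hpS : p ∈ S)
  (hglue : ∀ (g : F) (hg : g ∈ S), ∃ c : k,
    Cong P₁ (red₁ ⟨g, hS₁ g hg⟩) c ∧ Cong P₂ (red₂ ⟨g, hS₂ g hg⟩) c)
  (hloc : ∀ (g : F) (hg : g ∈ S), ¬ Cong P₁ (red₁ ⟨g, hS₁ g hg⟩) 0 → g⁻¹ ∈ S)
  (hsurj : ∀ (a : κ₁) (b : κ₂) (c : k), Cong P₁ a c → Cong P₂ b c →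
    ∃ (g : F) (hg : g ∈ S), red₁ ⟨g, hS₁ g hg⟩ = a ∧ red₂ ⟨g, hS₂ g hg⟩ = b)
  (hsat : ∀ g : F, g ∈ O₁ → g ∈ O₂ → p * g ∈ S → g ∈ S)
  (hredS : ∀ g : F, g ∈ S → g ∈ O₁.nonunits → g ∈ O₂.nonunits → ∃ γ ∈ S, g = p * γ)
  {f f' : F} (hf : f ∈ S) (hf' : f' ∈ S) {e : ℕ} (he : 1 ≤ e) (hff' : f * f' = p ^ e)
  (hf₁ : f ∉ O₁.nonunits) (hf'₂ : f' ∉ O₂.nonunits)

include hglue in
/-- Reductions of elements of the node ring are regular at the first branch point. -/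
theorem red_mem_fst (g : S) : red₁ ⟨g, hS₁ g g.2⟩ ∈ P₁.toValuationSubring := by
  obtain ⟨c, h1, -⟩ := hglue g g.2
  have h2 := mem_of_nonunit ((cong_iff_nonunit _ _ _).1 h1)
  have h3 := P₁.toValuationSubring.add_mem _ _ h2 (P₁.algebraMap_mem' c)
  rwa [sub_add_cancel] at h3

include hglue in
/-- Reductions of elements of the node ring are regular at the second branch point. -/
theorem red_mem_snd (g : S) : red₂ ⟨g, hS₂ g g.2⟩ ∈ P₂.toValuationSubring := by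
  obtain ⟨c, -, h1⟩ := hglue g g.2
  have h2 := mem_of_nonunit ((cong_iff_nonunit _ _ _).1 h1)
  have h3 := P₂.toValuationSubring.add_mem _ _ h2 (P₂.algebraMap_mem' c)
  rwa [sub_add_cancel] at h3

include hred₁ hred₂ hglue in
/-- A unit of the node ring has order `0` at both branch points and is a unit of both valuation
rings. -/
theorem unit_facts {v : S} (hv : IsUnit v) :
    P₁.ord (red₁ ⟨v, hS₁ v v.2⟩) = 0 ∧ P₂.ord (red₂ ⟨v, hS₂ v v.2⟩) = 0 ∧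
      (v : F) ∉ O₁.nonunits ∧ (v : F) ∉ O₂.nonunits ∧
      red₁ ⟨v, hS₁ v v.2⟩ ≠ 0 ∧ red₂ ⟨v, hS₂ v v.2⟩ ≠ 0 := by
  obtain ⟨w, rfl⟩ := hv
  have e1 : rho hS₁ red₁ (w : S) * rho hS₁ red₁ ((w⁻¹ : Sˣ) : S) = 1 := by
    rw [← map_mul, Units.mul_inv, map_one]
  have e2 : rho hS₂ red₂ (w : S) * rho hS₂ red₂ ((w⁻¹ : Sˣ) : S) = 1 := by
    rw [← map_mul, Units.mul_inv, map_one]
  have n1 : rho hS₁ red₁ (w : S) ≠ 0 := left_ne_zero_of_mul_eq_one e1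
  have n2 : rho hS₂ red₂ (w : S) ≠ 0 := left_ne_zero_of_mul_eq_one e2
  have i1 : (rho hS₁ red₁ (w : S))⁻¹ = rho hS₁ red₁ ((w⁻¹ : Sˣ) : S) :=
    inv_eq_of_mul_eq_one_right e1
  have i2 : (rho hS₂ red₂ (w : S))⁻¹ = rho hS₂ red₂ ((w⁻¹ : Sˣ) : S) :=
    inv_eq_of_mul_eq_one_right e2
  refine ⟨?_, ?_, ?_, ?_, n1, n2⟩
  · refine PlaceBridge.ord_eq_zero_of_unit P₁ (red_mem_fst red₁ red₂ P₁ P₂ hS₁ hS₂ hglue _) ?_
    have := red_mem_fst red₁ red₂ P₁ P₂ hS₁ hS₂ hglue ((w⁻¹ : Sˣ) : S)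
    rw [← rho_apply hS₁ red₁, ← i1] at this
    exact this
  · refine PlaceBridge.ord_eq_zero_of_unit P₂ (red_mem_snd red₁ red₂ P₁ P₂ hS₁ hS₂ hglue _) ?_
    have := red_mem_snd red₁ red₂ P₁ P₂ hS₁ hS₂ hglue ((w⁻¹ : Sˣ) : S)
    rw [← rho_apply hS₂ red₂, ← i2] at this
    exact this
  · intro h
    exact n1 ((hred₁ _).2 h)
  · intro h
    exact n2 ((hred₂ _).2 h)

include hred₁ hred₂ hglue in
/-- A unit of the node ring takes a common non-zero value at the node. -/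
theorem unit_cong {v : S} (hv : IsUnit v) :
    ∃ c : k, c ≠ 0 ∧ Cong P₁ (red₁ ⟨v, hS₁ v v.2⟩) c ∧ Cong P₂ (red₂ ⟨v, hS₂ v v.2⟩) c := by
  obtain ⟨c, h1, h2⟩ := hglue v v.2
  refine ⟨c, ?_, h1, h2⟩
  rintro rfl
  have hu := (unit_facts red₁ red₂ hred₁ hred₂ P₁ P₂ hS₁ hS₂ hglue hv).1
  have hn := (cong_iff_nonunit _ _ _).1 h1
  rw [map_zero, sub_zero] at hn
  by_cases h0 : red₁ ⟨v, hS₁ v v.2⟩ = 0
  · exact (unit_facts red₁ red₂ hred₁ hred₂ P₁ P₂ hS₁ hS₂ hglue hv).2.2.2.2.1 h0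
  · have := (PlaceBridge.mem_nonunits_iff P₁ h0).1 hn
    omega

include hp₁ hp₂ hp0 hred₁ hred₂ hP₁ hP₂ hpS hglue hloc hsurj hsat hredS hf hf' he hff' hf₁ hf'₂ in
/-- **The node package with its consumer conjuncts.**  Same hypotheses as
`ThickCong.exists_node_package_cong`; in addition to its conclusion:
`ord_{P₁} (red₁ f) = a`, `ord_{P₂} (red₂ f') = a` (so `ord_{P₁} (red₁ f) * k = e`), `x` is a unit
of `O₁`, `y` a unit of `O₂`, `x / p ^ k` is a unit of `O₂` and `y / p ^ k` a unit of `O₁`. -/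
theorem exists_node_package_full :
    ∃ (k a : ℕ) (x y u v : S), 0 < k ∧ a * k = e ∧ IsUnit u ∧ IsUnit v ∧
      x * y = ⟨p, hpS⟩ ^ k * u ∧ (⟨f, hf⟩ : S) = x ^ a * v ∧
      P₁.ord (red₁ ⟨x, hS₁ x x.2⟩) = 1 ∧ red₂ ⟨x, hS₂ x x.2⟩ = 0 ∧
      red₁ ⟨y, hS₁ y y.2⟩ = 0 ∧ P₂.ord (red₂ ⟨y, hS₂ y y.2⟩) = 1 ∧
      (∀ g : S, Cong P₁ (red₁ ⟨g, hS₁ g g.2⟩) 0 →
        ∃ α β γ : S, g = α * x + β * y + γ * ⟨p, hpS⟩) ∧
      P₁.ord (red₁ ⟨f, hS₁ f hf⟩) = a ∧ P₂.ord (red₂ ⟨f', hS₂ f' hf'⟩) = a ∧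
      P₁.ord (red₁ ⟨f, hS₁ f hf⟩) * k = e ∧
      (x : F) ∉ O₁.nonunits ∧ (y : F) ∉ O₂.nonunits ∧
      ((x : F) / p ^ k ∈ O₂ ∧ ((x : F) / p ^ k)⁻¹ ∈ O₂) ∧
      ((y : F) / p ^ k ∈ O₁ ∧ ((y : F) / p ^ k)⁻¹ ∈ O₁) := by
  obtain ⟨k', a, x, y, u, v, hk, hak, hu, hv, hxy, hfv, hx1, hx2, hy1, hy2, hgen⟩ :=
    exists_node_package_cong hp₁ hp₂ hp0 red₁ red₂ hred₁ hred₂ P₁ P₂ hP₁ hP₂ hS₁ hS₂ hpS
      hglue hloc hsurj hsat hredS hf hf' he hff' hf₁ hf'₂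
  have hUF := fun {w : S} (hw : IsUnit w) =>
    unit_facts red₁ red₂ hred₁ hred₂ P₁ P₂ hS₁ hS₂ hglue hw
  -- non-vanishing of the reductions of the coordinates
  have hρx : rho hS₁ red₁ x ≠ 0 := by
    intro h
    rw [rho_apply] at h
    rw [h, P₁.ord_zero] at hx1
    exact zero_ne_one hx1
  have hρy : rho hS₂ red₂ y ≠ 0 := by
    intro h
    rw [rho_apply] at h
    rw [h, P₂.ord_zero] at hy2
    exact zero_ne_one hy2
  have hxO₁ : (x : F) ∉ O₁.nonunits := fun h => hρx ((hred₁ _).2 h)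
  have hyO₂ : (y : F) ∉ O₂.nonunits := fun h => hρy ((hred₂ _).2 h)
  -- the units
  obtain ⟨wu, rfl⟩ := hu
  obtain ⟨wv, rfl⟩ := hv
  have huinv : ((wu : S) : F) * (((wu⁻¹ : Sˣ) : S) : F) = 1 := by
    rw [← Subring.coe_mul, Units.mul_inv, Subring.coe_one]
  have hvinv : ((wv : S) : F) * (((wv⁻¹ : Sˣ) : S) : F) = 1 := by
    rw [← Subring.coe_mul, Units.mul_inv, Subring.coe_one]
  have hu0 : ((wu : S) : F) ≠ 0 := left_ne_zero_of_mul_eq_one huinv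
  have hv0 : ((wv : S) : F) ≠ 0 := left_ne_zero_of_mul_eq_one hvinv
  have hxyF : (x : F) * (y : F) = p ^ k' * ((wu : S) : F) := by
    have := congrArg (Subtype.val : S → F) hxy
    simpa using this
  have hfF : f = (x : F) ^ a * ((wv : S) : F) := by
    have := congrArg (Subtype.val : S → F) hfv
    simpa using this
  have hpk0 : p ^ k' ≠ 0 := pow_ne_zero _ hp0
  have hx0 : (x : F) ≠ 0 := by
    intro h
    rw [h, zero_mul] at hxyF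
    exact mul_ne_zero hpk0 hu0 hxyF.symm
  have hy0 : (y : F) ≠ 0 := by
    intro h
    rw [h, mul_zero] at hxyF
    exact mul_ne_zero hpk0 hu0 hxyF.symm
  have hf0 : f ≠ 0 := by
    rw [hfF]
    exact mul_ne_zero (pow_ne_zero _ hx0) hv0
  -- the mirror factorisation `f' = y ^ a * (v⁻¹ * (u⁻¹) ^ a)`
  have hf'S : (⟨f', hf'⟩ : S) = y ^ a * (((wv⁻¹ : Sˣ) : S) * ((wu⁻¹ : Sˣ) : S) ^ a) := by
    apply Subtype.ext
    apply mul_left_cancel₀ hf0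
    rw [hff']
    push_cast
    have hvi : (((wv⁻¹ : Sˣ) : S) : F) = ((wv : S) : F)⁻¹ :=
      (inv_eq_of_mul_eq_one_right hvinv).symm
    have hui : (((wu⁻¹ : Sˣ) : S) : F) = ((wu : S) : F)⁻¹ :=
      (inv_eq_of_mul_eq_one_right huinv).symm
    rw [hvi, hui, hfF]
    have h1 : (x : F) ^ a * ((wv : S) : F) *
        ((y : F) ^ a * (((wv : S) : F)⁻¹ * (((wu : S) : F)⁻¹) ^ a))
        = ((x : F) * (y : F)) ^ a * (((wu : S) : F)⁻¹) ^ a *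
          (((wv : S) : F) * ((wv : S) : F)⁻¹) := by ring
    rw [h1, hxyF, mul_inv_cancel₀ hv0, mul_one, mul_pow, mul_assoc, ← mul_pow,
      mul_inv_cancel₀ hu0, one_pow, mul_one, ← pow_mul, mul_comm k' a, hak]
  -- orders of the reductions of `f`, `f'`
  have hordf : P₁.ord (red₁ ⟨f, hS₁ f hf⟩) = a := by
    have e1 : red₁ ⟨f, hS₁ f hf⟩ = rho hS₁ red₁ x ^ a * rho hS₁ red₁ (wv : S) := by
      rw [← map_pow, ← map_mul, ← hfv]
      rfl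
    have n1 := (hUF wv.isUnit).2.2.2.2.1
    rw [e1, P₁.ord_mul (pow_ne_zero _ hρx) (by rw [rho_apply]; exact n1), ← zpow_natCast,
      P₁.ord_zpow, rho_apply, rho_apply, hx1, (hUF wv.isUnit).1]
    simp
  have hordf' : P₂.ord (red₂ ⟨f', hS₂ f' hf'⟩) = a := by
    have hw : IsUnit (((wv⁻¹ : Sˣ) : S) * ((wu⁻¹ : Sˣ) : S) ^ a) :=
      (wv⁻¹).isUnit.mul ((wu⁻¹).isUnit.pow a)
    have e1 : red₂ ⟨f', hS₂ f' hf'⟩
        = rho hS₂ red₂ y ^ a * rho hS₂ red₂ (((wv⁻¹ : Sˣ) : S) * ((wu⁻¹ : Sˣ) : S) ^ a) := by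
      rw [← map_pow, ← map_mul, ← hf'S]
      rfl
    have n1 := (hUF hw).2.2.2.2.2
    rw [e1, P₂.ord_mul (pow_ne_zero _ hρy) (by rw [rho_apply]; exact n1), ← zpow_natCast,
      P₂.ord_zpow, rho_apply, rho_apply, hy2, (hUF hw).2.1]
    simp
  refine ⟨k', a, x, y, wu, wv, hk, hak, wu.isUnit, wv.isUnit, hxy, hfv, hx1, hx2, hy1, hy2,
    hgen, hordf, hordf', ?_, hxO₁, hyO₂, ⟨?_, ?_⟩, ⟨?_, ?_⟩⟩
  · rw [hordf]
    exact_mod_cast hak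
  · -- x / p ^ k = u * y⁻¹
    have e1 : (x : F) / p ^ k' = ((wu : S) : F) * (y : F)⁻¹ := by
      rw [div_eq_iff hpk0, mul_comm _ (p ^ k'), ← mul_assoc, ← hxyF]
      field_simp
    rw [e1]
    exact O₂.mul_mem _ _ (hS₂ _ (wu : S).2) (inv_mem_of_not_nonunit hyO₂)
  · have e1 : ((x : F) / p ^ k')⁻¹ = (y : F) * (((wu⁻¹ : Sˣ) : S) : F) := by
      rw [inv_eq_iff_eq_inv, mul_inv, ← inv_eq_of_mul_eq_one_right huinv, inv_inv,
        div_eq_iff hpk0, mul_comm _ (p ^ k'), ← mul_assoc, mul_comm (p ^ k'), mul_assoc]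
      rw [← hxyF]
      field_simp
    rw [e1]
    exact O₂.mul_mem _ _ (hS₂ _ y.2) (hS₂ _ ((wu⁻¹ : Sˣ) : S).2)
  · have e1 : (y : F) / p ^ k' = ((wu : S) : F) * (x : F)⁻¹ := by
      rw [div_eq_iff hpk0, mul_comm _ (p ^ k'), ← mul_assoc, ← hxyF]
      field_simp
    rw [e1]
    exact O₁.mul_mem _ _ (hS₁ _ (wu : S).2) (inv_mem_of_not_nonunit hxO₁)
  · have e1 : ((y : F) / p ^ k')⁻¹ = (x : F) * (((wu⁻¹ : Sˣ) : S) : F) := by
      rw [← inv_eq_of_mul_eq_one_right huinv]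
      have : (y : F) = p ^ k' * ((wu : S) : F) / (x : F) := by
        rw [eq_div_iff hx0, mul_comm]
        exact hxyF
      rw [this]
      field_simp
    rw [e1]
    exact O₁.mul_mem _ _ (hS₁ _ x.2) (hS₁ _ ((wu⁻¹ : Sˣ) : S).2)

end Package

end Fermat.Agent.TR.Node.ThickCongCor
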