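import Mathlib
import Fermat.Agent.TR.Node.NodeRing
import Fermat.Agent.TR.Node.ThickCongCor
import Fermat.Agent.TR.PL.Seam

/-!
# TR / node side (I1): the node package in its consumer shapes

Complement of `TR/Node/NodeRing.lean` (same setting and binders: a nodal datum as in
`KerRed.NodalFibreFor`).

* `T_i := NodeRingAbs.nodeRing (redPair h W) ⊤ E1 e₁ e₂ i` : the node ring over `ℚ̄` (no
  inertia-fixedness), the ring used by `TR/PL/Through.lean`.  `nodeRing_le_top`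
  (`nodeRing h W E1 e₁ e₂ i ≤ T_i`), `top_mem_OInf`, `top_mem_OZero`, `top_chart_mem`,
  (glue) `top_exists_cong`, (loc) `top_inv_mem`, (sat) `top_mem_of_mul_mem` (for every non-zero
  constant of `ℚ̄`);
* `exists_isUnit_OInf`, `exists_isUnit_OZero` : every non-zero function is a constant times a
  unit of `O_∞` (resp. `O_0`); `valuation_eq_one_of_isUnit_OInf/OZero` : unit constants;
* `exists_nodePkg_full` : the node package of `NodeRing.exists_nodePkg` with the conjuncts of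
  `ThickCongCor.exists_node_package_full` (`x / q ^ k` a unit of `O_0`, `y / q ^ k` a unit of
  `O_∞`, `ord_{e₂ i} (red_0 f') = a`, ...);
* `exists_nodePkg_deltaBar` : the same for `f_Δ`, stated with `Seam.deltaBar h`:
  `ord_{e₁ i} Δ̄ * k_i = 12`;
* `nonCusp_node`, `ord_deltaBar_pos`, `not_dvd_ord_deltaBar` : every node is a non-cuspidal
  place with `0 < ord Δ̄`, `ord Δ̄ ∣ 12`, hence prime to `q ≥ 5`; `exists_nodeUnit`.
-/

set_option autoImplicit false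

noncomputable section

namespace Fermat.Agent.TR.Node.NodePkgFull

open AlgebraicCurve ModularCurve WithZero Fermat.Agent.Lib.FF Fermat.Agent.Lib.Red.Deform
  Fermat.Agent.BAD.NodalRiemann Fermat.Agent.BAD.TwoVal Fermat.Agent.BAD.LatFixedInst
  Fermat.Agent.BAD.LatFixedRing Fermat.Agent.TR.Unit.FDelta Fermat.Agent.CAR.V3
  Fermat.Agent.ESJ.Cong.LevelGen Fermat.Agent.TR.Node.NodeRing Fermat.Agent.TR.PL.Seam

local notation "Qb" => AlgebraicClosure ℚ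

variable {A : ValuationSubring Qb} {k : Type} [Field k] {π : A →+* k} {M q : ℕ} [NeZero M]
  [NeZero q]

/-! ### Unit constants of the two Gauss valuation rings -/

section Gauss

variable {W : laurentBaseChange Qb (modularFunctionFieldFull (M * q)) ≃ₐ[Qb]
    laurentBaseChange Qb (modularFunctionFieldFull (M * q))}

/-- Every non-zero function is a constant times a unit of `O_∞`. -/
theorem exists_isUnit_OInf (h : BadSetup A π M q)
    {g : laurentBaseChange Qb (modularFunctionFieldFull (M * q))} (hg : g ≠ 0) :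
    ∃ c : Qb, c ≠ 0 ∧ algebraMap Qb _ c * g ∈ OInf h ∧ (algebraMap Qb _ c * g)⁻¹ ∈ OInf h ∧
      algebraMap Qb (laurentBaseChange Qb (modularFunctionFieldFull (M * q))) c * g ≠ 0 := by
  obtain ⟨c, hc, hm, hne⟩ := exists_scaling_OInf h g hg
  exact ⟨c, hc, hm, inv_mem_OInf h _ hm hne, mul_ne_zero ((map_ne_zero _).2 hc) hg⟩

/-- Every non-zero function is a constant times a unit of `O_0`. -/
theorem exists_isUnit_OZero (h : BadSetup A π M q)
    {g : laurentBaseChange Qb (modularFunctionFieldFull (M * q))} (hg : g ≠ 0) :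
    ∃ c : Qb, c ≠ 0 ∧ algebraMap Qb _ c * g ∈ OZero h W ∧
      (algebraMap Qb _ c * g)⁻¹ ∈ OZero h W ∧
      algebraMap Qb (laurentBaseChange Qb (modularFunctionFieldFull (M * q))) c * g ≠ 0 := by
  obtain ⟨c, hc, hm, hne⟩ := exists_scaling_OZero (W := W) h g hg
  exact ⟨c, hc, hm, inv_mem_OZero h _ hm hne, mul_ne_zero ((map_ne_zero _).2 hc) hg⟩

/-- A constant which is a unit of `O_∞` is a unit of `A`. -/
theorem valuation_eq_one_of_isUnit_OInf (h : BadSetup A π M q) {c : Qb}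
    (h1 : algebraMap Qb (laurentBaseChange Qb (modularFunctionFieldFull (M * q))) c ∈ OInf h)
    (h2 : (algebraMap Qb (laurentBaseChange Qb (modularFunctionFieldFull (M * q))) c)⁻¹ ∈
      OInf h) : c = 0 ∨ A.valuation c = 1 := by
  by_cases hc : c = 0
  · exact Or.inl hc
  · refine Or.inr ?_
    rw [algebraMap_mem_OInf_iff] at h1
    rw [← map_inv₀, algebraMap_mem_OInf_iff] at h2
    have e1 : A.valuation c ≤ 1 := (A.valuation_le_one_iff c).2 h1
    have e2 : A.valuation c⁻¹ ≤ 1 := (A.valuation_le_one_iff c⁻¹).2 h2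
    rw [map_inv₀] at e2
    have hv0 : A.valuation c ≠ 0 := (Valuation.ne_zero_iff _).2 hc
    exact le_antisymm e1 ((inv_le_one₀ (zero_lt_iff.2 hv0)).1 e2)

/-- A constant which is a unit of `O_0` is a unit of `A`. -/
theorem valuation_eq_one_of_isUnit_OZero (h : BadSetup A π M q) {c : Qb}
    (h1 : algebraMap Qb (laurentBaseChange Qb (modularFunctionFieldFull (M * q))) c ∈
      OZero h W)
    (h2 : (algebraMap Qb (laurentBaseChange Qb (modularFunctionFieldFull (M * q))) c)⁻¹ ∈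
      OZero h W) : c = 0 ∨ A.valuation c = 1 := by
  by_cases hc : c = 0
  · exact Or.inl hc
  · refine Or.inr ?_
    rw [algebraMap_mem_OZero_iff] at h1
    rw [← map_inv₀, algebraMap_mem_OZero_iff] at h2
    have e1 : A.valuation c ≤ 1 := (A.valuation_le_one_iff c).2 h1
    have e2 : A.valuation c⁻¹ ≤ 1 := (A.valuation_le_one_iff c⁻¹).2 h2
    rw [map_inv₀] at e2
    have hv0 : A.valuation c ≠ 0 := (Valuation.ne_zero_iff _).2 hc
    exact le_antisymm e1 ((inv_le_one₀ (zero_lt_iff.2 hv0)).1 e2)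

end Gauss

/-! ### The node ring over `ℚ̄` -/

section Top

variable (h : BadSetup A π M q)
  (W : laurentBaseChange Qb (modularFunctionFieldFull (M * q)) ≃ₐ[Qb]
    laurentBaseChange Qb (modularFunctionFieldFull (M * q)))
  (E1 E2 : Divisor Qb (laurentBaseChange Qb (modularFunctionFieldFull (M * q))))
  {ι : Type}
  (e₁ e₂ : ι → Place k (modularFunctionFieldFullC k M))
  (P₁ Z₁ P₂ Z₂ : Divisor k (modularFunctionFieldFullC k M))
  (hE1 : ∀ v, 0 ≤ E1 v)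
  (hS2 : ∃ N₀ : ℕ, ∀ n₁ n₂ : ℕ, N₀ ≤ n₁ + n₂ →
    ∀ t : ↥(modularFunctionFieldFullC k M) × ↥(modularFunctionFieldFullC k M),
      (∃ y : OPair h W,
          (y : laurentBaseChange Qb (modularFunctionFieldFull (M * q))) ∈
            riemannRochSpace (n₁ • E1 + n₂ • E2) ∧ redPair h W y = t) ↔
        t ∈ gluedSpace e₁ e₂ (fun _ => (1 : k))
          (n₁ • P₁ + n₂ • Z₁) (n₁ • P₂ + n₂ • Z₂))
  (i : ι)

/-- The inertia-fixed node ring lies in the node ring over `ℚ̄`. -/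
theorem nodeRing_le_top :
    nodeRing h W E1 e₁ e₂ i ≤ NodeRingAbs.nodeRing (redPair h W) ⊤ E1 e₁ e₂ i := by
  rintro g ⟨-, N, t, htL, -, hc, y, hy, hyL⟩
  exact ⟨Subring.mem_top _, N, t, htL, Subring.mem_top _, hc, y, hy, hyL⟩

theorem top_mem_OPair {g : laurentBaseChange Qb (modularFunctionFieldFull (M * q))}
    (hg : g ∈ NodeRingAbs.nodeRing (redPair h W) ⊤ E1 e₁ e₂ i) : g ∈ OPair h W :=
  NodeRingAbs.mem_O (fun x => OPair_hOA h x) (OPair_hval h) (redPair h W) π h.pi_eq_zero_iff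
    (hconst h W) (redPair_eq_zero_iff h) ⊤ E1 e₁ e₂ i hg

theorem top_mem_OInf {g : laurentBaseChange Qb (modularFunctionFieldFull (M * q))}
    (hg : g ∈ NodeRingAbs.nodeRing (redPair h W) ⊤ E1 e₁ e₂ i) : g ∈ OInf h :=
  ((mem_OPair_iff h g).1 (top_mem_OPair h W E1 e₁ e₂ i hg)).1

theorem top_mem_OZero {g : laurentBaseChange Qb (modularFunctionFieldFull (M * q))}
    (hg : g ∈ NodeRingAbs.nodeRing (redPair h W) ⊤ E1 e₁ e₂ i) : g ∈ OZero h W :=
  ((mem_OPair_iff h g).1 (top_mem_OPair h W E1 e₁ e₂ i hg)).2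

/-- The integral functions of the chart `X ∖ E1` lie in the node ring over `ℚ̄`. -/
theorem top_chart_mem (hE1 : ∀ v, 0 ≤ E1 v) {N : ℕ}
    {y : laurentBaseChange Qb (modularFunctionFieldFull (M * q))} (hyO : y ∈ OPair h W)
    (hyL : y ∈ riemannRochSpace (N • E1)) :
    y ∈ NodeRingAbs.nodeRing (redPair h W) ⊤ E1 e₁ e₂ i :=
  NodeRingAbs.chart_mem (redPair h W) ⊤ (E1_nonneg E1 hE1) e₁ e₂ i hyO hyL (Subring.mem_top _)

include hE1 hS2 in
/-- **(glue)** for the node ring over `ℚ̄`. -/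
theorem top_exists_cong {g : laurentBaseChange Qb (modularFunctionFieldFull (M * q))}
    (hg : g ∈ NodeRingAbs.nodeRing (redPair h W) ⊤ E1 e₁ e₂ i) :
    ∃ c : k, Cong (e₁ i) (redInf h ⟨g, top_mem_OInf h W E1 e₁ e₂ i hg⟩) c ∧
      Cong (e₂ i) (redZero h W ⟨g, top_mem_OZero h W E1 e₁ e₂ i hg⟩) c :=
  NodeRingAbs.exists_cong (fun x => OPair_hOA h x) (OPair_hval h) (redPair h W) π
    h.pi_eq_zero_iff (hconst h W) (redPair_eq_zero_iff h) ⊤ E1 e₁ e₂ i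
    (E1_nonneg E1 hE1) (charts_E1 h W E1 E2 e₁ e₂ P₁ Z₁ P₂ Z₂ hS2) hg

include hE1 hS2 in
/-- **(loc)** for the node ring over `ℚ̄`. -/
theorem top_inv_mem {g : laurentBaseChange Qb (modularFunctionFieldFull (M * q))}
    (hg : g ∈ NodeRingAbs.nodeRing (redPair h W) ⊤ E1 e₁ e₂ i)
    (hg0 : ¬ Cong (e₁ i) (redInf h ⟨g, top_mem_OInf h W E1 e₁ e₂ i hg⟩) 0) :
    g⁻¹ ∈ NodeRingAbs.nodeRing (redPair h W) ⊤ E1 e₁ e₂ i :=
  NodeRingAbs.inv_mem (fun x => OPair_hOA h x) (OPair_hval h) (redPair h W) π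
    h.pi_eq_zero_iff (hconst h W) (redPair_eq_zero_iff h) ⊤ E1 e₁ e₂ i
    (E1_nonneg E1 hE1) (charts_E1 h W E1 E2 e₁ e₂ P₁ Z₁ P₂ Z₂ hS2)
    (fun _ _ => Subring.mem_top _) hg hg0

/-- **(sat)** for the node ring over `ℚ̄`, for every non-zero constant. -/
theorem top_mem_of_mul_mem {c : Qb} (hc : c ≠ 0)
    {g : laurentBaseChange Qb (modularFunctionFieldFull (M * q))}
    (hg1 : g ∈ OInf h) (hg2 : g ∈ OZero h W)
    (hcg : algebraMap Qb (laurentBaseChange Qb (modularFunctionFieldFull (M * q))) c * g ∈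
      NodeRingAbs.nodeRing (redPair h W) ⊤ E1 e₁ e₂ i) :
    g ∈ NodeRingAbs.nodeRing (redPair h W) ⊤ E1 e₁ e₂ i :=
  NodeRingAbs.mem_of_mul_mem (redPair h W) ⊤ E1 e₁ e₂ i (fun _ _ => Subring.mem_top _) hc
    (Subring.mem_top _) ((mem_OPair_iff h g).2 ⟨hg1, hg2⟩) hcg

end Top

/-! ### The full node package -/

section Datum

variable [IsAlgClosed k] (hA : A.LiesOverPrime q) (hπ : Function.Surjective π)
  (h : BadSetup A π M q)
  (W : laurentBaseChange Qb (modularFunctionFieldFull (M * q)) ≃ₐ[Qb]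
    laurentBaseChange Qb (modularFunctionFieldFull (M * q))) (hW : IsAL M q W)
  (E1 E2 : Divisor Qb (laurentBaseChange Qb (modularFunctionFieldFull (M * q))))
  {ι : Type} [Fintype ι]
  (e₁ e₂ : ι → Place k (modularFunctionFieldFullC k M))
  (P₁ Z₁ P₂ Z₂ : Divisor k (modularFunctionFieldFullC k M))
  (hinj₁ : Function.Injective e₁) (hinj₂ : Function.Injective e₂)
  (hP₁ : ∀ i, P₁ (e₁ i) = 0) (hP₂ : ∀ i, P₂ (e₂ i) = 0)
  (hdegP₁ : 0 < Divisor.degree P₁) (hdegP₂ : 0 < Divisor.degree P₂)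
  (hE1 : ∀ v, 0 ≤ E1 v) (hE2 : ∀ v, 0 ≤ E2 v)
  (hgalE : ∀ σ ∈ A.inertiaSubgroupIn ℚ,
    arithmeticGalois (modularFunctionFieldFull (M * q)) σ • E1 = E1 ∧
    arithmeticGalois (modularFunctionFieldFull (M * q)) σ • E2 = E2)
  (hS2 : ∃ N₀ : ℕ, ∀ n₁ n₂ : ℕ, N₀ ≤ n₁ + n₂ →
    ∀ t : ↥(modularFunctionFieldFullC k M) × ↥(modularFunctionFieldFullC k M),
      (∃ y : OPair h W,
          (y : laurentBaseChange Qb (modularFunctionFieldFull (M * q))) ∈
            riemannRochSpace (n₁ • E1 + n₂ • E2) ∧ redPair h W y = t) ↔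
        t ∈ gluedSpace e₁ e₂ (fun _ => (1 : k))
          (n₁ • P₁ + n₂ • Z₁) (n₁ • P₂ + n₂ • Z₂))
  (i : ι)

include hA hπ hW hinj₁ hinj₂ hP₁ hP₂ hdegP₁ hdegP₂ hE1 hE2 hgalE hS2 in
/-- **The node package (N) at the node `i` with its consumer conjuncts**
(`ThickCongCor.exists_node_package_full` at the modular objects). -/
theorem exists_nodePkg_full {f f' : laurentBaseChange Qb (modularFunctionFieldFull (M * q))}
    (hf : f ∈ nodeRing h W E1 e₁ e₂ i) (hf' : f' ∈ nodeRing h W E1 e₁ e₂ i) {e : ℕ}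
    (he : 1 ≤ e)
    (hff' : f * f' = ((q : ℕ) : laurentBaseChange Qb (modularFunctionFieldFull (M * q))) ^ e)
    (hf₁ : f ∉ (OInf h).nonunits) (hf'₂ : f' ∉ (OZero h W).nonunits) :
    ∃ (k' a : ℕ) (x y u v : nodeRing h W E1 e₁ e₂ i), 0 < k' ∧ a * k' = e ∧ IsUnit u ∧
      IsUnit v ∧
      x * y = ((q : ℕ) : nodeRing h W E1 e₁ e₂ i) ^ k' * u ∧
      (⟨f, hf⟩ : nodeRing h W E1 e₁ e₂ i) = x ^ a * v ∧
      (e₁ i).ord (redInf h ⟨x, mem_OInf h W E1 e₁ e₂ i x.2⟩) = 1 ∧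
      redZero h W ⟨x, mem_OZero h W E1 e₁ e₂ i x.2⟩ = 0 ∧
      redInf h ⟨y, mem_OInf h W E1 e₁ e₂ i y.2⟩ = 0 ∧
      (e₂ i).ord (redZero h W ⟨y, mem_OZero h W E1 e₁ e₂ i y.2⟩) = 1 ∧
      (∀ g : nodeRing h W E1 e₁ e₂ i,
        Cong (e₁ i) (redInf h ⟨g, mem_OInf h W E1 e₁ e₂ i g.2⟩) 0 →
        ∃ α β γ : nodeRing h W E1 e₁ e₂ i, g = α * x + β * y +
          γ * ((q : ℕ) : nodeRing h W E1 e₁ e₂ i)) ∧
      (e₁ i).ord (redInf h ⟨f, mem_OInf h W E1 e₁ e₂ i hf⟩) = a ∧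
      (e₂ i).ord (redZero h W ⟨f', mem_OZero h W E1 e₁ e₂ i hf'⟩) = a ∧
      (e₁ i).ord (redInf h ⟨f, mem_OInf h W E1 e₁ e₂ i hf⟩) * k' = e ∧
      (x : laurentBaseChange Qb (modularFunctionFieldFull (M * q))) ∉ (OInf h).nonunits ∧
      (y : laurentBaseChange Qb (modularFunctionFieldFull (M * q))) ∉ (OZero h W).nonunits ∧
      ((x : laurentBaseChange Qb (modularFunctionFieldFull (M * q))) /
          ((q : ℕ) : laurentBaseChange Qb (modularFunctionFieldFull (M * q))) ^ k' ∈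
          OZero h W ∧
        ((x : laurentBaseChange Qb (modularFunctionFieldFull (M * q))) /
          ((q : ℕ) : laurentBaseChange Qb (modularFunctionFieldFull (M * q))) ^ k')⁻¹ ∈
          OZero h W) ∧
      ((y : laurentBaseChange Qb (modularFunctionFieldFull (M * q))) /
          ((q : ℕ) : laurentBaseChange Qb (modularFunctionFieldFull (M * q))) ^ k' ∈
          OInf h ∧
        ((y : laurentBaseChange Qb (modularFunctionFieldFull (M * q))) /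
          ((q : ℕ) : laurentBaseChange Qb (modularFunctionFieldFull (M * q))) ^ k')⁻¹ ∈
          OInf h) := by
  obtain ⟨k', a, x, y, u, v, hk, hak, hu, hv, hxy, hfv, hx1, hx2, hy1, hy2, hgen, hfa, hfa',
      hfe, hxu, hyu, hxq, hyq⟩ :=
    ThickCongCor.exists_node_package_full (q_mem_nonunits_OInf hA h)
      (q_mem_nonunits_OZero hA h) q_ne_zero (redInf h) (redZero h W)
      (redInf_eq_zero_iff_nonunit h) (redZero_eq_zero_iff_nonunit h) (e₁ i) (e₂ i)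
      ((isFF1_xk k M).resK _) ((isFF1_xk k M).resK _)
      (fun g hg => mem_OInf h W E1 e₁ e₂ i hg) (fun g hg => mem_OZero h W E1 e₁ e₂ i hg)
      (natCast_mem_nodeRing h W E1 e₁ e₂ i hE1 q)
      (fun g hg => NodeRing.exists_cong h W E1 E2 e₁ e₂ P₁ Z₁ P₂ Z₂ hE1 hS2 i hg)
      (fun g hg h0 => NodeRing.inv_mem h W E1 E2 e₁ e₂ P₁ Z₁ P₂ Z₂ hE1 hS2 i hg h0)
      (fun a b c ha hb => NodeRing.exists_red_eq hA hπ h W hW E1 E2 e₁ e₂ P₁ Z₁ P₂ Z₂ hinj₁ hinj₂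
        hP₁ hP₂ hdegP₁ hdegP₂ hE1 hE2 hgalE hS2 i ha hb)
      (fun g hg1 hg2 hqg => NodeRing.mem_of_mul_mem h W E1 e₁ e₂ i hg1 hg2 hqg)
      (fun g hg hg1 hg2 => NodeRing.exists_eq_mul hA h W hW E1 e₁ e₂ i hg hg1 hg2)
      hf hf' he hff' hf₁ hf'₂
  have hq : (⟨((q : ℕ) : laurentBaseChange Qb (modularFunctionFieldFull (M * q))),
      natCast_mem_nodeRing h W E1 e₁ e₂ i hE1 q⟩ : nodeRing h W E1 e₁ e₂ i) =
      ((q : ℕ) : nodeRing h W E1 e₁ e₂ i) := Subtype.ext rfl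
  rw [hq] at hxy hgen
  exact ⟨k', a, x, y, u, v, hk, hak, hu, hv, hxy, hfv, hx1, hx2, hy1, hy2, hgen, hfa, hfa',
    hfe, hxu, hyu, hxq, hyq⟩

/-- The functions regular off the cusps lie in the chart ring of `E1`. -/
def ChartHyp (E1 : Divisor Qb (laurentBaseChange Qb (modularFunctionFieldFull (M * q)))) :
    Prop :=
  ∀ g : ↥(laurentBaseChange Qb (modularFunctionFieldFull (M * q))),
    IsIntegral (Algebra.adjoin Qb
      ({heckeAlphaBar Qb M q (jLevel Qb M)} :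
        Set ↥(laurentBaseChange Qb (modularFunctionFieldFull (M * q))))) g →
    ∃ n : ℕ, g ∈ riemannRochSpace (n • E1)

include hW hE1 hS2 in
omit [IsAlgClosed k] [Fintype ι] in
/-- **Every node is a non-cuspidal place**: `J̄` is regular at `e₁ i`. -/
theorem nonCusp_node (hint : ChartHyp E1) : NonCusp (e₁ i) := by
  have hJ : IsIntegral (Algebra.adjoin Qb
      ({heckeAlphaBar Qb M q (jLevel Qb M)} :
        Set ↥(laurentBaseChange Qb (modularFunctionFieldFull (M * q)))))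
      (heckeAlphaBar Qb M q (jLevel Qb M)) :=
    isIntegral_algebraMap (x := (⟨heckeAlphaBar Qb M q (jLevel Qb M),
      Algebra.subset_adjoin (Set.mem_singleton _)⟩ : Algebra.adjoin Qb
      ({heckeAlphaBar Qb M q (jLevel Qb M)} :
        Set ↥(laurentBaseChange Qb (modularFunctionFieldFull (M * q))))))
  obtain ⟨n, hn⟩ := hint _ hJ
  have h1 : heckeAlphaBar Qb M q (jLevel Qb M) ∈ OInf h :=
    (heckeAlphaBar_mem_OInf_iff h _).2 (jLevel_mem_Ow h)
  have h2 : heckeAlphaBar Qb M q (jLevel Qb M) ∈ OZero h W :=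
    (heckeAlphaBar_mem_OZero_iff h hW _).2 (jLevel_mem_Ow h)
  have hfix : heckeAlphaBar Qb M q (jLevel Qb M) ∈ fixedSubring A (M * q) := fun σ _ => by
    rw [galois_heckeAlphaBar, galois_smul_jLevel]
  have hS : heckeAlphaBar Qb M q (jLevel Qb M) ∈ nodeRing h W E1 e₁ e₂ i :=
    NodeRing.chart_mem h W E1 e₁ e₂ i hE1 ((mem_OPair_iff h _).2 ⟨h1, h2⟩) hn hfix
  obtain ⟨c, hc, -⟩ := NodeRing.exists_cong h W E1 E2 e₁ e₂ P₁ Z₁ P₂ Z₂ hE1 hS2 i hS
  have hJb : ((redInf h ⟨heckeAlphaBar Qb M q (jLevel Qb M),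
      mem_OInf h W E1 e₁ e₂ i hS⟩ : modularFunctionFieldFullC k M) : LaurentSeries k) =
      jqModC k := by
    rw [redInf_heckeAlphaBar h _ (jLevel_mem_Ow h), coe_redF_jLevel h]
    exact Fermat.Agent.S28.TD.Jd_one k
  rw [nonCusp_iff hJb]
  rcases (e₁ i).adicValuation_le_one_iff.1 hc.le_one with h0 | h0
  · rw [h0, Place.ord_zero]
  · exact h0

include hA hπ hW hinj₁ hinj₂ hP₁ hP₂ hdegP₁ hdegP₂ hE1 hE2 hgalE hS2 in
/-- **(N) for `f_Δ`, in the vocabulary of `TR/PL/Seam.lean`**: at every node `i`,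
`ord_{e₁ i} Δ̄ * k_i = 12`, with inertia-fixed node coordinates `x`, `y` (`x * y = q ^ k_i * u`,
`x / q ^ k_i` a unit of `O_0`, `y / q ^ k_i` a unit of `O_∞`) and `f_Δ = x ^ a * v`. -/
theorem exists_nodePkg_deltaBar (hint : ChartHyp E1) :
    ∃ (k' : ℕ) (x y u v : nodeRing h W E1 e₁ e₂ i), 0 < k' ∧
      (e₁ i).ord (deltaBar h) * k' = 12 ∧ 0 < (e₁ i).ord (deltaBar h) ∧
      IsUnit u ∧ IsUnit v ∧
      x * y = ((q : ℕ) : nodeRing h W E1 e₁ e₂ i) ^ k' * u ∧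
      fDelta Qb M q h.hℓ = (x : laurentBaseChange Qb (modularFunctionFieldFull (M * q))) ^
        ((e₁ i).ord (deltaBar h)).toNat * v ∧
      (e₁ i).ord (redInf h ⟨x, mem_OInf h W E1 e₁ e₂ i x.2⟩) = 1 ∧
      redZero h W ⟨x, mem_OZero h W E1 e₁ e₂ i x.2⟩ = 0 ∧
      redInf h ⟨y, mem_OInf h W E1 e₁ e₂ i y.2⟩ = 0 ∧
      (e₂ i).ord (redZero h W ⟨y, mem_OZero h W E1 e₁ e₂ i y.2⟩) = 1 ∧
      (∀ g : nodeRing h W E1 e₁ e₂ i,
        Cong (e₁ i) (redInf h ⟨g, mem_OInf h W E1 e₁ e₂ i g.2⟩) 0 →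
        ∃ α β γ : nodeRing h W E1 e₁ e₂ i, g = α * x + β * y +
          γ * ((q : ℕ) : nodeRing h W E1 e₁ e₂ i)) ∧
      (x : laurentBaseChange Qb (modularFunctionFieldFull (M * q))) ∉ (OInf h).nonunits ∧
      (y : laurentBaseChange Qb (modularFunctionFieldFull (M * q))) ∉ (OZero h W).nonunits ∧
      ((x : laurentBaseChange Qb (modularFunctionFieldFull (M * q))) /
          ((q : ℕ) : laurentBaseChange Qb (modularFunctionFieldFull (M * q))) ^ k' ∈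
          OZero h W ∧
        ((x : laurentBaseChange Qb (modularFunctionFieldFull (M * q))) /
          ((q : ℕ) : laurentBaseChange Qb (modularFunctionFieldFull (M * q))) ^ k')⁻¹ ∈
          OZero h W) ∧
      ((y : laurentBaseChange Qb (modularFunctionFieldFull (M * q))) /
          ((q : ℕ) : laurentBaseChange Qb (modularFunctionFieldFull (M * q))) ^ k' ∈
          OInf h ∧
        ((y : laurentBaseChange Qb (modularFunctionFieldFull (M * q))) /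
          ((q : ℕ) : laurentBaseChange Qb (modularFunctionFieldFull (M * q))) ^ k')⁻¹ ∈
          OInf h) := by
  have hf : ((fDelta Qb M q h.hℓ : laurentBaseChange Qb (modularFunctionFieldFull (M * q))) :
      LaurentSeries Qb) = Units.u1 Qb q := coe_fDelta h.hℓ
  have hJ : IsIntegral (Algebra.adjoin Qb
      ({heckeAlphaBar Qb M q (jLevel Qb M)} :
        Set ↥(laurentBaseChange Qb (modularFunctionFieldFull (M * q)))))
      (heckeAlphaBar Qb M q (jLevel Qb M)) :=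
    isIntegral_algebraMap (x := (⟨heckeAlphaBar Qb M q (jLevel Qb M),
      Algebra.subset_adjoin (Set.mem_singleton _)⟩ : Algebra.adjoin Qb
      ({heckeAlphaBar Qb M q (jLevel Qb M)} :
        Set ↥(laurentBaseChange Qb (modularFunctionFieldFull (M * q))))))
  obtain ⟨hif, hig⟩ := isIntegral_f_g h.hℓ hJ hf
  obtain ⟨n, hn⟩ := hint _ hif
  obtain ⟨n', hn'⟩ := hint _ hig
  have hfS : fDelta Qb M q h.hℓ ∈ nodeRing h W E1 e₁ e₂ i :=
    NodeRing.chart_mem h W E1 e₁ e₂ i hE1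
      ((mem_OPair_iff h _).2 ⟨f_mem_OInf h hf, f_mem_OZero h hW hf⟩) hn (f_mem_fixedSubring hf)
  have hgS : ((q : ℕ) : laurentBaseChange Qb (modularFunctionFieldFull (M * q))) ^ 12 *
      (fDelta Qb M q h.hℓ)⁻¹ ∈ nodeRing h W E1 e₁ e₂ i :=
    NodeRing.chart_mem h W E1 e₁ e₂ i hE1
      ((mem_OPair_iff h _).2 ⟨g_mem_OInf h hf, g_mem_OZero h hW hf⟩) hn' (g_mem_fixedSubring hf)
  obtain ⟨k', a, x, y, u, v, hk, hak, hu, hv, hxy, hfv, hx1, hx2, hy1, hy2, hgen, hfa, -,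
      hfe, hxu, hyu, hxq, hyq⟩ :=
    exists_nodePkg_full hA hπ h W hW E1 E2 e₁ e₂ P₁ Z₁ P₂ Z₂ hinj₁ hinj₂ hP₁ hP₂ hdegP₁ hdegP₂
      hE1 hE2 hgalE hS2 i hfS hgS (le_of_eq_of_le rfl (by norm_num : 1 ≤ 12)) (f_mul_g hf)
      (f_notMem_nonunits_OInf h hf) (g_notMem_nonunits_OZero h hW hf)
  have hda : (e₁ i).ord (deltaBar h) = a := hfa
  have ha0 : 0 < a := by
    rcases Nat.eq_zero_or_pos a with h0 | h0
    · rw [h0, zero_mul] at hak
      omega
    · exact h0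
  refine ⟨k', x, y, u, v, hk, ?_, ?_, hu, hv, hxy, ?_, hx1, hx2, hy1, hy2, hgen, hxu, hyu, hxq,
    hyq⟩
  · rw [hda]
    exact_mod_cast hak
  · rw [hda]
    exact_mod_cast ha0
  · rw [hda, Int.toNat_natCast]
    exact congrArg Subtype.val hfv

include hA hπ hW hinj₁ hinj₂ hP₁ hP₂ hdegP₁ hdegP₂ hE1 hE2 hgalE hS2 in
/-- At every node, `0 < ord Δ̄` and `ord Δ̄` divides `12`. -/
theorem ord_deltaBar_pos (hint : ChartHyp E1) :
    0 < (e₁ i).ord (deltaBar h) ∧ (e₁ i).ord (deltaBar h) ∣ 12 := by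
  obtain ⟨k', x, y, u, v, hk, h12, hpos, -⟩ :=
    exists_nodePkg_deltaBar hA hπ h W hW E1 E2 e₁ e₂ P₁ Z₁ P₂ Z₂ hinj₁ hinj₂ hP₁ hP₂ hdegP₁
      hdegP₂ hE1 hE2 hgalE hS2 i hint
  exact ⟨hpos, ⟨k', h12.symm⟩⟩

include hA hπ hW hinj₁ hinj₂ hP₁ hP₂ hdegP₁ hdegP₂ hE1 hE2 hgalE hS2 in
/-- At every node, `ord Δ̄` is prime to the residue characteristic `q ≥ 5`. -/
theorem not_dvd_ord_deltaBar (hint : ChartHyp E1) (hq5 : 5 ≤ q) :
    ¬ ((q : ℕ) : ℤ) ∣ (e₁ i).ord (deltaBar h) := by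
  obtain ⟨hpos, hdvd⟩ := ord_deltaBar_pos hA hπ h W hW E1 E2 e₁ e₂ P₁ Z₁ P₂ Z₂ hinj₁ hinj₂ hP₁
    hP₂ hdegP₁ hdegP₂ hE1 hE2 hgalE hS2 i hint
  intro hq
  have h12 : ((q : ℕ) : ℤ) ∣ 12 := hq.trans hdvd
  have h12' : q ∣ 12 := by exact_mod_cast h12
  have hp : q.Prime := h.hℓ
  have e : (12 : ℕ) = 2 ^ 2 * 3 := by norm_num
  rw [e] at h12'
  rcases (Nat.Prime.dvd_mul hp).1 h12' with hd | hd
  · have := Nat.le_of_dvd (by norm_num) (hp.dvd_of_dvd_pow hd)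
    omega
  · have := Nat.le_of_dvd (by norm_num) hd
    omega

include hA hπ hW hinj₁ hinj₂ hP₁ hP₂ hdegP₁ hdegP₂ hE1 hE2 hgalE hS2 in
/-- **`NodeUnit`**: there is a non-cuspidal place `Q` with `0 < ord_Q Δ̄` prime to `q`. -/
theorem exists_nodeUnit [Nonempty ι] (hint : ChartHyp E1) (hq5 : 5 ≤ q) :
    ∃ Q : Place k (modularFunctionFieldFullC k M), NonCusp Q ∧ 0 < Q.ord (deltaBar h) ∧
      ¬ ((q : ℕ) : ℤ) ∣ Q.ord (deltaBar h) := by
  obtain ⟨i⟩ := ‹Nonempty ι›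
  exact ⟨e₁ i, nonCusp_node h W hW E1 E2 e₁ e₂ P₁ Z₁ P₂ Z₂ hE1 hS2 i hint,
    (ord_deltaBar_pos hA hπ h W hW E1 E2 e₁ e₂ P₁ Z₁ P₂ Z₂ hinj₁ hinj₂ hP₁ hP₂ hdegP₁ hdegP₂ hE1
      hE2 hgalE hS2 i hint).1,
    not_dvd_ord_deltaBar hA hπ h W hW E1 E2 e₁ e₂ P₁ Z₁ P₂ Z₂ hinj₁ hinj₂ hP₁ hP₂ hdegP₁ hdegP₂
      hE1 hE2 hgalE hS2 i hint hq5⟩

end Datum

end Fermat.Agent.TR.Node.NodePkgFull
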