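/-
TR (node side / seam to the Hecke side): **a vertical unit has no zero and no pole on the special
fibre off the nodes** — the dictionary "`ord_Q (red f) > 0` only at the nodes" for a function
`f` with `f * f' = p ^ e` (`f`, `f'` integral chart functions), in the abstract nodal setting of
`NodeRingAbs` (`BASE` + charts + the ring `Fx` of inertia-fixed functions + `hfixlift` + `hdisc`).

* `exists_bump` : on one component, a section of `L(N • D)` vanishing at all the nodes and a unit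
  at a given point `Q` off the nodes and off `supp D`.
* `val_red_fst_le_one` : reductions of integral chart functions are regular at every point off
  the chart poles.
* `exists_bump_lift` : a fixed integral chart function `β` with `red β = (β₁, 0)`, `β₁` a unit at
  `Q`.
* `val_red_fst_eq_one`, `ord_red_fst_eq_zero` : **the theorem** on the first component;
  `val_red_snd_eq_one`, `ord_red_snd_eq_zero` : the mirror on the second component.

Proof: the smooth-point ring `R_Q = {g | ∃ τ y chart functions, τ(Q) ≠ 0, τ * g = y}` is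
"reduced along the component": if `(red y).1 = 0` then `β * y` is small, hence divisible by `p`
(discreteness of the fixed functions); `e` steps give `f' / p ^ e = f⁻¹ ∈ R_Q`.
-/
import Mathlib
import Fermat.Agent.TR.Node.NodeRingAbs

set_option autoImplicit false

noncomputable section

namespace Fermat.Agent.TR.Node.VertUnit

open AlgebraicCurve WithZero Fermat.Agent.Lib.FF Fermat.Agent.BAD.NodalRiemann
  Fermat.Agent.Lib.Red.Deform Fermat.Agent.TR.Node.NodalLocal Fermat.Agent.TR.Node.NodeRingAbs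

/-! ### One component -/

section OneField

variable {K F : Type*} [Field K] [Field F] [Algebra K F] {x : F}

/-- A section of `L(N • D)` vanishing at all the nodes `e i` and a unit at a point `Q` which is
neither a node nor in the support of `D`. -/
theorem exists_bump (h : IsFF1 K F x) {ι : Type*} [Fintype ι] (e : ι → Place K F)
    (D : Divisor K F) (hD0 : 0 ≤ D) (hDe : ∀ i, D (e i) = 0) (hd : 0 < Divisor.degree D)
    (Q : Place K F) (hQ : ∀ i, e i ≠ Q) (hQD : D Q = 0) :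
    ∃ (N : ℕ) (t : F), t ∈ riemannRochSpace (N • D) ∧ (∀ i, Cong (e i) t 0) ∧
      Q.adicValuation t = 1 := by
  classical
  obtain ⟨P₀, hP₀⟩ := exists_pos_of_degree_pos hD0 hd
  have hP₀S : P₀ ∉ insert Q (Finset.univ.image e) := by
    intro hmem
    rcases Finset.mem_insert.mp hmem with hq | hmem
    · rw [hq, hQD] at hP₀
      exact lt_irrefl _ hP₀
    · obtain ⟨i, -, hi⟩ := Finset.mem_image.mp hmem
      rw [← hi, hDe i] at hP₀
      exact lt_irrefl _ hP₀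
  obtain ⟨f, hf0, hfS, hfout⟩ := h.exists_ord_eq (insert Q (Finset.univ.image e)) P₀ hP₀S
    (fun v => if v = Q then 0 else 1)
  obtain ⟨N, hN⟩ := exists_nat_val_le P₀ f
  have hvalQ : Q.adicValuation f = 1 := by
    rw [Q.adicValuation_eq_exp_neg_ord hf0, hfS Q (Finset.mem_insert_self _ _), if_pos rfl]
    simp
  have hval : ∀ i, (e i).adicValuation f = exp (-1 : ℤ) := fun i => by
    rw [(e i).adicValuation_eq_exp_neg_ord hf0,
      hfS (e i) (Finset.mem_insert_of_mem (Finset.mem_image_of_mem e (Finset.mem_univ i))),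
      if_neg (hQ i)]
  refine ⟨N, f, fun v => ?_, fun i => ?_, hvalQ⟩
  · by_cases hvP : v = P₀
    · subst hvP
      exact val_le_exp_nsmul_of_le hP₀ hN le_rfl
    · refine le_trans ?_ (exp_le_exp_nsmul hD0 _ v)
      by_cases hvS : v ∈ insert Q (Finset.univ.image e)
      · rcases Finset.mem_insert.mp hvS with hq | hvS
        · rw [hq, hvalQ]
        · obtain ⟨i, -, rfl⟩ := Finset.mem_image.mp hvS
          rw [hval i]
          exact exp_neg_one_lt_one.le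
      · exact v.adicValuation_le_one_iff.2 (Or.inr (hfout v hvS hvP))
  · refine cong_zero_iff'.2 ?_
    rw [hval i]
    exact exp_neg_one_lt_one

end OneField

/-! ### The nodal curve -/

variable {L F : Type*} [Field L] [Field F] [Algebra L F] {A : ValuationSubring L} {O : Subring F}
  {k F₁ F₂ : Type*} [Field k] [Field F₁] [Field F₂] [Algebra k F₁] [Algebra k F₂]
  {ι : Type*} {x₁ : F₁} {x₂ : F₂}

/-- Reductions of integral chart functions are regular on the first component off the chart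
poles. -/
theorem val_red_fst_le_one (red : O →+* F₁ × F₂) {E : Divisor L F} (hE : 0 ≤ E)
    {e₁ : ι → Place k F₁} {e₂ : ι → Place k F₂} {D₁ : Divisor k F₁} {D₂ : Divisor k F₂}
    (hS : ∃ N₀ : ℕ, ∀ N, N₀ ≤ N → ∀ t : F₁ × F₂,
      (∃ y : O, (y : F) ∈ riemannRochSpace (N • E) ∧ red y = t) ↔
        t ∈ gluedSpace e₁ e₂ (fun _ => (1 : k)) (N • D₁) (N • D₂))
    (Q : Place k F₁) (hQD : D₁ Q = 0) {N : ℕ} (y : O)
    (hy : (y : F) ∈ riemannRochSpace (N • E)) : Q.adicValuation (red y).1 ≤ 1 := by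
  obtain ⟨N₀, hN₀⟩ := hS
  have hy' : (y : F) ∈ riemannRochSpace (max N N₀ • E) :=
    mem_L_nsmul_of_le hE (le_max_left N N₀) hy
  obtain ⟨h1, -, -⟩ := (hN₀ (max N N₀) (le_max_right _ _) (red y)).1 ⟨y, hy', rfl⟩
  have h2 := h1 Q
  rwa [Finsupp.smul_apply, hQD, smul_zero, exp_zero] at h2

/-- A fixed integral chart function whose reduction vanishes on the second component and at all
the nodes, and is a unit at the point `Q` of the first component (off the nodes and the chart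
poles). -/
theorem exists_bump_lift [Fintype ι] (h₁ : IsFF1 k F₁ x₁) (red : O →+* F₁ × F₂)
    (Fx : Subring F) {E : Divisor L F} (e₁ : ι → Place k F₁) (e₂ : ι → Place k F₂)
    (D₁ : Divisor k F₁) (D₂ : Divisor k F₂) (hD₁ : ∀ j, D₁ (e₁ j) = 0)
    (hD₁0 : 0 ≤ D₁) (hD₂0 : 0 ≤ D₂) (hd₁ : 0 < Divisor.degree D₁)
    (hS : ∃ N₀ : ℕ, ∀ N, N₀ ≤ N → ∀ t : F₁ × F₂,
      (∃ y : O, (y : F) ∈ riemannRochSpace (N • E) ∧ red y = t) ↔
        t ∈ gluedSpace e₁ e₂ (fun _ => (1 : k)) (N • D₁) (N • D₂))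
    (hfixlift : ∀ (N : ℕ) (y : O), (y : F) ∈ riemannRochSpace (N • E) →
      ∃ y' : O, (y' : F) ∈ riemannRochSpace (N • E) ∧ (y' : F) ∈ Fx ∧ red y' = red y)
    (Q : Place k F₁) (hQ : ∀ j, e₁ j ≠ Q) (hQD : D₁ Q = 0) :
    ∃ (N : ℕ) (β : O), (β : F) ∈ riemannRochSpace (N • E) ∧ (β : F) ∈ Fx ∧
      (red β).2 = 0 ∧ Q.adicValuation (red β).1 = 1 := by
  obtain ⟨N, t, htL, htc, htQ⟩ := exists_bump h₁ e₁ D₁ hD₁0 hD₁ hd₁ Q hQ hQD
  obtain ⟨N₀, hN₀⟩ := hS
  have hmem : ((t, 0) : F₁ × F₂) ∈ gluedSpace e₁ e₂ (fun _ => (1 : k)) (N • D₁) (N • D₂) := by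
    refine ⟨htL, zero_mem _, fun i => ⟨0, htc i, ?_⟩⟩
    rw [mul_zero]
    exact cong_zero _
  have hmono := gluedSpace_nsmul_mono (e₁ := e₁) (e₂ := e₂) hD₁0 hD₂0 (le_max_left N N₀)
  obtain ⟨β₀, hβ₀L, hβ₀⟩ := (hN₀ (max N N₀) (le_max_right _ _) (t, 0)).2 (hmono hmem)
  obtain ⟨β, hβL, hβF, hβ⟩ := hfixlift _ β₀ hβ₀L
  rw [hβ₀] at hβ
  refine ⟨max N N₀, β, hβL, hβF, ?_, ?_⟩
  · rw [hβ]
  · rw [hβ]
    exact htQ

/-- In `ℤᵐ⁰`: two elements `≤ 1` with product `1` are both `1`. -/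
theorem eq_one_of_mul_eq_one {a b : ℤᵐ⁰} (ha : a ≤ 1) (hb : b ≤ 1) (hab : a * b = 1) : a = 1 := by
  refine le_antisymm ha ?_
  calc (1 : ℤᵐ⁰) = a * b := hab.symm
    _ ≤ a * 1 := mul_le_mul' le_rfl hb
    _ = a := mul_one a

/-- **A vertical unit has neither a zero nor a pole on the first component off the nodes and the
chart poles.**  `f`, `f'` fixed integral chart functions with `f * f' = p ^ e`, `red f` non-zero
on the first component; `Q` a point of the first component, not a node, off `supp D₁`. -/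
theorem val_red_fst_eq_one [Fintype ι] (h₁ : IsFF1 k F₁ x₁)
    (hOA : ∀ x : L, algebraMap L F x ∈ O ↔ x ∈ A)
    (red : O →+* F₁ × F₂) (π : A →+* k)
    (hπker : ∀ a : A, π a = 0 ↔ A.valuation (a : L) < 1)
    (hconst : ∀ a : A, red ⟨algebraMap L F (a : L), (hOA _).2 a.2⟩ =
      algebraMap k (F₁ × F₂) (π a))
    (hker : ∀ y : O, red y = 0 ↔ Small A O (y : F))
    (Fx : Subring F) {E : Divisor L F} (hE : 0 ≤ E) (e₁ : ι → Place k F₁) (e₂ : ι → Place k F₂)
    (D₁ : Divisor k F₁) (D₂ : Divisor k F₂) (hD₁ : ∀ j, D₁ (e₁ j) = 0)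
    (hD₁0 : 0 ≤ D₁) (hD₂0 : 0 ≤ D₂) (hd₁ : 0 < Divisor.degree D₁)
    (hS : ∃ N₀ : ℕ, ∀ N, N₀ ≤ N → ∀ t : F₁ × F₂,
      (∃ y : O, (y : F) ∈ riemannRochSpace (N • E) ∧ red y = t) ↔
        t ∈ gluedSpace e₁ e₂ (fun _ => (1 : k)) (N • D₁) (N • D₂))
    (hinv : ∀ g ∈ Fx, g⁻¹ ∈ Fx)
    (hfixlift : ∀ (N : ℕ) (y : O), (y : F) ∈ riemannRochSpace (N • E) →
      ∃ y' : O, (y' : F) ∈ riemannRochSpace (N • E) ∧ (y' : F) ∈ Fx ∧ red y' = red y)
    {p : L} (hp0 : p ≠ 0) (hp1 : A.valuation p < 1) (hpF : algebraMap L F p ∈ Fx)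
    (hdisc : ∀ g ∈ Fx, Small A O g → ∃ o ∈ O, g = algebraMap L F p * o)
    (Q : Place k F₁) (hQ : ∀ j, e₁ j ≠ Q) (hQD : D₁ Q = 0)
    {f f' : O} {n : ℕ} (hfL : (f : F) ∈ riemannRochSpace (n • E))
    (hf'L : (f' : F) ∈ riemannRochSpace (n • E)) (hf'F : (f' : F) ∈ Fx)
    {e : ℕ} (hff' : (f : F) * (f' : F) = algebraMap L F p ^ e) (hf1 : (red f).1 ≠ 0) :
    Q.adicValuation (red f).1 = 1 := by
  have hp0' : algebraMap L F p ≠ 0 := by simpa using hp0
  have hpA : p ∈ A := (A.valuation_le_one_iff p).1 hp1.le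
  have hpO : algebraMap L F p ∈ O := (hOA _).2 hpA
  have hredp : red ⟨algebraMap L F p, hpO⟩ = 0 := by
    have h' := hconst ⟨p, hpA⟩
    rw [h', (hπker ⟨p, hpA⟩).2 hp1, map_zero]
  have hf'0 : (f' : F) ≠ 0 := by
    intro h0
    rw [h0, mul_zero] at hff'
    exact pow_ne_zero e hp0' hff'.symm
  obtain ⟨Nβ, β, hβL, hβF, hβ2, hβQ⟩ :=
    exists_bump_lift h₁ red Fx e₁ e₂ D₁ D₂ hD₁ hD₁0 hD₂0 hd₁ hS hfixlift Q hQ hQD
  -- the induction: `f' / p ^ j` lies in the smooth-point ring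
  have key : ∀ j : ℕ, j ≤ e → ∃ (N : ℕ) (τ y : O), (τ : F) ∈ riemannRochSpace (N • E) ∧
      (τ : F) ∈ Fx ∧ (y : F) ∈ riemannRochSpace (N • E) ∧ (y : F) ∈ Fx ∧
      Q.adicValuation (red τ).1 = 1 ∧ (τ : F) * (f' : F) = algebraMap L F p ^ j * (y : F) := by
    intro j
    induction j with
    | zero =>
      intro _
      refine ⟨n, 1, f', ?_, Fx.one_mem, hf'L, hf'F, ?_, ?_⟩
      · exact one_mem_L_nsmul hE n
      · rw [map_one, Prod.fst_one, map_one]
      · rw [pow_zero, one_mul]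
        show (1 : F) * (f' : F) = (f' : F)
        rw [one_mul]
    | succ j ih =>
      intro hj
      obtain ⟨N, τ, y, hτL, hτF, hyL, hyF, hτQ, hτy⟩ := ih (Nat.le_of_succ_le hj)
      -- `y * f = τ * p ^ (e - j)`
      have e1 : (y : F) * (f : F) = (τ : F) * algebraMap L F p ^ (e - j) := by
        have hpj : algebraMap L F p ^ j ≠ 0 := pow_ne_zero j hp0'
        have hsplit : algebraMap L F p ^ e = algebraMap L F p ^ j * algebraMap L F p ^ (e - j) := by
          rw [← pow_add, Nat.add_sub_cancel' (Nat.le_of_succ_le hj)]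
        apply mul_left_cancel₀ hpj
        calc algebraMap L F p ^ j * ((y : F) * (f : F))
            = (algebraMap L F p ^ j * (y : F)) * (f : F) := by ring
          _ = ((τ : F) * (f' : F)) * (f : F) := by rw [hτy]
          _ = (τ : F) * ((f : F) * (f' : F)) := by ring
          _ = (τ : F) * (algebraMap L F p ^ j * algebraMap L F p ^ (e - j)) := by
            rw [hff', hsplit]
          _ = algebraMap L F p ^ j * ((τ : F) * algebraMap L F p ^ (e - j)) := by ring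
      have e2 : y * f = τ * (⟨algebraMap L F p, hpO⟩ : O) ^ (e - j) := Subtype.ext (by
        show (y : F) * (f : F) = (τ : F) * (((⟨algebraMap L F p, hpO⟩ : O) ^ (e - j) : O) : F)
        rw [SubmonoidClass.coe_pow]
        exact e1)
      have hpos : e - j ≠ 0 := by omega
      have e3 : red y * red f = 0 := by
        rw [← map_mul, e2, map_mul, map_pow, hredp, zero_pow hpos, mul_zero]
      have hy1 : (red y).1 = 0 := by
        have e4 : (red y).1 * (red f).1 = 0 := congrArg Prod.fst e3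
        rcases mul_eq_zero.mp e4 with h' | h'
        · exact h'
        · exact absurd h' hf1
      -- `β * y` is small
      have hβy : red (β * y) = 0 := by
        rw [map_mul]
        refine Prod.ext ?_ ?_
        · show (red β).1 * (red y).1 = 0
          rw [hy1, mul_zero]
        · show (red β).2 * (red y).2 = 0
          rw [hβ2, zero_mul]
      have hβyF : (β : F) * (y : F) ∈ Fx := Fx.mul_mem hβF hyF
      obtain ⟨o, hoO, ho⟩ := hdisc _ hβyF ((hker (β * y)).1 hβy)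
      have hoeq : o = (algebraMap L F p)⁻¹ * ((β : F) * (y : F)) := by
        rw [ho, ← mul_assoc, inv_mul_cancel₀ hp0', one_mul]
      refine ⟨Nβ + N, β * τ, ⟨o, hoO⟩, ?_, ?_, ?_, ?_, ?_, ?_⟩
      · exact mul_mem_L_nsmul' hβL hτL
      · exact Fx.mul_mem hβF hτF
      · have e5 : o = p⁻¹ • ((β : F) * (y : F)) := by
          rw [hoeq, Algebra.smul_def, map_inv₀]
        show o ∈ riemannRochSpace ((Nβ + N) • E)
        rw [e5]
        exact Submodule.smul_mem _ _ (mul_mem_L_nsmul' hβL hyL)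
      · show o ∈ Fx
        rw [hoeq]
        exact Fx.mul_mem (hinv _ hpF) hβyF
      · rw [map_mul]
        show Q.adicValuation ((red β).1 * (red τ).1) = 1
        rw [map_mul, hβQ, hτQ, one_mul]
      · show ((β : F) * (τ : F)) * (f' : F) = algebraMap L F p ^ (j + 1) * o
        calc ((β : F) * (τ : F)) * (f' : F) = (β : F) * ((τ : F) * (f' : F)) := by ring
          _ = (β : F) * (algebraMap L F p ^ j * (y : F)) := by rw [hτy]
          _ = algebraMap L F p ^ j * ((β : F) * (y : F)) := by ring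
          _ = algebraMap L F p ^ j * (algebraMap L F p * o) := by rw [ho]
          _ = algebraMap L F p ^ (j + 1) * o := by ring
  obtain ⟨N, τ, y, hτL, -, hyL, -, hτQ, hτy⟩ := key e le_rfl
  -- `τ = f * y`
  have e1 : (τ : F) = (f : F) * (y : F) := by
    apply mul_right_cancel₀ hf'0
    rw [hτy, ← hff']
    ring
  have e2 : τ = f * y := Subtype.ext e1
  have e3 : (red τ).1 = (red f).1 * (red y).1 := by
    rw [e2, map_mul]
    rfl
  rw [e3, map_mul] at hτQ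
  exact eq_one_of_mul_eq_one (val_red_fst_le_one red hE hS Q hQD f hfL)
    (val_red_fst_le_one red hE hS Q hQD y hyL) hτQ

/-- The same in terms of orders: `ord_Q (red f).1 = 0`. -/
theorem ord_red_fst_eq_zero [Fintype ι] (h₁ : IsFF1 k F₁ x₁)
    (hOA : ∀ x : L, algebraMap L F x ∈ O ↔ x ∈ A)
    (red : O →+* F₁ × F₂) (π : A →+* k)
    (hπker : ∀ a : A, π a = 0 ↔ A.valuation (a : L) < 1)
    (hconst : ∀ a : A, red ⟨algebraMap L F (a : L), (hOA _).2 a.2⟩ =
      algebraMap k (F₁ × F₂) (π a))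
    (hker : ∀ y : O, red y = 0 ↔ Small A O (y : F))
    (Fx : Subring F) {E : Divisor L F} (hE : 0 ≤ E) (e₁ : ι → Place k F₁) (e₂ : ι → Place k F₂)
    (D₁ : Divisor k F₁) (D₂ : Divisor k F₂) (hD₁ : ∀ j, D₁ (e₁ j) = 0)
    (hD₁0 : 0 ≤ D₁) (hD₂0 : 0 ≤ D₂) (hd₁ : 0 < Divisor.degree D₁)
    (hS : ∃ N₀ : ℕ, ∀ N, N₀ ≤ N → ∀ t : F₁ × F₂,
      (∃ y : O, (y : F) ∈ riemannRochSpace (N • E) ∧ red y = t) ↔
        t ∈ gluedSpace e₁ e₂ (fun _ => (1 : k)) (N • D₁) (N • D₂))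
    (hinv : ∀ g ∈ Fx, g⁻¹ ∈ Fx)
    (hfixlift : ∀ (N : ℕ) (y : O), (y : F) ∈ riemannRochSpace (N • E) →
      ∃ y' : O, (y' : F) ∈ riemannRochSpace (N • E) ∧ (y' : F) ∈ Fx ∧ red y' = red y)
    {p : L} (hp0 : p ≠ 0) (hp1 : A.valuation p < 1) (hpF : algebraMap L F p ∈ Fx)
    (hdisc : ∀ g ∈ Fx, Small A O g → ∃ o ∈ O, g = algebraMap L F p * o)
    (Q : Place k F₁) (hQ : ∀ j, e₁ j ≠ Q) (hQD : D₁ Q = 0)
    {f f' : O} {n : ℕ} (hfL : (f : F) ∈ riemannRochSpace (n • E))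
    (hf'L : (f' : F) ∈ riemannRochSpace (n • E)) (hf'F : (f' : F) ∈ Fx)
    {e : ℕ} (hff' : (f : F) * (f' : F) = algebraMap L F p ^ e) (hf1 : (red f).1 ≠ 0) :
    Q.ord (red f).1 = 0 := by
  have h := val_red_fst_eq_one h₁ hOA red π hπker hconst hker Fx hE e₁ e₂ D₁ D₂ hD₁ hD₁0 hD₂0
    hd₁ hS hinv hfixlift hp0 hp1 hpF hdisc Q hQ hQD hfL hf'L hf'F hff' hf1
  rw [Q.adicValuation_eq_exp_neg_ord hf1, ← exp_zero, exp_inj] at h
  omega

/-! ### The mirror on the second component -/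

/-- The glued space is symmetric in the two components (gluing constants `1`). -/
theorem swap_mem_gluedSpace {e₁ : ι → Place k F₁} {e₂ : ι → Place k F₂} {B₁ : Divisor k F₁}
    {B₂ : Divisor k F₂} {t : F₂ × F₁} :
    t ∈ gluedSpace e₂ e₁ (fun _ => (1 : k)) B₂ B₁ ↔
      t.swap ∈ gluedSpace e₁ e₂ (fun _ => (1 : k)) B₁ B₂ := by
  constructor
  · rintro ⟨h1, h2, h3⟩
    refine ⟨h2, h1, fun i => ?_⟩
    obtain ⟨c, hc1, hc2⟩ := h3 i
    rw [one_mul] at hc2
    refine ⟨c, hc2, ?_⟩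
    rw [one_mul]
    exact hc1
  · rintro ⟨h1, h2, h3⟩
    refine ⟨h2, h1, fun i => ?_⟩
    obtain ⟨c, hc1, hc2⟩ := h3 i
    rw [one_mul] at hc2
    refine ⟨c, hc2, ?_⟩
    rw [one_mul]
    exact hc1

/-- The reduction map with the two components exchanged. -/
def redSwap (red : O →+* F₁ × F₂) : O →+* F₂ × F₁ :=
  (RingEquiv.prodComm : F₁ × F₂ ≃+* F₂ × F₁).toRingHom.comp red

theorem redSwap_apply (red : O →+* F₁ × F₂) (y : O) : redSwap red y = (red y).swap := rfl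

theorem redSwap_fst (red : O →+* F₁ × F₂) (y : O) : (redSwap red y).1 = (red y).2 := rfl

theorem redSwap_snd (red : O →+* F₁ × F₂) (y : O) : (redSwap red y).2 = (red y).1 := rfl

/-- The chart hypothesis for the exchanged reduction map. -/
theorem charts_swap (red : O →+* F₁ × F₂) {E : Divisor L F} {e₁ : ι → Place k F₁}
    {e₂ : ι → Place k F₂} {D₁ : Divisor k F₁} {D₂ : Divisor k F₂}
    (hS : ∃ N₀ : ℕ, ∀ N, N₀ ≤ N → ∀ t : F₁ × F₂,
      (∃ y : O, (y : F) ∈ riemannRochSpace (N • E) ∧ red y = t) ↔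
        t ∈ gluedSpace e₁ e₂ (fun _ => (1 : k)) (N • D₁) (N • D₂)) :
    ∃ N₀ : ℕ, ∀ N, N₀ ≤ N → ∀ t : F₂ × F₁,
      (∃ y : O, (y : F) ∈ riemannRochSpace (N • E) ∧ redSwap red y = t) ↔
        t ∈ gluedSpace e₂ e₁ (fun _ => (1 : k)) (N • D₂) (N • D₁) := by
  obtain ⟨N₀, hN₀⟩ := hS
  refine ⟨N₀, fun N hN t => ?_⟩
  rw [swap_mem_gluedSpace, ← hN₀ N hN t.swap]
  constructor
  · rintro ⟨y, hy, rfl⟩
    exact ⟨y, hy, by rw [redSwap_apply, Prod.swap_swap]⟩
  · rintro ⟨y, hy, hyt⟩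
    exact ⟨y, hy, by rw [redSwap_apply, hyt, Prod.swap_swap]⟩

/-- **The mirror**: a vertical unit has neither a zero nor a pole on the second component off
the nodes and the chart poles. -/
theorem val_red_snd_eq_one [Fintype ι] (h₂ : IsFF1 k F₂ x₂)
    (hOA : ∀ x : L, algebraMap L F x ∈ O ↔ x ∈ A)
    (red : O →+* F₁ × F₂) (π : A →+* k)
    (hπker : ∀ a : A, π a = 0 ↔ A.valuation (a : L) < 1)
    (hconst : ∀ a : A, red ⟨algebraMap L F (a : L), (hOA _).2 a.2⟩ =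
      algebraMap k (F₁ × F₂) (π a))
    (hker : ∀ y : O, red y = 0 ↔ Small A O (y : F))
    (Fx : Subring F) {E : Divisor L F} (hE : 0 ≤ E) (e₁ : ι → Place k F₁) (e₂ : ι → Place k F₂)
    (D₁ : Divisor k F₁) (D₂ : Divisor k F₂) (hD₂ : ∀ j, D₂ (e₂ j) = 0)
    (hD₁0 : 0 ≤ D₁) (hD₂0 : 0 ≤ D₂) (hd₂ : 0 < Divisor.degree D₂)
    (hS : ∃ N₀ : ℕ, ∀ N, N₀ ≤ N → ∀ t : F₁ × F₂,
      (∃ y : O, (y : F) ∈ riemannRochSpace (N • E) ∧ red y = t) ↔
        t ∈ gluedSpace e₁ e₂ (fun _ => (1 : k)) (N • D₁) (N • D₂))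
    (hinv : ∀ g ∈ Fx, g⁻¹ ∈ Fx)
    (hfixlift : ∀ (N : ℕ) (y : O), (y : F) ∈ riemannRochSpace (N • E) →
      ∃ y' : O, (y' : F) ∈ riemannRochSpace (N • E) ∧ (y' : F) ∈ Fx ∧ red y' = red y)
    {p : L} (hp0 : p ≠ 0) (hp1 : A.valuation p < 1) (hpF : algebraMap L F p ∈ Fx)
    (hdisc : ∀ g ∈ Fx, Small A O g → ∃ o ∈ O, g = algebraMap L F p * o)
    (Q : Place k F₂) (hQ : ∀ j, e₂ j ≠ Q) (hQD : D₂ Q = 0)
    {f f' : O} {n : ℕ} (hfL : (f : F) ∈ riemannRochSpace (n • E))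
    (hf'L : (f' : F) ∈ riemannRochSpace (n • E)) (hf'F : (f' : F) ∈ Fx)
    {e : ℕ} (hff' : (f : F) * (f' : F) = algebraMap L F p ^ e) (hf2 : (red f).2 ≠ 0) :
    Q.adicValuation (red f).2 = 1 := by
  have hconst' : ∀ a : A, redSwap red ⟨algebraMap L F (a : L), (hOA _).2 a.2⟩ =
      algebraMap k (F₂ × F₁) (π a) := by
    intro a
    rw [redSwap_apply, hconst a]
    rfl
  have hker' : ∀ y : O, redSwap red y = 0 ↔ Small A O (y : F) := by
    intro y
    rw [← hker y, redSwap_apply]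
    constructor
    · intro h
      have h' := congrArg Prod.swap h
      rwa [Prod.swap_swap] at h'
    · intro h
      rw [h]
      rfl
  have hfixlift' : ∀ (N : ℕ) (y : O), (y : F) ∈ riemannRochSpace (N • E) →
      ∃ y' : O, (y' : F) ∈ riemannRochSpace (N • E) ∧ (y' : F) ∈ Fx ∧
        redSwap red y' = redSwap red y := by
    intro N y hy
    obtain ⟨y', h1, h2, h3⟩ := hfixlift N y hy
    exact ⟨y', h1, h2, by rw [redSwap_apply, redSwap_apply, h3]⟩
  exact val_red_fst_eq_one h₂ hOA (redSwap red) π hπker hconst' hker' Fx hE e₂ e₁ D₂ D₁ hD₂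
    hD₂0 hD₁0 hd₂ (charts_swap red hS) hinv hfixlift' hp0 hp1 hpF hdisc Q hQ hQD hfL hf'L
    hf'F hff' hf2

/-- The mirror in terms of orders: `ord_Q (red f).2 = 0`. -/
theorem ord_red_snd_eq_zero [Fintype ι] (h₂ : IsFF1 k F₂ x₂)
    (hOA : ∀ x : L, algebraMap L F x ∈ O ↔ x ∈ A)
    (red : O →+* F₁ × F₂) (π : A →+* k)
    (hπker : ∀ a : A, π a = 0 ↔ A.valuation (a : L) < 1)
    (hconst : ∀ a : A, red ⟨algebraMap L F (a : L), (hOA _).2 a.2⟩ =
      algebraMap k (F₁ × F₂) (π a))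
    (hker : ∀ y : O, red y = 0 ↔ Small A O (y : F))
    (Fx : Subring F) {E : Divisor L F} (hE : 0 ≤ E) (e₁ : ι → Place k F₁) (e₂ : ι → Place k F₂)
    (D₁ : Divisor k F₁) (D₂ : Divisor k F₂) (hD₂ : ∀ j, D₂ (e₂ j) = 0)
    (hD₁0 : 0 ≤ D₁) (hD₂0 : 0 ≤ D₂) (hd₂ : 0 < Divisor.degree D₂)
    (hS : ∃ N₀ : ℕ, ∀ N, N₀ ≤ N → ∀ t : F₁ × F₂,
      (∃ y : O, (y : F) ∈ riemannRochSpace (N • E) ∧ red y = t) ↔
        t ∈ gluedSpace e₁ e₂ (fun _ => (1 : k)) (N • D₁) (N • D₂))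
    (hinv : ∀ g ∈ Fx, g⁻¹ ∈ Fx)
    (hfixlift : ∀ (N : ℕ) (y : O), (y : F) ∈ riemannRochSpace (N • E) →
      ∃ y' : O, (y' : F) ∈ riemannRochSpace (N • E) ∧ (y' : F) ∈ Fx ∧ red y' = red y)
    {p : L} (hp0 : p ≠ 0) (hp1 : A.valuation p < 1) (hpF : algebraMap L F p ∈ Fx)
    (hdisc : ∀ g ∈ Fx, Small A O g → ∃ o ∈ O, g = algebraMap L F p * o)
    (Q : Place k F₂) (hQ : ∀ j, e₂ j ≠ Q) (hQD : D₂ Q = 0)
    {f f' : O} {n : ℕ} (hfL : (f : F) ∈ riemannRochSpace (n • E))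
    (hf'L : (f' : F) ∈ riemannRochSpace (n • E)) (hf'F : (f' : F) ∈ Fx)
    {e : ℕ} (hff' : (f : F) * (f' : F) = algebraMap L F p ^ e) (hf2 : (red f).2 ≠ 0) :
    Q.ord (red f).2 = 0 := by
  have h := val_red_snd_eq_one h₂ hOA red π hπker hconst hker Fx hE e₁ e₂ D₁ D₂ hD₂ hD₁0 hD₂0
    hd₂ hS hinv hfixlift hp0 hp1 hpF hdisc Q hQ hQD hfL hf'L hf'F hff' hf2
  rw [Q.adicValuation_eq_exp_neg_ord hf2, ← exp_zero, exp_inj] at h
  omega

end Fermat.Agent.TR.Node.VertUnit
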