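/-
TR, node side, (I7): THE DICTIONARY "zeros of `Δ̄` off the cusps = nodes" (helper61; independent
second seat, same route as helper54's `VertUnit`).

Setting of `BAD/NodalPlus.lean`: `A ⊂ ℚ̄` a valuation subring over `q`, `π : A → k` onto an
algebraically closed field, `h : BadSetup A π M q`, `F = ℚ̄·F_{Mq}`, `κ = F̄_M`,
`O = OPair h W = O_∞ ∩ O_0`, `redPair h W : O → κ × κ`.

* for ANY nodal datum `hD : NodalPlus.NodalDatum h W E1 E2 e₁ e₂ P₁ Z₁ P₂ Z₂` and the modular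
  unit `f_Δ = Δ(q)/Δ(q^q)` (any `f` with `q`-expansion `Units.u1 ℚ̄ q`) lying with `q¹² f⁻¹` in
  the charts `L(n • E1)`:
  `ord_redInf_eq_zero_of_ne_node` : `ord_Q (red_∞ f) = 0` at every `Q` which is not a node
  `e₁ j` and with `P₁ Q = 0`; mirror `ord_redZero_eq_zero_of_ne_node` for `red_0 (q¹² f⁻¹)`
  (`VertUnit.ord_red_fst_eq_zero` / `ord_red_snd_eq_zero` at BAD's objects);
* `ord_xk_nonneg_iff` : a place of `κ` is non-cuspidal (`Seam.NonCusp`) iff `x̄ = J̄(q^M)` is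
  regular there (the integrality web of `CAR/Inst/LevelN` in characteristic `q`);
* `exists_datum_dict61` : **one datum with the dictionary** (`5 ≤ q`): the explicit `J`-datum
  of `NodalPlusX` is a `NodalDatum` with `ChartHyp E1`, `NonCusp Q ↔ P₁ Q = 0 ↔ P₂ Q = 0`, the
  nodes are non-cuspidal, every non-cuspidal place with `ord Δ̄ ≠ 0` is a node `e₁ i` (and a
  node `e₂ i`), and `0 < ord_{e₁ i} Δ̄` is prime to `q`;
* `exists_datum_hdict61` : the same datum with the clause of `Asm.NumericAt` only.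
-/
import Mathlib
import Fermat.Agent.BAD.NodalPlusX
import Fermat.Agent.BAD.HenselPlaceInst
import Fermat.Agent.BAD.LatFixedRing
import Fermat.Agent.Lib.FF.Holo
import Fermat.Agent.TR.Node.VertUnit
import Fermat.Agent.TR.Node.NodePkgFull
import Fermat.Agent.TR.PL.Seam

set_option autoImplicit false
set_option linter.style.haveILetI false
set_option linter.unusedSectionVars false

noncomputable section

namespace Fermat.Agent.TR.Node.Dict61

open AlgebraicCurve ModularCurve WithZero Fermat.Agent.Lib.Red Fermat.Agent.Lib.FF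
  Fermat.Agent.Lib.Red.Deform Fermat.Agent.BAD Fermat.Agent.BAD.NodalRiemann
  Fermat.Agent.BAD.TwoVal
  Fermat.Agent.BAD.BadU Fermat.Agent.BAD.KerRed Fermat.Agent.BAD.NodalPlus
  Fermat.Agent.BAD.NodalPlaces Fermat.Agent.TR.Unit Fermat.Agent.TR.PL.Seam
  Fermat.Agent.TR.Node.NodalLocal Fermat.Agent.ESJ.Cong.LevelGen

local notation "Qb" => AlgebraicClosure ℚ

variable {A : ValuationSubring Qb} {k : Type} [Field k] {π : A →+* k} {M q : ℕ} [NeZero M]
  [NeZero q]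

/-! ### The hypotheses of `VertUnit` at a nodal datum -/

section Datum

variable {h : BadSetup A π M q}
  {W : laurentBaseChange Qb (modularFunctionFieldFull (M * q)) ≃ₐ[Qb]
    laurentBaseChange Qb (modularFunctionFieldFull (M * q))}
  {E1 E2 : Divisor Qb (laurentBaseChange Qb (modularFunctionFieldFull (M * q)))}
  {ι : Type} {e₁ e₂ : ι → Place k (modularFunctionFieldFullC k M)}
  {P₁ Z₁ P₂ Z₂ : Divisor k (modularFunctionFieldFullC k M)}
  (hD : NodalDatum h W E1 E2 e₁ e₂ P₁ Z₁ P₂ Z₂)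

include hD

/-- `E1` is effective. -/
theorem E1_nonneg : 0 ≤ E1 := by
  obtain ⟨-, -, -, -, -, -, -, -, -, -, hE1, -⟩ := hD
  exact Finsupp.le_def.mpr fun v => by rw [Finsupp.zero_apply]; exact hE1 v

/-- The divisors `P₁`, `P₂` of the special fibre are effective. -/
theorem P_nonneg : 0 ≤ P₁ ∧ 0 ≤ P₂ := by
  obtain ⟨-, -, -, -, -, -, -, -, -, -, hE1, hE2, -, -, -, -, hS2⟩ := hD
  obtain ⟨h1, -, h2, -⟩ :=
    BAD.HenselPlaceInst.nonneg_of_datum h W E1 E2 e₁ e₂ P₁ Z₁ P₂ Z₂ hE1 hE2 hS2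
  exact ⟨h1, h2⟩

/-- **CHART**: the lattices of the charts `N • E1` reduce onto the glued spaces
`(N • P₁, N • P₂)`. -/
theorem chart : ∃ N₀ : ℕ, ∀ N, N₀ ≤ N →
    ∀ t : ↥(modularFunctionFieldFullC k M) × ↥(modularFunctionFieldFullC k M),
      (∃ y : OPair h W,
          (y : laurentBaseChange Qb (modularFunctionFieldFull (M * q))) ∈
            riemannRochSpace (N • E1) ∧ redPair h W y = t) ↔
        t ∈ gluedSpace e₁ e₂ (fun _ => (1 : k)) (N • P₁) (N • P₂) := by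
  obtain ⟨-, -, -, -, -, -, -, -, -, -, -, -, -, -, -, -, N₀, hS2⟩ := hD
  refine ⟨N₀, fun N hN t => ?_⟩
  have h1 := hS2 N 0 (by omega) t
  simpa only [zero_smul, add_zero] using h1

/-- `N • E1` is inertia-invariant. -/
theorem galois_nsmul_E1 (N : ℕ) (σ : Qb ≃ₐ[ℚ] Qb) (hσ : σ ∈ A.inertiaSubgroupIn ℚ) :
    arithmeticGalois (modularFunctionFieldFull (M * q)) σ • (N • E1) = N • E1 := by
  obtain ⟨-, -, -, -, -, -, -, -, -, -, -, -, -, -, -, hgal, -⟩ := hD
  ext v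
  rw [SemilinearAut.divisor_smul_apply, Finsupp.smul_apply, Finsupp.smul_apply,
    ← SemilinearAut.divisor_smul_apply, (hgal σ hσ).1]

/-- **`hfixlift`**: every integral chart function has an inertia-fixed integral chart function
with the same reduction. -/
theorem fixlift [IsAlgClosed k] (hπ : Function.Surjective π) (hA : A.LiesOverPrime q)
    (hW : IsAL M q W) (N : ℕ) (y : OPair h W)
    (hy : (y : laurentBaseChange Qb (modularFunctionFieldFull (M * q))) ∈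
      riemannRochSpace (N • E1)) :
    ∃ y' : OPair h W,
      (y' : laurentBaseChange Qb (modularFunctionFieldFull (M * q))) ∈
        riemannRochSpace (N • E1) ∧
      (y' : laurentBaseChange Qb (modularFunctionFieldFull (M * q))) ∈
        BAD.LatFixedRing.fixedSubring A (M * q) ∧
      redPair h W y' = redPair h W y := by
  obtain ⟨f', hf'O, hf'L, hfix, hred⟩ :=
    BAD.LatFixedInst.exists_fixed_lift_rr h.hℓ hA h hπ hW (N • E1)
      (fun σ hσ => galois_nsmul_E1 hD N σ hσ) hy y.2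
  exact ⟨⟨f', hf'O⟩, hf'L, hfix, hred⟩

omit hD in
/-- **`hdisc`**: an inertia-fixed small function is divisible by `q` in `O`. -/
theorem disc (hA : A.LiesOverPrime q) (hW : IsAL M q W)
    (g : laurentBaseChange Qb (modularFunctionFieldFull (M * q)))
    (hg : g ∈ BAD.LatFixedRing.fixedSubring A (M * q)) (hs : Small A (OPair h W) g) :
    ∃ o ∈ OPair h W,
      g = algebraMap Qb (laurentBaseChange Qb (modularFunctionFieldFull (M * q)))
        ((q : ℕ) : Qb) * o :=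
  BAD.LatFixedInst.dvd_of_fixed_small h.hℓ hA h hW hg hs

omit hD in
/-- `q` has valuation `< 1`. -/
theorem valuation_q_lt_one (h : BadSetup A π M q) : A.valuation ((q : ℕ) : Qb) < 1 := by
  have hqA : ((q : ℕ) : Qb) ∈ A := _root_.natCast_mem A q
  have hπq : π ⟨((q : ℕ) : Qb), hqA⟩ = 0 := by
    have e : (⟨((q : ℕ) : Qb), hqA⟩ : A) = ((q : ℕ) : A) := Subtype.ext (by simp)
    rw [e, map_natCast]
    exact h.hℓk
  exact (h.pi_eq_zero_iff ⟨_, hqA⟩).1 hπq

/-- **The modular unit has neither zero nor pole on the `∞`-component off the nodes and the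
chart poles**: `ord_Q (red_∞ f_Δ) = 0` for `Q ∉ range e₁`, `P₁ Q = 0`. -/
theorem ord_redInf_eq_zero_of_ne_node [IsAlgClosed k] [Fintype ι]
    (hπ : Function.Surjective π) (hA : A.LiesOverPrime q) (hW : IsAL M q W)
    (Q : Place k (modularFunctionFieldFullC k M)) (hQ : ∀ j, e₁ j ≠ Q) (hQP : P₁ Q = 0)
    {f : laurentBaseChange Qb (modularFunctionFieldFull (M * q))}
    (hf : (f : LaurentSeries Qb) = Fermat.Agent.CAR.V3.Units.u1 Qb q) {n n' : ℕ}
    (hfL : f ∈ riemannRochSpace (n • E1))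
    (hgL : ((q : ℕ) : laurentBaseChange Qb (modularFunctionFieldFull (M * q))) ^ 12 * f⁻¹ ∈
      riemannRochSpace (n' • E1)) :
    Q.ord (redInf h ⟨f, FDelta.f_mem_OInf h hf⟩) = 0 := by
  have hD' := hD
  obtain ⟨-, -, hP₁, -, -, -, -, -, hdegP₁, -, -⟩ := hD'
  obtain ⟨hP₁0, hP₂0⟩ := P_nonneg hD
  have hE := E1_nonneg hD
  have hfO : f ∈ OPair h W :=
    (mem_OPair_iff h f).2 ⟨FDelta.f_mem_OInf h hf, FDelta.f_mem_OZero h hW hf⟩
  have hgO : ((q : ℕ) : laurentBaseChange Qb (modularFunctionFieldFull (M * q))) ^ 12 * f⁻¹ ∈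
      OPair h W :=
    (mem_OPair_iff h _).2 ⟨FDelta.g_mem_OInf h hf, FDelta.g_mem_OZero h hW hf⟩
  have hff' : f * (((q : ℕ) : laurentBaseChange Qb (modularFunctionFieldFull (M * q))) ^ 12 *
      f⁻¹) = algebraMap Qb (laurentBaseChange Qb (modularFunctionFieldFull (M * q)))
        ((q : ℕ) : Qb) ^ 12 := by
    rw [map_natCast]
    exact FDelta.f_mul_g hf
  exact VertUnit.ord_red_fst_eq_zero (isFF1_xk k M) (fun x => OPair_hOA h x) (redPair h W) π
    h.pi_eq_zero_iff (fun a => (redPair_algebraMap h a _).trans rfl) (redPair_eq_zero_iff h)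
    (BAD.LatFixedRing.fixedSubring A (M * q)) hE e₁ e₂ P₁ P₂ hP₁ hP₁0 hP₂0 hdegP₁ (chart hD)
    (fun _ hg => BAD.LatFixedRing.inv_mem hg) (fun N y hy => fixlift hD hπ hA hW N y hy)
    (Nat.cast_ne_zero.2 (NeZero.ne q)) (valuation_q_lt_one h)
    (BAD.LatFixedRing.algebraMap_natCast_mem q) (fun g hg hs => disc hA hW g hg hs) Q hQ hQP
    (f := ⟨f, hfO⟩) (f' := ⟨_, hgO⟩) (n := max n n') (e := 12)
    (mem_L_nsmul_of_le hE (le_max_left n n') hfL) (mem_L_nsmul_of_le hE (le_max_right n n') hgL)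
    (fun σ _ => FDelta.smul_g hf σ) hff' (FDelta.redInf_f_ne_zero h hf _)

/-- **The mirror on the `0`-component**: `ord_Q (red_0 (q¹² f_Δ⁻¹)) = 0` for `Q ∉ range e₂`,
`P₂ Q = 0`. -/
theorem ord_redZero_eq_zero_of_ne_node [IsAlgClosed k] [Fintype ι]
    (hπ : Function.Surjective π) (hA : A.LiesOverPrime q) (hW : IsAL M q W)
    (Q : Place k (modularFunctionFieldFullC k M)) (hQ : ∀ j, e₂ j ≠ Q) (hQP : P₂ Q = 0)
    {f : laurentBaseChange Qb (modularFunctionFieldFull (M * q))}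
    (hf : (f : LaurentSeries Qb) = Fermat.Agent.CAR.V3.Units.u1 Qb q) {n n' : ℕ}
    (hfL : f ∈ riemannRochSpace (n • E1))
    (hgL : ((q : ℕ) : laurentBaseChange Qb (modularFunctionFieldFull (M * q))) ^ 12 * f⁻¹ ∈
      riemannRochSpace (n' • E1)) :
    Q.ord (redZero h W ⟨_, FDelta.g_mem_OZero h hW hf⟩) = 0 := by
  have hD' := hD
  obtain ⟨-, -, -, -, hP₂, -, -, -, -, hdegP₂, -⟩ := hD'
  obtain ⟨hP₁0, hP₂0⟩ := P_nonneg hD
  have hE := E1_nonneg hD
  have hfO : f ∈ OPair h W :=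
    (mem_OPair_iff h f).2 ⟨FDelta.f_mem_OInf h hf, FDelta.f_mem_OZero h hW hf⟩
  have hgO : ((q : ℕ) : laurentBaseChange Qb (modularFunctionFieldFull (M * q))) ^ 12 * f⁻¹ ∈
      OPair h W :=
    (mem_OPair_iff h _).2 ⟨FDelta.g_mem_OInf h hf, FDelta.g_mem_OZero h hW hf⟩
  have hff' : (((q : ℕ) : laurentBaseChange Qb (modularFunctionFieldFull (M * q))) ^ 12 *
      f⁻¹) * f = algebraMap Qb (laurentBaseChange Qb (modularFunctionFieldFull (M * q)))
        ((q : ℕ) : Qb) ^ 12 := by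
    rw [map_natCast]
    exact (mul_comm _ _).trans (FDelta.f_mul_g hf)
  exact VertUnit.ord_red_snd_eq_zero (isFF1_xk k M) (fun x => OPair_hOA h x) (redPair h W) π
    h.pi_eq_zero_iff (fun a => (redPair_algebraMap h a _).trans rfl) (redPair_eq_zero_iff h)
    (BAD.LatFixedRing.fixedSubring A (M * q)) hE e₁ e₂ P₁ P₂ hP₂ hP₁0 hP₂0 hdegP₂ (chart hD)
    (fun _ hg => BAD.LatFixedRing.inv_mem hg) (fun N y hy => fixlift hD hπ hA hW N y hy)
    (Nat.cast_ne_zero.2 (NeZero.ne q)) (valuation_q_lt_one h)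
    (BAD.LatFixedRing.algebraMap_natCast_mem q) (fun g hg hs => disc hA hW g hg hs) Q hQ hQP
    (f := ⟨_, hgO⟩) (f' := ⟨f, hfO⟩) (n := max n n') (e := 12)
    (mem_L_nsmul_of_le hE (le_max_right n n') hgL) (mem_L_nsmul_of_le hE (le_max_left n n') hfL)
    (fun σ _ => FDelta.smul_f hf σ) hff' (FDelta.redZero_g_ne_zero h hW hf _)

end Datum

/-! ### Cusps of the special fibre -/

section Cusp

open Fermat.Agent.CAR.Inst.LevelN

/-- `J̄`, the reduction of `J`. -/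
def Jbar (h : BadSetup A π M q) : modularFunctionFieldFullC k M :=
  redF A π M h.hπ h.hMk ⟨jLevel Qb M, jLevel_mem_Ow h⟩

theorem coe_Jbar (h : BadSetup A π M q) : ((Jbar h : modularFunctionFieldFullC k M) :
    LaurentSeries k) = jqModC k := by
  unfold Jbar
  rw [coe_redF_jLevel h]
  exact Fermat.Agent.S28.TD.Jd_one k

theorem isJ_Jbar (h : BadSetup A π M q) : IsJ (Jbar h) :=
  ⟨1, one_ne_zero, by rw [coe_Jbar h]; exact (Fermat.Agent.S28.TD.Jd_one k).symm⟩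

omit [NeZero q] in
theorem isJ_xk : IsJ (xk k M) := ⟨M, NeZero.ne M, coe_xk k M⟩

/-- **A place of `κ` is non-cuspidal iff `x̄ = J̄(q^M)` is regular there.** -/
theorem ord_xk_nonneg_iff (h : BadSetup A π M q) (Q : Place k (modularFunctionFieldFullC k M)) :
    NonCusp Q ↔ 0 ≤ Q.ord (xk k M) := by
  rw [nonCusp_iff (coe_Jbar h)]
  constructor
  · intro hQ
    exact Holo.ord_nonneg_of_isIntegral
      (IsJ.isIntegral_adjoin (R := k) (isJ_xk (k := k) (M := M)) (isJ_Jbar h)) Q hQ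
  · intro hQ
    exact Holo.ord_nonneg_of_isIntegral
      (IsJ.isIntegral_adjoin (R := k) (isJ_Jbar h) (isJ_xk (k := k) (M := M))) Q hQ

/-- The pole divisor of `x̄^(q+1)` vanishes exactly at the non-cuspidal places. -/
theorem poleDiv_eq_zero_iff [IsAlgClosed k] (h : BadSetup A π M q)
    (hX : IsChartBase h (xL Qb M))
    (Q : Place k (modularFunctionFieldFullC k M)) :
    NonCusp Q ↔ (SpecialFibre.isFF1_redX_pow hX).poleDiv Q = 0 := by
  have hred : redF A π M h.hπ h.hMk ⟨xL Qb M, hX.mem⟩ = xk k M :=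
    Fermat.Agent.Lib.Red.redF_xL h.hπ h.hMk
  rw [ord_xk_nonneg_iff h Q, IsFF1.poleDiv_apply, hred, Fermat.Agent.ESJ.Jac.ord_pow]
  have hq : (0 : ℤ) < ((q + 1 : ℕ) : ℤ) := by exact_mod_cast Nat.succ_pos q
  constructor
  · intro h0
    have : 0 ≤ ((q + 1 : ℕ) : ℤ) * Q.ord (xk k M) := mul_nonneg hq.le h0
    exact max_eq_right (by omega)
  · intro h0
    have h1 : -(((q + 1 : ℕ) : ℤ) * Q.ord (xk k M)) ≤ 0 := by
      rw [← h0]
      exact le_max_left _ _
    by_contra hneg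
    push Not at hneg
    have : ((q + 1 : ℕ) : ℤ) * Q.ord (xk k M) < 0 := mul_neg_of_pos_of_neg hq hneg
    omega

end Cusp

/-! ### The datum with its dictionary -/

section Dict

set_option maxHeartbeats 1000000 in
/-- **(I7) One datum with the dictionary** (`5 ≤ q`): the explicit `J`-datum. -/
theorem exists_datum_dict61 [IsAlgClosed k] (hA : A.LiesOverPrime q)
    (hπ : Function.Surjective π) (h : BadSetup A π M q) (h5 : 5 ≤ q)
    {W : laurentBaseChange Qb (modularFunctionFieldFull (M * q)) ≃ₐ[Qb]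
      laurentBaseChange Qb (modularFunctionFieldFull (M * q))} (hW : IsAL M q W) :
    ∃ (E1 E2 : Divisor Qb (laurentBaseChange Qb (modularFunctionFieldFull (M * q))))
      (ι : Type) (_ : Fintype ι) (_ : Nonempty ι)
      (e₁ e₂ : ι → Place k (modularFunctionFieldFullC k M))
      (P₁ Z₁ P₂ Z₂ : Divisor k (modularFunctionFieldFullC k M)),
      NodalDatum h W E1 E2 e₁ e₂ P₁ Z₁ P₂ Z₂ ∧
      0 < Divisor.degree Z₁ ∧ 0 < Divisor.degree Z₂ ∧
      NodePkgFull.ChartHyp E1 ∧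
      (∀ Q, NonCusp Q ↔ P₁ Q = 0) ∧ (∀ Q, NonCusp Q ↔ P₂ Q = 0) ∧
      (∀ i, NonCusp (e₁ i) ∧ NonCusp (e₂ i)) ∧
      (∀ Q, Q.ord (deltaBar h) ≠ 0 → NonCusp Q → ∃ i, Q = e₁ i) ∧
      (∀ Q, Q.ord (deltaBar h) ≠ 0 → NonCusp Q → ∃ i, Q = e₂ i) ∧
      (∀ i, 0 < (e₁ i).ord (deltaBar h) ∧ ¬ ((q : ℕ) : ℤ) ∣ (e₁ i).ord (deltaBar h)) := by
  classical
  haveI : Fact q.Prime := ⟨h.hℓ⟩
  haveI : CharP k q := h.charP
  obtain ⟨hX, hxO, ι, hι, hne, e₁, e₂, hD, hdegZ, -, -, -, -, -, -⟩ :=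
    exists_explicitDatum_ofJ h hW hπ h5
  have hint : NodePkgFull.ChartHyp (SpecialFibre.isFF1_xN_X h hW hX).poleDiv := fun g hg =>
    JDatum.exists_mem_L_of_isIntegral_alpha_jLevel (SpecialFibre.isFF1_xN_X h hW hX) hg
  have hD' := hD
  obtain ⟨hinj₁, hinj₂, hP₁, -, hP₂, -, -, -, hdegP₁, hdegP₂, hE1, hE2, -, -, -, hgalE, hS2⟩ :=
    hD'
  have hcusp := poleDiv_eq_zero_iff h hX
  -- the modular unit in the charts
  have hf : ((FDelta.fDelta Qb M q h.hℓ : laurentBaseChange Qb (modularFunctionFieldFull (M * q))) :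
      LaurentSeries Qb) = Fermat.Agent.CAR.V3.Units.u1 Qb q := FDelta.coe_fDelta h.hℓ
  have hJ : IsIntegral (Algebra.adjoin Qb
      ({heckeAlphaBar Qb M q (jLevel Qb M)} :
        Set ↥(laurentBaseChange Qb (modularFunctionFieldFull (M * q)))))
      (heckeAlphaBar Qb M q (jLevel Qb M)) :=
    isIntegral_algebraMap (x := (⟨heckeAlphaBar Qb M q (jLevel Qb M),
      Algebra.subset_adjoin (Set.mem_singleton _)⟩ : Algebra.adjoin Qb
      ({heckeAlphaBar Qb M q (jLevel Qb M)} :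
        Set ↥(laurentBaseChange Qb (modularFunctionFieldFull (M * q))))))
  obtain ⟨hif, hig⟩ := FDelta.isIntegral_f_g h.hℓ hJ hf
  obtain ⟨n, hn⟩ := hint _ hif
  obtain ⟨n', hn'⟩ := hint _ hig
  refine ⟨_, _, ι, hι, hne, e₁, e₂, _, _, _, _, hD, hdegZ, hdegZ, hint, hcusp, hcusp,
    fun i => ⟨(hcusp _).2 (hP₁ i), (hcusp _).2 (hP₂ i)⟩, ?_, ?_, fun i => ?_⟩
  · intro Q hQ0 hQ
    by_contra hno
    push Not at hno
    exact hQ0 (ord_redInf_eq_zero_of_ne_node hD hπ hA hW Q (fun j hj => hno j hj.symm)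
      ((hcusp Q).1 hQ) hf hn hn')
  · intro Q hQ0 hQ
    by_contra hno
    push Not at hno
    have h1 := ord_redZero_eq_zero_of_ne_node hD hπ hA hW Q (fun j hj => hno j hj.symm)
      ((hcusp Q).1 hQ) hf hn hn'
    rw [FDelta.redZero_g h hW hf _ (FDelta.f_mem_OInf h hf)] at h1
    exact hQ0 h1
  · exact ⟨(NodePkgFull.ord_deltaBar_pos hA hπ h W hW _ _ e₁ e₂ _ _ _ _ hinj₁ hinj₂ hP₁ hP₂
        hdegP₁ hdegP₂ hE1 hE2 hgalE hS2 i hint).1,
      NodePkgFull.not_dvd_ord_deltaBar hA hπ h W hW _ _ e₁ e₂ _ _ _ _ hinj₁ hinj₂ hP₁ hP₂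
        hdegP₁ hdegP₂ hE1 hE2 hgalE hS2 i hint h5⟩

/-- **(I7), the clause of `Asm.NumericAt`**: a nodal datum (with `ChartHyp E1`) whose nodes
`e₁ i` are exactly the non-cuspidal places with `0 < ord Δ̄`. -/
theorem exists_datum_hdict61 [IsAlgClosed k] (hA : A.LiesOverPrime q)
    (hπ : Function.Surjective π) (h : BadSetup A π M q) (h5 : 5 ≤ q)
    {W : laurentBaseChange Qb (modularFunctionFieldFull (M * q)) ≃ₐ[Qb]
      laurentBaseChange Qb (modularFunctionFieldFull (M * q))} (hW : IsAL M q W) :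
    ∃ (E1 E2 : Divisor Qb (laurentBaseChange Qb (modularFunctionFieldFull (M * q))))
      (ι : Type) (_ : Fintype ι) (_ : Nonempty ι)
      (e₁ e₂ : ι → Place k (modularFunctionFieldFullC k M))
      (P₁ Z₁ P₂ Z₂ : Divisor k (modularFunctionFieldFullC k M)),
      NodalDatum h W E1 E2 e₁ e₂ P₁ Z₁ P₂ Z₂ ∧ NodePkgFull.ChartHyp E1 ∧
      (∀ Q : Place k (modularFunctionFieldFullC k M), NonCusp Q → 0 < Q.ord (deltaBar h) →
        ∃ i, Q = e₁ i) ∧
      (∀ i, NonCusp (e₁ i) ∧ 0 < (e₁ i).ord (deltaBar h) ∧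
        ¬ ((q : ℕ) : ℤ) ∣ (e₁ i).ord (deltaBar h)) := by
  obtain ⟨E1, E2, ι, hι, hne, e₁, e₂, P₁, Z₁, P₂, Z₂, hD, -, -, hint, -, -, hnc, hd, -, hu⟩ :=
    exists_datum_dict61 hA hπ h h5 hW
  exact ⟨E1, E2, ι, hι, hne, e₁, e₂, P₁, Z₁, P₂, Z₂, hD, hint,
    fun Q hQ hpos => hd Q (ne_of_gt hpos) hQ, fun i => ⟨(hnc i).1, (hu i).1, (hu i).2⟩⟩

end Dict

end Fermat.Agent.TR.Node.Dict61
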