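/-
TR, node side, (I7): the dictionary datum of `TR/Node/Dict61.lean` in RESIDUE-FIELD form
(`k = IsLocalRing.ResidueField A`, `π = IsLocalRing.residue A`), the form of the binders of
`TR.Top.TRKey` / `Seam.PLInf` / `Asm.PLNumeric` / `AsmMid.MidBricks` (helper61).

* `exists_datum_dict_res` : ONE nodal datum with `0 < deg Z₁`, `0 < deg Z₂`, `ChartHyp E1`, the
  dictionary clause of `Asm.NumericAt` (`AsmMid.DictAt h e₁`, unfolded) and, at every node,
  `NonCusp (e₁ i)`, `0 < ord_{e₁ i} Δ̄` prime to `p`;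
* `exists_datum_dict_res_full` : the same datum with all the clauses of
  `Dict61.exists_datum_dict61`.
-/
import Mathlib
import Fermat.Agent.TR.Node.Dict61

set_option autoImplicit false
set_option linter.unusedSectionVars false

noncomputable section

namespace Fermat.Agent.TR.Node.Dict61

open AlgebraicCurve ModularCurve Fermat.Agent.BAD.TwoVal Fermat.Agent.BAD.BadU
  Fermat.Agent.BAD.NodalPlus Fermat.Agent.TR.PL.Seam

local notation "Qb" => AlgebraicClosure ℚ

set_option synthInstance.maxHeartbeats 400000 in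
set_option maxHeartbeats 1600000 in
/-- **(I7), residue-field form, all clauses.** -/
theorem exists_datum_dict_res_full (A : ValuationSubring Qb) (M p : ℕ) [NeZero M] [NeZero p]
    (h : BadSetup A (IsLocalRing.residue A) M p) (hA : A.LiesOverPrime p) (hp5 : 5 ≤ p)
    (W : laurentBaseChange Qb (modularFunctionFieldFull (M * p)) ≃ₐ[Qb]
      laurentBaseChange Qb (modularFunctionFieldFull (M * p))) (hW : IsAL M p W) :
    ∃ (E1 E2 : Divisor Qb (laurentBaseChange Qb (modularFunctionFieldFull (M * p))))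
      (ι : Type) (_ : Fintype ι) (_ : Nonempty ι)
      (e₁ e₂ : ι → Place (IsLocalRing.ResidueField A)
        (modularFunctionFieldFullC (IsLocalRing.ResidueField A) M))
      (P₁ Z₁ P₂ Z₂ : Divisor (IsLocalRing.ResidueField A)
        (modularFunctionFieldFullC (IsLocalRing.ResidueField A) M)),
      NodalDatum h W E1 E2 e₁ e₂ P₁ Z₁ P₂ Z₂ ∧
      0 < Divisor.degree Z₁ ∧ 0 < Divisor.degree Z₂ ∧
      NodePkgFull.ChartHyp E1 ∧
      (∀ Q, NonCusp Q ↔ P₁ Q = 0) ∧ (∀ Q, NonCusp Q ↔ P₂ Q = 0) ∧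
      (∀ i, NonCusp (e₁ i) ∧ NonCusp (e₂ i)) ∧
      (∀ Q, Q.ord (deltaBar h) ≠ 0 → NonCusp Q → ∃ i, Q = e₁ i) ∧
      (∀ Q, Q.ord (deltaBar h) ≠ 0 → NonCusp Q → ∃ i, Q = e₂ i) ∧
      (∀ i, 0 < (e₁ i).ord (deltaBar h) ∧ ¬ ((p : ℕ) : ℤ) ∣ (e₁ i).ord (deltaBar h)) := by
  have : IsAlgClosed (IsLocalRing.ResidueField A) :=
    Fermat.Agent.Lib.FF.CharP.isAlgClosed_residueField A
  exact exists_datum_dict61 hA IsLocalRing.residue_surjective h hp5 hW

set_option synthInstance.maxHeartbeats 400000 in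
set_option maxHeartbeats 1600000 in
/-- **(I7), residue-field form**: one nodal datum with `0 < deg Z₁`, `0 < deg Z₂`,
`ChartHyp E1`, whose nodes `e₁ i` are exactly the non-cuspidal places with `0 < ord Δ̄`
(`AsmMid.DictAt h e₁`), each with `ord Δ̄` prime to `p`. -/
theorem exists_datum_dict_res (A : ValuationSubring Qb) (M p : ℕ) [NeZero M] [NeZero p]
    (h : BadSetup A (IsLocalRing.residue A) M p) (hA : A.LiesOverPrime p) (hp5 : 5 ≤ p)
    (W : laurentBaseChange Qb (modularFunctionFieldFull (M * p)) ≃ₐ[Qb]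
      laurentBaseChange Qb (modularFunctionFieldFull (M * p))) (hW : IsAL M p W) :
    ∃ (E1 E2 : Divisor Qb (laurentBaseChange Qb (modularFunctionFieldFull (M * p))))
      (ι : Type) (_ : Fintype ι) (_ : Nonempty ι)
      (e₁ e₂ : ι → Place (IsLocalRing.ResidueField A)
        (modularFunctionFieldFullC (IsLocalRing.ResidueField A) M))
      (P₁ Z₁ P₂ Z₂ : Divisor (IsLocalRing.ResidueField A)
        (modularFunctionFieldFullC (IsLocalRing.ResidueField A) M)),
      NodalDatum h W E1 E2 e₁ e₂ P₁ Z₁ P₂ Z₂ ∧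
      0 < Divisor.degree Z₁ ∧ 0 < Divisor.degree Z₂ ∧
      NodePkgFull.ChartHyp E1 ∧
      (∀ Q : Place (IsLocalRing.ResidueField A)
          (modularFunctionFieldFullC (IsLocalRing.ResidueField A) M),
        NonCusp Q → 0 < Q.ord (deltaBar h) → ∃ i, Q = e₁ i) ∧
      (∀ i, NonCusp (e₁ i) ∧ 0 < (e₁ i).ord (deltaBar h) ∧
        ¬ ((p : ℕ) : ℤ) ∣ (e₁ i).ord (deltaBar h)) := by
  obtain ⟨E1, E2, ι, hι, hne, e₁, e₂, P₁, Z₁, P₂, Z₂, hD, hdegZ₁, hdegZ₂, hint, -, -, hnc, hd,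
    -, hu⟩ := exists_datum_dict_res_full A M p h hA hp5 W hW
  exact ⟨E1, E2, ι, hι, hne, e₁, e₂, P₁, Z₁, P₂, Z₂, hD, hdegZ₁, hdegZ₂, hint,
    fun Q hQ hpos => hd Q (ne_of_gt hpos) hQ, fun i => ⟨(hnc i).1, (hu i).1, (hu i).2⟩⟩

end Fermat.Agent.TR.Node.Dict61
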