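/-
TR / Node (helper75): THE ANNULUS COORDINATE LEMMA — abstract core (Mathlib only).

Setting: `R` the local ring of a node of the special fibre over a DISCRETE base (constants `S`,
uniformiser `ϖ`), with the normal form `x * y = ϖ ^ n * u` (`u` a unit) and
`R = S + x R + y R + ϖ R` (the maximal ideal is `(x, y, ϖ)` and the residue field is the one of
the constants).  A point of the generic fibre in the residue annulus of the node is a ring
homomorphism `φ : R → Ω` into a valued field (`v : Valuation Ω ℝ≥0`, rank one) with integral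
values and `v (φ x) < 1`, `v (φ y) < 1`.

* `twisted_eq_zero` (**the contraction lemma**): a bounded `(φ, φ')`-derivation `δ : R → Ω`
  (`δ (r s) = φ r * δ s + δ r * φ' s`) which kills the constants, `ϖ` and the node coordinate `x`
  is zero.  [Every value `δ r` is `θ`-times a bound for all values, `θ < 1` the largest of
  `|φ x|, |φ y|, |φ' y|, |φ' ϖ|`: indeed `δ y = φ y * δ u / φ u`.]
* `hom_ext_of_node` (**the coordinate is injective on the annulus**): two points of the annulus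
  with the same value of `x` (and the same values on the constants and on `ϖ`) are equal.
* `derivation_eq_zero` (**the coordinate is unramified on the annulus**): a bounded derivation
  along a point of the annulus (the first Taylor coefficient at the point) which kills the
  constants and `x` is zero; so `x - x(P)` is a local parameter at `P`.

No completion, no henselisation, no intersection theory is used.
-/
import Mathlib

set_option autoImplicit false

namespace Fermat.Agent.TR.Node.Annulus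

open scoped NNReal

section Core

variable {R Ω : Type*} [CommRing R] [Field Ω] (v : Valuation Ω ℝ≥0)

/-- A homomorphism with integral values sends units to elements of absolute value `1`. -/
theorem map_isUnit_eq_one (φ : R →+* Ω) (hφ : ∀ r, v (φ r) ≤ 1) {u : R} (hu : IsUnit u) :
    v (φ u) = 1 := by
  obtain ⟨w, hw⟩ := hu.exists_right_inv
  have h1 : v (φ u) * v (φ w) = 1 := by rw [← map_mul, ← map_mul, hw, map_one, map_one]
  refine le_antisymm (hφ u) ?_
  calc (1 : ℝ≥0) = v (φ u) * v (φ w) := h1.symm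
    _ ≤ v (φ u) * 1 := mul_le_mul' le_rfl (hφ w)
    _ = v (φ u) := mul_one _

variable (φ φ' : R →+* Ω) (δ : R → Ω)

/-- A twisted derivation kills `1`. -/
theorem twisted_one (hmul : ∀ r s, δ (r * s) = φ r * δ s + δ r * φ' s) : δ 1 = 0 := by
  have h := hmul 1 1
  rw [mul_one, map_one, map_one, one_mul, mul_one] at h
  have h2 : δ 1 + δ 1 = δ 1 + 0 := by rw [add_zero]; exact h.symm
  exact add_left_cancel h2

/-- A twisted derivation which kills `ϖ` kills its powers. -/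
theorem twisted_pow (hmul : ∀ r s, δ (r * s) = φ r * δ s + δ r * φ' s) {ϖ : R} (hϖ : δ ϖ = 0)
    (n : ℕ) : δ (ϖ ^ n) = 0 := by
  induction n with
  | zero => rw [pow_zero]; exact twisted_one φ φ' δ hmul
  | succ n ih => rw [pow_succ, hmul, hϖ, ih, mul_zero, zero_mul, add_zero]

/-- The key identity: `δ y * φ u = φ y * δ u` if `x * y = ϖ ^ n * u` and `δ` kills `x` and `ϖ`. -/
theorem twisted_node (hmul : ∀ r s, δ (r * s) = φ r * δ s + δ r * φ' s) {ϖ x y u : R} {n : ℕ}
    (hxy : x * y = ϖ ^ n * u) (hϖ : δ ϖ = 0) (hx : δ x = 0) (hx0 : φ x ≠ 0) :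
    δ y * φ u = φ y * δ u := by
  have h1 : δ (x * y) = φ x * δ y := by rw [hmul, hx, zero_mul, add_zero]
  have h2 : δ (ϖ ^ n * u) = φ (ϖ ^ n) * δ u := by
    rw [hmul, twisted_pow φ φ' δ hmul hϖ n, zero_mul, add_zero]
  have h3 : φ x * δ y = φ (ϖ ^ n) * δ u := by rw [← h1, hxy, h2]
  have h4 : φ x * φ y = φ (ϖ ^ n) * φ u := by rw [← map_mul, hxy, map_mul]
  apply mul_left_cancel₀ hx0
  calc φ x * (δ y * φ u) = (φ x * δ y) * φ u := by ring
    _ = (φ (ϖ ^ n) * δ u) * φ u := by rw [h3]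
    _ = (φ (ϖ ^ n) * φ u) * δ u := by ring
    _ = (φ x * φ y) * δ u := by rw [h4]
    _ = φ x * (φ y * δ u) := by ring

/-- **One contraction step.** -/
theorem twisted_step (hφ : ∀ r, v (φ r) ≤ 1)
    (hadd : ∀ r s, δ (r + s) = δ r + δ s)
    (hmul : ∀ r s, δ (r * s) = φ r * δ s + δ r * φ' s)
    (S : Set R) (hS : ∀ c ∈ S, δ c = 0)
    {ϖ x y u : R} {n : ℕ} (hxy : x * y = ϖ ^ n * u) (hu : IsUnit u)
    (hϖ : δ ϖ = 0) (hx : δ x = 0) (hx0 : φ x ≠ 0)
    (hgen : ∀ r : R, ∃ c ∈ S, ∃ α β γ : R, r = c + α * x + β * y + γ * ϖ)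
    (θ : ℝ≥0) (hθx : v (φ' x) ≤ θ) (hθy : v (φ y) ≤ θ) (hθy' : v (φ' y) ≤ θ)
    (hθϖ : v (φ' ϖ) ≤ θ)
    (B : ℝ≥0) (hB : ∀ r, v (δ r) ≤ B) (r : R) : v (δ r) ≤ θ * B := by
  obtain ⟨c, hc, α, β, γ, rfl⟩ := hgen r
  have hy : v (δ y) ≤ θ * B := by
    have h1 := twisted_node φ φ' δ hmul hxy hϖ hx hx0
    have h2 : v (δ y) * v (φ u) = v (φ y) * v (δ u) := by rw [← map_mul, ← map_mul, h1]
    rw [map_isUnit_eq_one v φ hφ hu, mul_one] at h2
    rw [h2]
    exact mul_le_mul' hθy (hB u)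
  have e1 : δ (α * x) = δ α * φ' x := by rw [hmul, hx, mul_zero, zero_add]
  have e2 : δ (β * y) = φ β * δ y + δ β * φ' y := hmul β y
  have e3 : δ (γ * ϖ) = δ γ * φ' ϖ := by rw [hmul, hϖ, mul_zero, zero_add]
  rw [hadd, hadd, hadd, hS c hc, zero_add, e1, e2, e3]
  have b1 : v (δ α * φ' x) ≤ θ * B := by
    rw [map_mul, mul_comm]; exact mul_le_mul' hθx (hB α)
  have b2 : v (φ β * δ y) ≤ θ * B := by
    rw [map_mul]
    calc v (φ β) * v (δ y) ≤ 1 * (θ * B) := mul_le_mul' (hφ β) hy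
      _ = θ * B := one_mul _
  have b3 : v (δ β * φ' y) ≤ θ * B := by
    rw [map_mul, mul_comm]; exact mul_le_mul' hθy' (hB β)
  have b4 : v (δ γ * φ' ϖ) ≤ θ * B := by
    rw [map_mul, mul_comm]; exact mul_le_mul' hθϖ (hB γ)
  exact v.map_add_le (v.map_add_le b1 (v.map_add_le b2 b3)) b4

/-- **The contraction lemma.**  A bounded `(φ, φ')`-derivation on the local ring of a node
(`x * y = ϖ ^ n * u`, `R = S + x R + y R + ϖ R`) which kills the constants `S`, the uniformiser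
`ϖ` and the node coordinate `x` is zero, provided the two points `φ`, `φ'` lie in the residue
annulus of the node (`|φ' x|, |φ y|, |φ' y|, |φ' ϖ| < 1`, `φ x ≠ 0`). -/
theorem twisted_eq_zero (hφ : ∀ r, v (φ r) ≤ 1)
    (hadd : ∀ r s, δ (r + s) = δ r + δ s)
    (hmul : ∀ r s, δ (r * s) = φ r * δ s + δ r * φ' s)
    (S : Set R) (hS : ∀ c ∈ S, δ c = 0)
    {ϖ x y u : R} {n : ℕ} (hxy : x * y = ϖ ^ n * u) (hu : IsUnit u)
    (hϖ : δ ϖ = 0) (hx : δ x = 0) (hx0 : φ x ≠ 0)
    (hvx : v (φ' x) < 1) (hvy : v (φ y) < 1) (hvy' : v (φ' y) < 1) (hvϖ : v (φ' ϖ) < 1)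
    (hgen : ∀ r : R, ∃ c ∈ S, ∃ α β γ : R, r = c + α * x + β * y + γ * ϖ)
    (hbdd : ∃ C : ℝ≥0, ∀ r, v (δ r) ≤ C) (r : R) : δ r = 0 := by
  obtain ⟨C, hC⟩ := hbdd
  set θ : ℝ≥0 := max (max (v (φ' x)) (v (φ y))) (max (v (φ' y)) (v (φ' ϖ))) with hθ
  have hθ1 : θ < 1 := max_lt (max_lt hvx hvy) (max_lt hvy' hvϖ)
  have hθx : v (φ' x) ≤ θ := le_trans (le_max_left _ _) (le_max_left _ _)
  have hθy : v (φ y) ≤ θ := le_trans (le_max_right _ _) (le_max_left _ _)
  have hθy' : v (φ' y) ≤ θ := le_trans (le_max_left _ _) (le_max_right _ _)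
  have hθϖ : v (φ' ϖ) ≤ θ := le_trans (le_max_right _ _) (le_max_right _ _)
  have key : ∀ j : ℕ, ∀ r, v (δ r) ≤ θ ^ j * C := by
    intro j
    induction j with
    | zero => intro r; rw [pow_zero, one_mul]; exact hC r
    | succ j ih =>
      intro r
      have := twisted_step v φ φ' δ hφ hadd hmul S hS hxy hu hϖ hx hx0 hgen θ hθx hθy hθy' hθϖ
        (θ ^ j * C) ih r
      rwa [← mul_assoc, ← pow_succ'] at this
  by_contra hne
  have hpos : 0 < v (δ r) := pos_iff_ne_zero.2 ((v.ne_zero_iff).2 hne)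
  have hCpos : 0 < C := lt_of_lt_of_le hpos (hC r)
  obtain ⟨j, hj⟩ := exists_pow_lt_of_lt_one (div_pos hpos hCpos) hθ1
  have h1 : θ ^ j * C < v (δ r) := by
    have := mul_lt_mul_of_pos_right hj hCpos
    rwa [div_mul_cancel₀ _ hCpos.ne'] at this
  exact absurd (key j r) (not_le.2 h1)

/-- **The coordinate is injective on the annulus.**  Two points `φ`, `φ'` of the residue annulus
of the node with the same values on the constants, on `ϖ` and at the node coordinate `x` are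
equal. -/
theorem hom_ext_of_node (hφ : ∀ r, v (φ r) ≤ 1) (hφ' : ∀ r, v (φ' r) ≤ 1)
    (S : Set R) (hS : ∀ c ∈ S, φ c = φ' c)
    {ϖ x y u : R} {n : ℕ} (hxy : x * y = ϖ ^ n * u) (hu : IsUnit u)
    (hϖ : φ ϖ = φ' ϖ) (hx : φ x = φ' x) (hx0 : φ x ≠ 0)
    (hvx : v (φ x) < 1) (hvy : v (φ y) < 1) (hvy' : v (φ' y) < 1) (hvϖ : v (φ ϖ) < 1)
    (hgen : ∀ r : R, ∃ c ∈ S, ∃ α β γ : R, r = c + α * x + β * y + γ * ϖ) : φ = φ' := by
  refine RingHom.ext fun r => ?_
  have h := twisted_eq_zero v φ φ' (fun r => φ r - φ' r) hφ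
    (fun r s => by rw [map_add, map_add]; ring)
    (fun r s => by rw [map_mul, map_mul]; ring)
    S (fun c hc => by rw [hS c hc, sub_self]) hxy hu (by rw [hϖ, sub_self])
    (by rw [hx, sub_self]) hx0 (by rw [← hx]; exact hvx) hvy hvy' (by rw [← hϖ]; exact hvϖ) hgen
    ⟨1, fun r => (v.map_sub _ _).trans (max_le (hφ r) (hφ' r))⟩ r
  exact sub_eq_zero.1 h

/-- **The coordinate is unramified on the annulus.**  A bounded derivation along a point `φ` of
the residue annulus of the node which kills the constants, `ϖ` and the node coordinate `x` is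
zero. -/
theorem derivation_eq_zero (hφ : ∀ r, v (φ r) ≤ 1)
    (hadd : ∀ r s, δ (r + s) = δ r + δ s)
    (hmul : ∀ r s, δ (r * s) = φ r * δ s + δ r * φ s)
    (S : Set R) (hS : ∀ c ∈ S, δ c = 0)
    {ϖ x y u : R} {n : ℕ} (hxy : x * y = ϖ ^ n * u) (hu : IsUnit u)
    (hϖ : δ ϖ = 0) (hx : δ x = 0) (hx0 : φ x ≠ 0)
    (hvx : v (φ x) < 1) (hvy : v (φ y) < 1) (hvϖ : v (φ ϖ) < 1)
    (hgen : ∀ r : R, ∃ c ∈ S, ∃ α β γ : R, r = c + α * x + β * y + γ * ϖ)
    (hbdd : ∃ C : ℝ≥0, ∀ r, v (δ r) ≤ C) (r : R) : δ r = 0 :=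
  twisted_eq_zero v φ φ δ hφ hadd hmul S hS hxy hu hϖ hx hx0 hvx hvy hvy hvϖ hgen hbdd r

end Core

end Fermat.Agent.TR.Node.Annulus
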