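/-
TR / Node (helper3): the PLACE FORM of the annulus coordinate lemma (I5).

Abstract setting.  `F/L` a function field of one variable (`IsFF1`), `A` a valuation subring of
`L` with the archimedean property, `E` an effective chart divisor.  `R ≤ Rh` are two subrings of
`F`: `Rh` is the local ring of the model at a node over `L` (it contains the constants of `A`),
`R` is a subring with the normal form of a node over a discrete base: a node equation
`x * y = ϖ ^ n * u` and `R = (constants) + x R + y R + ϖ R`.  A place `Q` of `F` *passes through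
the node* (`RedNode`) if every function of `Rh` is regular at `Q` with value in `A`.

* `twisted_eq_zero` : the contraction lemma of `TR/Node/Annulus.lean` for a valuation with values
  in an arbitrary linearly ordered group with zero (archimedean hypothesis on the values of the
  valuation).
* `RedNode.range` : the node coordinate takes values in the open annulus
  `|ϖ ^ n| < |x(Q)| < 1`.
* `RedNode.eq_of_cong` (**injectivity**) : two places through the node with the same value of the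
  coordinate `x` are equal.
* `RedNode.ord_sub_eq_one` (**unramifiedness**) : `x - x(Q)` is a local parameter at `Q`.
* `RedNode.ord_prod_sub` : `∏ c ∈ s, (x - c)` vanishes exactly, and simply, at the places through
  the node with `x(Q) ∈ s`.
* `exists_redNode_cong` : surjectivity of the coordinate onto the annulus.

The proof of unramifiedness: if `e = ord_Q (x - x(Q)) ≥ 2`, the first Taylor coefficient with
respect to a chart function `g₀` of order one is a derivation along `Q` killing the constants and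
`x`; it is bounded on `R`, because `x(Q) * (g - g(Q)) * g₀ ^ (e - 1) / (x - x(Q))` has no pole at
any place through the node (injectivity), hence lies in `Rh`, hence takes a value of `A` at `Q`.
By the contraction lemma it vanishes on `R`, hence on the chart functions, but it is `1` at `g₀`.
-/
import Mathlib
import Fermat.Agent.BAD.HenselPlace
import Fermat.Agent.TR.Node.Annulus

set_option autoImplicit false

noncomputable section

namespace Fermat.Agent.TR.Node.AnnulusHart

open AlgebraicCurve WithZero Fermat.Agent.Lib.FF Fermat.Agent.BAD.NodalRiemann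
  Fermat.Agent.Lib.FF.BasePoint Fermat.Agent.Padic.S33.RC.NodalMul
  Fermat.Agent.Padic.S33.RC.NodalPoint

/-! ### The contraction lemma for a general value group -/

section Core

variable {R Ω Γ₀ : Type*} [CommRing R] [Field Ω] [LinearOrderedCommGroupWithZero Γ₀]
  (v : Valuation Ω Γ₀)

theorem map_isUnit_eq_one (φ : R →+* Ω) (hφ : ∀ r, v (φ r) ≤ 1) {u : R} (hu : IsUnit u) :
    v (φ u) = 1 := by
  obtain ⟨w, hw⟩ := hu.exists_right_inv
  have h1 : v (φ u) * v (φ w) = 1 := by rw [← map_mul, ← map_mul, hw, map_one, map_one]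
  refine le_antisymm (hφ u) ?_
  calc (1 : Γ₀) = v (φ u) * v (φ w) := h1.symm
    _ ≤ v (φ u) * 1 := mul_le_mul' le_rfl (hφ w)
    _ = v (φ u) := mul_one _

variable (φ φ' : R →+* Ω) (δ : R → Ω)

/-- One contraction step. -/
theorem twisted_step (hφ : ∀ r, v (φ r) ≤ 1)
    (hadd : ∀ r s, δ (r + s) = δ r + δ s)
    (hmul : ∀ r s, δ (r * s) = φ r * δ s + δ r * φ' s)
    (S : Set R) (hS : ∀ c ∈ S, δ c = 0)
    {ϖ x y u : R} {n : ℕ} (hxy : x * y = ϖ ^ n * u) (hu : IsUnit u)
    (hϖ : δ ϖ = 0) (hx : δ x = 0) (hx0 : φ x ≠ 0)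
    (hgen : ∀ r : R, ∃ c ∈ S, ∃ α β γ : R, r = c + α * x + β * y + γ * ϖ)
    (θ : Γ₀) (hθx : v (φ' x) ≤ θ) (hθy : v (φ y) ≤ θ) (hθy' : v (φ' y) ≤ θ)
    (hθϖ : v (φ' ϖ) ≤ θ)
    (B : Γ₀) (hB : ∀ r, v (δ r) ≤ B) (r : R) : v (δ r) ≤ θ * B := by
  obtain ⟨c, hc, α, β, γ, rfl⟩ := hgen r
  have hy : v (δ y) ≤ θ * B := by
    have h1 := Annulus.twisted_node φ φ' δ hmul hxy hϖ hx hx0
    have h2 : v (δ y) * v (φ u) = v (φ y) * v (δ u) := by rw [← map_mul, ← map_mul, h1]
    rw [map_isUnit_eq_one v φ hφ hu, mul_one] at h2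
    rw [h2]
    exact mul_le_mul' hθy (hB u)
  have e1 : δ (α * x) = δ α * φ' x := by rw [hmul, hx, mul_zero, zero_add]
  have e2 : δ (β * y) = φ β * δ y + δ β * φ' y := hmul β y
  have e3 : δ (γ * ϖ) = δ γ * φ' ϖ := by rw [hmul, hϖ, mul_zero, zero_add]
  rw [hadd, hadd, hadd, hS c hc, zero_add, e1, e2, e3]
  have b1 : v (δ α * φ' x) ≤ θ * B := by
    rw [map_mul, mul_comm]; exact mul_le_mul' hθx (hB α)
  have b2 : v (φ β * δ y) ≤ θ * B := by
    rw [map_mul]
    calc v (φ β) * v (δ y) ≤ 1 * (θ * B) := mul_le_mul' (hφ β) hy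
      _ = θ * B := one_mul _
  have b3 : v (δ β * φ' y) ≤ θ * B := by
    rw [map_mul, mul_comm]; exact mul_le_mul' hθy' (hB β)
  have b4 : v (δ γ * φ' ϖ) ≤ θ * B := by
    rw [map_mul, mul_comm]; exact mul_le_mul' hθϖ (hB γ)
  exact v.map_add_le (v.map_add_le b1 (v.map_add_le b2 b3)) b4

theorem exists_max₂ (a b : Ω) : ∃ t : Ω, (t = a ∨ t = b) ∧ v a ≤ v t ∧ v b ≤ v t := by
  rcases le_total (v a) (v b) with h | h
  · exact ⟨b, Or.inr rfl, h, le_rfl⟩
  · exact ⟨a, Or.inl rfl, le_rfl, h⟩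

/-- **The contraction lemma** (general value group).  A bounded `(φ, φ')`-derivation on the local
ring of a node which kills the constants, the uniformiser and the node coordinate is zero. -/
theorem twisted_eq_zero
    (harch : ∀ a c : Ω, v a < 1 → c ≠ 0 → ∃ n : ℕ, v a ^ n < v c)
    (hφ : ∀ r, v (φ r) ≤ 1)
    (hadd : ∀ r s, δ (r + s) = δ r + δ s)
    (hmul : ∀ r s, δ (r * s) = φ r * δ s + δ r * φ' s)
    (S : Set R) (hS : ∀ c ∈ S, δ c = 0)
    {ϖ x y u : R} {n : ℕ} (hxy : x * y = ϖ ^ n * u) (hu : IsUnit u)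
    (hϖ : δ ϖ = 0) (hx : δ x = 0) (hx0 : φ x ≠ 0)
    (hvx : v (φ' x) < 1) (hvy : v (φ y) < 1) (hvy' : v (φ' y) < 1) (hvϖ : v (φ' ϖ) < 1)
    (hgen : ∀ r : R, ∃ c ∈ S, ∃ α β γ : R, r = c + α * x + β * y + γ * ϖ)
    (c₀ : Ω) (hbdd : ∀ r, v (δ r) ≤ v c₀) (r : R) : δ r = 0 := by
  obtain ⟨t₁, ht₁, h1a, h1b⟩ := exists_max₂ v (φ' x) (φ y)
  obtain ⟨t₂, ht₂, h2a, h2b⟩ := exists_max₂ v (φ' y) (φ' ϖ)
  obtain ⟨t, ht, h3a, h3b⟩ := exists_max₂ v t₁ t₂
  have ht₁1 : v t₁ < 1 := by rcases ht₁ with rfl | rfl <;> assumption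
  have ht₂1 : v t₂ < 1 := by rcases ht₂ with rfl | rfl <;> assumption
  have ht1 : v t < 1 := by rcases ht with rfl | rfl <;> assumption
  have hθx : v (φ' x) ≤ v t := h1a.trans h3a
  have hθy : v (φ y) ≤ v t := h1b.trans h3a
  have hθy' : v (φ' y) ≤ v t := h2a.trans h3b
  have hθϖ : v (φ' ϖ) ≤ v t := h2b.trans h3b
  have key : ∀ j : ℕ, ∀ r, v (δ r) ≤ v t ^ j * v c₀ := by
    intro j
    induction j with
    | zero => intro r; rw [pow_zero, one_mul]; exact hbdd r
    | succ j ih =>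
      intro r
      have := twisted_step v φ φ' δ hφ hadd hmul S hS hxy hu hϖ hx hx0 hgen (v t) hθx hθy hθy'
        hθϖ (v t ^ j * v c₀) ih r
      rwa [← mul_assoc, ← pow_succ'] at this
  by_contra hne
  have hc₀ : c₀ ≠ 0 := by
    rintro rfl
    have := hbdd r
    rw [map_zero, le_zero_iff, map_eq_zero] at this
    exact hne this
  have hq : δ r / c₀ ≠ 0 := div_ne_zero hne hc₀
  obtain ⟨j, hj⟩ := harch t (δ r / c₀) ht1 hq
  have h1 : v t ^ j * v c₀ < v (δ r) := by
    rw [map_div₀] at hj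
    have hc₀' : 0 < v c₀ := zero_lt_iff.2 ((map_ne_zero v).2 hc₀)
    have := mul_lt_mul_of_pos_right hj hc₀'
    rwa [div_mul_cancel₀ _ hc₀'.ne'] at this
  exact absurd (key j r) (not_le.2 h1)

end Core

/-! ### Places through a node -/

section Place

variable {L F : Type*} [Field L] [Field F] [Algebra L F]

/-- The place `Q` passes through the node with local ring `Rh`: every function of `Rh` is regular
at `Q`, with value in `A`. -/
def RedNode (A : ValuationSubring L) (Rh : Subring F) (Q : Place L F) : Prop :=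
  ∀ g ∈ Rh, ∃ c ∈ A, Cong Q g c

variable {A : ValuationSubring L} {Rh : Subring F} {Q Q' : Place L F}

theorem cong_one_place (Q : Place L F) : Cong Q (1 : F) (1 : L) := by
  have h := cong_algebraMap Q (1 : L)
  rwa [map_one] at h

theorem not_cong_one_zero (Q : Place L F) : ¬ Cong Q (1 : F) (0 : L) := fun h =>
  zero_ne_one (h.unique (cong_one_place Q))

theorem cong_sub_algebraMap {f : F} {c : L} (h : Cong Q f c) :
    Cong Q (f - algebraMap L F c) 0 := by
  unfold Cong at *
  rwa [map_zero, sub_zero]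

/-- Evaluation at a place through the node. -/
def RedNode.ev (hQ : RedNode A Rh Q) : Rh →+* L where
  toFun g := Classical.choose (hQ g g.2)
  map_one' := (Classical.choose_spec (hQ (1 : Rh) (1 : Rh).2)).2.unique (cong_one_place Q)
  map_mul' g h := (Classical.choose_spec (hQ (g * h : Rh) (g * h : Rh).2)).2.unique
    ((Classical.choose_spec (hQ g g.2)).2.mul (Classical.choose_spec (hQ h h.2)).2)
  map_zero' := (Classical.choose_spec (hQ (0 : Rh) (0 : Rh).2)).2.unique (cong_zero Q)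
  map_add' g h := (Classical.choose_spec (hQ (g + h : Rh) (g + h : Rh).2)).2.unique
    ((Classical.choose_spec (hQ g g.2)).2.add (Classical.choose_spec (hQ h h.2)).2)

theorem RedNode.cong (hQ : RedNode A Rh Q) (g : Rh) : Cong Q (g : F) (hQ.ev g) :=
  (Classical.choose_spec (hQ g g.2)).2

theorem RedNode.ev_mem (hQ : RedNode A Rh Q) (g : Rh) : hQ.ev g ∈ A :=
  (Classical.choose_spec (hQ g g.2)).1

theorem RedNode.ev_eq (hQ : RedNode A Rh Q) {g : Rh} {c : L} (h : Cong Q (g : F) c) :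
    hQ.ev g = c := (hQ.cong g).unique h

theorem RedNode.val_ev_le (hQ : RedNode A Rh Q) (g : Rh) : A.valuation (hQ.ev g) ≤ 1 :=
  (A.valuation_le_one_iff _).2 (hQ.ev_mem g)

theorem RedNode.ev_algebraMap (hQ : RedNode A Rh Q) {g : Rh} {a : L}
    (h : (g : F) = algebraMap L F a) : hQ.ev g = a :=
  hQ.ev_eq (h ▸ cong_algebraMap Q a)

theorem RedNode.val_le_one (hQ : RedNode A Rh Q) {g : F} (hg : g ∈ Rh) :
    Q.adicValuation g ≤ 1 := (hQ.cong ⟨g, hg⟩).le_one

/-- The normal form of a node: `R ≤ Rh`, `R = (constants) + x R + y R + ϖ R`,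
`x * y = ϖ ^ n * u`, and `x - c`, `y - c` are units of `Rh` for the unit constants `c`. -/
structure NodeData (A : ValuationSubring L) (R Rh : Subring F) (ϖ₀ : L) (n : ℕ)
    (x y u ϖ : R) : Prop where
  le : R ≤ Rh
  const : ∀ c ∈ A, algebraMap L F c ∈ Rh
  hϖ : (ϖ : F) = algebraMap L F ϖ₀
  hϖ0 : ϖ₀ ≠ 0
  hϖ1 : A.valuation ϖ₀ < 1
  hxy : x * y = ϖ ^ n * u
  hu : IsUnit u
  hgen : ∀ r : R, ∃ c : R, (∃ a : L, (c : F) = algebraMap L F a) ∧
    ∃ α β γ : R, r = c + α * x + β * y + γ * ϖ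
  hxu : ∀ c : L, A.valuation c = 1 → ∃ w ∈ Rh, ((x : F) - algebraMap L F c) * w = 1
  hyu : ∀ c : L, A.valuation c = 1 → ∃ w ∈ Rh, ((y : F) - algebraMap L F c) * w = 1

variable {R : Subring F} {ϖ₀ : L} {n : ℕ} {x y u ϖ : R}

/-- Evaluation on the small ring `R`. -/
def RedNode.evR (hQ : RedNode A Rh Q) (hle : R ≤ Rh) : R →+* L :=
  hQ.ev.comp (Subring.inclusion hle)

theorem RedNode.evR_cong (hQ : RedNode A Rh Q) (hle : R ≤ Rh) (r : R) :
    Cong Q (r : F) (hQ.evR hle r) := hQ.cong (Subring.inclusion hle r)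

theorem RedNode.evR_eq (hQ : RedNode A Rh Q) (hle : R ≤ Rh) {r : R} {c : L}
    (h : Cong Q (r : F) c) : hQ.evR hle r = c := (hQ.evR_cong hle r).unique h

theorem RedNode.val_evR_le (hQ : RedNode A Rh Q) (hle : R ≤ Rh) (r : R) :
    A.valuation (hQ.evR hle r) ≤ 1 := hQ.val_ev_le _

theorem RedNode.evR_const (hQ : RedNode A Rh Q) (hle : R ≤ Rh) {r : R} {a : L}
    (h : (r : F) = algebraMap L F a) : hQ.evR hle r = a :=
  hQ.evR_eq hle (h ▸ cong_algebraMap Q a)

/-- A function of `Rh` which becomes invertible in `Rh` after subtracting a unit constant does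
not take that value at a place through the node. -/
theorem RedNode.val_lt_one_of_unit (hQ : RedNode A Rh Q) {g : F} (hg : g ∈ Rh)
    (hgu : ∀ c : L, A.valuation c = 1 → ∃ w ∈ Rh, (g - algebraMap L F c) * w = 1)
    {a : L} (ha : Cong Q g a) : A.valuation a < 1 := by
  have haA : A.valuation a ≤ 1 := by
    have := hQ.val_ev_le ⟨g, hg⟩
    rwa [hQ.ev_eq (g := ⟨g, hg⟩) ha] at this
  refine lt_of_le_of_ne haA (fun h1 => ?_)
  obtain ⟨w, hw, hmul⟩ := hgu a h1
  obtain ⟨d, -, hd⟩ := hQ w hw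
  have h2 := (cong_sub_algebraMap ha).mul hd
  rw [hmul, zero_mul] at h2
  exact not_cong_one_zero Q h2

/-- **(range)** The node coordinates take values in the open annulus. -/
theorem RedNode.range (hN : NodeData A R Rh ϖ₀ n x y u ϖ) (hQ : RedNode A Rh Q) {a : L}
    (ha : Cong Q (x : F) a) :
    a ≠ 0 ∧ A.valuation (ϖ₀ ^ n) < A.valuation a ∧ A.valuation a < 1 ∧
      A.valuation (hQ.evR hN.le y) < 1 := by
  have hle : R ≤ Rh := hN.le
  have hx1 : A.valuation a < 1 := hQ.val_lt_one_of_unit (hle x.2) hN.hxu ha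
  have hy1 : A.valuation (hQ.evR hle y) < 1 :=
    hQ.val_lt_one_of_unit (hle y.2) hN.hyu (hQ.evR_cong hle y)
  have hxa : hQ.evR hle x = a := hQ.evR_eq hle ha
  have hϖ : hQ.evR hle ϖ = ϖ₀ := hQ.evR_const hle hN.hϖ
  have hu1 : A.valuation (hQ.evR hle u) = 1 :=
    map_isUnit_eq_one A.valuation (hQ.evR hle) (hQ.val_evR_le hle) hN.hu
  have hprod : a * hQ.evR hle y = ϖ₀ ^ n * hQ.evR hle u := by
    have h := congrArg (hQ.evR hle) hN.hxy
    rw [map_mul, map_mul, map_pow, hxa, hϖ] at h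
    exact h
  have hv : A.valuation a * A.valuation (hQ.evR hle y) = A.valuation (ϖ₀ ^ n) := by
    rw [← map_mul, hprod, map_mul, hu1, mul_one]
  have hϖn : A.valuation (ϖ₀ ^ n) ≠ 0 := (map_ne_zero _).2 (pow_ne_zero n hN.hϖ0)
  have ha0 : a ≠ 0 := by
    rintro rfl
    rw [map_zero, zero_mul] at hv
    exact hϖn hv.symm
  refine ⟨ha0, ?_, hx1, hy1⟩
  have hapos : 0 < A.valuation a := zero_lt_iff.2 ((map_ne_zero _).2 ha0)
  rw [← hv]
  calc A.valuation a * A.valuation (hQ.evR hle y) < A.valuation a * 1 :=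
        mul_lt_mul_of_pos_left hy1 hapos
    _ = A.valuation a := mul_one _

/-- **Injectivity on the small ring.**  Two places through the node with the same value of the
coordinate `x` have the same evaluation on `R`. -/
theorem RedNode.evR_eq_of_cong
    (harch : ∀ a c : L, A.valuation a < 1 → c ≠ 0 → ∃ m : ℕ, A.valuation (a ^ m) < A.valuation c)
    (hN : NodeData A R Rh ϖ₀ n x y u ϖ) (hQ : RedNode A Rh Q) (hQ' : RedNode A Rh Q') {a : L}
    (ha : Cong Q (x : F) a) (ha' : Cong Q' (x : F) a) (r : R) :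
    hQ.evR hN.le r = hQ'.evR hN.le r := by
  have hle : R ≤ Rh := hN.le
  obtain ⟨ha0, -, hx1, hy1⟩ := hQ.range hN ha
  obtain ⟨-, -, -, hy1'⟩ := hQ'.range hN ha'
  have hxa : hQ.evR hle x = a := hQ.evR_eq hle ha
  have hxa' : hQ'.evR hle x = a := hQ'.evR_eq hle ha'
  have hϖ : hQ.evR hle ϖ = ϖ₀ := hQ.evR_const hle hN.hϖ
  have hϖ' : hQ'.evR hle ϖ = ϖ₀ := hQ'.evR_const hle hN.hϖ
  have h := twisted_eq_zero A.valuation (hQ.evR hle) (hQ'.evR hle)
    (fun r => hQ.evR hle r - hQ'.evR hle r)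
    (fun a c ha hc => by
      obtain ⟨m, hm⟩ := harch a c ha hc
      exact ⟨m, by rwa [map_pow] at hm⟩)
    (hQ.val_evR_le hle)
    (fun r s => by rw [map_add, map_add]; ring)
    (fun r s => by rw [map_mul, map_mul]; ring)
    {c : R | ∃ a : L, (c : F) = algebraMap L F a}
    (fun c hc => by
      obtain ⟨b, hb⟩ := hc
      rw [hQ.evR_const hle hb, hQ'.evR_const hle hb, sub_self])
    hN.hxy hN.hu (by rw [hϖ, hϖ', sub_self]) (by rw [hxa, hxa', sub_self])
    (by rw [hxa]; exact ha0) (by rw [hxa']; exact hx1) hy1 hy1' (by rw [hϖ']; exact hN.hϖ1)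
    (fun r => by
      obtain ⟨c, hc, α, β, γ, hr⟩ := hN.hgen r
      exact ⟨c, hc, α, β, γ, hr⟩)
    1 (fun r => by
      rw [map_one]
      exact (Valuation.map_sub _ _ _).trans
        (max_le (hQ.val_evR_le hle r) (hQ'.val_evR_le hle r))) r
  exact sub_eq_zero.1 h

/-! ### Chart functions -/

/-- The chart divisor: `E ≥ 0` of positive degree, and the chart functions `L(N • E)` are spanned
over `L` by those which lie in the small ring `R`. -/
structure ChartData (R : Subring F) (E : Divisor L F) : Prop where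
  nonneg : 0 ≤ E
  deg : 0 < Divisor.degree E
  span : ∀ N : ℕ, riemannRochSpace (N • E) ≤
    Submodule.span L {f | f ∈ riemannRochSpace (N • E) ∧ f ∈ R}

theorem exists_cong_cong_of_mem_span (hle : R ≤ Rh) (hQ : RedNode A Rh Q)
    (hQ' : RedNode A Rh Q') (hev : ∀ r : R, hQ.evR hle r = hQ'.evR hle r)
    (V : Submodule L F) {f : F} (hf : f ∈ Submodule.span L {f | f ∈ V ∧ f ∈ R}) :
    ∃ c : L, Cong Q f c ∧ Cong Q' f c := by
  induction hf using Submodule.span_induction with
  | mem f hf =>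
    refine ⟨hQ.evR hle ⟨f, hf.2⟩, hQ.evR_cong hle ⟨f, hf.2⟩, ?_⟩
    rw [hev]
    exact hQ'.evR_cong hle ⟨f, hf.2⟩
  | zero => exact ⟨0, cong_zero Q, cong_zero Q'⟩
  | add f g _ _ hf hg =>
    obtain ⟨c, h1, h2⟩ := hf
    obtain ⟨d, h3, h4⟩ := hg
    exact ⟨c + d, h1.add h3, h2.add h4⟩
  | smul a f _ hf =>
    obtain ⟨c, h1, h2⟩ := hf
    exact ⟨a * c, h1.smul a, h2.smul a⟩

theorem exists_cong_of_mem_span (hle : R ≤ Rh) (hQ : RedNode A Rh Q)
    (V : Submodule L F) {f : F} (hf : f ∈ Submodule.span L {f | f ∈ V ∧ f ∈ R}) :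
    ∃ c : L, Cong Q f c := by
  obtain ⟨c, h, -⟩ := exists_cong_cong_of_mem_span hle hQ hQ (fun _ => rfl) V hf
  exact ⟨c, h⟩

/-- A function of the span becomes an element of `Rh` after scaling by a nonzero constant. -/
theorem exists_smul_mem_of_mem_span (hle : R ≤ Rh)
    (hconst : ∀ c ∈ A, algebraMap L F c ∈ Rh)
    (V : Submodule L F) {f : F} (hf : f ∈ Submodule.span L {f | f ∈ V ∧ f ∈ R}) :
    ∃ c : L, c ≠ 0 ∧ c ∈ A ∧ c • f ∈ Rh := by
  induction hf using Submodule.span_induction with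
  | mem f hf => exact ⟨1, one_ne_zero, A.one_mem, by rw [one_smul]; exact hle hf.2⟩
  | zero => exact ⟨1, one_ne_zero, A.one_mem, by rw [smul_zero]; exact Rh.zero_mem⟩
  | add f g _ _ hf hg =>
    obtain ⟨c, hc0, hcA, hcf⟩ := hf
    obtain ⟨d, hd0, hdA, hdg⟩ := hg
    refine ⟨c * d, mul_ne_zero hc0 hd0, A.mul_mem _ _ hcA hdA, ?_⟩
    have e : (c * d) • (f + g) = algebraMap L F d * (c • f) + algebraMap L F c * (d • g) := by
      simp only [Algebra.smul_def, map_mul]
      ring
    rw [e]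
    exact Rh.add_mem (Rh.mul_mem (hconst d hdA) hcf) (Rh.mul_mem (hconst c hcA) hdg)
  | smul a f _ hf =>
    obtain ⟨c, hc0, hcA, hcf⟩ := hf
    by_cases ha : a ∈ A
    · refine ⟨c, hc0, hcA, ?_⟩
      have e : c • a • f = algebraMap L F a * (c • f) := by
        simp only [Algebra.smul_def]
        ring
      rw [e]
      exact Rh.mul_mem (hconst a ha) hcf
    · have ha0 : a ≠ 0 := by
        rintro rfl
        exact ha A.zero_mem
      have hainv : a⁻¹ ∈ A := (A.mem_or_inv_mem a).resolve_left ha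
      refine ⟨a⁻¹ * c, mul_ne_zero (inv_ne_zero ha0) hc0, A.mul_mem _ _ hainv hcA, ?_⟩
      have e : (a⁻¹ * c) • a • f = c • f := by
        rw [smul_smul, mul_assoc, mul_comm c a, ← mul_assoc, inv_mul_cancel₀ ha0, one_mul]
      rw [e]
      exact hcf

variable {x₀ : F} {E : Divisor L F}

theorem RedNode.val_chart_le_one (hle : R ≤ Rh) (hC : ChartData R E) (hQ : RedNode A Rh Q)
    (N : ℕ) {f : F} (hf : f ∈ riemannRochSpace (N • E)) : Q.adicValuation f ≤ 1 := by
  obtain ⟨c, hc⟩ := exists_cong_of_mem_span hle hQ _ (hC.span N hf)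
  exact hc.le_one

theorem RedNode.apply_eq_zero (hF : IsFF1 L F x₀) (hle : R ≤ Rh) (hC : ChartData R E)
    (hQ : RedNode A Rh Q) : E Q = 0 :=
  Fermat.Agent.BAD.HenselPlace.apply_eq_zero_of_regular hF hC.nonneg hC.deg Q
    (fun N _ hf => hQ.val_chart_le_one hle hC N hf)

/-- **(I5), injectivity.**  Two places through the node with the same value of the node
coordinate `x` are equal. -/
theorem RedNode.eq_of_cong
    (harch : ∀ a c : L, A.valuation a < 1 → c ≠ 0 → ∃ m : ℕ, A.valuation (a ^ m) < A.valuation c)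
    (hF : IsFF1 L F x₀) (hN : NodeData A R Rh ϖ₀ n x y u ϖ) (hC : ChartData R E)
    (hQ : RedNode A Rh Q) (hQ' : RedNode A Rh Q') {a : L}
    (ha : Cong Q (x : F) a) (ha' : Cong Q' (x : F) a) : Q' = Q := by
  have hle : R ≤ Rh := hN.le
  refine Fermat.Agent.BAD.HenselPlace.place_unique hF hC.deg (hQ.apply_eq_zero hF hle hC)
    (hQ'.apply_eq_zero hF hle hC) (fun N f hf h0 => ?_)
  obtain ⟨c, h1, h2⟩ := exists_cong_cong_of_mem_span hle hQ hQ'
    (fun r => hQ.evR_eq_of_cong harch hN hQ' ha ha' r) _ (hC.span N hf)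
  have hc : c = 0 := h1.unique h0
  rw [hc] at h2
  exact h2

/-! ### First-order Taylor data at a place -/

/-- `f` has the value `c` at `Q` and `(f - c) / g₀` has the value `d` (the first Taylor
coefficient of `f` at `Q` with respect to the local parameter `g₀`). -/
def Tay (Q : Place L F) (g₀ f : F) (c d : L) : Prop :=
  Cong Q f c ∧ Cong Q ((f - algebraMap L F c) / g₀) d

variable {g₀ f f' : F} {c c' d d' : L}

theorem Tay.unique (h : Tay Q g₀ f c d) (h' : Tay Q g₀ f c' d') : c = c' ∧ d = d' := by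
  have hc : c = c' := h.1.unique h'.1
  subst hc
  exact ⟨rfl, h.2.unique h'.2⟩

theorem tay_const (Q : Place L F) (g₀ : F) (a : L) : Tay Q g₀ (algebraMap L F a) a 0 :=
  ⟨cong_algebraMap Q a, by rw [sub_self, zero_div]; exact cong_zero Q⟩

theorem Tay.add (h : Tay Q g₀ f c d) (h' : Tay Q g₀ f' c' d') :
    Tay Q g₀ (f + f') (c + c') (d + d') := by
  refine ⟨h.1.add h'.1, ?_⟩
  have e : (f + f' - algebraMap L F (c + c')) / g₀ =
      (f - algebraMap L F c) / g₀ + (f' - algebraMap L F c') / g₀ := by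
    rw [map_add, ← add_div]
    congr 1
    ring
  rw [e]
  exact h.2.add h'.2

theorem Tay.smul (h : Tay Q g₀ f c d) (a : L) : Tay Q g₀ (a • f) (a * c) (a * d) := by
  refine ⟨h.1.smul a, ?_⟩
  have e : (a • f - algebraMap L F (a * c)) / g₀ = a • ((f - algebraMap L F c) / g₀) := by
    rw [Algebra.smul_def, Algebra.smul_def, map_mul, ← mul_sub, mul_div_assoc]
  rw [e]
  exact h.2.smul a

theorem Tay.mul (h : Tay Q g₀ f c d) (h' : Tay Q g₀ f' c' d') :
    Tay Q g₀ (f * f') (c * c') (c * d' + d * c') := by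
  refine ⟨h.1.mul h'.1, ?_⟩
  have e : (f * f' - algebraMap L F (c * c')) / g₀ =
      f * ((f' - algebraMap L F c') / g₀) + (f - algebraMap L F c) / g₀ * algebraMap L F c' := by
    rw [map_mul]
    ring
  rw [e]
  exact (h.1.mul h'.2).add (h.2.mul (cong_algebraMap Q c'))

theorem exists_tay (hres : RR.ResK Q) (hg₀ : Q.adicValuation g₀ = exp (-1 : ℤ))
    (h : Cong Q f c) : ∃ d : L, Tay Q g₀ f c d := by
  have h1 : Q.adicValuation ((f - algebraMap L F c) / g₀) ≤ 1 := by
    rw [map_div₀, hg₀]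
    have h2 : Q.adicValuation (f - algebraMap L F c) ≤ exp (-1 : ℤ) := (val_lt_one_iff Q _).1 h
    exact div_le_one_of_le₀ h2 zero_le
  obtain ⟨d, hd⟩ := exists_cong hres h1
  exact ⟨d, h, hd⟩

/-! ### Unramifiedness -/

/-- A chart function of `Rh` which is a local parameter at a place through the node. -/
theorem RedNode.exists_parameter (hF : IsFF1 L F x₀) (hle : R ≤ Rh)
    (hconst : ∀ c ∈ A, algebraMap L F c ∈ Rh) (hC : ChartData R E) (hQ : RedNode A Rh Q) :
    ∃ (N : ℕ) (g₀ : F), g₀ ∈ Rh ∧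
      g₀ ∈ Submodule.span L {f | f ∈ riemannRochSpace (N • E) ∧ f ∈ R} ∧
      Q.adicValuation g₀ = exp (-1 : ℤ) := by
  classical
  have hQ0 : E Q = 0 := hQ.apply_eq_zero hF hle hC
  obtain ⟨c, hc⟩ := exists_NS hF
  set N : ℕ := (c + 2).toNat + 1 with hN
  have hNc : c + 2 ≤ (N : ℤ) := by
    have := Int.self_le_toNat (c + 2)
    rw [hN]
    push_cast
    linarith
  have hN0 : (0 : ℤ) < (N : ℤ) := by
    rw [hN]
    push_cast
    linarith [Int.natCast_nonneg (c + 2).toNat]
  have hdegN : c + 2 ≤ Divisor.degree (N • E) := by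
    rw [map_nsmul, nsmul_eq_mul]
    exact hNc.trans (le_mul_of_one_le_right hN0.le hC.deg)
  have hBQ : (N • E) Q = 0 := by rw [Finsupp.smul_apply, hQ0, smul_zero]
  have hdegD : c + 1 ≤ Divisor.degree (N • E - Finsupp.single Q (1 : ℤ)) := by
    rw [degree_sub_single hF]
    linarith
  obtain ⟨f, hf, hfQ⟩ := bpf_of_degree hF hc hdegD Q
  obtain ⟨hfN, -⟩ := (mem_L_sub_single_iff hBQ).1 hf
  rw [Finsupp.sub_apply, hBQ, Finsupp.single_eq_same, zero_sub] at hfQ
  obtain ⟨c₁, hc₁0, -, hc₁⟩ := exists_smul_mem_of_mem_span hle hconst _ (hC.span N hfN)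
  refine ⟨N, c₁ • f, hc₁, Submodule.smul_mem _ c₁ (hC.span N hfN), ?_⟩
  rw [Algebra.smul_def, map_mul, adicValuation_algebraMap_eq_one Q hc₁0, one_mul, hfQ]

/-- **(I5), unramifiedness.**  At a place `Q` through the node, `x - x(Q)` is a local
parameter. -/
theorem RedNode.val_sub_eq
    (harch : ∀ a c : L, A.valuation a < 1 → c ≠ 0 → ∃ m : ℕ, A.valuation (a ^ m) < A.valuation c)
    (hF : IsFF1 L F x₀) (hN : NodeData A R Rh ϖ₀ n x y u ϖ) (hC : ChartData R E)
    {O : Subring F} (hRhO : Rh ≤ O)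
    (hhart : ∀ Y ∈ O, (∀ Q : Place L F, RedNode A Rh Q → Q.adicValuation Y ≤ 1) → Y ∈ Rh)
    (hann : ∀ a : L, A.valuation (ϖ₀ ^ n) < A.valuation a → A.valuation a < 1 →
      algebraMap L F a * ((x : F) - algebraMap L F a)⁻¹ ∈ O)
    (hxL : ∀ c : L, (x : F) ≠ algebraMap L F c)
    (hQ : RedNode A Rh Q) {a : L} (ha : Cong Q (x : F) a) :
    Q.adicValuation ((x : F) - algebraMap L F a) = exp (-1 : ℤ) := by
  classical
  have hle : R ≤ Rh := hN.le
  obtain ⟨ha0, hlow, hx1, hy1⟩ := hQ.range hN ha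
  have hres : RR.ResK Q := hF.resK Q
  set T : F := (x : F) - algebraMap L F a with hT
  have hT0 : T ≠ 0 := sub_ne_zero.2 (hxL a)
  have hTlt : Q.adicValuation T < 1 := ha
  have hTe : Q.adicValuation T = exp (-(Q.ord T)) := Q.adicValuation_eq_exp_neg_ord hT0
  by_contra hne
  have he1 : 1 ≤ Q.ord T := by
    rw [hTe, ← exp_zero, exp_lt_exp] at hTlt
    omega
  have he2 : 2 ≤ Q.ord T := by
    by_contra h
    have h1 : Q.ord T = 1 := by omega
    apply hne
    rw [hTe, h1]
  obtain ⟨m, hm⟩ : ∃ m : ℕ, (m : ℤ) = Q.ord T - 1 :=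
    ⟨(Q.ord T - 1).toNat, Int.toNat_of_nonneg (by omega)⟩
  -- a local parameter among the chart functions
  obtain ⟨N, g₀, hg₀Rh, hg₀span, hg₀val⟩ := hQ.exists_parameter hF hle hN.const hC
  have hg₀0 : g₀ ≠ 0 := by
    rintro rfl
    rw [map_zero] at hg₀val
    exact exp_ne_zero hg₀val.symm
  -- the Taylor functional on `R`
  have hex : ∀ r : R, ∃ d : L, Tay Q g₀ (r : F) (hQ.evR hle r) d :=
    fun r => exists_tay hres hg₀val (hQ.evR_cong hle r)
  choose δ hδ using hex
  have hδu : ∀ (r : R) (d : L), Tay Q g₀ (r : F) (hQ.evR hle r) d → δ r = d :=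
    fun r d h => ((hδ r).unique h).2
  have hxa : hQ.evR hle x = a := hQ.evR_eq hle ha
  have hϖ : hQ.evR hle ϖ = ϖ₀ := hQ.evR_const hle hN.hϖ
  have hadd : ∀ r s, δ (r + s) = δ r + δ s := by
    intro r s
    refine hδu _ _ ?_
    rw [map_add]
    exact (hδ r).add (hδ s)
  have hmul : ∀ r s, δ (r * s) = hQ.evR hle r * δ s + δ r * hQ.evR hle s := by
    intro r s
    refine hδu _ _ ?_
    rw [map_mul]
    exact (hδ r).mul (hδ s)
  have hconst : ∀ c : R, (∃ b : L, (c : F) = algebraMap L F b) → δ c = 0 := by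
    rintro c ⟨b, hb⟩
    refine hδu _ _ ?_
    rw [hQ.evR_const hle hb, hb]
    exact tay_const Q g₀ b
  have hδx : δ x = 0 := by
    refine hδu _ _ ⟨hQ.evR_cong hle x, ?_⟩
    rw [hxa, cong_zero_iff, map_div₀, hg₀val, hTe, ← exp_sub, ← exp_zero, exp_lt_exp]
    omega
  -- the unit `w = g₀ ^ e / T`
  set w : F := g₀ ^ (m + 1) * T⁻¹ with hw
  have hwval : Q.adicValuation w = 1 := by
    rw [hw, map_mul, map_pow, map_inv₀, hg₀val, hTe, ← exp_nsmul, ← exp_neg, ← exp_add,
      ← exp_zero, exp_inj]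
    simp only [nsmul_eq_mul, Nat.cast_add, Nat.cast_one]
    omega
  obtain ⟨w₀, hw₀⟩ := exists_cong hres hwval.le
  have hw₀0 : w₀ ≠ 0 := by
    rintro rfl
    have h1 := cong_zero_iff.1 hw₀
    rw [hwval] at h1
    exact lt_irrefl _ h1
  -- boundedness of `δ`
  have hbdd : ∀ r : R, A.valuation (δ r) ≤ A.valuation (a * w₀)⁻¹ := by
    intro r
    have hcA : hQ.evR hle r ∈ A := hQ.ev_mem _
    set g' : F := (r : F) - algebraMap L F (hQ.evR hle r) with hg'
    have hg'Rh : g' ∈ Rh := Rh.sub_mem (hle r.2) (hN.const _ hcA)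
    have hg'val : Q.adicValuation g' ≤ exp (-1 : ℤ) :=
      (val_lt_one_iff Q g').1 (hQ.evR_cong hle r)
    set Y : F := (algebraMap L F a * T⁻¹) * (g' * g₀ ^ m) with hY
    have hYO : Y ∈ O :=
      O.mul_mem (hann a hlow hx1) (hRhO (Rh.mul_mem hg'Rh (Rh.pow_mem hg₀Rh m)))
    have hYreg : ∀ Q'' : Place L F, RedNode A Rh Q'' → Q''.adicValuation Y ≤ 1 := by
      intro Q'' hQ''
      by_cases hQQ : Q'' = Q
      · rw [hQQ, hY, map_mul, map_mul, map_mul, map_pow, map_inv₀, hTe, hg₀val]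
        have h1 : Q.adicValuation (algebraMap L F a) ≤ 1 := Q.adicValuation_algebraMap_le_one a
        calc Q.adicValuation (algebraMap L F a) * (exp (-Q.ord T))⁻¹ *
              (Q.adicValuation g' * exp (-1 : ℤ) ^ m)
            ≤ 1 * (exp (-Q.ord T))⁻¹ * (exp (-1 : ℤ) * exp (-1 : ℤ) ^ m) :=
              mul_le_mul' (mul_le_mul' h1 le_rfl) (mul_le_mul' hg'val le_rfl)
          _ = 1 := by
              rw [one_mul, ← exp_neg, ← exp_nsmul, ← exp_add, ← exp_add, ← exp_zero, exp_inj]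
              simp only [nsmul_eq_mul]
              omega
      · obtain ⟨a'', -, ha''⟩ := hQ'' (x : F) (hle x.2)
        have hne' : a'' ≠ a := by
          rintro rfl
          exact hQQ (RedNode.eq_of_cong harch hF hN hC hQ hQ'' ha ha'')
        have hTval : Q''.adicValuation T = 1 := by
          have e : T = ((x : F) - algebraMap L F a'') + algebraMap L F (a'' - a) := by
            rw [hT, map_sub]
            ring
          rw [e, Valuation.map_add_eq_of_lt_right]
          · exact adicValuation_algebraMap_eq_one Q'' (sub_ne_zero.2 hne')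
          · rw [adicValuation_algebraMap_eq_one Q'' (sub_ne_zero.2 hne')]
            exact ha''
        rw [hY, map_mul, map_mul, map_mul, map_pow, map_inv₀, hTval, inv_one, mul_one]
        have h1 : Q''.adicValuation (algebraMap L F a) ≤ 1 :=
          Q''.adicValuation_algebraMap_le_one a
        have h2 : Q''.adicValuation g' ≤ 1 := hQ''.val_le_one hg'Rh
        have h3 : Q''.adicValuation g₀ ≤ 1 := hQ''.val_le_one hg₀Rh
        exact mul_le_one' h1 (mul_le_one' h2 (pow_le_one' h3 m))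
    have hYRh : Y ∈ Rh := hhart Y hYO hYreg
    obtain ⟨cY, hcYA, hcY⟩ := hQ Y hYRh
    have hYeq : Y = algebraMap L F a * ((g' / g₀) * w) := by
      rw [hY, hw, pow_succ]
      field_simp
    have h1 : Cong Q Y (a * (δ r * w₀)) := by
      rw [hYeq]
      exact (cong_algebraMap Q a).mul ((hδ r).2.mul hw₀)
    have h2 : cY = a * (δ r * w₀) := hcY.unique h1
    have h3 : A.valuation (a * (δ r * w₀)) ≤ 1 := by
      rw [← h2]
      exact (A.valuation_le_one_iff _).2 hcYA
    have hpos : 0 < A.valuation (a * w₀) :=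
      zero_lt_iff.2 ((map_ne_zero _).2 (mul_ne_zero ha0 hw₀0))
    rw [map_inv₀, ← one_div, le_div_iff₀ hpos, ← map_mul]
    have e : δ r * (a * w₀) = a * (δ r * w₀) := by ring
    rw [e]
    exact h3
  -- the contraction lemma
  have hzero : ∀ r : R, δ r = 0 := fun r =>
    twisted_eq_zero A.valuation (hQ.evR hle) (hQ.evR hle) δ
      (fun a c ha hc => by
        obtain ⟨m, hm⟩ := harch a c ha hc
        exact ⟨m, by rwa [map_pow] at hm⟩)
      (hQ.val_evR_le hle) hadd hmul
      {c : R | ∃ b : L, (c : F) = algebraMap L F b} hconst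
      hN.hxy hN.hu (hconst ϖ ⟨ϖ₀, hN.hϖ⟩) hδx (by rw [hxa]; exact ha0)
      (by rw [hxa]; exact hx1) hy1 hy1 (by rw [hϖ]; exact hN.hϖ1)
      (fun r => by
        obtain ⟨c, hc, α, β, γ, hr⟩ := hN.hgen r
        exact ⟨c, hc, α, β, γ, hr⟩)
      (a * w₀)⁻¹ hbdd r
  -- hence the Taylor functional vanishes on the span, which contains the parameter `g₀`
  have hspan : ∀ f ∈ Submodule.span L {f | f ∈ riemannRochSpace (N • E) ∧ f ∈ R},
      ∃ c : L, Tay Q g₀ f c 0 := by
    intro f hf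
    induction hf using Submodule.span_induction with
    | mem f hf =>
      have h := hδ ⟨f, hf.2⟩
      rw [hzero] at h
      exact ⟨_, h⟩
    | zero =>
      have h := tay_const Q g₀ (0 : L)
      rw [map_zero] at h
      exact ⟨0, h⟩
    | add f g _ _ hf hg =>
      obtain ⟨c, h1⟩ := hf
      obtain ⟨d, h2⟩ := hg
      have h := h1.add h2
      rw [add_zero] at h
      exact ⟨_, h⟩
    | smul b f _ hf =>
      obtain ⟨c, h1⟩ := hf
      have h := h1.smul b
      rw [mul_zero] at h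
      exact ⟨_, h⟩
  obtain ⟨c, hc⟩ := hspan g₀ hg₀span
  have hg₀lt : Cong Q g₀ 0 := by
    rw [cong_zero_iff, hg₀val, ← exp_zero, exp_lt_exp]
    omega
  have hc0 : c = 0 := hc.1.unique hg₀lt
  have h1 := hc.2
  rw [hc0, map_zero, sub_zero, div_self hg₀0] at h1
  exact not_cong_one_zero Q h1

/-- **(I5), unramifiedness**, in terms of `ord`. -/
theorem RedNode.ord_sub_eq_one
    (harch : ∀ a c : L, A.valuation a < 1 → c ≠ 0 → ∃ m : ℕ, A.valuation (a ^ m) < A.valuation c)
    (hF : IsFF1 L F x₀) (hN : NodeData A R Rh ϖ₀ n x y u ϖ) (hC : ChartData R E)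
    {O : Subring F} (hRhO : Rh ≤ O)
    (hhart : ∀ Y ∈ O, (∀ Q : Place L F, RedNode A Rh Q → Q.adicValuation Y ≤ 1) → Y ∈ Rh)
    (hann : ∀ a : L, A.valuation (ϖ₀ ^ n) < A.valuation a → A.valuation a < 1 →
      algebraMap L F a * ((x : F) - algebraMap L F a)⁻¹ ∈ O)
    (hxL : ∀ c : L, (x : F) ≠ algebraMap L F c)
    (hQ : RedNode A Rh Q) {a : L} (ha : Cong Q (x : F) a) :
    Q.ord ((x : F) - algebraMap L F a) = 1 := by
  have h := hQ.val_sub_eq harch hF hN hC hRhO hhart hann hxL ha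
  rw [Q.adicValuation_eq_exp_neg_ord (sub_ne_zero.2 (hxL a)), exp_inj] at h
  omega

/-- `g - b` has neither a zero nor a pole at a place where `g` takes another value. -/
theorem ord_sub_eq_zero_of_cong {Q : Place L F} {g : F} {a b : L}
    (ha : Cong Q g a) (hab : a ≠ b) : Q.ord (g - algebraMap L F b) = 0 := by
  have hval : Q.adicValuation (g - algebraMap L F b) = 1 := by
    have e : g - algebraMap L F b = (g - algebraMap L F a) + algebraMap L F (a - b) := by
      rw [map_sub]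
      ring
    rw [e, Valuation.map_add_eq_of_lt_right]
    · exact adicValuation_algebraMap_eq_one Q (sub_ne_zero.2 hab)
    · rw [adicValuation_algebraMap_eq_one Q (sub_ne_zero.2 hab)]
      exact ha
  have hne : g - algebraMap L F b ≠ 0 := by
    intro h0
    rw [h0, map_zero] at hval
    exact zero_ne_one hval
  rw [Q.adicValuation_eq_exp_neg_ord hne, ← exp_zero, exp_inj] at hval
  omega

theorem ord_prod_eq_sum (Q : Place L F) {ι : Type*} (s : Finset ι) (g : ι → F)
    (hg : ∀ i ∈ s, g i ≠ 0) : Q.ord (∏ i ∈ s, g i) = ∑ i ∈ s, Q.ord (g i) := by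
  classical
  induction s using Finset.induction_on with
  | empty => rw [Finset.prod_empty, Finset.sum_empty, Place.ord_one]
  | insert i s hi ih =>
    rw [Finset.prod_insert hi, Finset.sum_insert hi,
      Q.ord_mul (hg i (Finset.mem_insert_self i s))
        (Finset.prod_ne_zero_iff.2 (fun j hj => hg j (Finset.mem_insert_of_mem hj))),
      ih (fun j hj => hg j (Finset.mem_insert_of_mem hj))]

/-- **(I5), the norm polynomial.**  For a finite set `s` of constants, `∏ c ∈ s, (x - c)`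
vanishes simply at the places through the node where `x` takes a value of `s`, and has no zero
or pole at the other places through the node. -/
theorem RedNode.ord_prod_sub
    (harch : ∀ a c : L, A.valuation a < 1 → c ≠ 0 → ∃ m : ℕ, A.valuation (a ^ m) < A.valuation c)
    (hF : IsFF1 L F x₀) (hN : NodeData A R Rh ϖ₀ n x y u ϖ) (hC : ChartData R E)
    {O : Subring F} (hRhO : Rh ≤ O)
    (hhart : ∀ Y ∈ O, (∀ Q : Place L F, RedNode A Rh Q → Q.adicValuation Y ≤ 1) → Y ∈ Rh)
    (hann : ∀ a : L, A.valuation (ϖ₀ ^ n) < A.valuation a → A.valuation a < 1 →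
      algebraMap L F a * ((x : F) - algebraMap L F a)⁻¹ ∈ O)
    (hxL : ∀ c : L, (x : F) ≠ algebraMap L F c)
    (hQ : RedNode A Rh Q) {a : L} (ha : Cong Q (x : F) a) (s : Finset L) :
    (a ∈ s → Q.ord (∏ c ∈ s, ((x : F) - algebraMap L F c)) = 1) ∧
      (a ∉ s → Q.ord (∏ c ∈ s, ((x : F) - algebraMap L F c)) = 0) := by
  classical
  rw [ord_prod_eq_sum Q s _ (fun c _ => sub_ne_zero.2 (hxL c))]
  have h1 : ∀ c ∈ s, Q.ord ((x : F) - algebraMap L F c) = if c = a then 1 else 0 := by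
    intro c _
    split_ifs with hc
    · rw [hc]
      exact hQ.ord_sub_eq_one harch hF hN hC hRhO hhart hann hxL ha
    · exact ord_sub_eq_zero_of_cong ha (fun h => hc h.symm)
  rw [Finset.sum_congr rfl h1, Finset.sum_ite_eq' s a (fun _ => (1 : ℤ))]
  exact ⟨fun h => if_pos h, fun h => if_neg h⟩

/-- **Surjectivity of the node coordinate** onto the open annulus: if `a / (x - a)` lies in `O`
but not in `Rh` (at the instance: its reduction is `(0, -1)`, which is not glued at the node),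
then some place through the node has `x(Q) = a`. -/
theorem exists_redNode_cong {O : Subring F}
    (hhart : ∀ Y ∈ O, (∀ Q : Place L F, RedNode A Rh Q → Q.adicValuation Y ≤ 1) → Y ∈ Rh)
    {g : F} {a : L} (ha0 : a ≠ 0)
    (hO : algebraMap L F a * (g - algebraMap L F a)⁻¹ ∈ O)
    (hnot : algebraMap L F a * (g - algebraMap L F a)⁻¹ ∉ Rh) :
    ∃ Q : Place L F, RedNode A Rh Q ∧ Cong Q g a := by
  by_contra hcon
  refine hnot (hhart _ hO (fun Q hQ => ?_))
  have h1 : ¬ Cong Q g a := fun h => hcon ⟨Q, hQ, h⟩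
  have h2 : 1 ≤ Q.adicValuation (g - algebraMap L F a) := not_lt.1 h1
  rw [map_mul, map_inv₀, adicValuation_algebraMap_eq_one Q ha0, one_mul]
  exact inv_le_one_of_one_le₀ h2

end Place

end Fermat.Agent.TR.Node.AnnulusHart
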