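import Mathlib
import Fermat.Agent.TR.Node.NodeRingAbs
import Fermat.Agent.Lib.FF.AdeleResidue

/-!
# TR (PL-D), place level: the node ring from the places reducing to the node

Setting of `TR/Node/NodeRingAbs.lean` with `Fx = ⊤` (no inertia-fixedness): `L ⊆ F` a function
field, `A` a valuation subring of `L`, `O ⊆ F` with `O ∩ L = A`, `red : O →+* F₁ × F₂`,
`E ≥ 0` the chart divisor, `R̂ = nodeRing red ⊤ E e₁ e₂ i` the local ring of the node `i`.

* `RedNode A R Q` : the place `Q` of `F` **reduces to the node**: evaluation at `Q` is defined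
  and `A`-integral on the node ring `R`.
* `IsDen red E e₁ e₂ i t` : `t` is an integral chart function whose reduction has a non-zero
  value at the node (a denominator of the node ring).
* `redNode_or_exists_den` : **dichotomy.**  A place `Q` off the chart divisor reduces to the node,
  or some denominator vanishes at `Q`.
* `mem_of_den_mul_mem` : the node ring is stable under division by denominators.
* `mem_nodeRing_of_regular` : **(HART)** an element of `O` which is regular at every place off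
  `supp E` reducing to the node lies in the node ring.
* `mem_nodeRing_of_ord_eq_zero` : unit form — `Y, Y⁻¹ ∈ O` with `ord_Q Y = 0` at the places
  reducing to the node: `Y` and `Y⁻¹` lie in the node ring.
-/

set_option autoImplicit false

noncomputable section

namespace Fermat.Agent.TR.Node.HorUnit

open AlgebraicCurve WithZero Fermat.Agent.Lib.FF Fermat.Agent.BAD.NodalRiemann
  Fermat.Agent.Lib.Red.Deform Fermat.Agent.TR.Node.NodalLocal Fermat.Agent.TR.Node.NodeRingAbs

variable {L F : Type*} [Field L] [Field F] [Algebra L F] {A : ValuationSubring L} {O : Subring F}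
  {k F₁ F₂ : Type*} [Field k] [Field F₁] [Field F₂] [Algebra k F₁] [Algebra k F₂]
  {ι : Type*}

/-- The place `Q` reduces to the node with local ring `R`: every function of `R` has an
`A`-integral value at `Q`. -/
def RedNode (A : ValuationSubring L) (R : Subring F) (Q : Place L F) : Prop :=
  ∀ g ∈ R, ∃ c ∈ A, Cong Q g c

/-- A denominator of the node ring: an integral chart function whose reduction has a non-zero
value at the node. -/
def IsDen (red : O →+* F₁ × F₂) (E : Divisor L F) (e₁ : ι → Place k F₁) (e₂ : ι → Place k F₂)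
    (i : ι) (t : O) : Prop :=
  (∃ N : ℕ, (t : F) ∈ riemannRochSpace (N • E)) ∧
    ∃ c : k, c ≠ 0 ∧ Cong (e₁ i) (red t).1 c ∧ Cong (e₂ i) (red t).2 c

section Den

variable {red : O →+* F₁ × F₂} {E : Divisor L F} {e₁ : ι → Place k F₁} {e₂ : ι → Place k F₂}
  {i : ι}

theorem IsDen.one (hE : 0 ≤ E) : IsDen red E e₁ e₂ i 1 := by
  refine ⟨⟨0, one_mem_L_nsmul hE 0⟩, 1, one_ne_zero, ?_, ?_⟩
  · rw [map_one]
    exact cong_one'' _
  · rw [map_one]
    exact cong_one'' _

theorem IsDen.mul {s t : O} (hs : IsDen red E e₁ e₂ i s) (ht : IsDen red E e₁ e₂ i t) :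
    IsDen red E e₁ e₂ i (s * t) := by
  obtain ⟨⟨N, hN⟩, c, hc0, hc1, hc2⟩ := hs
  obtain ⟨⟨N', hN'⟩, d, hd0, hd1, hd2⟩ := ht
  refine ⟨⟨N + N', mul_mem_L_nsmul' hN hN'⟩, c * d, mul_ne_zero hc0 hd0, ?_, ?_⟩
  · rw [map_mul]
    exact hc1.mul hd1
  · rw [map_mul]
    exact hc2.mul hd2

theorem IsDen.pow (hE : 0 ≤ E) {t : O} (ht : IsDen red E e₁ e₂ i t) (m : ℕ) :
    IsDen red E e₁ e₂ i (t ^ m) := by
  induction m with
  | zero => rw [pow_zero]; exact IsDen.one hE
  | succ m ih => rw [pow_succ]; exact ih.mul ht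

/-- A denominator is regular at the places off the chart divisor. -/
theorem IsDen.le_one {t : O} (ht : IsDen red E e₁ e₂ i t) {Q : Place L F} (hQE : E Q = 0) :
    Q.adicValuation (t : F) ≤ 1 := by
  obtain ⟨⟨N, hN⟩, -⟩ := ht
  exact le_one_of_mem_L (by rw [Finsupp.smul_apply, hQE, smul_zero]) hN

/-- Membership in the node ring (no fixedness) through a denominator. -/
theorem mem_nodeRing_top_iff (hE : 0 ≤ E) {g : F} :
    g ∈ nodeRing red ⊤ E e₁ e₂ i ↔
      ∃ t : O, IsDen red E e₁ e₂ i t ∧ ∃ y : O, (y : F) = (t : F) * g ∧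
        ∃ N : ℕ, (y : F) ∈ riemannRochSpace (N • E) := by
  constructor
  · rintro ⟨-, N, t, htL, -, hc, y, hy, hyL⟩
    exact ⟨t, ⟨⟨N, htL⟩, hc⟩, y, hy, N, hyL⟩
  · rintro ⟨t, ⟨⟨N, htL⟩, hc⟩, y, hy, N', hyL⟩
    exact ⟨Subring.mem_top _, max N N', t, mem_L_nsmul_of_le hE (le_max_left _ _) htL,
      Subring.mem_top _, hc, y, hy, mem_L_nsmul_of_le hE (le_max_right _ _) hyL⟩

/-- The node ring is stable under division by denominators. -/
theorem mem_of_den_mul_mem (hE : 0 ≤ E) {t : O} (ht : IsDen red E e₁ e₂ i t) {Y : F}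
    (h : (t : F) * Y ∈ nodeRing red ⊤ E e₁ e₂ i) : Y ∈ nodeRing red ⊤ E e₁ e₂ i := by
  obtain ⟨s, hs, y, hy, N, hyL⟩ := (mem_nodeRing_top_iff hE).1 h
  refine (mem_nodeRing_top_iff hE).2 ⟨s * t, hs.mul ht, y, ?_, N, hyL⟩
  rw [hy, Subring.coe_mul]
  ring

/-- An integral chart function lies in the node ring. -/
theorem chart_mem_top (hE : 0 ≤ E) {Y : F} (hYO : Y ∈ O) {N : ℕ}
    (hYL : Y ∈ riemannRochSpace (N • E)) : Y ∈ nodeRing red ⊤ E e₁ e₂ i :=
  chart_mem red ⊤ hE e₁ e₂ i hYO hYL (Subring.mem_top _)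

end Den

/-! ### The dichotomy -/

section Dich

variable (hOA : ∀ x : L, algebraMap L F x ∈ O ↔ x ∈ A) (red : O →+* F₁ × F₂) (π : A →+* k)
  (hπker : ∀ a : A, π a = 0 ↔ A.valuation (a : L) < 1)
  (hconst : ∀ a : A, red ⟨algebraMap L F (a : L), (hOA _).2 a.2⟩ =
    algebraMap k (F₁ × F₂) (π a))
  (E : Divisor L F) (hE : 0 ≤ E) (e₁ : ι → Place k F₁) (e₂ : ι → Place k F₂) (i : ι)

include hπker hconst hE in
/-- A chart function with a non-integral value at `Q` gives a denominator vanishing at `Q`. -/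
theorem exists_den_of_value_notMem {Q : Place L F} {w : O} {N : ℕ}
    (hwL : (w : F) ∈ riemannRochSpace (N • E)) {d : L} (hd : Cong Q (w : F) d) (hdA : d ∉ A) :
    ∃ t : O, IsDen red E e₁ e₂ i t ∧ Cong Q (t : F) 0 := by
  have hd0 : d ≠ 0 := fun h0 => hdA (h0 ▸ A.zero_mem)
  have hdv : A.valuation d⁻¹ < 1 := by
    rw [map_inv₀]
    have h1 : 1 < A.valuation d := by
      by_contra hle
      exact hdA ((A.valuation_le_one_iff d).1 (not_lt.1 hle))
    exact inv_lt_one_of_one_lt₀ h1
  have hdinv : d⁻¹ ∈ A := (A.valuation_le_one_iff _).1 hdv.le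
  set c' : O := ⟨algebraMap L F d⁻¹, (hOA _).2 hdinv⟩ with hc'
  have hredc' : red c' = 0 := by
    have h1 := hconst ⟨d⁻¹, hdinv⟩
    rw [(hπker ⟨d⁻¹, hdinv⟩).2 hdv, map_zero] at h1
    exact h1
  refine ⟨1 - c' * w, ⟨⟨N, ?_⟩, 1, one_ne_zero, ?_, ?_⟩, ?_⟩
  · have e : ((1 - c' * w : O) : F) = 1 - d⁻¹ • (w : F) := by
      rw [Algebra.smul_def]
      rfl
    rw [e]
    exact sub_mem (one_mem_L_nsmul hE N) (Submodule.smul_mem _ _ hwL)
  · rw [map_sub, map_one, map_mul, hredc', zero_mul, sub_zero]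
    exact cong_one'' _
  · rw [map_sub, map_one, map_mul, hredc', zero_mul, sub_zero]
    exact cong_one'' _
  · have h1 : Cong Q (d⁻¹ • (w : F)) (d⁻¹ * d) := hd.smul d⁻¹
    rw [inv_mul_cancel₀ hd0] at h1
    have e : ((1 - c' * w : O) : F) - algebraMap L F 0 =
        -(d⁻¹ • (w : F) - algebraMap L F 1) := by
      rw [Algebra.smul_def, map_zero, map_one]
      show (1 : F) - algebraMap L F d⁻¹ * (w : F) - 0 = _
      ring
    show Q.adicValuation (((1 - c' * w : O) : F) - algebraMap L F 0) < 1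
    rw [e, Valuation.map_neg]
    exact h1

include hπker hconst hE in
/-- **Dichotomy.**  A place `Q` off the chart divisor (with residue field `L`) reduces to the
node, or some denominator of the node ring vanishes at `Q`. -/
theorem redNode_or_exists_den {Q : Place L F} (hQE : E Q = 0) (hQ : RR.ResK Q) :
    RedNode A (nodeRing red ⊤ E e₁ e₂ i) Q ∨
      ∃ t : O, IsDen red E e₁ e₂ i t ∧ Cong Q (t : F) 0 := by
  by_cases hR : RedNode A (nodeRing red ⊤ E e₁ e₂ i) Q
  · exact Or.inl hR
  right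
  unfold RedNode at hR
  push Not at hR
  obtain ⟨g, hg, hgn⟩ := hR
  obtain ⟨-, N, t₀, ht₀L, -, ⟨c₀, hc₀0, hc₀1, hc₀2⟩, y, hy, hyL⟩ := hg
  have hNQ : (N • E) Q ≤ 0 := by rw [Finsupp.smul_apply, hQE, smul_zero]
  obtain ⟨a, ha⟩ := exists_cong hQ (le_one_of_mem_L hNQ ht₀L)
  obtain ⟨d, hd⟩ := exists_cong hQ (le_one_of_mem_L hNQ hyL)
  by_cases haA : a ∈ A
  · by_cases hva : A.valuation a < 1
    · -- `t₀ - a`
      set c' : O := ⟨algebraMap L F a, (hOA _).2 haA⟩ with hc'
      have hredc' : red c' = 0 := by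
        have h1 := hconst ⟨a, haA⟩
        rw [(hπker ⟨a, haA⟩).2 hva, map_zero] at h1
        exact h1
      refine ⟨t₀ - c', ⟨⟨N, sub_mem ht₀L (algebraMap_mem_L_nsmul hE N a)⟩, c₀, hc₀0, ?_, ?_⟩, ?_⟩
      · rw [map_sub, hredc', sub_zero]
        exact hc₀1
      · rw [map_sub, hredc', sub_zero]
        exact hc₀2
      · show Q.adicValuation (((t₀ - c' : O) : F) - algebraMap L F 0) < 1
        rw [map_zero, sub_zero]
        exact ha
    · -- `a` is a unit of `A`: the value of `y` is not integral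
      have ha0 : a ≠ 0 := by
        rintro rfl
        exact hva (by rw [map_zero]; exact zero_lt_one)
      have hainv : a⁻¹ ∈ A := by
        rw [← A.valuation_le_one_iff, map_inv₀]
        exact inv_le_one_of_one_le₀ (not_lt.1 hva)
      have ht₀ne : (t₀ : F) ≠ 0 := ne_zero_of_cong ha ha0
      have hgeq : g = (y : F) / (t₀ : F) := by
        rw [hy, mul_div_cancel_left₀ _ ht₀ne]
      have hgc : Cong Q g (d / a) := by
        rw [hgeq]
        exact cong_div hd ha ha0
      have hdA : d ∉ A := by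
        intro hdA
        exact hgn (d / a) (by rw [div_eq_mul_inv]; exact A.mul_mem _ _ hdA hainv) hgc
      exact exists_den_of_value_notMem hOA red π hπker hconst E hE e₁ e₂ i hyL hd hdA
  · exact exists_den_of_value_notMem hOA red π hπker hconst E hE e₁ e₂ i ht₀L ha haA

end Dich

/-! ### (HART): regular at the places reducing to the node ⟹ in the node ring -/

section Hart

variable {E : Divisor L F}

/-- `f(Q) = 0` in valuation form. -/
theorem val_lt_one_iff_le' (P : Place L F) (f : F) :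
    P.adicValuation f < 1 ↔ P.adicValuation f ≤ exp (-1 : ℤ) := by
  by_cases hf : f = 0
  · subst hf
    simp
  · rw [P.adicValuation_eq_exp_neg_ord hf, ← exp_zero, exp_lt_exp, exp_le_exp]
    omega

/-- A function regular off the support of `E ≥ 0` lies in some `L(N • E)`. -/
theorem exists_mem_L_of_regular (hE : 0 ≤ E) {Y : F}
    (hY : ∀ Q : Place L F, E Q = 0 → Q.adicValuation Y ≤ 1) :
    ∃ N : ℕ, Y ∈ riemannRochSpace (N • E) := by
  classical
  choose M hM using fun Q : Place L F => exists_nat_val_le Q Y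
  refine ⟨∑ Q ∈ E.support, M Q, fun v => ?_⟩
  by_cases hv : E v = 0
  · rw [Finsupp.smul_apply, hv, smul_zero, exp_zero]
    exact hY v hv
  · have hvs : v ∈ E.support := Finsupp.mem_support_iff.2 hv
    have h1 : (1 : ℤ) ≤ E v := by
      have h0 : (0 : ℤ) ≤ E v := Finsupp.le_def.mp hE v
      omega
    have h2 : M v ≤ ∑ Q ∈ E.support, M Q :=
      Finset.single_le_sum (f := M) (fun _ _ => Nat.zero_le _) hvs
    refine (hM v).trans (exp_le_exp.mpr ?_)
    rw [Finsupp.smul_apply, nsmul_eq_mul]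
    have h3 : ((M v : ℕ) : ℤ) ≤ ((∑ Q ∈ E.support, M Q : ℕ) : ℤ) := by exact_mod_cast h2
    have h4 : (0 : ℤ) ≤ ((∑ Q ∈ E.support, M Q : ℕ) : ℤ) := by positivity
    nlinarith

variable (hOA : ∀ x : L, algebraMap L F x ∈ O ↔ x ∈ A) (red : O →+* F₁ × F₂) (π : A →+* k)
  (hπker : ∀ a : A, π a = 0 ↔ A.valuation (a : L) < 1)
  (hconst : ∀ a : A, red ⟨algebraMap L F (a : L), (hOA _).2 a.2⟩ =
    algebraMap k (F₁ × F₂) (π a))
  (hE : 0 ≤ E) (e₁ : ι → Place k F₁) (e₂ : ι → Place k F₂) (i : ι)

include hπker hconst hE in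
/-- Induction on a finite set containing the poles off the chart divisor. -/
theorem mem_nodeRing_of_poles_subset (hres : ∀ Q : Place L F, RR.ResK Q)
    (S : Finset (Place L F)) : ∀ Y : F, Y ∈ O →
      (∀ Q : Place L F, E Q = 0 → ¬ Q.adicValuation Y ≤ 1 → Q ∈ S) →
      (∀ Q : Place L F, E Q = 0 → RedNode A (nodeRing red ⊤ E e₁ e₂ i) Q →
        Q.adicValuation Y ≤ 1) →
      Y ∈ nodeRing red ⊤ E e₁ e₂ i := by
  classical
  induction S using Finset.induction_on with
  | empty =>
    intro Y hYO hS _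
    obtain ⟨N, hN⟩ := exists_mem_L_of_regular hE (Y := Y) (fun Q hQ => by
      by_contra h
      exact absurd (hS Q hQ h) (Finset.notMem_empty Q))
    exact chart_mem_top hE hYO hN
  | insert Q₀ S' hQ₀ ih =>
    intro Y hYO hS hY
    by_cases hpole : E Q₀ = 0 ∧ ¬ Q₀.adicValuation Y ≤ 1
    · obtain ⟨hQ₀E, hQ₀Y⟩ := hpole
      -- `Q₀` does not reduce to the node: a denominator vanishes there
      have hnot : ¬ RedNode A (nodeRing red ⊤ E e₁ e₂ i) Q₀ := fun h => hQ₀Y (hY Q₀ hQ₀E h)
      obtain ⟨t, ht, htQ⟩ := (redNode_or_exists_den hOA red π hπker hconst E hE e₁ e₂ i hQ₀E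
        (hres Q₀)).resolve_left hnot
      have htQ' : Q₀.adicValuation (t : F) ≤ exp (-1 : ℤ) := by
        have h1 : Q₀.adicValuation ((t : F) - algebraMap L F 0) < 1 := htQ
        rw [map_zero, sub_zero] at h1
        exact (val_lt_one_iff_le' Q₀ _).1 h1
      obtain ⟨m, hm⟩ := exists_nat_val_le Q₀ Y
      have htm := ht.pow hE m
      -- `t ^ m * Y`
      have hY' : ((t ^ m : O) : F) * Y ∈ nodeRing red ⊤ E e₁ e₂ i := by
        refine ih _ (O.mul_mem (t ^ m : O).2 hYO) ?_ ?_
        · intro Q hQE hQpole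
          have hQt : Q.adicValuation ((t ^ m : O) : F) ≤ 1 := htm.le_one hQE
          have hQY : ¬ Q.adicValuation Y ≤ 1 := by
            intro hle
            apply hQpole
            rw [map_mul]
            exact mul_le_one' hQt hle
          rcases Finset.mem_insert.1 (hS Q hQE hQY) with rfl | h
          · exfalso
            apply hQpole
            rw [map_mul, Subring.coe_pow, map_pow]
            calc Q.adicValuation (t : F) ^ m * Q.adicValuation Y
                ≤ exp (-1 : ℤ) ^ m * exp ((m : ℕ) : ℤ) := mul_le_mul' (pow_le_pow_left' htQ' m) hm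
              _ = 1 := by
                rw [← exp_nsmul, ← exp_add, ← exp_zero]
                congr 1
                simp
          · exact h
        · intro Q hQE hQR
          rw [map_mul]
          exact mul_le_one' (htm.le_one hQE) (hY Q hQE hQR)
      exact mem_of_den_mul_mem hE htm hY'
    · refine ih Y hYO ?_ hY
      intro Q hQE hQY
      rcases Finset.mem_insert.1 (hS Q hQE hQY) with rfl | h
      · exact absurd ⟨hQE, hQY⟩ hpole
      · exact h

include hπker hconst hE in
/-- **(HART).**  An element of `O` which is regular at every place off the chart divisor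
reducing to the node lies in the node ring. -/
theorem mem_nodeRing_of_regular [HasPrincipalDivisors L F] (hres : ∀ Q : Place L F, RR.ResK Q)
    {Y : F} (hYO : Y ∈ O)
    (hY : ∀ Q : Place L F, E Q = 0 → RedNode A (nodeRing red ⊤ E e₁ e₂ i) Q →
      Q.adicValuation Y ≤ 1) :
    Y ∈ nodeRing red ⊤ E e₁ e₂ i := by
  classical
  have hfin := Fermat.Agent.Lib.FF.Res.Adele.finite_poles (K := L) Y
  exact mem_nodeRing_of_poles_subset hOA red π hπker hconst hE e₁ e₂ i hres hfin.toFinset Y hYO
    (fun Q _ hQ => hfin.mem_toFinset.2 hQ) hY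

include hπker hconst hE in
/-- **(HART), unit form.**  `Y` and `Y⁻¹` in `O`, `ord_Q Y = 0` at every place off the chart
divisor reducing to the node: `Y` and `Y⁻¹` lie in the node ring. -/
theorem mem_nodeRing_of_ord_eq_zero [HasPrincipalDivisors L F]
    (hres : ∀ Q : Place L F, RR.ResK Q) {Y : F} (hYO : Y ∈ O) (hYO' : Y⁻¹ ∈ O)
    (hY : ∀ Q : Place L F, E Q = 0 → RedNode A (nodeRing red ⊤ E e₁ e₂ i) Q →
      Q.adicValuation Y = 1) :
    Y ∈ nodeRing red ⊤ E e₁ e₂ i ∧ Y⁻¹ ∈ nodeRing red ⊤ E e₁ e₂ i := by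
  refine ⟨mem_nodeRing_of_regular hOA red π hπker hconst hE e₁ e₂ i hres hYO
      (fun Q hQE hQR => (hY Q hQE hQR).le),
    mem_nodeRing_of_regular hOA red π hπker hconst hE e₁ e₂ i hres hYO' (fun Q hQE hQR => ?_)⟩
  rw [map_inv₀, hY Q hQE hQR, inv_one]

end Hart

end Fermat.Agent.TR.Node.HorUnit
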