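import Mathlib
import Fermat.Agent.TR.Node.HorUnit

/-!
# TR (PL-D), place level: evaluation at the places reducing to the node

Setting of `TR/Node/NodeRingAbs.lean` / `TR/Node/HorUnit.lean` (`Fx = ⊤`), with the lattice
description `hS` of the reductions (so that (glue) and (loc) hold for the node ring
`R̂ = nodeRing red ⊤ E e₁ e₂ i`).  For a place `Q` reducing to the node (`HorUnit.RedNode`):

* `RedNode.val_le_one` : the value of `g ∈ R̂` at `Q` is `A`-integral;
* `RedNode.val_lt_one` : **locality** — a function of `R̂` whose reduction vanishes at the node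
  has a value in the maximal ideal of `A`;
* `RedNode.val_eq_one_of_inv_mem` : a unit of `R̂` has a unit value;
* `RedNode.annulus` : **the annulus** — if `ξ η = p ^ k u` in `R̂` with `ξ`, `η` vanishing at
  the node and `u` a unit, then `|p| ^ k < |ξ(Q)| < 1` and `|p| ^ k < |η(Q)| < 1`;
* `exists_redNode_pole` : an element of `O` whose two reductions do not glue at the node has a
  pole at a place reducing to the node;
* `exists_redNode_cong` : **surjectivity of a coordinate** — if `c / (ξ - c) ∈ O` does not glue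
  at the node, some place reducing to the node has `ξ(Q) = c`.
-/

set_option autoImplicit false

noncomputable section

namespace Fermat.Agent.TR.Node.HorUnit

open AlgebraicCurve WithZero Fermat.Agent.Lib.FF Fermat.Agent.BAD.NodalRiemann
  Fermat.Agent.Lib.Red.Deform Fermat.Agent.TR.Node.NodalLocal Fermat.Agent.TR.Node.NodeRingAbs

variable {L F : Type*} [Field L] [Field F] [Algebra L F] {A : ValuationSubring L} {O : Subring F}
  {k F₁ F₂ : Type*} [Field k] [Field F₁] [Field F₂] [Algebra k F₁] [Algebra k F₂]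
  {ι : Type*}

section Eval

variable (hOA : ∀ x : L, algebraMap L F x ∈ O ↔ x ∈ A)
  (hval : ∀ y : F, y ≠ 0 → ∃ c : L, c ≠ 0 ∧ algebraMap L F c * y ∈ O ∧
    ¬ Small A O (algebraMap L F c * y))
  (red : O →+* F₁ × F₂) (π : A →+* k)
  (hπker : ∀ a : A, π a = 0 ↔ A.valuation (a : L) < 1)
  (hconst : ∀ a : A, red ⟨algebraMap L F (a : L), (hOA _).2 a.2⟩ =
    algebraMap k (F₁ × F₂) (π a))
  (hker : ∀ y : O, red y = 0 ↔ Small A O (y : F))
  (E : Divisor L F) (hE : 0 ≤ E) (e₁ : ι → Place k F₁) (e₂ : ι → Place k F₂) (i : ι)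
  {D₁ : Divisor k F₁} {D₂ : Divisor k F₂}
  (hS : ∃ N₀ : ℕ, ∀ N, N₀ ≤ N → ∀ t : F₁ × F₂,
    (∃ y : O, (y : F) ∈ riemannRochSpace (N • E) ∧ red y = t) ↔
      t ∈ gluedSpace e₁ e₂ (fun _ => (1 : k)) (N • D₁) (N • D₂))

omit [Algebra k F₁] [Algebra k F₂] in
/-- The value at `Q` of a function of the node ring is integral. -/
theorem RedNode.val_le_one {R : Subring F} {Q : Place L F} (hR : RedNode A R Q) {g : F}
    (hg : g ∈ R) {c : L} (hc : Cong Q g c) : A.valuation c ≤ 1 := by
  obtain ⟨c', hc'A, hc'⟩ := hR g hg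
  rw [hc.unique hc']
  exact (A.valuation_le_one_iff c').2 hc'A

include hOA hval hπker hconst hker hE hS in
/-- **Locality.**  At a place reducing to the node, a function of the node ring whose reduction
(on the first branch) vanishes at the node takes a value in the maximal ideal of `A`. -/
theorem RedNode.val_lt_one {Q : Place L F} (hR : RedNode A (nodeRing red ⊤ E e₁ e₂ i) Q)
    {g : F} (hg : g ∈ nodeRing red ⊤ E e₁ e₂ i)
    (hg0 : Cong (e₁ i)
      (red ⟨g, mem_O hOA hval red π hπker hconst hker ⊤ E e₁ e₂ i hg⟩).1 0)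
    {c : L} (hc : Cong Q g c) : A.valuation c < 1 := by
  by_contra hnot
  have hcA : c ∈ A := (A.valuation_le_one_iff c).1 (hR.val_le_one hg hc)
  -- `g - c` is a unit of the node ring
  have hcR : algebraMap L F c ∈ nodeRing red ⊤ E e₁ e₂ i :=
    algebraMap_mem hOA red ⊤ hE e₁ e₂ i hcA (Subring.mem_top _)
  have hg' : g - algebraMap L F c ∈ nodeRing red ⊤ E e₁ e₂ i := sub_mem hg hcR
  have hgO := mem_O hOA hval red π hπker hconst hker ⊤ E e₁ e₂ i hg
  have hg'O := mem_O hOA hval red π hπker hconst hker ⊤ E e₁ e₂ i hg'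
  have hπc : π ⟨c, hcA⟩ ≠ 0 := fun h0 => hnot ((hπker ⟨c, hcA⟩).1 h0)
  have hred : red ⟨g - algebraMap L F c, hg'O⟩ =
      red ⟨g, hgO⟩ - algebraMap k (F₁ × F₂) (π ⟨c, hcA⟩) := by
    rw [← hconst ⟨c, hcA⟩, ← map_sub]
    rfl
  have hval1 : Cong (e₁ i) (red ⟨g - algebraMap L F c, hg'O⟩).1 (0 + -(π ⟨c, hcA⟩)) := by
    rw [hred, Prod.fst_sub, sub_eq_add_neg]
    refine hg0.add ?_
    have h1 := (cong_algebraMap (e₁ i) (π ⟨c, hcA⟩)).smul (-1 : k)
    have e : (-1 : k) • algebraMap k F₁ (π ⟨c, hcA⟩) =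
        -(algebraMap k (F₁ × F₂) (π ⟨c, hcA⟩)).1 := by
      rw [neg_smul, one_smul]
      rfl
    rw [e, neg_one_mul] at h1
    exact h1
  have hne : ¬ Cong (e₁ i) (red ⟨g - algebraMap L F c, hg'O⟩).1 0 := by
    intro h0
    have := hval1.unique h0
    rw [zero_add, neg_eq_zero] at this
    exact hπc this
  have hinv := inv_mem hOA hval red π hπker hconst hker ⊤ E e₁ e₂ i hE hS
    (fun g _ => Subring.mem_top _) hg' hne
  obtain ⟨d, -, hd⟩ := hR _ hinv
  have h0 : Cong Q (g - algebraMap L F c) 0 := by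
    show Q.adicValuation (g - algebraMap L F c - algebraMap L F 0) < 1
    rw [map_zero, sub_zero]
    exact hc
  have hne0 : g - algebraMap L F c ≠ 0 := by
    intro h
    apply hne
    have e0 : (⟨g - algebraMap L F c, hg'O⟩ : O) = 0 := Subtype.ext h
    rw [e0, map_zero]
    exact cong_zero _
  have h1 := h0.mul hd
  rw [mul_inv_cancel₀ hne0, zero_mul] at h1
  exact one_ne_zero ((cong_one'' Q).unique h1)

omit [Algebra k F₁] [Algebra k F₂] in
/-- A unit of the node ring takes a unit value at a place reducing to the node. -/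
theorem RedNode.val_eq_one_of_inv_mem {R : Subring F} {Q : Place L F} (hR : RedNode A R Q)
    {g : F} (hg : g ∈ R) (hg' : g⁻¹ ∈ R) (hg0 : g ≠ 0) {c : L} (hc : Cong Q g c) :
    A.valuation c = 1 := by
  obtain ⟨d, hdA, hd⟩ := hR _ hg'
  have h1 := hc.mul hd
  rw [mul_inv_cancel₀ hg0] at h1
  have h2 : c * d = 1 := (h1.unique (cong_one'' Q)).symm ▸ rfl
  have hc1 := hR.val_le_one hg hc
  have hd1 : A.valuation d ≤ 1 := (A.valuation_le_one_iff d).2 hdA
  have h3 : A.valuation c * A.valuation d = 1 := by rw [← map_mul, h2, map_one]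
  refine le_antisymm hc1 ?_
  calc (1 : _) = A.valuation c * A.valuation d := h3.symm
    _ ≤ A.valuation c * 1 := mul_le_mul' le_rfl hd1
    _ = A.valuation c := mul_one _

include hOA hval hπker hconst hker hE hS in
/-- **The annulus.**  If `ξ η = p ^ k u` in the node ring, `ξ` and `η` vanish at the node and
`u` is a unit, then at every place `Q` reducing to the node:
`|p| ^ k < |ξ(Q)| < 1` and `|p| ^ k < |η(Q)| < 1`. -/
theorem RedNode.annulus {Q : Place L F} (hR : RedNode A (nodeRing red ⊤ E e₁ e₂ i) Q)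
    {ξ η u : F} {p : L} {n : ℕ} (hp0 : p ≠ 0)
    (hξ : ξ ∈ nodeRing red ⊤ E e₁ e₂ i) (hη : η ∈ nodeRing red ⊤ E e₁ e₂ i)
    (hu : u ∈ nodeRing red ⊤ E e₁ e₂ i) (hu' : u⁻¹ ∈ nodeRing red ⊤ E e₁ e₂ i) (hu0 : u ≠ 0)
    (hxy : ξ * η = algebraMap L F p ^ n * u)
    (hξ0 : Cong (e₁ i)
      (red ⟨ξ, mem_O hOA hval red π hπker hconst hker ⊤ E e₁ e₂ i hξ⟩).1 0)
    (hη0 : Cong (e₁ i)
      (red ⟨η, mem_O hOA hval red π hπker hconst hker ⊤ E e₁ e₂ i hη⟩).1 0)
    {a b : L} (ha : Cong Q ξ a) (hb : Cong Q η b) :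
    A.valuation a < 1 ∧ A.valuation b < 1 ∧ A.valuation p ^ n < A.valuation a ∧
      A.valuation p ^ n < A.valuation b := by
  have ha1 := RedNode.val_lt_one hOA hval red π hπker hconst hker E hE e₁ e₂ i hS hR hξ hξ0 ha
  have hb1 := RedNode.val_lt_one hOA hval red π hπker hconst hker E hE e₁ e₂ i hS hR hη hη0 hb
  obtain ⟨w, -, hw⟩ := hR u hu
  have hw1 := hR.val_eq_one_of_inv_mem hu hu' hu0 hw
  have h1 : Cong Q (ξ * η) (a * b) := ha.mul hb
  have h2 : Cong Q (algebraMap L F p ^ n * u) (p ^ n * w) := by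
    refine Cong.mul ?_ hw
    have := cong_algebraMap Q (p ^ n)
    rwa [map_pow] at this
  rw [hxy] at h1
  have h3 : a * b = p ^ n * w := h1.unique h2
  have h4 : A.valuation a * A.valuation b = A.valuation p ^ n := by
    rw [← map_mul, h3, map_mul, map_pow, hw1, mul_one]
  have hpn : A.valuation p ^ n ≠ 0 := pow_ne_zero _ ((Valuation.ne_zero_iff _).2 hp0)
  have ha0 : A.valuation a ≠ 0 := fun h => hpn (by rw [← h4, h, zero_mul])
  have hb0 : A.valuation b ≠ 0 := fun h => hpn (by rw [← h4, h, mul_zero])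
  refine ⟨ha1, hb1, ?_, ?_⟩
  · calc A.valuation p ^ n = A.valuation a * A.valuation b := h4.symm
      _ < A.valuation a * 1 := mul_lt_mul_of_pos_left hb1 (zero_lt_iff.2 ha0)
      _ = A.valuation a := mul_one _
  · calc A.valuation p ^ n = A.valuation a * A.valuation b := h4.symm
      _ < 1 * A.valuation b := mul_lt_mul_of_pos_right ha1 (zero_lt_iff.2 hb0)
      _ = A.valuation b := one_mul _

include hOA hval hπker hconst hker hE hS in
/-- An element of `O` whose two reductions do not glue at the node has a pole at some place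
(off the chart divisor) reducing to the node. -/
theorem exists_redNode_pole [HasPrincipalDivisors L F] (hres : ∀ Q : Place L F, RR.ResK Q)
    {Y : F} (hYO : Y ∈ O)
    (hYg : ¬ ∃ c : k, Cong (e₁ i) (red ⟨Y, hYO⟩).1 c ∧ Cong (e₂ i) (red ⟨Y, hYO⟩).2 c) :
    ∃ Q : Place L F, E Q = 0 ∧ RedNode A (nodeRing red ⊤ E e₁ e₂ i) Q ∧
      ¬ Q.adicValuation Y ≤ 1 := by
  by_contra hcon
  push Not at hcon
  have hY : Y ∈ nodeRing red ⊤ E e₁ e₂ i :=
    mem_nodeRing_of_regular hOA red π hπker hconst hE e₁ e₂ i hres hYO hcon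
  exact hYg (exists_cong hOA hval red π hπker hconst hker ⊤ E e₁ e₂ i hE hS hY)

include hOA hval hπker hconst hker hE hS in
/-- **Surjectivity of a coordinate on the annulus.**  If `c / (ξ - c)` lies in `O` and its two
reductions do not glue at the node, some place reducing to the node has `ξ(Q) = c`. -/
theorem exists_redNode_cong [HasPrincipalDivisors L F] (hres : ∀ Q : Place L F, RR.ResK Q)
    {ξ : F} {c : L} (hc0 : c ≠ 0)
    (hYO : algebraMap L F c / (ξ - algebraMap L F c) ∈ O)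
    (hYg : ¬ ∃ d : k, Cong (e₁ i) (red ⟨_, hYO⟩).1 d ∧ Cong (e₂ i) (red ⟨_, hYO⟩).2 d) :
    ∃ Q : Place L F, E Q = 0 ∧ RedNode A (nodeRing red ⊤ E e₁ e₂ i) Q ∧ Cong Q ξ c := by
  obtain ⟨Q, hQE, hQR, hQY⟩ :=
    exists_redNode_pole hOA hval red π hπker hconst hker E hE e₁ e₂ i hS hres hYO hYg
  refine ⟨Q, hQE, hQR, ?_⟩
  rw [not_le, map_div₀, adicValuation_algebraMap_eq_one Q hc0] at hQY
  show Q.adicValuation (ξ - algebraMap L F c) < 1
  by_contra hle
  rw [not_lt] at hle
  have h0 : Q.adicValuation (ξ - algebraMap L F c) ≠ 0 := fun h => by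
    rw [h] at hle
    exact not_le.2 zero_lt_one hle
  have h1 : (1 : ℤᵐ⁰) / Q.adicValuation (ξ - algebraMap L F c) ≤ 1 := by
    rw [div_le_iff₀ (zero_lt_iff.2 h0), one_mul]
    exact hle
  exact not_lt.2 h1 hQY

end Eval

end Fermat.Agent.TR.Node.HorUnit
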