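import Mathlib
import Fermat.Agent.TR.Node.AnnulusHart
import Fermat.Agent.TR.Node.NodePkgFull
import Fermat.Agent.TR.Node.RedNodeEval

/-!
# TR / node side, (I3): the annulus lemma at the nodes of the special fibre of `X₀(Mq)`

Instance of `TR/Node/AnnulusHart.lean` at the objects of `TR/Node/NodeRing.lean` (a nodal datum
as in `KerRed.NodalFibreFor`, a node `i`, and a node package `x * y = q ^ k * u` as produced by
`NodeRing.exists_nodePkg`).  Write `S_i := NodeRing.nodeRing h W E1 e₁ e₂ i` (inertia-fixed node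
ring) and `T_i := NodeRingAbs.nodeRing (redPair h W) ⊤ E1 e₁ e₂ i` (node ring over `ℚ̄`).

* `nodeData` : `AnnulusHart.NodeData A S_i T_i q k x y u q` (the generation clause comes from the
  node package and the lift of residue constants to inertia-fixed constants);
* `chartData` : `AnnulusHart.ChartData S_i E1` (inertia-fixed orthonormal bases);
* `hart` : (HART) for `T_i` in the form used by `AnnulusHart`;
* `ann_mem_OPair` : `a / (x - a) ∈ O_∞ ∩ O_0` for `a` in the open annulus `|q|^k < |a| < 1`;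
* `coord_ne_const` : the node coordinate is not a constant;
* **`eq_of_cong_node`** (injectivity), **`ord_sub_eq_one_node`** (unramifiedness),
  **`ord_sub_node`** (`ord_{Q'} (x - x(Q)) = [Q' = Q]` among the places through the node),
  `exists_cong_node` (surjectivity onto the open annulus), `range_node`.
-/

set_option autoImplicit false

noncomputable section

namespace Fermat.Agent.TR.Node.AnnulusHartInst

open AlgebraicCurve ModularCurve WithZero Fermat.Agent.Lib.FF Fermat.Agent.Lib.Red.Deform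
  Fermat.Agent.BAD.NodalRiemann Fermat.Agent.BAD.TwoVal Fermat.Agent.BAD.LatFixedInst
  Fermat.Agent.BAD.LatFixedRing Fermat.Agent.TR.Node.NodeRing Fermat.Agent.TR.Node.NodePkgFull

local notation "Qb" => AlgebraicClosure ℚ

/-! ### Two valuation rings over a valued constant field -/

section Abs

variable {L F : Type*} [Field L] [Field F] [Algebra L F] {A : ValuationSubring L}

/-- A constant of valuation `< 1` has valuation `< 1` for a valuation ring of `F` over `A`. -/
theorem val_algebraMap_lt_one (O : ValuationSubring F)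
    (hO : ∀ a : L, algebraMap L F a ∈ O ↔ a ∈ A) {c : L} (hc : A.valuation c < 1) :
    O.valuation (algebraMap L F c) < 1 := by
  by_cases hc0 : c = 0
  · rw [hc0, map_zero, map_zero]
    exact zero_lt_one
  by_contra hcon
  have h1 : (algebraMap L F c)⁻¹ ∈ O := by
    rw [← O.valuation_le_one_iff, map_inv₀]
    exact inv_le_one_of_one_le₀ (not_lt.1 hcon)
  rw [← map_inv₀, hO] at h1
  have h2 : A.valuation c⁻¹ ≤ 1 := (A.valuation_le_one_iff _).2 h1
  rw [map_inv₀] at h2
  have hv0 : 0 < A.valuation c := zero_lt_iff.2 ((Valuation.ne_zero_iff _).2 hc0)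
  exact absurd ((inv_le_one₀ hv0).1 h2) (not_le.2 hc)

/-- Constants are ordered in `O` as in `A`. -/
theorem val_algebraMap_lt (O : ValuationSubring F)
    (hO : ∀ a : L, algebraMap L F a ∈ O ↔ a ∈ A) {c d : L}
    (hcd : A.valuation c < A.valuation d) :
    O.valuation (algebraMap L F c) < O.valuation (algebraMap L F d) := by
  have hd0 : d ≠ 0 := by
    rintro rfl
    rw [map_zero] at hcd
    exact not_lt_zero hcd
  have hvd : 0 < A.valuation d := zero_lt_iff.2 ((Valuation.ne_zero_iff _).2 hd0)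
  have h1 : A.valuation (c / d) < 1 := by
    rw [map_div₀, div_lt_one₀ hvd]
    exact hcd
  have h2 := val_algebraMap_lt_one O hO h1
  have hd0' : algebraMap L F d ≠ 0 := (map_ne_zero _).2 hd0
  have hvd' : 0 < O.valuation (algebraMap L F d) :=
    zero_lt_iff.2 ((Valuation.ne_zero_iff _).2 hd0')
  rw [map_div₀, map_div₀, div_lt_one₀ hvd'] at h2
  exact h2

theorem val_eq_one_of_mul_eq_one (O : ValuationSubring F) {a b : F} (ha : a ∈ O) (hb : b ∈ O)
    (hab : a * b = 1) : O.valuation a = 1 := by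
  have h1 : O.valuation a ≤ 1 := (O.valuation_le_one_iff a).2 ha
  have h2 : O.valuation b ≤ 1 := (O.valuation_le_one_iff b).2 hb
  have h3 : O.valuation a * O.valuation b = 1 := by rw [← map_mul, hab, map_one]
  refine le_antisymm h1 ?_
  by_contra hlt
  have h4 : O.valuation a * O.valuation b < 1 :=
    lt_of_le_of_lt (mul_le_of_le_one_right' h2) (not_le.1 hlt)
  rw [h3] at h4
  exact lt_irrefl _ h4

/-- **The annulus function.**  If `x * y = ϖ ^ n * u` with `x` a unit of `O₁`, `y` and `u`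
units of `O₂`, then for a constant `a` with `|ϖ|^n < |a| < 1` the function `a / (x - a)` lies in
`O₁ ∩ O₂`. -/
theorem ann_mem (O₁ O₂ : ValuationSubring F)
    (hO₁ : ∀ a : L, algebraMap L F a ∈ O₁ ↔ a ∈ A)
    (hO₂ : ∀ a : L, algebraMap L F a ∈ O₂ ↔ a ∈ A) {x y u : F} {ϖ₀ : L} {n : ℕ}
    (hxy : x * y = algebraMap L F ϖ₀ ^ n * u) (hx₁ : O₁.valuation x = 1)
    (hy₂ : O₂.valuation y = 1) (hu₂ : O₂.valuation u = 1) {a : L}
    (h1 : A.valuation (ϖ₀ ^ n) < A.valuation a) (h2 : A.valuation a < 1) :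
    algebraMap L F a * (x - algebraMap L F a)⁻¹ ∈ O₁ ∧
      algebraMap L F a * (x - algebraMap L F a)⁻¹ ∈ O₂ := by
  have ha0 : a ≠ 0 := by
    rintro rfl
    rw [map_zero] at h1
    exact not_lt_zero h1
  have ha0' : algebraMap L F a ≠ 0 := (map_ne_zero _).2 ha0
  constructor
  · have hva : O₁.valuation (algebraMap L F a) < 1 := val_algebraMap_lt_one O₁ hO₁ h2
    have hsub : O₁.valuation (x - algebraMap L F a) = 1 := by
      rw [Valuation.map_sub_eq_of_lt_left, hx₁]
      rw [hx₁]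
      exact hva
    rw [← O₁.valuation_le_one_iff, map_mul, map_inv₀, hsub, inv_one, mul_one]
    exact hva.le
  · have hvx : O₂.valuation x = O₂.valuation (algebraMap L F (ϖ₀ ^ n)) := by
      have h3 : O₂.valuation x * O₂.valuation y =
          O₂.valuation (algebraMap L F ϖ₀ ^ n) * O₂.valuation u := by
        rw [← map_mul, ← map_mul, hxy]
      rw [hy₂, hu₂, mul_one, mul_one] at h3
      rw [h3, map_pow (algebraMap L F) ϖ₀ n]
    have hlt : O₂.valuation x < O₂.valuation (algebraMap L F a) := by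
      rw [hvx]
      exact val_algebraMap_lt O₂ hO₂ h1
    have hsub : O₂.valuation (x - algebraMap L F a) = O₂.valuation (algebraMap L F a) :=
      Valuation.map_sub_eq_of_lt_right _ hlt
    have hva0 : O₂.valuation (algebraMap L F a) ≠ 0 := (Valuation.ne_zero_iff _).2 ha0'
    rw [← O₂.valuation_le_one_iff, map_mul, map_inv₀, hsub, mul_inv_cancel₀ hva0]

end Abs

/-! ### The instance at the nodes of the special fibre -/

local notation "K₀" => Fermat.Agent.CAR.K0.inertiaField

variable {A : ValuationSubring Qb} {k : Type} [Field k] {π : A →+* k} {M q : ℕ} [NeZero M]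
  [NeZero q]

section Datum

variable [IsAlgClosed k] (hA : A.LiesOverPrime q) (hπ : Function.Surjective π)
  (h : BadSetup A π M q)
  (W : laurentBaseChange Qb (modularFunctionFieldFull (M * q)) ≃ₐ[Qb]
    laurentBaseChange Qb (modularFunctionFieldFull (M * q))) (hW : IsAL M q W)
  (E1 E2 : Divisor Qb (laurentBaseChange Qb (modularFunctionFieldFull (M * q))))
  {ι : Type}
  (e₁ e₂ : ι → Place k (modularFunctionFieldFullC k M))
  (P₁ Z₁ P₂ Z₂ : Divisor k (modularFunctionFieldFullC k M))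
  (hE1 : ∀ v, 0 ≤ E1 v)
  (hdegE1 : 0 < Divisor.degree E1)
  (hgalE : ∀ σ ∈ A.inertiaSubgroupIn ℚ,
    arithmeticGalois (modularFunctionFieldFull (M * q)) σ • E1 = E1 ∧
    arithmeticGalois (modularFunctionFieldFull (M * q)) σ • E2 = E2)
  (hS2 : ∃ N₀ : ℕ, ∀ n₁ n₂ : ℕ, N₀ ≤ n₁ + n₂ →
    ∀ t : ↥(modularFunctionFieldFullC k M) × ↥(modularFunctionFieldFullC k M),
      (∃ y : OPair h W,
          (y : laurentBaseChange Qb (modularFunctionFieldFull (M * q))) ∈
            riemannRochSpace (n₁ • E1 + n₂ • E2) ∧ redPair h W y = t) ↔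
        t ∈ gluedSpace e₁ e₂ (fun _ => (1 : k))
          (n₁ • P₁ + n₂ • Z₁) (n₁ • P₂ + n₂ • Z₂))
  (i : ι)

include hA hπ h in
omit [IsAlgClosed k] in
/-- Residue constants lift to inertia-fixed integral constants. -/
theorem exists_fixed_const (c : k) : ∃ a : A, (a : Qb) ∈ K₀ A ∧ π a = c := by
  obtain ⟨a', rfl⟩ := hπ c
  obtain ⟨w, hwK, hwA, hlt⟩ :=
    Fermat.Agent.CAR.K0.exists_mem_inertiaField_valuation_sub_lt_one h.hℓ A hA a'.2
  refine ⟨⟨w, hwA⟩, hwK, ?_⟩
  have h0 : π (a' - ⟨w, hwA⟩) = 0 := (h.pi_eq_zero_iff _).2 hlt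
  rw [map_sub, sub_eq_zero] at h0
  exact h0.symm

omit [IsAlgClosed k] in
/-- The reduction at `∞` of a difference with a constant. -/
theorem redInf_sub_const {g : laurentBaseChange Qb (modularFunctionFieldFull (M * q))}
    (hg : g ∈ OInf h) (a : A)
    (hga : g - algebraMap Qb (laurentBaseChange Qb (modularFunctionFieldFull (M * q))) (a : Qb) ∈
      OInf h) :
    redInf h ⟨_, hga⟩ = redInf h ⟨g, hg⟩ -
      algebraMap k ↥(modularFunctionFieldFullC k M) (π a) := by
  have ha : algebraMap Qb (laurentBaseChange Qb (modularFunctionFieldFull (M * q))) (a : Qb) ∈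
      OInf h := (algebraMap_mem_OInf_iff h _).2 a.2
  have e : (⟨_, hga⟩ : OInf h) = ⟨g, hg⟩ - ⟨_, ha⟩ := Subtype.ext rfl
  rw [e, map_sub, redInf_algebraMap h a]

include hE1 hS2 in
omit [IsAlgClosed k] in
/-- A function of the node ring over `ℚ̄` vanishing at the node becomes a unit after subtracting
a unit constant. -/
theorem exists_inv_sub_const {g : laurentBaseChange Qb (modularFunctionFieldFull (M * q))}
    (hg : g ∈ NodeRingAbs.nodeRing (redPair h W) ⊤ E1 e₁ e₂ i)
    (hg0 : Cong (e₁ i) (redInf h ⟨g, top_mem_OInf h W E1 e₁ e₂ i hg⟩) 0) (c : Qb)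
    (hc : A.valuation c = 1) :
    ∃ w ∈ NodeRingAbs.nodeRing (redPair h W) ⊤ E1 e₁ e₂ i,
      (g - algebraMap Qb (laurentBaseChange Qb (modularFunctionFieldFull (M * q))) c) * w =
        1 := by
  have hcA : c ∈ A := (A.valuation_le_one_iff c).1 hc.le
  have hcT : algebraMap Qb (laurentBaseChange Qb (modularFunctionFieldFull (M * q))) c ∈
      NodeRingAbs.nodeRing (redPair h W) ⊤ E1 e₁ e₂ i :=
    NodeRingAbs.algebraMap_mem (fun x => OPair_hOA h x) (redPair h W) ⊤ (E1_nonneg E1 hE1)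
      e₁ e₂ i hcA (Subring.mem_top _)
  have hsub : g - algebraMap Qb (laurentBaseChange Qb (modularFunctionFieldFull (M * q))) c ∈
      NodeRingAbs.nodeRing (redPair h W) ⊤ E1 e₁ e₂ i := Subring.sub_mem _ hg hcT
  have hnot : ¬ Cong (e₁ i) (redInf h ⟨_, top_mem_OInf h W E1 e₁ e₂ i hsub⟩) 0 := by
    intro hcon
    rw [redInf_sub_const h (top_mem_OInf h W E1 e₁ e₂ i hg) ⟨c, hcA⟩] at hcon
    have h1 : Cong (e₁ i) (redInf h ⟨g, top_mem_OInf h W E1 e₁ e₂ i hg⟩) (π ⟨c, hcA⟩) := by
      unfold Cong at hcon ⊢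
      rwa [map_zero, sub_zero] at hcon
    have h2 : (π ⟨c, hcA⟩ : k) = 0 := h1.unique hg0
    have h3 := (h.pi_eq_zero_iff ⟨c, hcA⟩).1 h2
    rw [hc] at h3
    exact lt_irrefl _ h3
  have hne : g - algebraMap Qb (laurentBaseChange Qb (modularFunctionFieldFull (M * q))) c ≠
      0 := by
    intro h0
    apply hnot
    have e : redInf h ⟨_, top_mem_OInf h W E1 e₁ e₂ i hsub⟩ = 0 := by
      rw [redInf_congr h h0 _ (OInf h).zero_mem]
      exact map_zero (redInf h)
    rw [e]
    exact cong_zero _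
  exact ⟨_, top_inv_mem h W E1 E2 e₁ e₂ P₁ Z₁ P₂ Z₂ hE1 hS2 i hsub hnot, mul_inv_cancel₀ hne⟩

include hA hπ hW hE1 hdegE1 hgalE in
omit [IsAlgClosed k] in
/-- **The chart data of the node**: the chart functions are spanned over `ℚ̄` by those of the
inertia-fixed node ring. -/
theorem chartData : AnnulusHart.ChartData (nodeRing h W E1 e₁ e₂ i) E1 where
  nonneg := E1_nonneg E1 hE1
  deg := hdegE1
  span := by
    intro N f hf
    obtain ⟨n, b, hbfix, -, hspan, hbO, -⟩ :=
      exists_fixed_ortho_basis_rr h.hℓ hA h hπ hW (N • E1)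
        (fun σ hσ => by rw [smul_comm, (hgalE σ hσ).1])
    rw [← hspan] at hf
    refine Submodule.span_mono ?_ hf
    rintro _ ⟨j, rfl⟩
    have hbL : b j ∈ riemannRochSpace (N • E1) := by
      rw [← hspan]
      exact Submodule.subset_span ⟨j, rfl⟩
    exact ⟨hbL, chart_mem h W E1 e₁ e₂ i hE1 (hbO j) hbL (hbfix j)⟩

include hE1 in
omit [IsAlgClosed k] in
/-- **(HART)** for the node ring over `ℚ̄`: a function of `O_∞ ∩ O_0` which is regular at every
place through the node lies in the node ring. -/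
theorem hart {Y : laurentBaseChange Qb (modularFunctionFieldFull (M * q))}
    (hYO : Y ∈ OPair h W)
    (hY : ∀ Q : Place Qb (laurentBaseChange Qb (modularFunctionFieldFull (M * q))),
      AnnulusHart.RedNode A (NodeRingAbs.nodeRing (redPair h W) ⊤ E1 e₁ e₂ i) Q →
        Q.adicValuation Y ≤ 1) :
    Y ∈ NodeRingAbs.nodeRing (redPair h W) ⊤ E1 e₁ e₂ i := by
  haveI := (isFF1_xL Qb (M * q)).hasPrincipalDivisors
  exact HorUnit.mem_nodeRing_of_regular (fun x => OPair_hOA h x) (redPair h W) π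
    h.pi_eq_zero_iff (hconst h W) (E1_nonneg E1 hE1) e₁ e₂ i (isFF1_xL Qb (M * q)).resK hYO
    (fun Q _ hQ => hY Q hQ)

section Pkg

variable (k' : ℕ) (x y u : nodeRing h W E1 e₁ e₂ i) (hu : IsUnit u)
  (hxy : x * y = ((q : ℕ) : nodeRing h W E1 e₁ e₂ i) ^ k' * u)
  (hx1 : (e₁ i).ord (redInf h ⟨x, mem_OInf h W E1 e₁ e₂ i x.2⟩) = 1)
  (hy1 : redInf h ⟨y, mem_OInf h W E1 e₁ e₂ i y.2⟩ = 0)
  (hy2 : (e₂ i).ord (redZero h W ⟨y, mem_OZero h W E1 e₁ e₂ i y.2⟩) = 1)
  (hgen : ∀ g : nodeRing h W E1 e₁ e₂ i,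
    Cong (e₁ i) (redInf h ⟨g, mem_OInf h W E1 e₁ e₂ i g.2⟩) 0 →
    ∃ α β γ : nodeRing h W E1 e₁ e₂ i, g = α * x + β * y +
      γ * ((q : ℕ) : nodeRing h W E1 e₁ e₂ i))

include hx1 in
omit [IsAlgClosed k] in
/-- The reduction of the node coordinate vanishes at the node. -/
theorem cong_redInf_x :
    Cong (e₁ i) (redInf h ⟨x, mem_OInf h W E1 e₁ e₂ i x.2⟩) 0 := by
  have hne : redInf h ⟨x, mem_OInf h W E1 e₁ e₂ i x.2⟩ ≠ 0 := by
    intro h0
    rw [h0, Place.ord_zero] at hx1
    exact zero_ne_one hx1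
  unfold Cong
  rw [map_zero, sub_zero, (e₁ i).adicValuation_eq_exp_neg_ord hne, hx1, ← exp_zero, exp_lt_exp]
  norm_num

include hA hπ hE1 hS2 hu hxy hx1 hy1 hgen in
omit [IsAlgClosed k] in
/-- **The node data** of `AnnulusHart` at the node `i`. -/
theorem nodeData :
    AnnulusHart.NodeData A (nodeRing h W E1 e₁ e₂ i)
      (NodeRingAbs.nodeRing (redPair h W) ⊤ E1 e₁ e₂ i) ((q : ℕ) : Qb) k' x y u
      ((q : ℕ) : nodeRing h W E1 e₁ e₂ i) where
  le := nodeRing_le_top h W E1 e₁ e₂ i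
  const := fun c hc =>
    NodeRingAbs.algebraMap_mem (fun x => OPair_hOA h x) (redPair h W) ⊤ (E1_nonneg E1 hE1)
      e₁ e₂ i hc (Subring.mem_top _)
  hϖ := by
    rw [Subring.coe_natCast]
    exact natCast_eq_algebraMap q
  hϖ0 := Nat.cast_ne_zero.2 (NeZero.ne q)
  hϖ1 := A.mem_nonunits_iff.mp hA
  hxy := hxy
  hu := hu
  hgen := by
    intro r
    obtain ⟨c, hc, -⟩ := NodeRing.exists_cong h W E1 E2 e₁ e₂ P₁ Z₁ P₂ Z₂ hE1 hS2 i r.2
    obtain ⟨a, haK, rfl⟩ := exists_fixed_const hA hπ h c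
    have haS : algebraMap Qb (laurentBaseChange Qb (modularFunctionFieldFull (M * q))) (a : Qb) ∈
        nodeRing h W E1 e₁ e₂ i :=
      NodeRingAbs.algebraMap_mem (fun x => OPair_hOA h x) (redPair h W)
        (fixedSubring A (M * q)) (E1_nonneg E1 hE1) e₁ e₂ i a.2
        (Fermat.Agent.BAD.LatFixedRing.algebraMap_mem haK)
    have hsub : Cong (e₁ i) (redInf h ⟨((r - ⟨_, haS⟩ : nodeRing h W E1 e₁ e₂ i) :
        laurentBaseChange Qb (modularFunctionFieldFull (M * q))),
        mem_OInf h W E1 e₁ e₂ i (r - ⟨_, haS⟩ : nodeRing h W E1 e₁ e₂ i).2⟩) 0 := by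
      have e := redInf_sub_const h (mem_OInf h W E1 e₁ e₂ i r.2) a
        (mem_OInf h W E1 e₁ e₂ i (r - ⟨_, haS⟩ : nodeRing h W E1 e₁ e₂ i).2)
      have h1 : Cong (e₁ i) (redInf h ⟨r, mem_OInf h W E1 e₁ e₂ i r.2⟩ -
          algebraMap k ↥(modularFunctionFieldFullC k M) (π a)) 0 := by
        unfold Cong at hc ⊢
        rwa [map_zero, sub_zero]
      rw [← e] at h1
      exact h1
    obtain ⟨α, β, γ, e⟩ := hgen _ hsub
    refine ⟨⟨_, haS⟩, ⟨(a : Qb), rfl⟩, α, β, γ, ?_⟩
    linear_combination e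
  hxu := fun c hc =>
    exists_inv_sub_const h W E1 E2 e₁ e₂ P₁ Z₁ P₂ Z₂ hE1 hS2 i
      (nodeRing_le_top h W E1 e₁ e₂ i x.2) (cong_redInf_x h W E1 e₁ e₂ i x hx1) c hc
  hyu := fun c hc =>
    exists_inv_sub_const h W E1 E2 e₁ e₂ P₁ Z₁ P₂ Z₂ hE1 hS2 i
      (nodeRing_le_top h W E1 e₁ e₂ i y.2) (by rw [hy1]; exact cong_zero _) c hc

include hx1 in
omit [IsAlgClosed k] in
/-- The node coordinate is a unit of `O_∞`. -/
theorem val_OInf_x :
    (OInf h).valuation (x : laurentBaseChange Qb (modularFunctionFieldFull (M * q))) = 1 := by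
  have hne : redInf h ⟨x, mem_OInf h W E1 e₁ e₂ i x.2⟩ ≠ 0 := by
    intro h0
    rw [h0, Place.ord_zero] at hx1
    exact zero_ne_one hx1
  have hinv := inv_mem_OInf h _ (mem_OInf h W E1 e₁ e₂ i x.2) hne
  have hx0 : (x : laurentBaseChange Qb (modularFunctionFieldFull (M * q))) ≠ 0 := by
    intro h0
    apply hne
    rw [redInf_congr h h0 _ (OInf h).zero_mem]
    exact map_zero (redInf h)
  exact val_eq_one_of_mul_eq_one (OInf h) (mem_OInf h W E1 e₁ e₂ i x.2) hinv
    (mul_inv_cancel₀ hx0)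

include hy2 in
omit [IsAlgClosed k] in
/-- The second node coordinate is a unit of `O_0`. -/
theorem val_OZero_y :
    (OZero h W).valuation (y : laurentBaseChange Qb (modularFunctionFieldFull (M * q))) =
      1 := by
  have hne : redZero h W ⟨y, mem_OZero h W E1 e₁ e₂ i y.2⟩ ≠ 0 := by
    intro h0
    rw [h0, Place.ord_zero] at hy2
    exact zero_ne_one hy2
  have hinv := inv_mem_OZero h _ (mem_OZero h W E1 e₁ e₂ i y.2) hne
  have hy0 : (y : laurentBaseChange Qb (modularFunctionFieldFull (M * q))) ≠ 0 := by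
    intro h0
    apply hne
    have e : (⟨(y : laurentBaseChange Qb (modularFunctionFieldFull (M * q))),
        mem_OZero h W E1 e₁ e₂ i y.2⟩ : OZero h W) = 0 := Subtype.ext h0
    rw [e]
    exact map_zero (redZero h W)
  exact val_eq_one_of_mul_eq_one (OZero h W) (mem_OZero h W E1 e₁ e₂ i y.2) hinv
    (mul_inv_cancel₀ hy0)

include hu hxy hx1 hy2 in
omit [IsAlgClosed k] in
/-- **The annulus function** `a / (x - a)` is integral for both Gauss valuations when
`|q|^k < |a| < 1`. -/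
theorem ann_mem_OPair {a : Qb} (h1 : A.valuation (((q : ℕ) : Qb) ^ k') < A.valuation a)
    (h2 : A.valuation a < 1) :
    algebraMap Qb (laurentBaseChange Qb (modularFunctionFieldFull (M * q))) a *
      ((x : laurentBaseChange Qb (modularFunctionFieldFull (M * q))) -
        algebraMap Qb (laurentBaseChange Qb (modularFunctionFieldFull (M * q))) a)⁻¹ ∈
      OPair h W := by
  obtain ⟨w, hw⟩ := hu.exists_right_inv
  have huw : (u : laurentBaseChange Qb (modularFunctionFieldFull (M * q))) *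
      (w : laurentBaseChange Qb (modularFunctionFieldFull (M * q))) = 1 := by
    have := congrArg Subtype.val hw
    simpa using this
  have hu₂ : (OZero h W).valuation
      (u : laurentBaseChange Qb (modularFunctionFieldFull (M * q))) = 1 :=
    val_eq_one_of_mul_eq_one (OZero h W) (mem_OZero h W E1 e₁ e₂ i u.2)
      (mem_OZero h W E1 e₁ e₂ i w.2) huw
  have hxy' : (x : laurentBaseChange Qb (modularFunctionFieldFull (M * q))) *
      (y : laurentBaseChange Qb (modularFunctionFieldFull (M * q))) =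
      algebraMap Qb (laurentBaseChange Qb (modularFunctionFieldFull (M * q)))
        ((q : ℕ) : Qb) ^ k' *
        (u : laurentBaseChange Qb (modularFunctionFieldFull (M * q))) := by
    have := congrArg Subtype.val hxy
    rw [← natCast_eq_algebraMap]
    simpa using this
  have := ann_mem (OInf h) (OZero h W) (fun a => algebraMap_mem_OInf_iff h a)
    (fun a => algebraMap_mem_OZero_iff h a) hxy' (val_OInf_x h W E1 e₁ e₂ i x hx1)
    (val_OZero_y h W E1 e₁ e₂ i y hy2) hu₂ h1 h2
  exact (mem_OPair_iff h _).2 this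

include hx1 in
omit [IsAlgClosed k] in
/-- The node coordinate is not a constant. -/
theorem coord_ne_const (c : Qb) :
    (x : laurentBaseChange Qb (modularFunctionFieldFull (M * q))) ≠
      algebraMap Qb (laurentBaseChange Qb (modularFunctionFieldFull (M * q))) c := by
  intro hxc
  have hcO : algebraMap Qb (laurentBaseChange Qb (modularFunctionFieldFull (M * q))) c ∈
      OInf h := hxc ▸ mem_OInf h W E1 e₁ e₂ i x.2
  have hcA : c ∈ A := (algebraMap_mem_OInf_iff h c).1 hcO
  have e : redInf h ⟨x, mem_OInf h W E1 e₁ e₂ i x.2⟩ =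
      algebraMap k ↥(modularFunctionFieldFullC k M) (π ⟨c, hcA⟩) := by
    rw [redInf_congr h hxc _ hcO]
    exact redInf_algebraMap h ⟨c, hcA⟩ _
  rw [e] at hx1
  by_cases h0 : π ⟨c, hcA⟩ = 0
  · rw [h0, map_zero, Place.ord_zero] at hx1
    exact zero_ne_one hx1
  · have hv := adicValuation_algebraMap_eq_one (e₁ i) h0
    rw [(e₁ i).adicValuation_eq_exp_neg_ord ((map_ne_zero _).2 h0), ← exp_zero, exp_inj] at hv
    omega

include hA hπ hW hE1 hdegE1 hgalE hS2 hu hxy hx1 hy1 hgen in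
omit [IsAlgClosed k] in
/-- **(I3), injectivity at the node `i`.**  Two places through the node with the same value of
the node coordinate are equal. -/
theorem eq_of_cong_node
    {Q Q' : Place Qb (laurentBaseChange Qb (modularFunctionFieldFull (M * q)))}
    (hQ : AnnulusHart.RedNode A (NodeRingAbs.nodeRing (redPair h W) ⊤ E1 e₁ e₂ i) Q)
    (hQ' : AnnulusHart.RedNode A (NodeRingAbs.nodeRing (redPair h W) ⊤ E1 e₁ e₂ i) Q')
    {a : Qb}
    (ha : Cong Q (x : laurentBaseChange Qb (modularFunctionFieldFull (M * q))) a)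
    (ha' : Cong Q' (x : laurentBaseChange Qb (modularFunctionFieldFull (M * q))) a) :
    Q' = Q :=
  AnnulusHart.RedNode.eq_of_cong h.harch (isFF1_xL Qb (M * q))
    (nodeData hA hπ h W E1 E2 e₁ e₂ P₁ Z₁ P₂ Z₂ hE1 hS2 i k' x y u hu hxy hx1 hy1 hgen)
    (chartData hA hπ h W hW E1 E2 e₁ e₂ hE1 hdegE1 hgalE i) hQ hQ' ha ha'

include hA hπ hW hE1 hdegE1 hgalE hS2 hu hxy hx1 hy1 hy2 hgen in
omit [IsAlgClosed k] in
/-- **(I3), unramifiedness at the node `i`.**  At a place `Q` through the node, `x - x(Q)` is a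
local parameter. -/
theorem ord_sub_eq_one_node
    {Q : Place Qb (laurentBaseChange Qb (modularFunctionFieldFull (M * q)))}
    (hQ : AnnulusHart.RedNode A (NodeRingAbs.nodeRing (redPair h W) ⊤ E1 e₁ e₂ i) Q)
    {a : Qb}
    (ha : Cong Q (x : laurentBaseChange Qb (modularFunctionFieldFull (M * q))) a) :
    Q.ord ((x : laurentBaseChange Qb (modularFunctionFieldFull (M * q))) -
      algebraMap Qb (laurentBaseChange Qb (modularFunctionFieldFull (M * q))) a) = 1 :=
  AnnulusHart.RedNode.ord_sub_eq_one h.harch (isFF1_xL Qb (M * q))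
    (nodeData hA hπ h W E1 E2 e₁ e₂ P₁ Z₁ P₂ Z₂ hE1 hS2 i k' x y u hu hxy hx1 hy1 hgen)
    (chartData hA hπ h W hW E1 E2 e₁ e₂ hE1 hdegE1 hgalE i) (O := OPair h W)
    (fun g hg => top_mem_OPair h W E1 e₁ e₂ i hg)
    (fun Y hYO hY => hart h W E1 e₁ e₂ hE1 i hYO hY)
    (fun a h1 h2 => ann_mem_OPair h W E1 e₁ e₂ i k' x y u hu hxy hx1 hy2 h1 h2)
    (coord_ne_const h W E1 e₁ e₂ i x hx1) hQ ha

include hA hπ hW hE1 hdegE1 hgalE hS2 hu hxy hx1 hy1 hy2 hgen in
omit [IsAlgClosed k] in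
/-- **(I3), the divisor of `x - x(Q)` through the node `i`**: a simple zero at `Q` and no other
zero or pole among the places through the node. -/
theorem ord_sub_node
    {Q Q' : Place Qb (laurentBaseChange Qb (modularFunctionFieldFull (M * q)))}
    (hQ : AnnulusHart.RedNode A (NodeRingAbs.nodeRing (redPair h W) ⊤ E1 e₁ e₂ i) Q)
    (hQ' : AnnulusHart.RedNode A (NodeRingAbs.nodeRing (redPair h W) ⊤ E1 e₁ e₂ i) Q')
    {a : Qb}
    (ha : Cong Q (x : laurentBaseChange Qb (modularFunctionFieldFull (M * q))) a) :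
    (Q' = Q → Q'.ord ((x : laurentBaseChange Qb (modularFunctionFieldFull (M * q))) -
      algebraMap Qb (laurentBaseChange Qb (modularFunctionFieldFull (M * q))) a) = 1) ∧
    (Q' ≠ Q → Q'.ord ((x : laurentBaseChange Qb (modularFunctionFieldFull (M * q))) -
      algebraMap Qb (laurentBaseChange Qb (modularFunctionFieldFull (M * q))) a) = 0) := by
  constructor
  · rintro rfl
    exact ord_sub_eq_one_node hA hπ h W hW E1 E2 e₁ e₂ P₁ Z₁ P₂ Z₂ hE1 hdegE1 hgalE hS2 i k' x y u
      hu hxy hx1 hy1 hy2 hgen hQ' ha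
  · intro hne
    obtain ⟨b, -, hb⟩ := hQ' _ (nodeRing_le_top h W E1 e₁ e₂ i x.2)
    refine AnnulusHart.ord_sub_eq_zero_of_cong hb (fun hba => hne ?_)
    rw [hba] at hb
    exact eq_of_cong_node hA hπ h W hW E1 E2 e₁ e₂ P₁ Z₁ P₂ Z₂ hE1 hdegE1 hgalE hS2 i k' x y u
      hu hxy hx1 hy1 hgen hQ hQ' ha hb

end Pkg

end Datum

end Fermat.Agent.TR.Node.AnnulusHartInst
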