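/-
TR, node side (helper45): **the vertical half of the local factorisation (LF) at a node.**

Setting = helper64's `TR/Node/Thickness.lean` (pure valuation-ring language): `F` a field, `p : F`;
`Oi, Oz` two discrete valuation subrings of `F` with uniformiser `p` (the components `C_∞`, `C_0`
of the special fibre); `R` a subring of `F` contained in both (the local ring of the model at a
node `s`), saturated: `g ∈ Oi`, `g ∈ Oz`, `p ^ n * g ∈ R` imply `g ∈ R`; `ρ : R → κ` with kernel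
`R ∩ 𝔪(Oi)` and values in a discrete valuation subring `Vs` of `κ` (reduction on the branch `C_∞`,
germs at `s`); locality in the form `¬ IsUnit g → ρ g ∈ 𝔪(Vs)` (`Thickness.rho_nonunit`).

Input = the OUTPUT of `Thickness.exists_thickness`: a node coordinate `x`, `y`, `u` with
`x * y = p ^ k * u`, `u` a unit of `R`, `ρ x` a uniformiser of `Vs`, `ord_z x = k`.

`GenUnit R p g` : `g ≠ 0`, `p ^ n * g ∈ R` and `p ^ n' * g⁻¹ ∈ R` for some `n, n'` (`g` is a unit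
of `R[1/p]`: no horizontal zero or pole of `g` passes through the node).

Results.
* `exists_factor` : every `GenUnit` is `x ^ c * p ^ A * υ` with `υ` a unit of `R` — the local class
  group at the node is exactly `ℤ/k`, generated by the component `C_0`;
* `ord_z_eq`, `dvd_ord_sub` : `ord_z g = ord_i g + c * k`, so `k ∣ ord_z g - ord_i g`;
* `ord_rho_mul` : for `g ∈ R` a `GenUnit` and a unit of `Oi` : `ord_s (ρ g) * k = ord_z g`
  (generalises `Thickness.ord_mul_eq` from the modular unit to every such `g`);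
* `exists_factor_pow` : the Kummer form — if `f / w ^ m` is a `GenUnit` then
  `f = w ^ m * x ^ c * p ^ A * υ`.
-/
import Mathlib
import Fermat.Agent.CAR.Formal.DiscVal
import Fermat.Agent.TR.Node.Thickness

set_option autoImplicit false

namespace Fermat.Agent.TR.Node.LocalFactor

open Fermat.Agent.CAR.Formal Fermat.Agent.TR.Node.Thickness

/-- `g` is a unit of `R[1/p]`. -/
def GenUnit {F : Type*} [Field F] (R : Subring F) (p : F) (g : F) : Prop :=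
  g ≠ 0 ∧ (∃ n : ℕ, p ^ n * g ∈ R) ∧ ∃ n : ℕ, p ^ n * g⁻¹ ∈ R

namespace GenUnit

variable {F : Type*} [Field F] {R : Subring F} {p : F}

theorem ne_zero {g : F} (h : GenUnit R p g) : g ≠ 0 := h.1

theorem inv {g : F} (h : GenUnit R p g) : GenUnit R p g⁻¹ :=
  ⟨inv_ne_zero h.1, h.2.2, by rw [inv_inv]; exact h.2.1⟩

theorem mul {g g' : F} (h : GenUnit R p g) (h' : GenUnit R p g') : GenUnit R p (g * g') := by
  obtain ⟨h0, ⟨n, hn⟩, ⟨m, hm⟩⟩ := h
  obtain ⟨h0', ⟨n', hn'⟩, ⟨m', hm'⟩⟩ := h'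
  refine ⟨mul_ne_zero h0 h0', ⟨n + n', ?_⟩, ⟨m + m', ?_⟩⟩
  · have e : p ^ (n + n') * (g * g') = (p ^ n * g) * (p ^ n' * g') := by rw [pow_add]; ring
    rw [e]; exact R.mul_mem hn hn'
  · have e : p ^ (m + m') * (g * g')⁻¹ = (p ^ m * g⁻¹) * (p ^ m' * g'⁻¹) := by
      rw [pow_add, mul_inv]; ring
    rw [e]; exact R.mul_mem hm hm'

theorem div {g g' : F} (h : GenUnit R p g) (h' : GenUnit R p g') : GenUnit R p (g / g') := by
  rw [div_eq_mul_inv]; exact h.mul h'.inv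

theorem one : GenUnit R p (1 : F) :=
  ⟨one_ne_zero, ⟨0, by simp⟩, ⟨0, by simp⟩⟩

theorem pow {g : F} (h : GenUnit R p g) (n : ℕ) : GenUnit R p (g ^ n) := by
  induction n with
  | zero => rw [pow_zero]; exact one
  | succ n ih => rw [pow_succ]; exact ih.mul h

theorem zpow {g : F} (h : GenUnit R p g) (n : ℤ) : GenUnit R p (g ^ n) := by
  obtain ⟨k, rfl | rfl⟩ := Int.eq_nat_or_neg n
  · rw [zpow_natCast]; exact h.pow k
  · rw [zpow_neg, zpow_natCast]; exact (h.pow k).inv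

/-- `p` itself, if it is a nonzero element of `R`. -/
theorem self (hp : p ∈ R) (hp0 : p ≠ 0) : GenUnit R p p :=
  ⟨hp0, ⟨0, by simp [hp]⟩, ⟨1, by rw [pow_one, mul_inv_cancel₀ hp0]; exact R.one_mem⟩⟩

/-- A unit of `R`. -/
theorem of_isUnit {υ : R} (h : IsUnit υ) : GenUnit R p (υ : F) := by
  obtain ⟨v, rfl⟩ := h
  have h1 : ((v : R) : F) * (((v⁻¹ : Rˣ) : R) : F) = 1 := by
    rw [← Subring.coe_mul, Units.mul_inv, Subring.coe_one]
  have h0 : ((v : R) : F) ≠ 0 := left_ne_zero_of_mul_eq_one h1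
  refine ⟨h0, ⟨0, by simp⟩, ⟨0, ?_⟩⟩
  rw [pow_zero, one_mul, ← eq_inv_of_mul_eq_one_right h1]
  exact ((v⁻¹ : Rˣ) : R).2

end GenUnit

section Node

variable {F κ : Type*} [Field F] [Field κ] {p : F} {Oi Oz : ValuationSubring F}
  (hOi : IsUnif Oi p) (hOz : IsUnif Oz p) {R : Subring F}
  (hRi : ∀ g ∈ R, g ∈ Oi) (hRz : ∀ g ∈ R, g ∈ Oz) (hp : p ∈ R)
  (hsat : ∀ g : F, g ∈ Oi → g ∈ Oz → (∃ n : ℕ, p ^ n * g ∈ R) → g ∈ R)
  {Vs : ValuationSubring κ} {t : κ} (hVs : IsUnif Vs t) (ρ : R →+* κ)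
  (hρV : ∀ g : R, ρ g ∈ Vs) (hρker : ∀ g : R, ρ g = 0 ↔ (g : F) ∈ Oi.nonunits)
  (hloc : ∀ g : R, ¬ IsUnit g → ρ g ∈ Vs.nonunits)
  {k : ℕ} {x y u : R} (hk : 0 < k) (hu : IsUnit u) (hxy : x * y = ⟨p, hp⟩ ^ k * u)
  (hρx : hVs.ord (ρ x) = 1) (hxord : hOz.ord (x : F) = k)

include hρx in
theorem rho_x_ne : ρ x ≠ 0 := by
  intro h
  rw [h, IsUnif.ord_zero] at hρx
  exact zero_ne_one hρx

include hρx hρker in
theorem x_not_nonunit : (x : F) ∉ Oi.nonunits := fun h =>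
  rho_x_ne hVs ρ hρx ((hρker x).2 h)

include hρx hρker in
theorem x_ne_zero : (x : F) ≠ 0 := by
  intro h
  apply x_not_nonunit hVs ρ hρker hρx
  rw [h]
  exact zero_nonunit

include hOi hRi hρx hρker in
/-- `x` is a unit of `Oi`. -/
theorem ord_i_x : hOi.ord (x : F) = 0 := by
  have h0 := x_ne_zero hVs ρ hρker hρx
  exact hOi.ord_unit (hRi _ x.2) (inv_mem_of_not_nonunit (x_not_nonunit hVs ρ hρker hρx)) h0

include hu hxy hρx hρker in
/-- The node coordinate is a unit of `R[1/p]`. -/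
theorem genUnit_x : GenUnit R p (x : F) := by
  have h0 := x_ne_zero hVs ρ hρker hρx
  obtain ⟨v, rfl⟩ := hu
  refine ⟨h0, ⟨0, by simp⟩, ⟨k, ?_⟩⟩
  have e : (x : F) * (y : F) = p ^ k * ((v : R) : F) := by
    have := congrArg (Subtype.val : R → F) hxy
    simpa using this
  have h1 : ((v : R) : F) * (((v⁻¹ : Rˣ) : R) : F) = 1 := by
    rw [← Subring.coe_mul, Units.mul_inv, Subring.coe_one]
  have e2 : p ^ k * (x : F)⁻¹ = (y : F) * (((v⁻¹ : Rˣ) : R) : F) := by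
    rw [eq_comm, ← div_eq_mul_inv, eq_div_iff h0]
    calc (y : F) * (((v⁻¹ : Rˣ) : R) : F) * (x : F)
        = ((x : F) * (y : F)) * (((v⁻¹ : Rˣ) : R) : F) := by ring
      _ = p ^ k * (((v : R) : F) * (((v⁻¹ : Rˣ) : R) : F)) := by rw [e]; ring
      _ = p ^ k := by rw [h1, mul_one]
  rw [e2]
  exact R.mul_mem y.2 ((v⁻¹ : Rˣ) : R).2

include hRi hRz in
/-- A unit of `R` is a unit of both valuation rings. -/
theorem ord_of_isUnit {υ : R} (h : IsUnit υ) :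
    hOi.ord (υ : F) = 0 ∧ hOz.ord (υ : F) = 0 := by
  obtain ⟨v, rfl⟩ := h
  have h1 : ((v : R) : F) * (((v⁻¹ : Rˣ) : R) : F) = 1 := by
    rw [← Subring.coe_mul, Units.mul_inv, Subring.coe_one]
  have h0 : ((v : R) : F) ≠ 0 := left_ne_zero_of_mul_eq_one h1
  have hinv : (((v : R) : F))⁻¹ = (((v⁻¹ : Rˣ) : R) : F) := (eq_inv_of_mul_eq_one_right h1).symm
  exact ⟨hOi.ord_unit (hRi _ (v : R).2) (by rw [hinv]; exact hRi _ ((v⁻¹ : Rˣ) : R).2) h0,
    hOz.ord_unit (hRz _ (v : R).2) (by rw [hinv]; exact hRz _ ((v⁻¹ : Rˣ) : R).2) h0⟩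

include hOi hOz hRi hRz hsat hρV hρker hloc hk hu hxy hρx hxord in
/-- **Vertical local factorisation.**  A unit `g` of `R[1/p]` is `x ^ c * p ^ A * υ` with `υ` a
unit of `R`. -/
theorem exists_factor {g : F} (hg : GenUnit R p g) :
    ∃ (c A : ℤ) (υ : R), IsUnit υ ∧ g = (x : F) ^ c * p ^ A * (υ : F) := by
  have hx0 := x_ne_zero hVs ρ hρker hρx
  have hp0 : p ≠ 0 := hOi.ne_zero
  have hgx := genUnit_x hp hVs ρ hρker hu hxy hρx
  have hgp : GenUnit R p p := GenUnit.self hp hp0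
  have hxi := ord_i_x hOi hRi hVs ρ hρker hρx
  have hk' : (0 : ℤ) < (k : ℤ) := by exact_mod_cast hk
  set A : ℤ := hOi.ord g with hA
  set b : ℤ := hOz.ord g - A with hb
  set q : ℤ := b / (k : ℤ) with hq
  set r : ℤ := b % (k : ℤ) with hr
  have hr0 : 0 ≤ r := Int.emod_nonneg _ hk'.ne'
  have hrk : r < k := Int.emod_lt_of_pos _ hk'
  have hbqr : b = (k : ℤ) * q + r := (Int.mul_ediv_add_emod b k).symm
  -- the element `g₂`
  set D : F := (x : F) ^ q * p ^ A with hD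
  have hD0 : D ≠ 0 := mul_ne_zero (zpow_ne_zero _ hx0) (zpow_ne_zero _ hp0)
  have hgD : GenUnit R p D := (hgx.zpow q).mul (hgp.zpow A)
  have hDi : hOi.ord D = A := by
    rw [hD, hOi.ord_mul (zpow_ne_zero _ hx0) (zpow_ne_zero _ hp0), hOi.ord_zpow, hOi.ord_zpow,
      hxi, hOi.ord_self]
    ring
  have hDz : hOz.ord D = q * k + A := by
    rw [hD, hOz.ord_mul (zpow_ne_zero _ hx0) (zpow_ne_zero _ hp0), hOz.ord_zpow, hOz.ord_zpow,
      hxord, hOz.ord_self]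
    ring
  set g₂ : F := g / D with hg₂
  have hg₂0 : g₂ ≠ 0 := div_ne_zero hg.1 hD0
  have hg₂U : GenUnit R p g₂ := hg.div hgD
  have hg₂i : hOi.ord g₂ = 0 := by
    rw [hg₂, hOi.ord_div hg.1 hD0, hDi, ← hA]; ring
  have hg₂z : hOz.ord g₂ = r := by
    rw [hg₂, hOz.ord_div hg.1 hD0, hDz]
    have : hOz.ord g = b + A := by rw [hb]; ring
    rw [this, hbqr]; ring
  have hg₂R : g₂ ∈ R :=
    hsat _ ((hOi.ord_nonneg_iff hg₂0).1 (by rw [hg₂i]))
      ((hOz.ord_nonneg_iff hg₂0).1 (by rw [hg₂z]; exact hr0)) hg₂U.2.1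
  -- the element `h = x / g₂`
  set h : F := (x : F) / g₂ with hh
  have hh0 : h ≠ 0 := div_ne_zero hx0 hg₂0
  have hhU : GenUnit R p h := hgx.div hg₂U
  have hhi : hOi.ord h = 0 := by rw [hh, hOi.ord_div hx0 hg₂0, hxi, hg₂i]; ring
  have hhz : hOz.ord h = k - r := by rw [hh, hOz.ord_div hx0 hg₂0, hxord, hg₂z]
  have hhR : h ∈ R :=
    hsat _ ((hOi.ord_nonneg_iff hh0).1 (by rw [hhi]))
      ((hOz.ord_nonneg_iff hh0).1 (by rw [hhz]; omega)) hhU.2.1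
  have hmul : (⟨g₂, hg₂R⟩ : R) * ⟨h, hhR⟩ = x := by
    apply Subtype.ext
    rw [Subring.coe_mul]
    show g₂ * h = (x : F)
    rw [hh, mul_div_cancel₀ _ hg₂0]
  have hρmul : ρ ⟨g₂, hg₂R⟩ * ρ ⟨h, hhR⟩ = ρ x := by rw [← map_mul, hmul]
  have hρg₂0 : ρ ⟨g₂, hg₂R⟩ ≠ 0 := by
    intro h0
    have h1 := (hρker _).1 h0
    have h2 := (hOi.ord_pos_iff hg₂0).2 h1
    rw [hg₂i] at h2
    exact lt_irrefl _ h2
  have hρh0 : ρ ⟨h, hhR⟩ ≠ 0 := by
    intro h0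
    have h1 := (hρker _).1 h0
    have h2 := (hOi.ord_pos_iff hh0).2 h1
    rw [hhi] at h2
    exact lt_irrefl _ h2
  have hsum : hVs.ord (ρ ⟨g₂, hg₂R⟩) + hVs.ord (ρ ⟨h, hhR⟩) = 1 := by
    rw [← hVs.ord_mul hρg₂0 hρh0, hρmul, hρx]
  have hn1 : 0 ≤ hVs.ord (ρ ⟨g₂, hg₂R⟩) := (hVs.ord_nonneg_iff hρg₂0).2 (hρV _)
  have hn2 : 0 ≤ hVs.ord (ρ ⟨h, hhR⟩) := (hVs.ord_nonneg_iff hρh0).2 (hρV _)
  -- `h` is not a unit of `R`
  have hhnot : ¬ IsUnit (⟨h, hhR⟩ : R) := by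
    intro hun
    have := (ord_of_isUnit hOi hOz hRi hRz hun).2
    rw [show (((⟨h, hhR⟩ : R) : F)) = h from rfl, hhz] at this
    omega
  have hhpos : 0 < hVs.ord (ρ ⟨h, hhR⟩) := (hVs.ord_pos_iff hρh0).2 (hloc _ hhnot)
  have hg₂ord : hVs.ord (ρ ⟨g₂, hg₂R⟩) = 0 := by omega
  have hg₂unit : IsUnit (⟨g₂, hg₂R⟩ : R) := by
    by_contra hnot
    have := (hVs.ord_pos_iff hρg₂0).2 (hloc _ hnot)
    omega
  refine ⟨q, A, ⟨g₂, hg₂R⟩, hg₂unit, ?_⟩
  show g = (x : F) ^ q * p ^ A * g₂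
  rw [hg₂, ← hD, mul_div_cancel₀ _ hD0]

include hOi hOz hRi hRz hρker hρx hxord in
/-- In a factorisation `g = x ^ c * p ^ A * υ` the exponents are determined by the two orders. -/
theorem ord_of_factor {g : F} {c A : ℤ} {υ : R} (hυ : IsUnit υ)
    (hg : g = (x : F) ^ c * p ^ A * (υ : F)) :
    hOi.ord g = A ∧ hOz.ord g = A + c * k := by
  have hx0 := x_ne_zero hVs ρ hρker hρx
  have hp0 : p ≠ 0 := hOi.ne_zero
  have hxi := ord_i_x hOi hRi hVs ρ hρker hρx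
  obtain ⟨hυi, hυz⟩ := ord_of_isUnit hOi hOz hRi hRz hυ
  have hυ0 : (υ : F) ≠ 0 := (GenUnit.of_isUnit (p := p) hυ).1
  have h1 : (x : F) ^ c * p ^ A ≠ 0 := mul_ne_zero (zpow_ne_zero _ hx0) (zpow_ne_zero _ hp0)
  constructor
  · rw [hg, hOi.ord_mul h1 hυ0, hOi.ord_mul (zpow_ne_zero _ hx0) (zpow_ne_zero _ hp0),
      hOi.ord_zpow, hOi.ord_zpow, hxi, hOi.ord_self, hυi]
    ring
  · rw [hg, hOz.ord_mul h1 hυ0, hOz.ord_mul (zpow_ne_zero _ hx0) (zpow_ne_zero _ hp0),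
      hOz.ord_zpow, hOz.ord_zpow, hxord, hOz.ord_self, hυz]
    ring

include hOi hOz hRi hRz hsat hρV hρker hloc hk hu hxy hρx hxord in
/-- **The local class group is exactly `ℤ/k`.**  For a unit `g` of `R[1/p]`, the thickness `k`
divides `ord_z g - ord_i g`. -/
theorem dvd_ord_sub {g : F} (hg : GenUnit R p g) : (k : ℤ) ∣ hOz.ord g - hOi.ord g := by
  obtain ⟨c, A, υ, hυ, he⟩ :=
    exists_factor hOi hOz hRi hRz hp hsat hVs ρ hρV hρker hloc hk hu hxy hρx hxord hg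
  obtain ⟨h1, h2⟩ := ord_of_factor hOi hOz hRi hRz hVs ρ hρker hρx hxord hυ he
  exact ⟨c, by rw [h1, h2]; ring⟩

include hOi hOz hRi hRz hsat hρV hρker hloc hk hu hxy hρx hxord in
/-- For `g ∈ R` a unit of `R[1/p]` and of `Oi` : `ord_s (ρ g) * k = ord_z g`. -/
theorem ord_rho_mul {g : R} (hg : GenUnit R p (g : F)) (hgi : (g : F) ∉ Oi.nonunits) :
    hVs.ord (ρ g) * k = hOz.ord (g : F) := by
  obtain ⟨c, A, υ, hυ, he⟩ :=
    exists_factor hOi hOz hRi hRz hp hsat hVs ρ hρV hρker hloc hk hu hxy hρx hxord hg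
  obtain ⟨h1, h2⟩ := ord_of_factor hOi hOz hRi hRz hVs ρ hρker hρx hxord hυ he
  have hx0 := x_ne_zero hVs ρ hρker hρx
  have hk' : (0 : ℤ) < (k : ℤ) := by exact_mod_cast hk
  -- `A = 0`
  have hA : A = 0 := by
    rw [← h1]
    exact hOi.ord_unit (hRi _ g.2) (inv_mem_of_not_nonunit hgi) hg.1
  -- `c ≥ 0`
  have hc : 0 ≤ c := by
    have h3 : 0 ≤ hOz.ord (g : F) := (hOz.ord_nonneg_iff hg.1).2 (hRz _ g.2)
    rw [h2, hA, zero_add] at h3
    by_contra hneg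
    push Not at hneg
    have : c * (k : ℤ) < 0 := mul_neg_of_neg_of_pos hneg hk'
    omega
  obtain ⟨n, rfl⟩ := Int.eq_ofNat_of_zero_le hc
  rw [hA, zpow_zero, mul_one, zpow_natCast] at he
  have he' : g = x ^ n * υ := Subtype.ext (by rw [he]; simp)
  obtain ⟨v, rfl⟩ := hυ
  have hρv : ρ (v : R) * ρ ((v⁻¹ : Rˣ) : R) = 1 := by rw [← map_mul, Units.mul_inv, map_one]
  have hρv0 : ρ (v : R) ≠ 0 := left_ne_zero_of_mul_eq_one hρv
  have hρvord : hVs.ord (ρ (v : R)) = 0 :=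
    hVs.ord_unit (hρV _) (by rw [← eq_inv_of_mul_eq_one_right hρv]; exact hρV _) hρv0
  rw [h2, hA, zero_add, he', map_mul, map_pow,
    hVs.ord_mul (pow_ne_zero _ (rho_x_ne hVs ρ hρx)) hρv0, hVs.ord_pow, hρx, hρvord]
  ring

include hOi hOz hRi hRz hsat hρV hρker hloc hk hu hxy hρx hxord in
/-- **Kummer form of the local factorisation.**  If `f / w ^ m` has no horizontal zero or pole
through the node (`w` collects the horizontal part of `f` there), then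
`f = w ^ m * x ^ c * p ^ A * υ` with `υ` a unit of `R`. -/
theorem exists_factor_pow {f w : F} (m : ℕ) (hw : w ≠ 0) (hf : GenUnit R p (f / w ^ m)) :
    ∃ (c A : ℤ) (υ : R), IsUnit υ ∧ f = w ^ m * (x : F) ^ c * p ^ A * (υ : F) := by
  obtain ⟨c, A, υ, hυ, he⟩ :=
    exists_factor hOi hOz hRi hRz hp hsat hVs ρ hρV hρker hloc hk hu hxy hρx hxord hf
  refine ⟨c, A, υ, hυ, ?_⟩
  rw [div_eq_iff (pow_ne_zero _ hw)] at he
  rw [he]; ring

end Node

end Fermat.Agent.TR.Node.LocalFactor
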