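import Mathlib
import Fermat.Agent.CAR.Formal.DiscVal
import Fermat.Agent.TR.Node.Thickness
import Fermat.Agent.TR.Node.LocalFactor

/-!
# TR (PL-D), abstract algebra: the action of a wild inertia element at a node

Setting (Thickness vocabulary over the ramified base): `F` a field (functions rational over
`K''`), `ϖ : F` (a uniformiser of `K''`), `σ : F →+* F` (an inertia element acting on
coefficients), `η : F` with `σ ϖ = ϖ * (1 + η)`, `η ∈ ϖ ^ t O`, `t ≥ 1`, and for a discrete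
valuation subring `O` of `F` with uniformiser `ϖ` the congruence

  (σ-cong)  `σ g ≡ g  mod ϖ ^ (t + 1) O`  for every `g ∈ O`.

* `Cg O ϖ m a b` : `a ≡ b mod ϖ ^ m O`, with its calculus;
* `sigma_div` : **`σ g / g ≡ 1 + ord_O g * η  mod ϖ ^ (t + 1) O`** for every `g ≠ 0`
  (so for `h = σ N / N`: `h ≡ 1` where `N` is a unit, `h ≡ 1 + η * ord N` in general — no
  Newton polygon needed);
* `glue_congr` : **the node-local lemma (PL-D).**  At a node (binders of `LocalFactor`), let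
  `Ψ, g ≠ 0` with `Ψ * g / σ g` a unit of `R[1/ϖ]` (`div Ψ = σ D - D` near the node, `g` cutting
  out `D` there), `Ψ ≡ Ai` at `Oi` and `Ψ ≡ Az` at `Oz` modulo `ϖ ^ (t + 1)` with `Ai, Az`
  constants, units of `Oi` and `Oz`.  Then `Ψ * g / σ g` is a unit of `R` (`unit_of_twist`), and
  by coefficientwise gluing (`hglue`)
  `Ai * (1 - ord_i g * η) ≡ Az * (1 - ord_z g * η)  mod ϖ ^ (t + 1)`;
* `congr_shift` : the same as `Ai ≡ Az * (1 - (ord_z g - ord_i g) * η)`;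
* `dvd_sub_of_two` : for two nodes, `p ∣ (ord_z g - ord_i g) - (ord_z g' - ord_i g')` if `η` has
  exact order `t` and `p` is the residue characteristic: the position class `c_s mod p` does not
  depend on the node.
-/

set_option autoImplicit false

namespace Fermat.Agent.TR.Node.SigmaGlue

open Fermat.Agent.CAR.Formal Fermat.Agent.TR.Node.Thickness Fermat.Agent.TR.Node.LocalFactor

/-! ### Congruences modulo `ϖ ^ m O` -/

section Cg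

variable {F : Type*} [Field F]

/-- `a ≡ b` modulo `ϖ ^ m O`. -/
def Cg (O : ValuationSubring F) (ϖ : F) (m : ℕ) (a b : F) : Prop :=
  ∃ r ∈ O, a - b = ϖ ^ m * r

variable {O : ValuationSubring F} {ϖ : F} {m : ℕ}

theorem Cg.refl (a : F) : Cg O ϖ m a a := ⟨0, O.zero_mem, by ring⟩

theorem Cg.symm {a b : F} (h : Cg O ϖ m a b) : Cg O ϖ m b a := by
  obtain ⟨r, hr, e⟩ := h
  exact ⟨-r, O.neg_mem _ hr, by rw [mul_neg, ← e]; ring⟩

theorem Cg.trans {a b c : F} (h : Cg O ϖ m a b) (h' : Cg O ϖ m b c) : Cg O ϖ m a c := by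
  obtain ⟨r, hr, e⟩ := h
  obtain ⟨r', hr', e'⟩ := h'
  exact ⟨r + r', O.add_mem _ _ hr hr', by rw [mul_add, ← e, ← e']; ring⟩

theorem Cg.add {a b c d : F} (h : Cg O ϖ m a b) (h' : Cg O ϖ m c d) :
    Cg O ϖ m (a + c) (b + d) := by
  obtain ⟨r, hr, e⟩ := h
  obtain ⟨r', hr', e'⟩ := h'
  exact ⟨r + r', O.add_mem _ _ hr hr', by rw [mul_add, ← e, ← e']; ring⟩

theorem Cg.sub {a b c d : F} (h : Cg O ϖ m a b) (h' : Cg O ϖ m c d) :
    Cg O ϖ m (a - c) (b - d) := by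
  obtain ⟨r, hr, e⟩ := h
  obtain ⟨r', hr', e'⟩ := h'
  exact ⟨r - r', sub_mem hr hr', by rw [mul_sub, ← e, ← e']; ring⟩

theorem Cg.mul_left {a b : F} (h : Cg O ϖ m a b) {c : F} (hc : c ∈ O) :
    Cg O ϖ m (c * a) (c * b) := by
  obtain ⟨r, hr, e⟩ := h
  exact ⟨c * r, O.mul_mem _ _ hc hr, by rw [← mul_sub, e]; ring⟩

theorem Cg.mul_right {a b : F} (h : Cg O ϖ m a b) {c : F} (hc : c ∈ O) :
    Cg O ϖ m (a * c) (b * c) := by
  rw [mul_comm a c, mul_comm b c]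
  exact h.mul_left hc

/-- Products: `a ≡ b`, `c ≡ d` with `b, c ∈ O` give `a c ≡ b d`. -/
theorem Cg.mul {a b c d : F} (h : Cg O ϖ m a b) (h' : Cg O ϖ m c d) (hb : b ∈ O) (hc : c ∈ O) :
    Cg O ϖ m (a * c) (b * d) :=
  (h.mul_right hc).trans (h'.mul_left hb)

/-- An element of `ϖ ^ m O`. -/
theorem Cg.of_eq {a b r : F} (hr : r ∈ O) (e : a - b = ϖ ^ m * r) : Cg O ϖ m a b := ⟨r, hr, e⟩

/-- Lowering the modulus. -/
theorem Cg.mono {a b : F} (hϖ : ϖ ∈ O) {m' : ℕ} (hm : m' ≤ m) (h : Cg O ϖ m a b) :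
    Cg O ϖ m' a b := by
  obtain ⟨r, hr, e⟩ := h
  refine ⟨ϖ ^ (m - m') * r, O.mul_mem _ _ (pow_mem hϖ _) hr, ?_⟩
  rw [e, ← mul_assoc, ← pow_add, Nat.add_sub_cancel' hm]

/-- Membership is preserved by congruence (`ϖ ∈ O`). -/
theorem Cg.mem {a b : F} (hϖ : ϖ ∈ O) (h : Cg O ϖ m a b) (hb : b ∈ O) : a ∈ O := by
  obtain ⟨r, hr, e⟩ := h
  have : a = b + ϖ ^ m * r := by rw [← e]; ring
  rw [this]
  exact O.add_mem _ _ hb (O.mul_mem _ _ (pow_mem hϖ _) hr)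

/-- `ϖ ^ m r` is a non-unit (`m ≥ 1`, `ϖ` a non-unit). -/
theorem pow_mul_nonunit (hϖ : ϖ ∈ O.nonunits) (hm : 1 ≤ m) {r : F} (hr : r ∈ O) :
    ϖ ^ m * r ∈ O.nonunits := by
  obtain ⟨n, rfl⟩ : ∃ n, m = n + 1 := ⟨m - 1, by omega⟩
  rw [pow_succ', mul_assoc]
  exact nonunit_mul hϖ (O.mul_mem _ _ (pow_mem (mem_of_nonunit hϖ) _) hr)

/-- An element congruent to a unit modulo a positive power of a non-unit is not a non-unit. -/
theorem Cg.not_nonunit {a b : F} (hϖ : ϖ ∈ O.nonunits) (hm : 1 ≤ m) (h : Cg O ϖ m a b)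
    (hb : b ∉ O.nonunits) : a ∉ O.nonunits := by
  obtain ⟨r, hr, e⟩ := h
  intro ha
  apply hb
  have : b = a - ϖ ^ m * r := by rw [← e]; ring
  rw [this]
  exact nonunit_sub ha (pow_mul_nonunit hϖ hm hr)

/-- Inverses of congruent units are congruent. -/
theorem Cg.inv {a b : F} (h : Cg O ϖ m a b) (ha : a ≠ 0) (hb : b ≠ 0) (ha' : a⁻¹ ∈ O)
    (hb' : b⁻¹ ∈ O) : Cg O ϖ m a⁻¹ b⁻¹ := by
  obtain ⟨r, hr, e⟩ := h
  refine ⟨-(a⁻¹ * b⁻¹ * r), O.neg_mem _ (O.mul_mem _ _ (O.mul_mem _ _ ha' hb') hr), ?_⟩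
  have : a⁻¹ - b⁻¹ = -(a⁻¹ * b⁻¹ * (a - b)) := by field_simp; ring
  rw [this, e]
  ring

end Cg

/-! ### `σ g / g ≡ 1 + ord g * η` -/

section Sigma

variable {F : Type*} [Field F] {O : ValuationSubring F} {ϖ η : F} {t : ℕ} (σ : F →+* F)

/-- `η ^ 2 ∈ ϖ ^ (t + 1) O` if `η ∈ ϖ ^ t O`, `t ≥ 1`. -/
theorem eta_sq (hϖ : ϖ ∈ O) (hηt : ∃ r ∈ O, η = ϖ ^ t * r) (ht : 1 ≤ t) :
    ∃ r ∈ O, η ^ 2 = ϖ ^ (t + 1) * r := by
  obtain ⟨r, hr, rfl⟩ := hηt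
  refine ⟨ϖ ^ (t - 1) * r ^ 2, O.mul_mem _ _ (pow_mem hϖ _) (pow_mem hr 2), ?_⟩
  have e : t + 1 + (t - 1) = t * 2 := by omega
  rw [← mul_assoc, ← pow_add, e, mul_pow, pow_mul]

/-- `η` is a non-unit. -/
theorem eta_nonunit (hϖ : ϖ ∈ O.nonunits) (hηt : ∃ r ∈ O, η = ϖ ^ t * r) (ht : 1 ≤ t) :
    η ∈ O.nonunits := by
  obtain ⟨r, hr, rfl⟩ := hηt
  exact pow_mul_nonunit hϖ ht hr

/-- `1 + c` is not a non-unit for a non-unit `c`. -/
theorem one_add_not_nonunit {c : F} (hc : c ∈ O.nonunits) : (1 + c) ∉ O.nonunits := by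
  intro h
  have h1 : (1 : F) ∈ O.nonunits := by
    have : (1 : F) = (1 + c) - c := by ring
    rw [this]
    exact nonunit_sub h hc
  rw [ValuationSubring.mem_nonunits_iff, map_one] at h1
  exact lt_irrefl _ h1

/-- `(1 + η) ^ n ≡ 1 + n η` modulo `ϖ ^ (t + 1) O`, for every integer `n`. -/
theorem one_add_zpow (hϖ : ϖ ∈ O.nonunits) (hηt : ∃ r ∈ O, η = ϖ ^ t * r) (ht : 1 ≤ t)
    (n : ℤ) : Cg O ϖ (t + 1) ((1 + η) ^ n) (1 + (n : F) * η) := by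
  have hϖ' : ϖ ∈ O := mem_of_nonunit hϖ
  have hη : η ∈ O.nonunits := eta_nonunit hϖ hηt ht
  have hηO : η ∈ O := mem_of_nonunit hη
  have h1 : (1 + η) ∈ O := O.add_mem _ _ O.one_mem hηO
  have h1n : (1 + η) ∉ O.nonunits := one_add_not_nonunit hη
  have h10 : (1 + η) ≠ 0 := fun h0 => h1n (h0 ▸ zero_nonunit)
  have h1' : (1 + η)⁻¹ ∈ O := inv_mem_of_not_nonunit h1n
  obtain ⟨s, hs, hsq⟩ := eta_sq hϖ' hηt ht
  have hint : ∀ z : ℤ, (z : F) ∈ O := fun z => intCast_mem O z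
  induction n using Int.induction_on with
  | zero => simp only [zpow_zero, Int.cast_zero, zero_mul, add_zero]; exact Cg.refl _
  | succ n ih =>
    obtain ⟨r, hr, e⟩ := ih
    refine ⟨(1 + η) * r + (n : F) * s, O.add_mem _ _ (O.mul_mem _ _ h1 hr)
      (O.mul_mem _ _ (natCast_mem O n) hs), ?_⟩
    have e1 : (1 + η) ^ ((n : ℤ) + 1) = (1 + η) ^ (n : ℤ) * (1 + η) := zpow_add_one₀ h10 _
    have e2 : (1 + η) ^ (n : ℤ) = 1 + ((n : ℤ) : F) * η + ϖ ^ (t + 1) * r := by rw [← e]; ring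
    rw [e1, e2]
    push_cast
    have : (1 + (n : F) * η + ϖ ^ (t + 1) * r) * (1 + η) - (1 + ((n : F) + 1) * η) =
        ϖ ^ (t + 1) * ((1 + η) * r) + (n : F) * η ^ 2 := by ring
    rw [this, hsq]
    ring
  | pred n ih =>
    obtain ⟨r, hr, e⟩ := ih
    refine ⟨(1 + η)⁻¹ * (r - ((-(n : ℤ) - 1 : ℤ) : F) * s), O.mul_mem _ _ h1'
      (sub_mem hr (O.mul_mem _ _ (hint _) hs)), ?_⟩
    have e1 : (1 + η) ^ (-(n : ℤ) - 1) = (1 + η) ^ (-(n : ℤ)) * (1 + η)⁻¹ := zpow_sub_one₀ h10 _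
    have e2 : (1 + η) ^ (-(n : ℤ)) = 1 + ((-(n : ℤ) : ℤ) : F) * η + ϖ ^ (t + 1) * r := by
      rw [← e]; ring
    rw [e1, e2]
    push_cast
    have : (1 + -(n : F) * η + ϖ ^ (t + 1) * r) * (1 + η)⁻¹ - (1 + (-(n : F) - 1) * η) =
        (1 + η)⁻¹ * (ϖ ^ (t + 1) * r - (-(n : F) - 1) * η ^ 2) := by
      field_simp
      ring
    rw [this, hsq]
    ring

include σ in
/-- **The action of `σ` on a function, modulo `ϖ ^ (t + 1)`** (explicit form): for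
`g = ϖ ^ n * u`, `u` a unit of `O`, `σ g / g ≡ 1 + n η`. -/
theorem sigma_div_of_eq (hϖ : ϖ ∈ O.nonunits) (hϖ0 : ϖ ≠ 0)
    (hσ : ∀ g ∈ O, Cg O ϖ (t + 1) (σ g) g) (hη : σ ϖ = ϖ * (1 + η))
    (hηt : ∃ r ∈ O, η = ϖ ^ t * r) (ht : 1 ≤ t) {g u : F} {n : ℤ} (hu : u ∈ O)
    (hu' : u⁻¹ ∈ O) (hu0 : u ≠ 0) (hg : g = ϖ ^ n * u) :
    Cg O ϖ (t + 1) (σ g / g) (1 + (n : F) * η) := by
  have hϖ' : ϖ ∈ O := mem_of_nonunit hϖ
  have hηn : η ∈ O.nonunits := eta_nonunit hϖ hηt ht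
  have h1n : (1 + η) ∉ O.nonunits := one_add_not_nonunit hηn
  have h10 : (1 + η) ≠ 0 := fun h0 => h1n (h0 ▸ zero_nonunit)
  have h1 : (1 + η) ∈ O := O.add_mem _ _ O.one_mem (mem_of_nonunit hηn)
  -- `σ u / u ≡ 1`
  have hσu : Cg O ϖ (t + 1) (σ u / u) 1 := by
    obtain ⟨r, hr, e⟩ := hσ u hu
    refine ⟨r * u⁻¹, O.mul_mem _ _ hr hu', ?_⟩
    have : σ u / u - 1 = (σ u - u) * u⁻¹ := by field_simp
    rw [this, e]
    ring
  -- `σ g / g = (1 + η) ^ n * (σ u / u)`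
  have e1 : σ g / g = (1 + η) ^ n * (σ u / u) := by
    rw [hg, map_mul, map_zpow₀, hη, mul_zpow]
    field_simp
  rw [e1]
  have h2 := one_add_zpow hϖ hηt ht n
  have h3 : (1 + (n : F) * η) ∈ O :=
    O.add_mem _ _ O.one_mem (O.mul_mem _ _ (intCast_mem O n) (mem_of_nonunit hηn))
  have h4 : σ u / u ∈ O := hσu.mem hϖ' O.one_mem
  have h5 := h2.mul hσu h3 h4
  rwa [mul_one] at h5

include σ in
/-- **The action of `σ` on a function, modulo `ϖ ^ (t + 1)`**: `σ g / g ≡ 1 + ord g * η`. -/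
theorem sigma_div (hO : IsUnif O ϖ) (hσ : ∀ g ∈ O, Cg O ϖ (t + 1) (σ g) g)
    (hη : σ ϖ = ϖ * (1 + η)) (hηt : ∃ r ∈ O, η = ϖ ^ t * r) (ht : 1 ≤ t) {g : F}
    (hg : g ≠ 0) : Cg O ϖ (t + 1) (σ g / g) (1 + (hO.ord g : F) * η) := by
  obtain ⟨u, hu, hu', hu0, e⟩ := hO.exists_unit_eq hg
  exact sigma_div_of_eq σ hO.mem_nonunits hO.ne_zero hσ hη hηt ht hu hu' hu0 e

end Sigma

/-! ### Small facts on units of a valuation subring -/

section Units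

variable {F : Type*} [Field F] {O : ValuationSubring F}

/-- A product of two elements which are not non-units is not a non-unit. -/
theorem mul_not_nonunit {a b : F} (ha : a ∉ O.nonunits) (hb : b ∉ O.nonunits) :
    a * b ∉ O.nonunits := by
  intro h
  have hb0 : b ≠ 0 := fun h0 => hb (h0 ▸ zero_nonunit)
  apply ha
  have : a = a * b * b⁻¹ := by field_simp
  rw [this]
  exact nonunit_mul h (inv_mem_of_not_nonunit hb)

/-- `1 - n η` is a unit for a non-unit `η`. -/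
theorem one_sub_int_mul {η : F} (hη : η ∈ O.nonunits) (n : ℤ) :
    (1 - (n : F) * η) ∈ O ∧ (1 - (n : F) * η) ∉ O.nonunits := by
  have h1 : (n : F) * η ∈ O.nonunits := mem_mul_nonunit (intCast_mem O n) hη
  refine ⟨sub_mem O.one_mem (mem_of_nonunit h1), ?_⟩
  rw [sub_eq_add_neg]
  exact one_add_not_nonunit (nonunit_neg h1)

/-- `(1 + n η)⁻¹ ≡ 1 - n η` modulo `ϖ ^ (t + 1) O`. -/
theorem inv_one_add_int_mul {ϖ η : F} {t : ℕ} (hϖ : ϖ ∈ O.nonunits)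
    (hηt : ∃ r ∈ O, η = ϖ ^ t * r) (ht : 1 ≤ t) (n : ℤ) :
    Cg O ϖ (t + 1) (1 + (n : F) * η)⁻¹ (1 - (n : F) * η) := by
  have hη : η ∈ O.nonunits := eta_nonunit hϖ hηt ht
  have h1 : (n : F) * η ∈ O.nonunits := mem_mul_nonunit (intCast_mem O n) hη
  have h2 : (1 + (n : F) * η) ∉ O.nonunits := one_add_not_nonunit h1
  have h20 : (1 + (n : F) * η) ≠ 0 := fun h0 => h2 (h0 ▸ zero_nonunit)
  have h2' : (1 + (n : F) * η)⁻¹ ∈ O := inv_mem_of_not_nonunit h2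
  obtain ⟨s, hs, hsq⟩ := eta_sq (mem_of_nonunit hϖ) hηt ht
  refine ⟨(1 + (n : F) * η)⁻¹ * ((n : F) ^ 2 * s),
    O.mul_mem _ _ h2' (O.mul_mem _ _ (pow_mem (intCast_mem O n) 2) hs), ?_⟩
  have : (1 + (n : F) * η)⁻¹ - (1 - (n : F) * η) = (1 + (n : F) * η)⁻¹ * ((n : F) ^ 2 * η ^ 2) := by
    field_simp
    ring
  rw [this, hsq]
  ring

end Units

/-! ### The node-local lemma -/

section Node

variable {F κ : Type*} [Field F] [Field κ] {p : F} {Oi Oz : ValuationSubring F}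
  (hOi : IsUnif Oi p) (hOz : IsUnif Oz p) {R : Subring F}
  (hRi : ∀ g ∈ R, g ∈ Oi) (hRz : ∀ g ∈ R, g ∈ Oz) (hp : p ∈ R)
  (hsat : ∀ g : F, g ∈ Oi → g ∈ Oz → (∃ n : ℕ, p ^ n * g ∈ R) → g ∈ R)
  {Vs : ValuationSubring κ} {t₀ : κ} (hVs : IsUnif Vs t₀) (ρ : R →+* κ)
  (hρV : ∀ g : R, ρ g ∈ Vs) (hρker : ∀ g : R, ρ g = 0 ↔ (g : F) ∈ Oi.nonunits)
  (hloc : ∀ g : R, ¬ IsUnit g → ρ g ∈ Vs.nonunits)
  {k : ℕ} {x y u : R} (hk : 0 < k) (hu : IsUnit u) (hxy : x * y = ⟨p, hp⟩ ^ k * u)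
  (hρx : hVs.ord (ρ x) = 1) (hxord : hOz.ord (x : F) = k)
  (σ : F →+* F) {t : ℕ} {η : F} (ht : 1 ≤ t)
  (hσi : ∀ g ∈ Oi, Cg Oi p (t + 1) (σ g) g) (hσz : ∀ g ∈ Oz, Cg Oz p (t + 1) (σ g) g)
  (hη : σ p = p * (1 + η)) (hηi : ∃ r ∈ Oi, η = p ^ t * r) (hηz : ∃ r ∈ Oz, η = p ^ t * r)

include hOi hOz hRi hRz hsat hρV hρker hloc hk hu hxy hρx hxord ht hσi hσz hη hηi hηz in
/-- **The twisted quotient is a unit of the node ring, with known reductions.**  If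
`Ψ * g / σ g` is a unit of `R[1/p]`, `Ψ ≡ Ai` at `Oi` and `Ψ ≡ Az` at `Oz` modulo `p ^ (t + 1)`
with `Ai`, `Az` units of `Oi`, `Oz`, then `Y = Ψ * g / σ g` is a unit of `R`,
`Y ≡ Ai * (1 - ord_i g * η)` at `Oi` and `Y ≡ Az * (1 - ord_z g * η)` at `Oz`. -/
theorem unit_of_twist {Ψ g Ai Az : F} (hg : g ≠ 0) (hY : GenUnit R p (Ψ * g / σ g))
    (hAii : Ai ∈ Oi) (hAin : Ai ∉ Oi.nonunits) (hAzz : Az ∈ Oz) (hAzn : Az ∉ Oz.nonunits)
    (hΨi : Cg Oi p (t + 1) Ψ Ai) (hΨz : Cg Oz p (t + 1) Ψ Az) :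
    (∃ υ : R, IsUnit υ ∧ (υ : F) = Ψ * g / σ g) ∧
      Cg Oi p (t + 1) (Ψ * g / σ g) (Ai * (1 - (hOi.ord g : F) * η)) ∧
      Cg Oz p (t + 1) (Ψ * g / σ g) (Az * (1 - (hOz.ord g : F) * η)) := by
  have hσg : σ g ≠ 0 := (map_ne_zero σ).2 hg
  have hq0 : σ g / g ≠ 0 := div_ne_zero hσg hg
  have hYeq : Ψ * g / σ g = Ψ * (σ g / g)⁻¹ := by rw [inv_div, mul_div_assoc]
  -- one valuation ring at a time
  have key : ∀ (O : ValuationSubring F) (hO : IsUnif O p), (∀ g ∈ O, Cg O p (t + 1) (σ g) g) →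
      (∃ r ∈ O, η = p ^ t * r) → ∀ A : F, A ∈ O → A ∉ O.nonunits → Cg O p (t + 1) Ψ A →
      Cg O p (t + 1) (Ψ * g / σ g) (A * (1 - (hO.ord g : F) * η)) ∧
        (Ψ * g / σ g) ∈ O ∧ (Ψ * g / σ g) ∉ O.nonunits := by
    intro O hO hσO hηO A hA hAn hΨ
    have hpn : p ∈ O.nonunits := hO.mem_nonunits
    have hηn : η ∈ O.nonunits := eta_nonunit hpn hηO ht
    have h1 := sigma_div σ hO hσO hη hηO ht hg
    have he : (1 + (hO.ord g : F) * η) ∉ O.nonunits :=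
      one_add_not_nonunit (mem_mul_nonunit (intCast_mem O _) hηn)
    have he0 : (1 + (hO.ord g : F) * η) ≠ 0 := fun h0 => he (h0 ▸ zero_nonunit)
    have heO : (1 + (hO.ord g : F) * η) ∈ O :=
      O.add_mem _ _ O.one_mem (O.mul_mem _ _ (intCast_mem O _) (mem_of_nonunit hηn))
    have hqn : σ g / g ∉ O.nonunits := h1.not_nonunit hpn (Nat.succ_le_succ (Nat.zero_le t)) he
    have h2 : Cg O p (t + 1) (σ g / g)⁻¹ (1 - (hO.ord g : F) * η) :=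
      (h1.inv hq0 he0 (inv_mem_of_not_nonunit hqn) (inv_mem_of_not_nonunit he)).trans
        (inv_one_add_int_mul hpn hηO ht _)
    have h3 : Cg O p (t + 1) (Ψ * g / σ g) (A * (1 - (hO.ord g : F) * η)) := by
      rw [hYeq]
      exact hΨ.mul h2 hA (inv_mem_of_not_nonunit hqn)
    obtain ⟨h4, h5⟩ := one_sub_int_mul hηn (hO.ord g)
    exact ⟨h3, h3.mem (mem_of_nonunit hpn) (O.mul_mem _ _ hA h4),
      h3.not_nonunit hpn (Nat.succ_le_succ (Nat.zero_le t)) (mul_not_nonunit hAn h5)⟩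
  obtain ⟨hci, hYi, hYin⟩ := key Oi hOi hσi hηi Ai hAii hAin hΨi
  obtain ⟨hcz, hYz, hYzn⟩ := key Oz hOz hσz hηz Az hAzz hAzn hΨz
  refine ⟨?_, hci, hcz⟩
  -- the factorisation of `Y`
  obtain ⟨c, A, υ, hυ, he⟩ :=
    exists_factor hOi hOz hRi hRz hp hsat hVs ρ hρV hρker hloc hk hu hxy hρx hxord hY
  obtain ⟨h1, h2⟩ := ord_of_factor hOi hOz hRi hRz hVs ρ hρker hρx hxord hυ he
  have hY0 : Ψ * g / σ g ≠ 0 := hY.1
  have hoi : hOi.ord (Ψ * g / σ g) = 0 := hOi.ord_unit hYi (inv_mem_of_not_nonunit hYin) hY0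
  have hoz : hOz.ord (Ψ * g / σ g) = 0 := hOz.ord_unit hYz (inv_mem_of_not_nonunit hYzn) hY0
  have hA : A = 0 := by rw [← h1, hoi]
  have hc : c = 0 := by
    have h3 : c * (k : ℤ) = 0 := by rw [hoz, hA, zero_add] at h2; exact h2.symm
    rcases mul_eq_zero.1 h3 with h4 | h4
    · exact h4
    · exact absurd (by exact_mod_cast h4 : k = 0) hk.ne'
  refine ⟨υ, hυ, ?_⟩
  rw [he, hA, hc, zpow_zero, zpow_zero, one_mul, one_mul]

include hOi hOz hRi hRz hsat hρV hρker hloc hk hu hxy hρx hxord ht hσi hσz hη hηi hηz in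
/-- **The node-local lemma (PL-D).**  With the coefficientwise gluing `hglue` of the node ring
(two constants which are the reductions modulo `p ^ (t + 1)` of one element of `R` on the two
branches are congruent): `Ai * (1 - ord_i g * η) ≡ Az * (1 - ord_z g * η)`. -/
theorem glue_congr (C : Subring F) (hηC : η ∈ C)
    (hglue : ∀ Y ∈ R, ∀ a ∈ C, ∀ b ∈ C, Cg Oi p (t + 1) Y a → Cg Oz p (t + 1) Y b →
      Cg Oi p (t + 1) a b)
    {Ψ g Ai Az : F} (hg : g ≠ 0) (hY : GenUnit R p (Ψ * g / σ g)) (hAi : Ai ∈ C) (hAz : Az ∈ C)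
    (hAii : Ai ∈ Oi) (hAin : Ai ∉ Oi.nonunits) (hAzz : Az ∈ Oz) (hAzn : Az ∉ Oz.nonunits)
    (hΨi : Cg Oi p (t + 1) Ψ Ai) (hΨz : Cg Oz p (t + 1) Ψ Az) :
    Cg Oi p (t + 1) (Ai * (1 - (hOi.ord g : F) * η)) (Az * (1 - (hOz.ord g : F) * η)) := by
  obtain ⟨⟨υ, -, hυ⟩, hci, hcz⟩ :=
    unit_of_twist hOi hOz hRi hRz hp hsat hVs ρ hρV hρker hloc hk hu hxy hρx hxord σ ht hσi hσz
      hη hηi hηz hg hY hAii hAin hAzz hAzn hΨi hΨz
  have hYR : Ψ * g / σ g ∈ R := hυ ▸ υ.2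
  exact hglue _ hYR _ (C.mul_mem hAi (C.sub_mem C.one_mem (C.mul_mem (intCast_mem C _) hηC)))
    _ (C.mul_mem hAz (C.sub_mem C.one_mem (C.mul_mem (intCast_mem C _) hηC))) hci hcz

end Node

/-! ### Two nodes: the position class modulo the residue characteristic -/

section Two

variable {F : Type*} [Field F] {O : ValuationSubring F} {ϖ η Ai Az : F} {t : ℕ}

/-- `Ai * (1 - a η) ≡ Az * (1 - b η)` is `Ai ≡ Az * (1 - (b - a) η)` modulo `ϖ ^ (t + 1)`. -/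
theorem congr_shift (hϖ : ϖ ∈ O.nonunits) (ht : 1 ≤ t) (hηt : ∃ r ∈ O, η = ϖ ^ t * r)
    (hAi : Ai ∈ O) (hAz : Az ∈ O) {a b : ℤ}
    (h : Cg O ϖ (t + 1) (Ai * (1 - (a : F) * η)) (Az * (1 - (b : F) * η))) :
    Cg O ϖ (t + 1) Ai (Az * (1 - ((b - a : ℤ) : F) * η)) := by
  have hϖ' : ϖ ∈ O := mem_of_nonunit hϖ
  have hηO : η ∈ O := mem_of_nonunit (eta_nonunit hϖ hηt ht)
  have hint : ∀ z : ℤ, (z : F) ∈ O := fun z => intCast_mem O z
  obtain ⟨s, hs, hsq⟩ := eta_sq hϖ' hηt ht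
  obtain ⟨r, hr, e⟩ := h
  refine ⟨(1 + (a : F) * η) * r + Ai * (a : F) ^ 2 * s - Az * ((a : F) * (b : F)) * s, ?_, ?_⟩
  · exact sub_mem (O.add_mem _ _ (O.mul_mem _ _ (O.add_mem _ _ O.one_mem
      (O.mul_mem _ _ (hint a) hηO)) hr) (O.mul_mem _ _ (O.mul_mem _ _ hAi (pow_mem (hint a) 2)) hs))
      (O.mul_mem _ _ (O.mul_mem _ _ hAz (O.mul_mem _ _ (hint a) (hint b))) hs)
  · have e1 : Ai - Az * (1 - ((b - a : ℤ) : F) * η) =
        (1 + (a : F) * η) * (Ai * (1 - (a : F) * η) - Az * (1 - (b : F) * η)) +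
          Ai * (a : F) ^ 2 * η ^ 2 - Az * ((a : F) * (b : F)) * η ^ 2 := by
      push_cast; ring
    rw [e1, e, hsq]
    ring

/-- An integer prime to the residue characteristic is a unit. -/
theorem int_not_nonunit {q : ℕ} (hq : q.Prime) (hqO : (q : F) ∈ O.nonunits) {m : ℤ}
    (hm : ¬ (q : ℤ) ∣ m) : (m : F) ∉ O.nonunits := by
  intro h
  have hcop : IsCoprime m (q : ℤ) :=
    ((Nat.prime_iff_prime_int.1 hq).coprime_iff_not_dvd.2 hm).symm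
  obtain ⟨a, b, hab⟩ := hcop
  have h1 : (1 : F) ∈ O.nonunits := by
    have e : (1 : F) = (a : F) * (m : F) + (b : F) * ((q : ℕ) : F) := by
      have := congrArg (fun z : ℤ => (z : F)) hab
      simp only [Int.cast_add, Int.cast_mul, Int.cast_one, Int.cast_natCast] at this
      exact this.symm
    rw [e]
    exact nonunit_add (mem_mul_nonunit (intCast_mem O a) h) (mem_mul_nonunit (intCast_mem O b) hqO)
  rw [ValuationSubring.mem_nonunits_iff, map_one] at h1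
  exact lt_irrefl _ h1

/-- **Independence of the node.**  Two congruences `Ai * (1 - a η) ≡ Az * (1 - b η)` and
`Ai * (1 - a' η) ≡ Az * (1 - b' η)` modulo `ϖ ^ (t + 1)`, with `η` of exact order `t ≥ 1` and
`Az` a unit, force `q ∣ (b - a) - (b' - a')` for the residue characteristic `q`. -/
theorem dvd_sub_of_two (hϖ : ϖ ∈ O.nonunits) (hϖ0 : ϖ ≠ 0) (ht : 1 ≤ t)
    (hηw : ∃ w, w ∈ O ∧ w ∉ O.nonunits ∧ η = ϖ ^ t * w) (hAi : Ai ∈ O) (hAz : Az ∈ O)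
    (hAzn : Az ∉ O.nonunits) {a b a' b' : ℤ}
    (h : Cg O ϖ (t + 1) (Ai * (1 - (a : F) * η)) (Az * (1 - (b : F) * η)))
    (h' : Cg O ϖ (t + 1) (Ai * (1 - (a' : F) * η)) (Az * (1 - (b' : F) * η)))
    {q : ℕ} (hq : q.Prime) (hqO : (q : F) ∈ O.nonunits) :
    (q : ℤ) ∣ (b - a) - (b' - a') := by
  by_contra hnd
  obtain ⟨w, hw, hwn, rfl⟩ := hηw
  obtain ⟨r₁, hr₁, e₁⟩ := h
  obtain ⟨r₂, hr₂, e₂⟩ := h'
  have hϖ' : ϖ ∈ O := mem_of_nonunit hϖ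
  have hint : ∀ z : ℤ, (z : F) ∈ O := fun z => intCast_mem O z
  -- `Ai = Az + ϖ s`
  obtain ⟨n, rfl⟩ : ∃ n, t = n + 1 := ⟨t - 1, by omega⟩
  set s : F := ϖ ^ n * w * ((a : F) * Ai - (b : F) * Az) + ϖ ^ (n + 1) * r₁ with hs
  have hsO : s ∈ O :=
    O.add_mem _ _ (O.mul_mem _ _ (O.mul_mem _ _ (pow_mem hϖ' _) hw)
      (sub_mem (O.mul_mem _ _ (hint a) hAi) (O.mul_mem _ _ (hint b) hAz)))
      (O.mul_mem _ _ (pow_mem hϖ' _) hr₁)
  have hA : Ai = Az + ϖ * s := by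
    have : Ai - Az = ϖ * s := by
      have e₁' : Ai - Az = ((a : F) * Ai - (b : F) * Az) * (ϖ ^ (n + 1) * w) +
          ϖ ^ (n + 1 + 1) * r₁ := by rw [← e₁]; ring
      rw [e₁', hs]
      ring
    rw [← this]; ring
  -- the key identity
  set m : ℤ := (b - a) - (b' - a') with hm
  have key : Az * w * (m : F) = ϖ * (r₁ - r₂ - s * ((a' : F) - (a : F)) * w) := by
    have e₃ : Ai * (((a' : F) - (a : F)) * (ϖ ^ (n + 1) * w)) -
        Az * (((b' : F) - (b : F)) * (ϖ ^ (n + 1) * w)) = ϖ ^ (n + 1 + 1) * (r₁ - r₂) := by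
      rw [mul_sub, ← e₁, ← e₂]; ring
    have hpow : ϖ ^ (n + 1) ≠ 0 := pow_ne_zero _ hϖ0
    apply mul_left_cancel₀ hpow
    rw [hA] at e₃
    have : ϖ ^ (n + 1) * (Az * w * (m : F)) =
        (Az + ϖ * s) * (((a' : F) - (a : F)) * (ϖ ^ (n + 1) * w)) -
          Az * (((b' : F) - (b : F)) * (ϖ ^ (n + 1) * w)) -
          ϖ ^ (n + 1) * (ϖ * s * ((a' : F) - (a : F)) * w) := by
      rw [hm]; push_cast; ring
    rw [this, e₃]
    ring
  have h1 : Az * w * (m : F) ∈ O.nonunits := by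
    rw [key]
    exact nonunit_mul hϖ (sub_mem (sub_mem hr₁ hr₂)
      (O.mul_mem _ _ (O.mul_mem _ _ hsO (sub_mem (hint a') (hint a))) hw))
  exact mul_not_nonunit (mul_not_nonunit hAzn hwn) (int_not_nonunit hq hqO hnd) h1

end Two

end Fermat.Agent.TR.Node.SigmaGlue
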