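import Mathlib
import Fermat.Agent.TR.Node.SigmaGlue

/-!
# TR (PL), the `u`-route: the node-local lemma for `u = σ f / f` at depth `q * t + 1`

Setting of `TR/Node/SigmaGlue.lean`: `σ ϖ = ϖ * (1 + η)`, `η ∈ ϖ ^ t O`, `t ≥ 1`, and
`σ g ≡ g mod ϖ ^ (t + 1) O` on `O`.  Let `q` be a prime (the residue characteristic) with

  (hqϖ)  `q * ϖ ^ t ∈ ϖ ^ (q * t + 1) O`     (`e + t ≥ q t + 1`; true for `e = q (q - 1)`, `t ≤ q - 1`).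

Then the `q`-th power of the `σ`-quotient of ANY function is a constant to the higher depth:

* `pow_congr` : `a ≡ b mod ϖ ^ (t + 1)` implies `a ^ q ≡ b ^ q mod ϖ ^ (q t + 1)`;
* `sigma_div_pow` : **`(σ g / g) ^ q ≡ 1 + ord g * η ^ q  mod ϖ ^ (q t + 1) O`**;
* `sigma_div_pow_inv` : `(g / σ g) ^ q ≡ 1 - ord g * η ^ q`.

So for a Kummer function `f` (`div f = q D`) the function `u = σ f / f` can be used directly, in
place of a `q`-th root `Ψ` of it: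

* `unit_of_twist_pow`, `glue_congr_pow` : if `Ψ * (g / σ g) ^ q` is a unit of `R[1/p]`
  (`Ψ = σ f / f`, `g` cutting out `D` near the node) and `Ψ ≡ Ai`, `Ψ ≡ Az` modulo
  `p ^ (q t + 1)` on the two branches, then
  `Ai * (1 - ord_i g * η ^ q) ≡ Az * (1 - ord_z g * η ^ q)  mod p ^ (q t + 1)`;
* `genUnit_twist` : `Ψ * (g / σ g) ^ q = σ (f / g ^ q) / (f / g ^ q)` is a unit of `R[1/p]` as
  soon as `f / g ^ q` is one and `σ` preserves `R`;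
* `glue_congr_u` : the two combined, hypotheses in the shape of `Newton.newton_wild`;
* `dvd_sub_of_two_pow` : for two nodes, `q ∣ (ord_z g - ord_i g) - (ord_z g' - ord_i g')`.
-/

set_option autoImplicit false

namespace Fermat.Agent.TR.Node.SigmaGluePow

open Fermat.Agent.CAR.Formal Fermat.Agent.TR.Node.Thickness Fermat.Agent.TR.Node.LocalFactor
  Fermat.Agent.TR.Node.SigmaGlue

/-! ### `q`-th powers of congruences -/

section Pow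

variable {F : Type*} [Field F] {O : ValuationSubring F} {ϖ η : F} {t q : ℕ}

/-- The binomial formula for a prime exponent, inside a valuation subring. -/
theorem exists_add_pow_eq (hq : q.Prime) {x y : F} (hx : x ∈ O) (hy : y ∈ O) :
    ∃ r ∈ O, (x + y) ^ q = x ^ q + y ^ q + (q : F) * x * y * r := by
  obtain ⟨r, hr⟩ := exists_add_pow_prime_eq hq (⟨x, hx⟩ : O) ⟨y, hy⟩
  refine ⟨(r : F), r.2, ?_⟩
  have h := congrArg (fun z : O => (z : F)) hr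
  simpa using h

/-- `η ^ q ∈ ϖ ^ (q t) O`. -/
theorem eta_pow (hηt : ∃ r ∈ O, η = ϖ ^ t * r) : ∃ r ∈ O, η ^ q = ϖ ^ (q * t) * r := by
  obtain ⟨r, hr, rfl⟩ := hηt
  exact ⟨r ^ q, pow_mem hr q, by rw [mul_pow, ← pow_mul, mul_comm t q]⟩

/-- A power of an element which is not a non-unit is not a non-unit. -/
theorem pow_not_nonunit {w : F} (hw : w ∉ O.nonunits) (n : ℕ) : w ^ n ∉ O.nonunits := by
  induction n with
  | zero =>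
    rw [pow_zero]
    intro h1
    rw [ValuationSubring.mem_nonunits_iff, map_one] at h1
    exact lt_irrefl _ h1
  | succ n ih => rw [pow_succ]; exact mul_not_nonunit ih hw

/-- **`q`-th powers gain depth**: `a ≡ b mod ϖ ^ (t + 1)` implies
`a ^ q ≡ b ^ q mod ϖ ^ (q t + 1)`, provided `q ϖ ^ t ∈ ϖ ^ (q t + 1) O`. -/
theorem pow_congr (hq : q.Prime) (hϖ : ϖ ∈ O)
    (hqϖ : ∃ r ∈ O, (q : F) * ϖ ^ t = ϖ ^ (q * t + 1) * r) {a b : F} (hb : b ∈ O)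
    (h : Cg O ϖ (t + 1) a b) : Cg O ϖ (q * t + 1) (a ^ q) (b ^ q) := by
  obtain ⟨r₁, hr₁, e₁⟩ := h
  obtain ⟨r₀, hr₀, e₀⟩ := hqϖ
  have hd : ϖ ^ (t + 1) * r₁ ∈ O := O.mul_mem _ _ (pow_mem hϖ _) hr₁
  obtain ⟨r₂, hr₂, e₂⟩ := exists_add_pow_eq hq hb hd
  have ha : a = b + ϖ ^ (t + 1) * r₁ := by rw [← e₁]; ring
  refine ⟨ϖ ^ (q - 1) * r₁ ^ q + ϖ * r₀ * b * r₁ * r₂, ?_, ?_⟩
  · exact O.add_mem _ _ (O.mul_mem _ _ (pow_mem hϖ _) (pow_mem hr₁ _))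
      (O.mul_mem _ _ (O.mul_mem _ _ (O.mul_mem _ _ (O.mul_mem _ _ hϖ hr₀) hb) hr₁) hr₂)
  · rw [ha, e₂]
    have hexp : (t + 1) * q = q * t + 1 + (q - 1) := by
      have := hq.pos
      rw [add_mul, one_mul, mul_comm t q]
      omega
    have e3 : (ϖ ^ (t + 1) * r₁) ^ q = ϖ ^ (q * t + 1) * (ϖ ^ (q - 1) * r₁ ^ q) := by
      rw [mul_pow, ← pow_mul, hexp, pow_add]
      ring
    have e4 : (q : F) * b * (ϖ ^ (t + 1) * r₁) * r₂ =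
        ϖ ^ (q * t + 1) * (ϖ * r₀ * b * r₁ * r₂) := by
      have : (q : F) * b * (ϖ ^ (t + 1) * r₁) * r₂ = ((q : F) * ϖ ^ t) * (ϖ * b * r₁ * r₂) := by
        rw [pow_succ]; ring
      rw [this, e₀]; ring
    rw [e3, e4]; ring

/-- `(1 + m η) ^ q ≡ 1 + m ^ q η ^ q` modulo `ϖ ^ (q t + 1)`. -/
theorem one_add_mul_pow (hq : q.Prime) (hϖ : ϖ ∈ O) (hηt : ∃ r ∈ O, η = ϖ ^ t * r)
    (hqϖ : ∃ r ∈ O, (q : F) * ϖ ^ t = ϖ ^ (q * t + 1) * r) {m : F} (hm : m ∈ O) :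
    Cg O ϖ (q * t + 1) ((1 + m * η) ^ q) (1 + m ^ q * η ^ q) := by
  obtain ⟨w, hw, rfl⟩ := hηt
  obtain ⟨r₀, hr₀, e₀⟩ := hqϖ
  have hc : m * (ϖ ^ t * w) ∈ O := O.mul_mem _ _ hm (O.mul_mem _ _ (pow_mem hϖ _) hw)
  obtain ⟨r₂, hr₂, e₂⟩ := exists_add_pow_eq hq O.one_mem hc
  refine ⟨r₀ * m * w * r₂, O.mul_mem _ _ (O.mul_mem _ _ (O.mul_mem _ _ hr₀ hm) hw) hr₂, ?_⟩
  rw [e₂, one_pow, mul_pow]
  have : (q : F) * 1 * (m * (ϖ ^ t * w)) * r₂ = ((q : F) * ϖ ^ t) * (m * w * r₂) := by ring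
  rw [this, e₀]; ring

/-- `(1 + n η) ^ q ≡ 1 + n η ^ q` modulo `ϖ ^ (q t + 1)`, for an integer `n`. -/
theorem one_add_int_mul_pow (hq : q.Prime) (hϖ : ϖ ∈ O) (hηt : ∃ r ∈ O, η = ϖ ^ t * r)
    (hqϖ : ∃ r ∈ O, (q : F) * ϖ ^ t = ϖ ^ (q * t + 1) * r) (n : ℤ) :
    Cg O ϖ (q * t + 1) ((1 + (n : F) * η) ^ q) (1 + (n : F) * η ^ q) := by
  refine (one_add_mul_pow hq hϖ hηt hqϖ (intCast_mem O n)).trans ?_
  have : Fact q.Prime := ⟨hq⟩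
  obtain ⟨m, hm⟩ : (q : ℤ) ∣ n ^ q - n := by
    rw [← ZMod.intCast_zmod_eq_zero_iff_dvd]
    push_cast
    rw [ZMod.pow_card, sub_self]
  obtain ⟨w, hw, rfl⟩ := hηt
  obtain ⟨r₀, hr₀, e₀⟩ := hqϖ
  have hϖw : ϖ ^ t * w ∈ O := O.mul_mem _ _ (pow_mem hϖ _) hw
  refine ⟨r₀ * m * w * (ϖ ^ t * w) ^ (q - 1),
    O.mul_mem _ _ (O.mul_mem _ _ (O.mul_mem _ _ hr₀ (intCast_mem O m)) hw) (pow_mem hϖw _), ?_⟩
  have e1 : (n : F) ^ q - n = (q : F) * m := by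
    have := congrArg (fun z : ℤ => (z : F)) hm
    simpa using this
  have e2 : (ϖ ^ t * w) ^ q = (ϖ ^ t * w) * (ϖ ^ t * w) ^ (q - 1) := by
    rw [← pow_succ']
    congr 1
    have := hq.pos
    omega
  have e3 : 1 + (n : F) ^ q * (ϖ ^ t * w) ^ q - (1 + (n : F) * (ϖ ^ t * w) ^ q) =
      ((n : F) ^ q - n) * (ϖ ^ t * w) ^ q := by ring
  rw [e3, e1, e2]
  have e4 : (q : F) * m * (ϖ ^ t * w * (ϖ ^ t * w) ^ (q - 1)) =
      ((q : F) * ϖ ^ t) * (m * w * (ϖ ^ t * w) ^ (q - 1)) := by ring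
  rw [e4, e₀]; ring

variable (σ : F →+* F)

include σ in
/-- **The `q`-th power of the `σ`-quotient, modulo `ϖ ^ (q t + 1)`** (explicit form): for
`g = ϖ ^ n * u`, `u` a unit of `O`, `(σ g / g) ^ q ≡ 1 + n η ^ q`. -/
theorem sigma_div_pow_of_eq (hq : q.Prime) (hϖ : ϖ ∈ O.nonunits) (hϖ0 : ϖ ≠ 0)
    (hσ : ∀ g ∈ O, Cg O ϖ (t + 1) (σ g) g) (hη : σ ϖ = ϖ * (1 + η))
    (hηt : ∃ r ∈ O, η = ϖ ^ t * r) (ht : 1 ≤ t)
    (hqϖ : ∃ r ∈ O, (q : F) * ϖ ^ t = ϖ ^ (q * t + 1) * r)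
    {g u : F} {n : ℤ} (hu : u ∈ O) (hu' : u⁻¹ ∈ O) (hu0 : u ≠ 0) (hg : g = ϖ ^ n * u) :
    Cg O ϖ (q * t + 1) ((σ g / g) ^ q) (1 + (n : F) * η ^ q) := by
  have hϖ' : ϖ ∈ O := mem_of_nonunit hϖ
  have hηO : η ∈ O := mem_of_nonunit (eta_nonunit hϖ hηt ht)
  have h1 := sigma_div_of_eq σ hϖ hϖ0 hσ hη hηt ht hu hu' hu0 hg
  have h2 : (1 + (n : F) * η) ∈ O :=
    O.add_mem _ _ O.one_mem (O.mul_mem _ _ (intCast_mem O n) hηO)
  exact (pow_congr hq hϖ' hqϖ h2 h1).trans (one_add_int_mul_pow hq hϖ' hηt hqϖ n)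

include σ in
/-- **The `q`-th power of the `σ`-quotient, modulo `ϖ ^ (q t + 1)`**:
`(σ g / g) ^ q ≡ 1 + ord g * η ^ q`. -/
theorem sigma_div_pow (hq : q.Prime) (hO : IsUnif O ϖ) (hσ : ∀ g ∈ O, Cg O ϖ (t + 1) (σ g) g)
    (hη : σ ϖ = ϖ * (1 + η)) (hηt : ∃ r ∈ O, η = ϖ ^ t * r) (ht : 1 ≤ t)
    (hqϖ : ∃ r ∈ O, (q : F) * ϖ ^ t = ϖ ^ (q * t + 1) * r) {g : F} (hg : g ≠ 0) :
    Cg O ϖ (q * t + 1) ((σ g / g) ^ q) (1 + (hO.ord g : F) * η ^ q) := by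
  obtain ⟨u, hu, hu', hu0, e⟩ := hO.exists_unit_eq hg
  exact sigma_div_pow_of_eq σ hq hO.mem_nonunits hO.ne_zero hσ hη hηt ht hqϖ hu hu' hu0 e

include σ in
/-- The inverse form: `(g / σ g) ^ q ≡ 1 - ord g * η ^ q` modulo `ϖ ^ (q t + 1)`; both sides are
units of `O`. -/
theorem sigma_div_pow_inv (hq : q.Prime) (hO : IsUnif O ϖ)
    (hσ : ∀ g ∈ O, Cg O ϖ (t + 1) (σ g) g)
    (hη : σ ϖ = ϖ * (1 + η)) (hηt : ∃ r ∈ O, η = ϖ ^ t * r) (ht : 1 ≤ t)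
    (hqϖ : ∃ r ∈ O, (q : F) * ϖ ^ t = ϖ ^ (q * t + 1) * r) {g : F} (hg : g ≠ 0) :
    Cg O ϖ (q * t + 1) ((g / σ g) ^ q) (1 - (hO.ord g : F) * η ^ q) ∧
      (g / σ g) ^ q ∈ O ∧ (g / σ g) ^ q ∉ O.nonunits := by
  have hϖ : ϖ ∈ O.nonunits := hO.mem_nonunits
  have hϖ' : ϖ ∈ O := mem_of_nonunit hϖ
  have hqt : 1 ≤ q * t := Nat.one_le_iff_ne_zero.2 (Nat.mul_ne_zero hq.pos.ne' (by omega))
  have hηq : ∃ r ∈ O, η ^ q = ϖ ^ (q * t) * r := eta_pow hηt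
  have hηqn : η ^ q ∈ O.nonunits := eta_nonunit hϖ hηq hqt
  have h1 := sigma_div_pow σ hq hO hσ hη hηt ht hqϖ hg
  have hσg : σ g ≠ 0 := (map_ne_zero σ).2 hg
  have ha0 : (σ g / g) ^ q ≠ 0 := pow_ne_zero _ (div_ne_zero hσg hg)
  have hb : (1 + (hO.ord g : F) * η ^ q) ∉ O.nonunits :=
    one_add_not_nonunit (mem_mul_nonunit (intCast_mem O _) hηqn)
  have hb0 : (1 + (hO.ord g : F) * η ^ q) ≠ 0 := fun h0 => hb (h0 ▸ zero_nonunit)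
  have han : (σ g / g) ^ q ∉ O.nonunits := h1.not_nonunit hϖ (Nat.succ_le_succ (Nat.zero_le _)) hb
  have e : (g / σ g) ^ q = ((σ g / g) ^ q)⁻¹ := by rw [← inv_pow, inv_div]
  have h2 : Cg O ϖ (q * t + 1) ((g / σ g) ^ q) (1 - (hO.ord g : F) * η ^ q) := by
    rw [e]
    exact (h1.inv ha0 hb0 (inv_mem_of_not_nonunit han) (inv_mem_of_not_nonunit hb)).trans
      (inv_one_add_int_mul hϖ hηq hqt _)
  obtain ⟨h4, h5⟩ := one_sub_int_mul hηqn (hO.ord g)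
  exact ⟨h2, h2.mem hϖ' h4, h2.not_nonunit hϖ (Nat.succ_le_succ (Nat.zero_le _)) h5⟩

end Pow

/-! ### Units of `R[1/p]` under `σ` -/

section GenUnit

variable {F : Type*} [Field F] {R : Subring F} {p : F}

/-- `σ` preserves the units of `R[1/p]`, if it preserves `R` and `σ p = p * c` with `c⁻¹ ∈ R`. -/
theorem genUnit_map (σ : F →+* F) (hσR : ∀ r ∈ R, σ r ∈ R) {c : F} (hσp : σ p = p * c)
    (hc' : c⁻¹ ∈ R) (hp0 : p ≠ 0) {g : F} (h : GenUnit R p g) :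
    GenUnit R p (σ g) := by
  have hc0 : c ≠ 0 := by
    intro h0
    have : σ p = 0 := by rw [hσp, h0, mul_zero]
    exact hp0 ((map_eq_zero σ).1 this)
  have key : ∀ {a : F} {n : ℕ}, p ^ n * a ∈ R → p ^ n * σ a ∈ R := by
    intro a n ha
    have h1 := hσR _ ha
    rw [map_mul, map_pow, hσp, mul_pow] at h1
    have e : p ^ n * σ a = (c⁻¹) ^ n * (p ^ n * c ^ n * σ a) := by
      rw [inv_pow]
      field_simp
    rw [e]
    exact R.mul_mem (pow_mem hc' n) h1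
  obtain ⟨h0, ⟨n, hn⟩, ⟨m, hm⟩⟩ := h
  refine ⟨(map_ne_zero σ).2 h0, ⟨n, key hn⟩, ⟨m, ?_⟩⟩
  rw [← map_inv₀]
  exact key hm

/-- **The twisted quotient of a Kummer function is a unit of `R[1/p]`**: if `f / g ^ q` has no
horizontal zero or pole through the node, neither has
`(σ f / f) * (g / σ g) ^ q = σ (f / g ^ q) / (f / g ^ q)`. -/
theorem genUnit_twist (σ : F →+* F) (hσR : ∀ r ∈ R, σ r ∈ R) {c : F} (hσp : σ p = p * c)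
    (hc' : c⁻¹ ∈ R) (hp0 : p ≠ 0) {f g : F} (q : ℕ)
    (h : GenUnit R p (f / g ^ q)) : GenUnit R p ((σ f / f) * (g / σ g) ^ q) := by
  have h0 := h.1
  have hf0 : f ≠ 0 := fun h' => h0 (by rw [h', zero_div])
  have hG0 : g ^ q ≠ 0 := fun h' => h0 (by rw [h', div_zero])
  have hσf : σ f ≠ 0 := (map_ne_zero σ).2 hf0
  have hσG : σ (g ^ q) ≠ 0 := (map_ne_zero σ).2 hG0
  have e : (σ f / f) * (g / σ g) ^ q = σ (f / g ^ q) / (f / g ^ q) := by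
    rw [map_div₀, div_pow, ← map_pow]
    field_simp
  rw [e]
  exact (genUnit_map σ hσR hσp hc' hp0 h).div h

end GenUnit

/-! ### The node-local lemma at depth `q * t + 1` -/

section Node

variable {F κ : Type*} [Field F] [Field κ] {p : F} {Oi Oz : ValuationSubring F}
  (hOi : IsUnif Oi p) (hOz : IsUnif Oz p) {R : Subring F}
  (hRi : ∀ g ∈ R, g ∈ Oi) (hRz : ∀ g ∈ R, g ∈ Oz) (hp : p ∈ R)
  (hsat : ∀ g : F, g ∈ Oi → g ∈ Oz → (∃ n : ℕ, p ^ n * g ∈ R) → g ∈ R)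
  {Vs : ValuationSubring κ} {t₀ : κ} (hVs : IsUnif Vs t₀) (ρ : R →+* κ)
  (hρV : ∀ g : R, ρ g ∈ Vs) (hρker : ∀ g : R, ρ g = 0 ↔ (g : F) ∈ Oi.nonunits)
  (hloc : ∀ g : R, ¬ IsUnit g → ρ g ∈ Vs.nonunits)
  {k : ℕ} {x y u : R} (hk : 0 < k) (hu : IsUnit u) (hxy : x * y = ⟨p, hp⟩ ^ k * u)
  (hρx : hVs.ord (ρ x) = 1) (hxord : hOz.ord (x : F) = k)
  (σ : F →+* F) {t q : ℕ} {η : F} (ht : 1 ≤ t) (hq : q.Prime)
  (hσi : ∀ g ∈ Oi, Cg Oi p (t + 1) (σ g) g) (hσz : ∀ g ∈ Oz, Cg Oz p (t + 1) (σ g) g)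
  (hη : σ p = p * (1 + η)) (hηi : ∃ r ∈ Oi, η = p ^ t * r) (hηz : ∃ r ∈ Oz, η = p ^ t * r)
  (hqi : ∃ r ∈ Oi, (q : F) * p ^ t = p ^ (q * t + 1) * r)
  (hqz : ∃ r ∈ Oz, (q : F) * p ^ t = p ^ (q * t + 1) * r)

include hOi hOz hRi hRz hsat hρV hρker hloc hk hu hxy hρx hxord ht hq hσi hσz hη hηi hηz hqi
  hqz in
/-- **The twisted quotient is a unit of the node ring, with known reductions** (depth
`q t + 1`).  If `Ψ * (g / σ g) ^ q` is a unit of `R[1/p]`, `Ψ ≡ Ai` at `Oi` and `Ψ ≡ Az` at `Oz`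
modulo `p ^ (q t + 1)` with `Ai`, `Az` units of `Oi`, `Oz`, then `Y = Ψ * (g / σ g) ^ q` is a
unit of `R`, `Y ≡ Ai * (1 - ord_i g * η ^ q)` at `Oi` and `Y ≡ Az * (1 - ord_z g * η ^ q)` at
`Oz`. -/
theorem unit_of_twist_pow {Ψ g Ai Az : F} (hg : g ≠ 0) (hY : GenUnit R p (Ψ * (g / σ g) ^ q))
    (hAii : Ai ∈ Oi) (hAin : Ai ∉ Oi.nonunits) (hAzz : Az ∈ Oz) (hAzn : Az ∉ Oz.nonunits)
    (hΨi : Cg Oi p (q * t + 1) Ψ Ai) (hΨz : Cg Oz p (q * t + 1) Ψ Az) :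
    (∃ υ : R, IsUnit υ ∧ (υ : F) = Ψ * (g / σ g) ^ q) ∧
      Cg Oi p (q * t + 1) (Ψ * (g / σ g) ^ q) (Ai * (1 - (hOi.ord g : F) * η ^ q)) ∧
      Cg Oz p (q * t + 1) (Ψ * (g / σ g) ^ q) (Az * (1 - (hOz.ord g : F) * η ^ q)) := by
  have hqt : 1 ≤ q * t := Nat.one_le_iff_ne_zero.2 (Nat.mul_ne_zero hq.pos.ne' (by omega))
  -- one valuation ring at a time
  have key : ∀ (O : ValuationSubring F) (hO : IsUnif O p), (∀ g ∈ O, Cg O p (t + 1) (σ g) g) →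
      (∃ r ∈ O, η = p ^ t * r) → (∃ r ∈ O, (q : F) * p ^ t = p ^ (q * t + 1) * r) →
      ∀ A : F, A ∈ O → A ∉ O.nonunits → Cg O p (q * t + 1) Ψ A →
      Cg O p (q * t + 1) (Ψ * (g / σ g) ^ q) (A * (1 - (hO.ord g : F) * η ^ q)) ∧
        (Ψ * (g / σ g) ^ q) ∈ O ∧ (Ψ * (g / σ g) ^ q) ∉ O.nonunits := by
    intro O hO hσO hηO hqO A hA hAn hΨ
    have hpn : p ∈ O.nonunits := hO.mem_nonunits
    have hηqn : η ^ q ∈ O.nonunits := eta_nonunit hpn (eta_pow hηO) hqt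
    obtain ⟨h2, h2m, -⟩ := sigma_div_pow_inv σ hq hO hσO hη hηO ht hqO hg
    have h3 : Cg O p (q * t + 1) (Ψ * (g / σ g) ^ q) (A * (1 - (hO.ord g : F) * η ^ q)) :=
      hΨ.mul h2 hA h2m
    obtain ⟨h4, h5⟩ := one_sub_int_mul hηqn (hO.ord g)
    exact ⟨h3, h3.mem (mem_of_nonunit hpn) (O.mul_mem _ _ hA h4),
      h3.not_nonunit hpn (Nat.succ_le_succ (Nat.zero_le _)) (mul_not_nonunit hAn h5)⟩
  obtain ⟨hci, hYi, hYin⟩ := key Oi hOi hσi hηi hqi Ai hAii hAin hΨi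
  obtain ⟨hcz, hYz, hYzn⟩ := key Oz hOz hσz hηz hqz Az hAzz hAzn hΨz
  refine ⟨?_, hci, hcz⟩
  -- the factorisation of `Y`
  obtain ⟨c, A, υ, hυ, he⟩ :=
    exists_factor hOi hOz hRi hRz hp hsat hVs ρ hρV hρker hloc hk hu hxy hρx hxord hY
  obtain ⟨h1, h2⟩ := ord_of_factor hOi hOz hRi hRz hVs ρ hρker hρx hxord hυ he
  have hY0 : Ψ * (g / σ g) ^ q ≠ 0 := hY.1
  have hoi : hOi.ord (Ψ * (g / σ g) ^ q) = 0 :=
    hOi.ord_unit hYi (inv_mem_of_not_nonunit hYin) hY0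
  have hoz : hOz.ord (Ψ * (g / σ g) ^ q) = 0 :=
    hOz.ord_unit hYz (inv_mem_of_not_nonunit hYzn) hY0
  have hA : A = 0 := by rw [← h1, hoi]
  have hc : c = 0 := by
    have h3 : c * (k : ℤ) = 0 := by rw [hoz, hA, zero_add] at h2; exact h2.symm
    rcases mul_eq_zero.1 h3 with h4 | h4
    · exact h4
    · exact absurd (by exact_mod_cast h4 : k = 0) hk.ne'
  refine ⟨υ, hυ, ?_⟩
  rw [he, hA, hc, zpow_zero, zpow_zero, one_mul, one_mul]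

include hOi hOz hRi hRz hsat hρV hρker hloc hk hu hxy hρx hxord ht hq hσi hσz hη hηi hηz hqi
  hqz in
/-- **The node-local lemma at depth `q t + 1`.**  With the gluing `hglue` of the node ring (two
constants which are the reductions modulo `p ^ (q t + 1)` of one element of `R` on the two
branches are congruent): `Ai * (1 - ord_i g * η ^ q) ≡ Az * (1 - ord_z g * η ^ q)`. -/
theorem glue_congr_pow (C : Subring F) (hηC : η ∈ C)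
    (hglue : ∀ Y ∈ R, ∀ a ∈ C, ∀ b ∈ C, Cg Oi p (q * t + 1) Y a → Cg Oz p (q * t + 1) Y b →
      Cg Oi p (q * t + 1) a b)
    {Ψ g Ai Az : F} (hg : g ≠ 0) (hY : GenUnit R p (Ψ * (g / σ g) ^ q)) (hAi : Ai ∈ C)
    (hAz : Az ∈ C) (hAii : Ai ∈ Oi) (hAin : Ai ∉ Oi.nonunits) (hAzz : Az ∈ Oz)
    (hAzn : Az ∉ Oz.nonunits) (hΨi : Cg Oi p (q * t + 1) Ψ Ai) (hΨz : Cg Oz p (q * t + 1) Ψ Az) :
    Cg Oi p (q * t + 1) (Ai * (1 - (hOi.ord g : F) * η ^ q))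
      (Az * (1 - (hOz.ord g : F) * η ^ q)) := by
  obtain ⟨⟨υ, -, hυ⟩, hci, hcz⟩ :=
    unit_of_twist_pow hOi hOz hRi hRz hp hsat hVs ρ hρV hρker hloc hk hu hxy hρx hxord σ ht hq
      hσi hσz hη hηi hηz hqi hqz hg hY hAii hAin hAzz hAzn hΨi hΨz
  have hYR : Ψ * (g / σ g) ^ q ∈ R := hυ ▸ υ.2
  exact hglue _ hYR _
    (C.mul_mem hAi (C.sub_mem C.one_mem (C.mul_mem (intCast_mem C _) (pow_mem hηC q))))
    _ (C.mul_mem hAz (C.sub_mem C.one_mem (C.mul_mem (intCast_mem C _) (pow_mem hηC q)))) hci hcz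

include hOi hOz hRi hRz hsat hρV hρker hloc hk hu hxy hρx hxord ht hq hσi hσz hη hηi hηz hqi
  hqz in
/-- **The node-local lemma for `u = σ f / f`** (hypotheses in the shape of
`Newton.newton_wild`): `f / g ^ q` has no horizontal zero or pole through the node (`div f = q D`
and `g` cuts out `D` near the node), `σ` preserves `R`, and `σ f / f ≡ Ai`, `≡ Az` modulo
`p ^ (q t + 1)` on the two branches.  Then
`Ai * (1 - ord_i g * η ^ q) ≡ Az * (1 - ord_z g * η ^ q)  mod p ^ (q t + 1)`. -/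
theorem glue_congr_u (C : Subring F) (hηC : η ∈ C)
    (hglue : ∀ Y ∈ R, ∀ a ∈ C, ∀ b ∈ C, Cg Oi p (q * t + 1) Y a → Cg Oz p (q * t + 1) Y b →
      Cg Oi p (q * t + 1) a b)
    (hσR : ∀ r ∈ R, σ r ∈ R) (hηR : (1 + η)⁻¹ ∈ R)
    {f g Ai Az : F} (hf : GenUnit R p (f / g ^ q)) (hAi : Ai ∈ C)
    (hAz : Az ∈ C) (hAii : Ai ∈ Oi) (hAin : Ai ∉ Oi.nonunits) (hAzz : Az ∈ Oz)
    (hAzn : Az ∉ Oz.nonunits) (hΨi : Cg Oi p (q * t + 1) (σ f / f) Ai)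
    (hΨz : Cg Oz p (q * t + 1) (σ f / f) Az) :
    Cg Oi p (q * t + 1) (Ai * (1 - (hOi.ord g : F) * η ^ q))
      (Az * (1 - (hOz.ord g : F) * η ^ q)) := by
  have hg : g ≠ 0 := by
    intro h0
    apply hf.1
    rw [h0, zero_pow hq.pos.ne', div_zero]
  exact glue_congr_pow hOi hOz hRi hRz hp hsat hVs ρ hρV hρker hloc hk hu hxy hρx hxord σ ht hq
    hσi hσz hη hηi hηz hqi hqz C hηC hglue hg
    (genUnit_twist σ hσR hη hηR hOi.ne_zero q hf) hAi hAz hAii hAin hAzz hAzn hΨi hΨz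

end Node

/-! ### Two nodes -/

section Two

variable {F : Type*} [Field F] {O : ValuationSubring F} {ϖ η Ai Az : F} {t q : ℕ}

/-- **Independence of the node, at depth `q t + 1`.**  Two congruences
`Ai * (1 - a η ^ q) ≡ Az * (1 - b η ^ q)` and `Ai * (1 - a' η ^ q) ≡ Az * (1 - b' η ^ q)` modulo
`ϖ ^ (q t + 1)`, with `η` of exact order `t ≥ 1` and `Az` a unit, force
`q ∣ (b - a) - (b' - a')` for the residue characteristic `q`. -/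
theorem dvd_sub_of_two_pow (hϖ : ϖ ∈ O.nonunits) (hϖ0 : ϖ ≠ 0) (ht : 1 ≤ t) (hq : q.Prime)
    (hηw : ∃ w, w ∈ O ∧ w ∉ O.nonunits ∧ η = ϖ ^ t * w) (hAi : Ai ∈ O) (hAz : Az ∈ O)
    (hAzn : Az ∉ O.nonunits) {a b a' b' : ℤ}
    (h : Cg O ϖ (q * t + 1) (Ai * (1 - (a : F) * η ^ q)) (Az * (1 - (b : F) * η ^ q)))
    (h' : Cg O ϖ (q * t + 1) (Ai * (1 - (a' : F) * η ^ q)) (Az * (1 - (b' : F) * η ^ q)))
    (hqO : (q : F) ∈ O.nonunits) : (q : ℤ) ∣ (b - a) - (b' - a') := by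
  have hqt : 1 ≤ q * t := Nat.one_le_iff_ne_zero.2 (Nat.mul_ne_zero hq.pos.ne' (by omega))
  obtain ⟨w, hw, hwn, rfl⟩ := hηw
  exact dvd_sub_of_two hϖ hϖ0 hqt
    ⟨w ^ q, pow_mem hw q, pow_not_nonunit hwn q, by rw [mul_pow, ← pow_mul, mul_comm t q]⟩
    hAi hAz hAzn h h' hq hqO

end Two

end Fermat.Agent.TR.Node.SigmaGluePow
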