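import Mathlib
import Fermat.Agent.TR.Node.NodePkgFull

/-!
# TR / node side: `NodeUnit` in closed form (Seam vocabulary)

For `q ≥ 5`, `A` over `q`, residue field `k = A/𝔪`: there is a non-cuspidal place `Q` of the
mod-`q` function field of level `M` with `0 < ord_Q Δ̄` and `q ∤ ord_Q Δ̄`
(`Δ̄ = Seam.deltaBar h`).  No datum in the statement: the nodal datum of
`JDatum.nodalFibreFor_J` is obtained inside (`NodePkgFull.exists_nodeUnit`).

* `nodeUnit` : `∃ Q, NonCusp Q ∧ 0 < Q.ord (deltaBar h) ∧ ¬ (q : ℤ) ∣ Q.ord (deltaBar h)`;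
* `nodeUnit'` : the same without the `NonCusp` conjunct.
-/

set_option autoImplicit false

noncomputable section

namespace Fermat.Agent.TR.Node.NodeUnitClosed

open AlgebraicCurve ModularCurve Fermat.Agent.Lib.FF Fermat.Agent.BAD.TwoVal
  Fermat.Agent.BAD.KerRed Fermat.Agent.TR.Node.NodePkgFull Fermat.Agent.TR.PL.Seam

local notation "Qb" => AlgebraicClosure ℚ

variable {M q : ℕ} [NeZero M] [NeZero q]

set_option synthInstance.maxHeartbeats 400000 in
set_option maxHeartbeats 1600000 in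
/-- **`NodeUnit`, closed form**: for `q ≥ 5` there is a non-cuspidal place `Q` with
`0 < ord_Q Δ̄` prime to `q`. -/
theorem nodeUnit (A : ValuationSubring Qb) (hA : A.LiesOverPrime q)
    (h : BadSetup A (IsLocalRing.residue A) M q) (hq5 : 5 ≤ q)
    (W : laurentBaseChange Qb (modularFunctionFieldFull (M * q)) ≃ₐ[Qb]
      laurentBaseChange Qb (modularFunctionFieldFull (M * q))) (hW : IsAL M q W) :
    ∃ Q : Place (IsLocalRing.ResidueField A)
        (modularFunctionFieldFullC (IsLocalRing.ResidueField A) M),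
      NonCusp Q ∧ 0 < Q.ord (deltaBar h) ∧ ¬ ((q : ℕ) : ℤ) ∣ Q.ord (deltaBar h) := by
  have : IsAlgClosed (IsLocalRing.ResidueField A) := CharP.isAlgClosed_residueField A
  obtain ⟨E1, E2, hNF, hint⟩ := Fermat.Agent.TR.Node.JDatum.nodalFibreFor_J A M q h hq5 W hW
  obtain ⟨ι, i1, i2, e₁, e₂, P₁, Z₁, P₂, Z₂, hinj₁, hinj₂, hP₁, hZ₁, hP₂, hZ₂, hPZ₁, hPZ₂,
    hdegP₁, hdegP₂, hE1, hE2, hE12, hdegE1, hdegE2, hgalE, hS2⟩ := hNF
  exact exists_nodeUnit hA IsLocalRing.residue_surjective h W hW E1 E2 e₁ e₂ P₁ Z₁ P₂ Z₂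
    hinj₁ hinj₂ hP₁ hP₂ hdegP₁ hdegP₂ hE1 hE2 hgalE hS2 hint hq5

set_option synthInstance.maxHeartbeats 400000 in
/-- `NodeUnit` without the non-cuspidality conjunct. -/
theorem nodeUnit' (A : ValuationSubring Qb) (hA : A.LiesOverPrime q)
    (h : BadSetup A (IsLocalRing.residue A) M q) (hq5 : 5 ≤ q)
    (W : laurentBaseChange Qb (modularFunctionFieldFull (M * q)) ≃ₐ[Qb]
      laurentBaseChange Qb (modularFunctionFieldFull (M * q))) (hW : IsAL M q W) :
    ∃ Q : Place (IsLocalRing.ResidueField A)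
        (modularFunctionFieldFullC (IsLocalRing.ResidueField A) M),
      0 < Q.ord (deltaBar h) ∧ ¬ ((q : ℕ) : ℤ) ∣ Q.ord (deltaBar h) := by
  obtain ⟨Q, -, h1, h2⟩ := nodeUnit A hA h hq5 W hW
  exact ⟨Q, h1, h2⟩

end Fermat.Agent.TR.Node.NodeUnitClosed
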