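import Mathlib
import Fermat.Agent.TR.Node.NodePkgFull
import Fermat.Agent.BAD.NodalPlusX
import Fermat.Agent.BAD.SmoothOrdAll
import Fermat.Agent.ESJ.Jac.KummerPair

/-!
# TR / node side: (SPEC) and `NodeUnit` in Seam vocabulary

`Δ̄ = Seam.deltaBar h`.  For a nodal datum (`NodalPlus.NodalDatum`) with `0 < deg Z₁`,
`0 < deg Z₂` and the chart hypothesis `NodePkgFull.ChartHyp E1`:

* `ne_node_of_ord_deltaBar_le` : a place `Q` with `ord_Q Δ̄ ≤ 0` is not a node;
* `specInf_of_datum` : **(SPEC)** — if all the orders of the unit `f` of `O_∞` are divisible by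
  `m`, then `m ∣ ord_Q (red_∞ f)` at every place `Q` with `ord_Q Δ̄ ≤ 0` (cusps included);
* `specInf_kummer_of_datum` : the same for a Kummer function (`IsKummerPair n x f`).

Closed forms (`q ≥ 5`, `k = A/𝔪`; the datum is the explicit `J`-datum of
`NodalPlus.exists_explicitDatum_ofJ`, obtained inside):

* `exists_datum_hint_degZ` : ONE datum carrying `NodalDatum`, `0 < deg Z₁`, `0 < deg Z₂` and
  `ChartHyp E1`;
* `specInf`, `specInf_kummer` : (SPEC) without any datum in the statement.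
-/

set_option autoImplicit false

noncomputable section

namespace Fermat.Agent.TR.Node.SpecClosed

open AlgebraicCurve ModularCurve Fermat.Agent.Lib.FF Fermat.Agent.BAD.TwoVal
  Fermat.Agent.BAD.KerRed Fermat.Agent.BAD.NodalPlus Fermat.Agent.BAD.SmoothOrdAll
  Fermat.Agent.TR.Node.NodePkgFull Fermat.Agent.TR.PL.Seam Fermat.Agent.ESJ.Jac

local notation "Qb" => AlgebraicClosure ℚ

variable {A : ValuationSubring Qb} {k : Type} [Field k] {π : A →+* k} {M q : ℕ} [NeZero M]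
  [NeZero q]

section Datum

variable [IsAlgClosed k] (hA : A.LiesOverPrime q) (hπ : Function.Surjective π)
  {h : BadSetup A π M q}
  {W : laurentBaseChange Qb (modularFunctionFieldFull (M * q)) ≃ₐ[Qb]
    laurentBaseChange Qb (modularFunctionFieldFull (M * q))} (hW : IsAL M q W)
  {E1 E2 : Divisor Qb (laurentBaseChange Qb (modularFunctionFieldFull (M * q)))}
  {ι : Type} [Fintype ι]
  {e₁ e₂ : ι → Place k (modularFunctionFieldFullC k M)}
  {P₁ Z₁ P₂ Z₂ : Divisor k (modularFunctionFieldFullC k M)}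
  (hD : NodalDatum h W E1 E2 e₁ e₂ P₁ Z₁ P₂ Z₂)
  (hdegZ₁ : 0 < Divisor.degree Z₁) (hdegZ₂ : 0 < Divisor.degree Z₂)
  (hint : ChartHyp E1)

include hA hπ hW hD hint in
/-- A place at which `Δ̄` has no zero is not a node. -/
theorem ne_node_of_ord_deltaBar_le {Q : Place k (modularFunctionFieldFullC k M)}
    (hQ : Q.ord (deltaBar h) ≤ 0) (i : ι) : e₁ i ≠ Q := by
  obtain ⟨hinj₁, hinj₂, hP₁, -, hP₂, -, -, -, hdegP₁, hdegP₂, hE1, hE2, -, -, -, hgalE, hS2⟩ :=
    hD
  intro hi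
  have hpos := (ord_deltaBar_pos hA hπ h W hW E1 E2 e₁ e₂ P₁ Z₁ P₂ Z₂ hinj₁ hinj₂ hP₁ hP₂
    hdegP₁ hdegP₂ hE1 hE2 hgalE hS2 i hint).1
  rw [hi] at hpos
  omega

include hA hπ hW hD hdegZ₁ hdegZ₂ hint in
/-- **(SPEC)** in Seam vocabulary: if all the orders of the unit `f` of `O_∞` are divisible by
`m`, then `m ∣ ord_Q (red_∞ f)` at every place `Q` with `ord_Q Δ̄ ≤ 0`. -/
theorem specInf_of_datum {f : laurentBaseChange Qb (modularFunctionFieldFull (M * q))}
    (hf : f ∈ OInf h) (hfi : f⁻¹ ∈ OInf h) (hf0 : f ≠ 0) (m : ℤ)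
    (hm : ∀ P : Place Qb (laurentBaseChange Qb (modularFunctionFieldFull (M * q))),
      m ∣ P.ord f)
    (Q : Place k (modularFunctionFieldFullC k M)) (hQ : Q.ord (deltaBar h) ≤ 0) :
    m ∣ Q.ord (redInf h ⟨f, hf⟩) :=
  dvd_ord_redInf_of_datum hπ hW hD hdegZ₁ hdegZ₂ Q
    (ne_node_of_ord_deltaBar_le hA hπ hW hD hint hQ) f hf hfi hf0 m hm

include hA hπ hW hD hdegZ₁ hdegZ₂ hint in
/-- **(SPEC)** for a Kummer function. -/
theorem specInf_kummer_of_datum {n : ℕ} {x : JZero (M * q)}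
    {f : laurentBaseChange Qb (modularFunctionFieldFull (M * q))}
    (hk : IsKummerPair n x f) (hf : f ∈ OInf h) (hfi : f⁻¹ ∈ OInf h)
    (Q : Place k (modularFunctionFieldFullC k M)) (hQ : Q.ord (deltaBar h) ≤ 0) :
    (n : ℤ) ∣ Q.ord (redInf h ⟨f, hf⟩) := by
  obtain ⟨hf0, D, -, hD'⟩ := hk
  exact specInf_of_datum hA hπ hW hD hdegZ₁ hdegZ₂ hint hf hfi hf0 n
    (fun P => ⟨_, (hD' P).symm⟩) Q hQ

end Datum

/-! ### Closed forms -/

set_option synthInstance.maxHeartbeats 400000 in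
set_option maxHeartbeats 1600000 in
/-- **ONE datum with everything** (`q ≥ 5`, residue-field form): the explicit `J`-datum is a
`NodalDatum` with `0 < deg Z₁`, `0 < deg Z₂` and the chart hypothesis `ChartHyp E1`. -/
theorem exists_datum_hint_degZ (A : ValuationSubring Qb)
    (h : BadSetup A (IsLocalRing.residue A) M q) (hq5 : 5 ≤ q)
    (W : laurentBaseChange Qb (modularFunctionFieldFull (M * q)) ≃ₐ[Qb]
      laurentBaseChange Qb (modularFunctionFieldFull (M * q))) (hW : IsAL M q W) :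
    ∃ (E1 E2 : Divisor Qb (laurentBaseChange Qb (modularFunctionFieldFull (M * q))))
      (ι : Type) (_ : Fintype ι) (_ : Nonempty ι)
      (e₁ e₂ : ι → Place (IsLocalRing.ResidueField A)
        (modularFunctionFieldFullC (IsLocalRing.ResidueField A) M))
      (P₁ Z₁ P₂ Z₂ : Divisor (IsLocalRing.ResidueField A)
        (modularFunctionFieldFullC (IsLocalRing.ResidueField A) M)),
      NodalDatum h W E1 E2 e₁ e₂ P₁ Z₁ P₂ Z₂ ∧
        0 < Divisor.degree Z₁ ∧ 0 < Divisor.degree Z₂ ∧ ChartHyp E1 := by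
  have : IsAlgClosed (IsLocalRing.ResidueField A) := CharP.isAlgClosed_residueField A
  have : Fact q.Prime := ⟨h.hℓ⟩
  have : CharP (IsLocalRing.ResidueField A) q := h.charP
  obtain ⟨hX, hxO, ι, i1, i2, e₁, e₂, hD, hdegZ, -⟩ :=
    exists_explicitDatum_ofJ h hW IsLocalRing.residue_surjective hq5
  exact ⟨_, _, ι, i1, i2, e₁, e₂, _, _, _, _, hD, hdegZ, hdegZ, fun g hg =>
    Fermat.Agent.TR.Node.JDatum.exists_mem_L_of_isIntegral_alpha_jLevel
      (Fermat.Agent.BAD.SpecialFibre.isFF1_xN_X h hW hX) hg⟩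

set_option synthInstance.maxHeartbeats 400000 in
set_option maxHeartbeats 1600000 in
/-- **(SPEC), closed form** (`q ≥ 5`): if all the orders of the unit `f` of `O_∞` are divisible
by `m`, then `m ∣ ord_Q (red_∞ f)` at every place `Q` with `ord_Q Δ̄ ≤ 0`. -/
theorem specInf (A : ValuationSubring Qb) (hA : A.LiesOverPrime q)
    (h : BadSetup A (IsLocalRing.residue A) M q) (hq5 : 5 ≤ q)
    (W : laurentBaseChange Qb (modularFunctionFieldFull (M * q)) ≃ₐ[Qb]
      laurentBaseChange Qb (modularFunctionFieldFull (M * q))) (hW : IsAL M q W)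
    {f : laurentBaseChange Qb (modularFunctionFieldFull (M * q))}
    (hf : f ∈ OInf h) (hfi : f⁻¹ ∈ OInf h) (hf0 : f ≠ 0) (m : ℤ)
    (hm : ∀ P : Place Qb (laurentBaseChange Qb (modularFunctionFieldFull (M * q))),
      m ∣ P.ord f)
    (Q : Place (IsLocalRing.ResidueField A)
      (modularFunctionFieldFullC (IsLocalRing.ResidueField A) M))
    (hQ : Q.ord (deltaBar h) ≤ 0) :
    m ∣ Q.ord (redInf h ⟨f, hf⟩) := by
  have : IsAlgClosed (IsLocalRing.ResidueField A) := CharP.isAlgClosed_residueField A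
  obtain ⟨E1, E2, ι, i1, i2, e₁, e₂, P₁, Z₁, P₂, Z₂, hD, hdegZ₁, hdegZ₂, hint⟩ :=
    exists_datum_hint_degZ A h hq5 W hW
  exact specInf_of_datum hA IsLocalRing.residue_surjective hW hD hdegZ₁ hdegZ₂ hint hf hfi hf0
    m hm Q hQ

set_option synthInstance.maxHeartbeats 400000 in
set_option maxHeartbeats 1600000 in
/-- **(SPEC) for a Kummer function, closed form** (`q ≥ 5`). -/
theorem specInf_kummer (A : ValuationSubring Qb) (hA : A.LiesOverPrime q)
    (h : BadSetup A (IsLocalRing.residue A) M q) (hq5 : 5 ≤ q)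
    (W : laurentBaseChange Qb (modularFunctionFieldFull (M * q)) ≃ₐ[Qb]
      laurentBaseChange Qb (modularFunctionFieldFull (M * q))) (hW : IsAL M q W)
    {n : ℕ} {x : JZero (M * q)}
    {f : laurentBaseChange Qb (modularFunctionFieldFull (M * q))}
    (hk : IsKummerPair n x f) (hf : f ∈ OInf h) (hfi : f⁻¹ ∈ OInf h)
    (Q : Place (IsLocalRing.ResidueField A)
      (modularFunctionFieldFullC (IsLocalRing.ResidueField A) M))
    (hQ : Q.ord (deltaBar h) ≤ 0) :
    (n : ℤ) ∣ Q.ord (redInf h ⟨f, hf⟩) := by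
  obtain ⟨hf0, D, -, hD'⟩ := hk
  exact specInf A hA h hq5 W hW hf hfi hf0 n (fun P => ⟨_, (hD' P).symm⟩) Q hQ

end Fermat.Agent.TR.Node.SpecClosed
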