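import Mathlib
import Fermat.Agent.TR.Node.RedNodeEval

/-!
# TR (GEN), node side: the coordinate of a node is surjective onto the annulus

Setting of `TR/Node/NodeRingAbs.lean` / `TR/Node/RedNodeEval.lean` (`Fx = ⊤`): the node ring
`R̂ = nodeRing red ⊤ E e₁ e₂ i`, and node data `ξ η u` with `ξ * η = p ^ n * u`, where the
reduction of `ξ` is non-zero on the first component and zero on the second, and the reduction of
`η` is zero on the first component and non-zero on the second.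

* `acc_mem_and_red` : for a constant `c` with `|p| ^ n < |c| < 1`, the function
  `c / (ξ - c)` is integral, and its reduction is `(0, -1)`;
* `exists_redNode_cong_node` : **(ACC)** — hence some place reducing to the node has
  `ξ(Q) = c` (`HorUnit.exists_redNode_cong`);
* `hsmall_node` : the hypothesis `hsmall` of `AnnulusRedNode.redNode_inj/redNode_unr`;
* `hsurj_node` : the hypothesis `hsurj` of `AnnulusRedNode.redNode_unr`.

The denominator trick: with `ε = p ^ n / c`, the function `t = ξ + η - c - ε u` is integral with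
a reduction non-zero on both components, and `t * (c / (ξ - c)) = c - η`.
-/

set_option autoImplicit false

noncomputable section

namespace Fermat.Agent.TR.Node.AccNode

open AlgebraicCurve WithZero Fermat.Agent.Lib.FF Fermat.Agent.BAD.NodalRiemann
  Fermat.Agent.Lib.Red.Deform Fermat.Agent.TR.Node.NodalLocal Fermat.Agent.TR.Node.NodeRingAbs
  Fermat.Agent.TR.Node.HorUnit

variable {L F : Type*} [Field L] [Field F] [Algebra L F] {A : ValuationSubring L} {O : Subring F}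
  {k F₁ F₂ : Type*} [Field k] [Field F₁] [Field F₂] [Algebra k F₁] [Algebra k F₂]
  {ι : Type*}

section Acc

variable (hOA : ∀ x : L, algebraMap L F x ∈ O ↔ x ∈ A)
  (hval : ∀ y : F, y ≠ 0 → ∃ c : L, c ≠ 0 ∧ algebraMap L F c * y ∈ O ∧
    ¬ Small A O (algebraMap L F c * y))
  (red : O →+* F₁ × F₂) (π : A →+* k)
  (hπker : ∀ a : A, π a = 0 ↔ A.valuation (a : L) < 1)
  (hconst : ∀ a : A, red ⟨algebraMap L F (a : L), (hOA _).2 a.2⟩ =
    algebraMap k (F₁ × F₂) (π a))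
  (hker : ∀ y : O, red y = 0 ↔ Small A O (y : F))
  (E : Divisor L F) (hE : 0 ≤ E) (e₁ : ι → Place k F₁) (e₂ : ι → Place k F₂) (i : ι)
  {D₁ : Divisor k F₁} {D₂ : Divisor k F₂}
  (hS : ∃ N₀ : ℕ, ∀ N, N₀ ≤ N → ∀ t : F₁ × F₂,
    (∃ y : O, (y : F) ∈ riemannRochSpace (N • E) ∧ red y = t) ↔
      t ∈ gluedSpace e₁ e₂ (fun _ => (1 : k)) (N • D₁) (N • D₂))

include hπker hconst in
/-- The reduction of a constant of the maximal ideal of `A` vanishes. -/
theorem red_const_eq_zero {c : L} (hc1 : A.valuation c < 1) (hcO : algebraMap L F c ∈ O) :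
    red ⟨algebraMap L F c, hcO⟩ = 0 := by
  have hcA : c ∈ A := (A.valuation_le_one_iff c).1 hc1.le
  have h' := hconst ⟨c, hcA⟩
  have h0 : π ⟨c, hcA⟩ = 0 := (hπker ⟨c, hcA⟩).2 hc1
  rw [h0, map_zero] at h'
  exact h'

include hOA hval hπker hconst hker in
/-- **The denominator trick.**  For `|p| ^ n < |c| < 1` the function `c / (ξ - c)` is integral
and its reduction is `(0, -1)`. -/
theorem acc_mem_and_red {ξ η u : F} {p : L} {n : ℕ} (hξO : ξ ∈ O) (hηO : η ∈ O) (huO : u ∈ O)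
    (hxy : ξ * η = algebraMap L F p ^ n * u)
    (hξ1 : (red ⟨ξ, hξO⟩).1 ≠ 0) (hξ2 : (red ⟨ξ, hξO⟩).2 = 0)
    (hη1 : (red ⟨η, hηO⟩).1 = 0) (hη2 : (red ⟨η, hηO⟩).2 ≠ 0)
    {c : L} (hc0 : c ≠ 0) (hc1 : A.valuation c < 1) (hcp : A.valuation p ^ n < A.valuation c) :
    ∃ hYO : algebraMap L F c / (ξ - algebraMap L F c) ∈ O,
      (red ⟨_, hYO⟩).1 = 0 ∧ (red ⟨_, hYO⟩).2 = -1 := by
  have hcA : c ∈ A := (A.valuation_le_one_iff c).1 hc1.le
  have hcO : algebraMap L F c ∈ O := (hOA c).2 hcA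
  have hvc0 : A.valuation c ≠ 0 := (Valuation.ne_zero_iff _).2 hc0
  -- `ε = p ^ n / c` lies in the maximal ideal
  have hε1 : A.valuation (p ^ n / c) < 1 := by
    rw [map_div₀, map_pow, div_lt_one₀ (zero_lt_iff.2 hvc0)]
    exact hcp
  have hεA : p ^ n / c ∈ A := (A.valuation_le_one_iff _).1 hε1.le
  have hεO : algebraMap L F (p ^ n / c) ∈ O := (hOA _).2 hεA
  have hεc : algebraMap L F (p ^ n / c) * algebraMap L F c = algebraMap L F p ^ n := by
    rw [← map_mul, div_mul_cancel₀ _ hc0, map_pow]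
  have hredc : red ⟨algebraMap L F c, hcO⟩ = 0 := red_const_eq_zero hOA red π hπker hconst hc1 hcO
  have hredε : red ⟨algebraMap L F (p ^ n / c), hεO⟩ = 0 :=
    red_const_eq_zero hOA red π hπker hconst hε1 hεO
  -- the denominator
  set t : O := ⟨ξ, hξO⟩ + ⟨η, hηO⟩ - ⟨algebraMap L F c, hcO⟩ -
    ⟨algebraMap L F (p ^ n / c), hεO⟩ * ⟨u, huO⟩ with ht
  have hredt : red t = red ⟨ξ, hξO⟩ + red ⟨η, hηO⟩ := by
    rw [ht, map_sub, map_sub, map_add, map_mul, hredc, hredε, zero_mul, sub_zero, sub_zero]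
  have ht1 : (red t).1 ≠ 0 := by
    rw [hredt, Prod.fst_add, hη1, add_zero]
    exact hξ1
  have ht2 : (red t).2 ≠ 0 := by
    rw [hredt, Prod.snd_add, hξ2, zero_add]
    exact hη2
  -- `ξ - c ≠ 0`
  have hd : ξ - algebraMap L F c ≠ 0 := by
    intro h0
    have h1 : (⟨ξ, hξO⟩ : O) = ⟨algebraMap L F c, hcO⟩ := Subtype.ext (sub_eq_zero.1 h0)
    apply hξ1
    rw [h1, hredc]
    rfl
  have htF : (t : F) = ξ + η - algebraMap L F c - algebraMap L F (p ^ n / c) * u := rfl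
  have hkey : (t : F) * (algebraMap L F c / (ξ - algebraMap L F c)) = algebraMap L F c - η := by
    rw [htF, mul_div_assoc', div_eq_iff hd]
    linear_combination hxy - u * hεc
  have hcηO : algebraMap L F c - η ∈ O := sub_mem hcO hηO
  have hYO : algebraMap L F c / (ξ - algebraMap L F c) ∈ O :=
    mem_O_of_mul_mem hOA hval red π hπker hconst hker (u := t) ht1 ht2 (hkey ▸ hcηO)
  refine ⟨hYO, ?_, ?_⟩
  · have h2 : t * (⟨_, hYO⟩ : O) = ⟨algebraMap L F c, hcO⟩ - ⟨η, hηO⟩ := Subtype.ext hkey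
    have h3 : red t * red ⟨_, hYO⟩ = - red ⟨η, hηO⟩ := by
      rw [← map_mul, h2, map_sub, hredc, zero_sub]
    have h4 : (red t).1 * (red ⟨_, hYO⟩).1 = 0 := by
      have := congrArg Prod.fst h3
      rw [Prod.fst_mul, Prod.fst_neg, hη1, neg_zero] at this
      exact this
    exact (mul_eq_zero.1 h4).resolve_left ht1
  · have h2 : t * (⟨_, hYO⟩ : O) = ⟨algebraMap L F c, hcO⟩ - ⟨η, hηO⟩ := Subtype.ext hkey
    have h3 : red t * red ⟨_, hYO⟩ = - red ⟨η, hηO⟩ := by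
      rw [← map_mul, h2, map_sub, hredc, zero_sub]
    have h4 : (red t).2 * (red ⟨_, hYO⟩).2 = (red t).2 * (-1) := by
      have := congrArg Prod.snd h3
      rw [Prod.snd_mul, Prod.snd_neg] at this
      rw [this, hredt, Prod.snd_add, hξ2, zero_add, mul_neg_one]
    exact mul_left_cancel₀ ht2 h4

include hOA hval hπker hconst hker hE hS in
/-- **(ACC): surjectivity of the node coordinate onto the annulus.**  For a constant `c` with
`|p| ^ n < |c| < 1` some place reducing to the node has `ξ(Q) = c`. -/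
theorem exists_redNode_cong_node [HasPrincipalDivisors L F] (hres : ∀ Q : Place L F, RR.ResK Q)
    {ξ η u : F} {p : L} {n : ℕ} (hξO : ξ ∈ O) (hηO : η ∈ O) (huO : u ∈ O)
    (hxy : ξ * η = algebraMap L F p ^ n * u)
    (hξ1 : (red ⟨ξ, hξO⟩).1 ≠ 0) (hξ2 : (red ⟨ξ, hξO⟩).2 = 0)
    (hη1 : (red ⟨η, hηO⟩).1 = 0) (hη2 : (red ⟨η, hηO⟩).2 ≠ 0)
    {c : L} (hc0 : c ≠ 0) (hc1 : A.valuation c < 1) (hcp : A.valuation p ^ n < A.valuation c) :
    ∃ Q : Place L F, E Q = 0 ∧ RedNode A (nodeRing red ⊤ E e₁ e₂ i) Q ∧ Cong Q ξ c := by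
  obtain ⟨hYO, hY1, hY2⟩ := acc_mem_and_red hOA hval red π hπker hconst hker hξO hηO huO hxy
    hξ1 hξ2 hη1 hη2 hc0 hc1 hcp
  refine exists_redNode_cong hOA hval red π hπker hconst hker E hE e₁ e₂ i hS hres hc0 hYO ?_
  rintro ⟨d, hd1, hd2⟩
  rw [hY1] at hd1
  rw [hY2] at hd2
  have e1 : d = 0 := (hd1.unique (cong_zero _)).symm ▸ rfl
  have h3 : Cong (e₂ i) (-1 : F₂) (-1 : k) := by
    have := cong_algebraMap (e₂ i) (-1 : k)
    rwa [map_neg, map_one] at this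
  have e2 : d = -1 := hd2.unique h3
  rw [e1] at e2
  exact one_ne_zero (neg_eq_zero.1 e2.symm)

include hOA hval hπker hconst hker hE hS in
/-- The hypothesis `hsmall` of `AnnulusRedNode.redNode_inj` / `redNode_unr`: at a place reducing
to the node the values of `ξ` and `η` are small, and `ξ(Q) ≠ 0`. -/
theorem hsmall_node {ξ η u : F} {p : L} {n : ℕ} (hp0 : p ≠ 0)
    (hξ : ξ ∈ nodeRing red ⊤ E e₁ e₂ i) (hη : η ∈ nodeRing red ⊤ E e₁ e₂ i)
    (hu : u ∈ nodeRing red ⊤ E e₁ e₂ i) (hu' : u⁻¹ ∈ nodeRing red ⊤ E e₁ e₂ i) (hu0 : u ≠ 0)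
    (hxy : ξ * η = algebraMap L F p ^ n * u)
    (hξ0 : Cong (e₁ i)
      (red ⟨ξ, mem_O hOA hval red π hπker hconst hker ⊤ E e₁ e₂ i hξ⟩).1 0)
    (hη0 : Cong (e₁ i)
      (red ⟨η, mem_O hOA hval red π hπker hconst hker ⊤ E e₁ e₂ i hη⟩).1 0) :
    ∀ Q : Place L F, RedNode A (nodeRing red ⊤ E e₁ e₂ i) Q → ∀ a b : L, Cong Q ξ a →
      Cong Q η b → A.valuation a < 1 ∧ A.valuation b < 1 ∧ a ≠ 0 := by
  intro Q hQ a b ha hb
  obtain ⟨h1, h2, h3, -⟩ := RedNode.annulus hOA hval red π hπker hconst hker E hE e₁ e₂ i hS hQ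
    hp0 hξ hη hu hu' hu0 hxy hξ0 hη0 ha hb
  refine ⟨h1, h2, ?_⟩
  rintro rfl
  rw [map_zero] at h3
  exact not_lt_zero h3

include hOA hval hπker hconst hker hE hS in
/-- The hypothesis `hsurj` of `AnnulusRedNode.redNode_unr`: the node coordinate takes, at places
reducing to the node, every value close to one of its values. -/
theorem hsurj_node [HasPrincipalDivisors L F] (hres : ∀ Q : Place L F, RR.ResK Q)
    {ξ η u : F} {p : L} {n : ℕ} (hp0 : p ≠ 0)
    (hξ : ξ ∈ nodeRing red ⊤ E e₁ e₂ i) (hη : η ∈ nodeRing red ⊤ E e₁ e₂ i)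
    (hu : u ∈ nodeRing red ⊤ E e₁ e₂ i) (hu' : u⁻¹ ∈ nodeRing red ⊤ E e₁ e₂ i) (hu0 : u ≠ 0)
    (hxy : ξ * η = algebraMap L F p ^ n * u)
    (hξ0 : Cong (e₁ i)
      (red ⟨ξ, mem_O hOA hval red π hπker hconst hker ⊤ E e₁ e₂ i hξ⟩).1 0)
    (hξ1 : (red ⟨ξ, mem_O hOA hval red π hπker hconst hker ⊤ E e₁ e₂ i hξ⟩).1 ≠ 0)
    (hξ2 : (red ⟨ξ, mem_O hOA hval red π hπker hconst hker ⊤ E e₁ e₂ i hξ⟩).2 = 0)
    (hη1 : (red ⟨η, mem_O hOA hval red π hπker hconst hker ⊤ E e₁ e₂ i hη⟩).1 = 0)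
    (hη2 : (red ⟨η, mem_O hOA hval red π hπker hconst hker ⊤ E e₁ e₂ i hη⟩).2 ≠ 0) :
    ∀ Q : Place L F, RedNode A (nodeRing red ⊤ E e₁ e₂ i) Q → ∀ c : L, Cong Q ξ c →
      ∀ c' : L, c' ≠ 0 → A.valuation (c - c') < A.valuation c →
      ∃ Q' : Place L F, RedNode A (nodeRing red ⊤ E e₁ e₂ i) Q' ∧ Cong Q' ξ c' := by
  intro Q hQ c hc c' hc'0 hcc'
  obtain ⟨b, -, hb⟩ := hQ η hη
  have hη0 : Cong (e₁ i)
      (red ⟨η, mem_O hOA hval red π hπker hconst hker ⊤ E e₁ e₂ i hη⟩).1 0 := by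
    rw [hη1]
    exact cong_zero _
  obtain ⟨h1, -, h3, -⟩ := RedNode.annulus hOA hval red π hπker hconst hker E hE e₁ e₂ i hS hQ
    hp0 hξ hη hu hu' hu0 hxy hξ0 hη0 hc hb
  -- `|c'| = |c|`
  have hval' : A.valuation c' = A.valuation c := by
    have e : c' = c - (c - c') := by ring
    rw [e]
    exact Valuation.map_sub_eq_of_lt_left _ hcc'
  obtain ⟨Q', -, hQ', hc'⟩ := exists_redNode_cong_node hOA hval red π hπker hconst hker E hE e₁
    e₂ i hS hres (mem_O hOA hval red π hπker hconst hker ⊤ E e₁ e₂ i hξ)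
    (mem_O hOA hval red π hπker hconst hker ⊤ E e₁ e₂ i hη)
    (mem_O hOA hval red π hπker hconst hker ⊤ E e₁ e₂ i hu) hxy hξ1 hξ2 hη1 hη2 hc'0
    (hval' ▸ h1) (hval' ▸ h3)
  exact ⟨Q', hQ', hc'⟩

end Acc

end Fermat.Agent.TR.Node.AccNode
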