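import Mathlib
import Fermat.Agent.TR.Node.NodeRing
import Fermat.Agent.TR.Node.AccNode

/-!
# TR (GEN), node side at the modular objects: the node coordinate is surjective onto the annulus

Setting of `TR/Node/NodeRing.lean` (`section Datum`): `A` a valuation subring of `ℚ̄` over `q`,
`h : BadSetup A π M q`, `O = OPair h W`, a nodal datum `(E1, E2, e₁, e₂, P₁, Z₁, P₂, Z₂)` with
its chart description `hS2`, and a node package `x y u` of the node ring
`S_i = NodeRing.nodeRing h W E1 e₁ e₂ i` as produced by `NodeRing.exists_nodePkg`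
(`x * y = q ^ k' * u`, `u` a unit, `red_∞ x` a uniformiser at `e₁ i`, `red_0 x = 0`,
`red_∞ y = 0`, `red_0 y` a uniformiser at `e₂ i`).  With
`T_i = NodeRingAbs.nodeRing (redPair h W) ⊤ E1 e₁ e₂ i` (the node ring over `ℚ̄`):

* `nodeRing_le_top` : `S_i ≤ T_i`;
* `acc_inst` : **(ACC)** every `c` with `|q| ^ k' < |c| < 1` is the `x`-value of a place reducing
  to the node (off `supp E1`);
* `hsmall_inst` : the hypothesis `hsmall` of `AnnulusRedNode.redNode_inj` / `redNode_unr`;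
* `hsurj_inst` : the hypothesis `hsurj` of `AnnulusRedNode.redNode_unr` / `redNode_ord_sub`.
-/

set_option autoImplicit false

noncomputable section

namespace Fermat.Agent.TR.Node.AccInst

open AlgebraicCurve ModularCurve WithZero Fermat.Agent.Lib.FF Fermat.Agent.Lib.Red.Deform
  Fermat.Agent.BAD.NodalRiemann Fermat.Agent.BAD.TwoVal Fermat.Agent.BAD.LatFixedInst
  Fermat.Agent.BAD.LatFixedRing Fermat.Agent.CAR.V3
  Fermat.Agent.ESJ.Cong.LevelGen Fermat.Agent.TR.Node.NodeRing Fermat.Agent.TR.Node.HorUnit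

local notation "Qb" => AlgebraicClosure ℚ

variable {A : ValuationSubring Qb} {k : Type} [Field k] {π : A →+* k} {M q : ℕ} [NeZero M]
  [NeZero q]

section Datum

variable (h : BadSetup A π M q)
  (W : laurentBaseChange Qb (modularFunctionFieldFull (M * q)) ≃ₐ[Qb]
    laurentBaseChange Qb (modularFunctionFieldFull (M * q)))
  (E1 E2 : Divisor Qb (laurentBaseChange Qb (modularFunctionFieldFull (M * q))))
  {ι : Type}
  (e₁ e₂ : ι → Place k (modularFunctionFieldFullC k M))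
  (P₁ Z₁ P₂ Z₂ : Divisor k (modularFunctionFieldFullC k M))
  (hE1 : ∀ v, 0 ≤ E1 v)
  (hS2 : ∃ N₀ : ℕ, ∀ n₁ n₂ : ℕ, N₀ ≤ n₁ + n₂ →
    ∀ t : ↥(modularFunctionFieldFullC k M) × ↥(modularFunctionFieldFullC k M),
      (∃ y : OPair h W,
          (y : laurentBaseChange Qb (modularFunctionFieldFull (M * q))) ∈
            riemannRochSpace (n₁ • E1 + n₂ • E2) ∧ redPair h W y = t) ↔
        t ∈ gluedSpace e₁ e₂ (fun _ => (1 : k))
          (n₁ • P₁ + n₂ • Z₁) (n₁ • P₂ + n₂ • Z₂))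
  (i : ι)

/-- The inertia-fixed node ring lies in the node ring over `ℚ̄`. -/
theorem nodeRing_le_top :
    nodeRing h W E1 e₁ e₂ i ≤ NodeRingAbs.nodeRing (redPair h W) ⊤ E1 e₁ e₂ i := by
  rintro g ⟨-, N, t, htL, -, hc, y, hy, hyL⟩
  exact ⟨Subring.mem_top _, N, t, htL, Subring.mem_top _, hc, y, hy, hyL⟩

variable {k' : ℕ} {x y u : nodeRing h W E1 e₁ e₂ i}

/-- The node equation in the function field. -/
theorem node_eq (hxy : x * y = ((q : ℕ) : nodeRing h W E1 e₁ e₂ i) ^ k' * u) :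
    (x : laurentBaseChange Qb (modularFunctionFieldFull (M * q))) * (y : _) =
      algebraMap Qb (laurentBaseChange Qb (modularFunctionFieldFull (M * q)))
        ((q : ℕ) : Qb) ^ k' * (u : _) := by
  have h1 := congrArg (Subtype.val : nodeRing h W E1 e₁ e₂ i → _) hxy
  rw [← natCast_eq_algebraMap]
  exact h1

/-- A unit of the node ring: its inverse lies in the node ring over `ℚ̄`, and it is non-zero. -/
theorem unit_inv_mem (hu : IsUnit u) :
    (u : laurentBaseChange Qb (modularFunctionFieldFull (M * q)))⁻¹ ∈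
        NodeRingAbs.nodeRing (redPair h W) ⊤ E1 e₁ e₂ i ∧
      (u : laurentBaseChange Qb (modularFunctionFieldFull (M * q))) ≠ 0 := by
  obtain ⟨w, hw⟩ := hu.exists_right_inv
  have h1 : (u : laurentBaseChange Qb (modularFunctionFieldFull (M * q))) * (w : _) = 1 :=
    congrArg (Subtype.val : nodeRing h W E1 e₁ e₂ i → _) hw
  have hu0 : (u : laurentBaseChange Qb (modularFunctionFieldFull (M * q))) ≠ 0 := by
    intro h0
    rw [h0, zero_mul] at h1
    exact zero_ne_one h1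
  refine ⟨?_, hu0⟩
  have h2 : (u : laurentBaseChange Qb (modularFunctionFieldFull (M * q)))⁻¹ = (w : _) :=
    inv_eq_of_mul_eq_one_right h1
  rw [h2]
  exact nodeRing_le_top h W E1 e₁ e₂ i w.2

/-- A function whose reduction has order one at a place: it is non-zero and `≡ 0` there. -/
theorem ne_zero_and_cong_of_ord_eq_one {Q : Place k (modularFunctionFieldFullC k M)}
    {f : ↥(modularFunctionFieldFullC k M)} (hf : Q.ord f = 1) : f ≠ 0 ∧ Cong Q f 0 := by
  have hf0 : f ≠ 0 := by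
    intro h0
    rw [h0, Place.ord_zero] at hf
    exact zero_ne_one hf
  refine ⟨hf0, ?_⟩
  rw [Fermat.Agent.TR.Node.NodalLocal.cong_zero_iff', Q.adicValuation_eq_exp_neg_ord hf0, hf]
  exact Fermat.Agent.TR.Node.NodalLocal.exp_neg_one_lt_one

include hE1 hS2 in
/-- **(ACC) at the modular objects**: every constant `c` with `|q| ^ k' < |c| < 1` is the value
of the node coordinate `x` at a place (off `supp E1`) reducing to the node. -/
theorem acc_inst (hxy : x * y = ((q : ℕ) : nodeRing h W E1 e₁ e₂ i) ^ k' * u)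
    (hx1 : (e₁ i).ord (redInf h ⟨x, mem_OInf h W E1 e₁ e₂ i x.2⟩) = 1)
    (hx2 : redZero h W ⟨x, mem_OZero h W E1 e₁ e₂ i x.2⟩ = 0)
    (hy1 : redInf h ⟨y, mem_OInf h W E1 e₁ e₂ i y.2⟩ = 0)
    (hy2 : (e₂ i).ord (redZero h W ⟨y, mem_OZero h W E1 e₁ e₂ i y.2⟩) = 1)
    {c : Qb} (hc0 : c ≠ 0) (hc1 : A.valuation c < 1)
    (hcp : A.valuation ((q : ℕ) : Qb) ^ k' < A.valuation c) :
    ∃ Q : Place Qb (laurentBaseChange Qb (modularFunctionFieldFull (M * q))),
      E1 Q = 0 ∧ RedNode A (NodeRingAbs.nodeRing (redPair h W) ⊤ E1 e₁ e₂ i) Q ∧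
        Cong Q (x : laurentBaseChange Qb (modularFunctionFieldFull (M * q))) c := by
  have hF := isFF1_xL Qb (M * q)
  haveI := hF.hasPrincipalDivisors
  exact AccNode.exists_redNode_cong_node (fun x => OPair_hOA h x) (OPair_hval h) (redPair h W) π
    h.pi_eq_zero_iff (hconst h W) (redPair_eq_zero_iff h) E1 (E1_nonneg E1 hE1) e₁ e₂ i
    (charts_E1 h W E1 E2 e₁ e₂ P₁ Z₁ P₂ Z₂ hS2) hF.resK
    (mem_OPair h W E1 e₁ e₂ i x.2) (mem_OPair h W E1 e₁ e₂ i y.2) (mem_OPair h W E1 e₁ e₂ i u.2)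
    (node_eq h W E1 e₁ e₂ i hxy)
    (ne_zero_and_cong_of_ord_eq_one hx1).1 hx2 hy1 (ne_zero_and_cong_of_ord_eq_one hy2).1
    hc0 hc1 hcp

include hE1 hS2 in
/-- The hypothesis `hsmall` of `AnnulusRedNode.redNode_inj` / `redNode_unr` at the modular
objects. -/
theorem hsmall_inst (hu : IsUnit u)
    (hxy : x * y = ((q : ℕ) : nodeRing h W E1 e₁ e₂ i) ^ k' * u)
    (hx1 : (e₁ i).ord (redInf h ⟨x, mem_OInf h W E1 e₁ e₂ i x.2⟩) = 1)
    (hy1 : redInf h ⟨y, mem_OInf h W E1 e₁ e₂ i y.2⟩ = 0) :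
    ∀ Q : Place Qb (laurentBaseChange Qb (modularFunctionFieldFull (M * q))),
      RedNode A (NodeRingAbs.nodeRing (redPair h W) ⊤ E1 e₁ e₂ i) Q → ∀ a b : Qb,
      Cong Q (x : laurentBaseChange Qb (modularFunctionFieldFull (M * q))) a →
      Cong Q (y : laurentBaseChange Qb (modularFunctionFieldFull (M * q))) b →
      A.valuation a < 1 ∧ A.valuation b < 1 ∧ a ≠ 0 := by
  have hy0 : Cong (e₁ i) (redInf h ⟨y, mem_OInf h W E1 e₁ e₂ i y.2⟩) 0 := by
    rw [hy1]
    exact cong_zero _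
  exact AccNode.hsmall_node (fun x => OPair_hOA h x) (OPair_hval h) (redPair h W) π
    h.pi_eq_zero_iff (hconst h W) (redPair_eq_zero_iff h) E1 (E1_nonneg E1 hE1) e₁ e₂ i
    (charts_E1 h W E1 E2 e₁ e₂ P₁ Z₁ P₂ Z₂ hS2) (p := ((q : ℕ) : Qb)) (n := k')
    (Nat.cast_ne_zero.2 (NeZero.ne q))
    (nodeRing_le_top h W E1 e₁ e₂ i x.2) (nodeRing_le_top h W E1 e₁ e₂ i y.2)
    (nodeRing_le_top h W E1 e₁ e₂ i u.2) (unit_inv_mem h W E1 e₁ e₂ i hu).1
    (unit_inv_mem h W E1 e₁ e₂ i hu).2 (node_eq h W E1 e₁ e₂ i hxy)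
    (ne_zero_and_cong_of_ord_eq_one hx1).2 hy0

include hE1 hS2 in
/-- The hypothesis `hsurj` of `AnnulusRedNode.redNode_unr` / `redNode_ord_sub` at the modular
objects: the node coordinate takes, at places reducing to the node, every value close to one of
its values. -/
theorem hsurj_inst (hu : IsUnit u)
    (hxy : x * y = ((q : ℕ) : nodeRing h W E1 e₁ e₂ i) ^ k' * u)
    (hx1 : (e₁ i).ord (redInf h ⟨x, mem_OInf h W E1 e₁ e₂ i x.2⟩) = 1)
    (hx2 : redZero h W ⟨x, mem_OZero h W E1 e₁ e₂ i x.2⟩ = 0)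
    (hy1 : redInf h ⟨y, mem_OInf h W E1 e₁ e₂ i y.2⟩ = 0)
    (hy2 : (e₂ i).ord (redZero h W ⟨y, mem_OZero h W E1 e₁ e₂ i y.2⟩) = 1) :
    ∀ Q : Place Qb (laurentBaseChange Qb (modularFunctionFieldFull (M * q))),
      RedNode A (NodeRingAbs.nodeRing (redPair h W) ⊤ E1 e₁ e₂ i) Q → ∀ c : Qb,
      Cong Q (x : laurentBaseChange Qb (modularFunctionFieldFull (M * q))) c →
      ∀ c' : Qb, c' ≠ 0 → A.valuation (c - c') < A.valuation c →
      ∃ Q' : Place Qb (laurentBaseChange Qb (modularFunctionFieldFull (M * q))),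
        RedNode A (NodeRingAbs.nodeRing (redPair h W) ⊤ E1 e₁ e₂ i) Q' ∧
          Cong Q' (x : laurentBaseChange Qb (modularFunctionFieldFull (M * q))) c' := by
  have hF := isFF1_xL Qb (M * q)
  haveI := hF.hasPrincipalDivisors
  exact AccNode.hsurj_node (fun x => OPair_hOA h x) (OPair_hval h) (redPair h W) π
    h.pi_eq_zero_iff (hconst h W) (redPair_eq_zero_iff h) E1 (E1_nonneg E1 hE1) e₁ e₂ i
    (charts_E1 h W E1 E2 e₁ e₂ P₁ Z₁ P₂ Z₂ hS2) hF.resK (p := ((q : ℕ) : Qb)) (n := k')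
    (Nat.cast_ne_zero.2 (NeZero.ne q))
    (nodeRing_le_top h W E1 e₁ e₂ i x.2) (nodeRing_le_top h W E1 e₁ e₂ i y.2)
    (nodeRing_le_top h W E1 e₁ e₂ i u.2) (unit_inv_mem h W E1 e₁ e₂ i hu).1
    (unit_inv_mem h W E1 e₁ e₂ i hu).2 (node_eq h W E1 e₁ e₂ i hxy)
    (ne_zero_and_cong_of_ord_eq_one hx1).2 (ne_zero_and_cong_of_ord_eq_one hx1).1 hx2 hy1
    (ne_zero_and_cong_of_ord_eq_one hy2).1

end Datum

end Fermat.Agent.TR.Node.AccInst
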