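/-
TR, node side (helper64): **the annulus coordinate lemma in ideal form**, for a node ring in
which the ideal of the point is finitely generated (e.g. a Noetherian node ring).

Setting.  `R` a local domain (the local ring of the model at a node, over the constants `W`),
`ϖ ∈ W` a uniformiser of the constants (`W ∩ 𝔪 = ϖ W`), node coordinates `ξ, η ∈ 𝔪` with
`ξ * η = ϖ ^ n * u`, `u` a unit, and `R = W + ξ R + η R + ϖ R`.  A `W`-rational point of the
generic fibre through the node is a ring homomorphism `ψ : R → R` with values in `W` which is the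
identity on `W` (evaluation at the point, followed by the inclusion of the constants).
Put `c := ψ ξ`, `c' := ψ η`.

* `ker_eq_span` : **`ker ψ = (ξ - c, η - c')`** as soon as `ker ψ` is finitely generated
  (Nakayama: `ker ψ ⊆ (ξ - c, η - c') + ϖ ker ψ`).
* `exists_mul_eq_mul_sub` : **the coordinate `ξ` is unramified at the point**: for every
  `r ∈ ker ψ` there are `s ∉ ker ψ` and `a` with `s * r = a * (ξ - c)`; so `ξ - c` generates the
  maximal ideal of the local ring of the point.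
* `eq_of_apply_eq` : **the coordinate `ξ` is injective on the points through the node**: a second
  point `ψ'` with `ψ' ξ = ψ ξ` is equal to `ψ`.

No valuation, no completion, no boundedness hypothesis: the finiteness of `ker ψ` replaces the
contraction argument.
-/
import Mathlib

set_option autoImplicit false

namespace Fermat.Agent.TR.Node.AnnulusIdeal

open IsLocalRing

section Basic

variable {R : Type*} [CommRing R] (W : Subring R)
  (ψ : R →+* R) (hψW : ∀ r, ψ r ∈ W) (hψ : ∀ w ∈ W, ψ w = w)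

include hψW hψ in
/-- `ψ` is idempotent. -/
theorem psi_psi (r : R) : ψ (ψ r) = ψ r := hψ _ (hψW r)

include hψW hψ in
/-- `r - ψ r` lies in the kernel. -/
theorem sub_mem_ker (r : R) : r - ψ r ∈ RingHom.ker ψ := by
  rw [RingHom.mem_ker, map_sub, psi_psi W ψ hψW hψ, sub_self]

/-- A unit is not in the kernel. -/
theorem not_mem_ker_of_isUnit [Nontrivial R] {r : R} (hr : IsUnit r) : ψ r ≠ 0 := by
  obtain ⟨w, rfl⟩ := hr
  intro h
  have h1 : ψ ((w : R) * ((w⁻¹ : Rˣ) : R)) = 1 := by rw [Units.mul_inv, map_one]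
  rw [map_mul, h, zero_mul] at h1
  exact zero_ne_one h1

include hψW hψ in
/-- A point maps non-units to non-units. -/
theorem psi_mem_maximalIdeal [IsLocalRing R] {r : R} (hr : r ∈ maximalIdeal R) :
    ψ r ∈ maximalIdeal R := by
  by_contra hcon
  have hunit : IsUnit (ψ r) := by
    by_contra h
    exact hcon h
  have h2 : IsUnit (ψ r - r) := by
    by_contra h
    have h3 : ψ r - r ∈ maximalIdeal R := h
    have h4 := Ideal.add_mem _ h3 hr
    rw [sub_add_cancel] at h4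
    exact hcon h4
  have h5 : ψ (ψ r - r) = 0 := by rw [map_sub, psi_psi W ψ hψW hψ, sub_self]
  exact not_mem_ker_of_isUnit ψ h2 h5

end Basic

section Core

variable {R : Type*} [CommRing R] [IsDomain R] [IsLocalRing R]
  (W : Subring R) {ξ η ϖ u : R} {n : ℕ}
  (hϖW : ϖ ∈ W) (hϖ0 : ϖ ≠ 0) (hϖm : ϖ ∈ maximalIdeal R)
  (hηm : η ∈ maximalIdeal R) (hξm : ξ ∈ maximalIdeal R)
  (hWm : ∀ w ∈ W, w ∈ maximalIdeal R → ∃ w' ∈ W, w = ϖ * w')
  (hxy : ξ * η = ϖ ^ n * u) (hu : IsUnit u)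
  (hgen : ∀ r : R, ∃ w ∈ W, ∃ α β γ : R, r = w + α * ξ + β * η + γ * ϖ)
  (ψ : R →+* R) (hψW : ∀ r, ψ r ∈ W) (hψ : ∀ w ∈ W, ψ w = w)

include hϖW hηm hxy hu hψW hψ hϖ0 in
/-- The value `c = ψ ξ` is not divisible by `ϖ ^ n` in `W`: `c * c' = ϖ ^ n * unit` with `c'` a
non-unit. -/
theorem psi_xi_sub_ne (w : R) : ψ ξ - ϖ ^ n * w ≠ 0 := by
  intro h
  have hc : ψ ξ = ϖ ^ n * w := sub_eq_zero.1 h
  have h1 : ψ ξ * ψ η = ϖ ^ n * ψ u := by
    rw [← map_mul, hxy, map_mul, map_pow, hψ ϖ hϖW]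
  rw [hc, mul_assoc] at h1
  have h2 : w * ψ η = ψ u := mul_left_cancel₀ (pow_ne_zero n hϖ0) h1
  have h3 : ψ η ∈ maximalIdeal R := psi_mem_maximalIdeal W ψ hψW hψ hηm
  have h4 : ψ u ∈ maximalIdeal R := by
    rw [← h2]
    exact Ideal.mul_mem_left _ _ h3
  obtain ⟨v, rfl⟩ := hu
  have h5 : IsUnit (ψ (v : R)) := by
    refine IsUnit.of_mul_eq_one (ψ ((v⁻¹ : Rˣ) : R)) ?_
    rw [← map_mul, Units.mul_inv, map_one]
  exact h4 h5

omit [IsDomain R] in
include hϖW hηm hξm hWm hgen hψW hψ in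
/-- The Nakayama step: `ker ψ ⊆ (ξ - c, η - c') + ϖ ker ψ`. -/
theorem ker_le_sup :
    RingHom.ker ψ ≤ Ideal.span {ξ - ψ ξ, η - ψ η} ⊔ Ideal.span {ϖ} • RingHom.ker ψ := by
  intro r hr
  rw [RingHom.mem_ker] at hr
  obtain ⟨w, hw, α, β, γ, rfl⟩ := hgen r
  obtain ⟨c₁, hc₁, hc⟩ := hWm (ψ ξ) (hψW ξ) (psi_mem_maximalIdeal W ψ hψW hψ hξm)
  obtain ⟨c₂, hc₂, hc'⟩ := hWm (ψ η) (hψW η) (psi_mem_maximalIdeal W ψ hψW hψ hηm)
  set ρ : R := α * c₁ + β * c₂ + γ with hρ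
  have e1 : w + α * ξ + β * η + γ * ϖ
      = w + α * (ξ - ψ ξ) + β * (η - ψ η) + ϖ * ρ := by
    rw [hρ]
    have h1 : α * ψ ξ = ϖ * (α * c₁) := by rw [hc]; ring
    have h2 : β * ψ η = ϖ * (β * c₂) := by rw [hc']; ring
    have : w + α * ξ + β * η + γ * ϖ
        = w + α * (ξ - ψ ξ) + β * (η - ψ η) + (α * ψ ξ + β * ψ η + ϖ * γ) := by ring
    rw [this, h1, h2]
    ring
  have hk1 : ψ (ξ - ψ ξ) = 0 := by rw [map_sub, psi_psi W ψ hψW hψ, sub_self]
  have hk2 : ψ (η - ψ η) = 0 := by rw [map_sub, psi_psi W ψ hψW hψ, sub_self]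
  have e2 : w = -(ϖ * ψ ρ) := by
    rw [e1] at hr
    simp only [map_add, map_mul, hk1, hk2, mul_zero, add_zero, hψ w hw, hψ ϖ hϖW] at hr
    exact eq_neg_of_add_eq_zero_left hr
  have e3 : w + α * ξ + β * η + γ * ϖ
      = (α * (ξ - ψ ξ) + β * (η - ψ η)) + ϖ * (ρ - ψ ρ) := by
    rw [e1, e2]
    ring
  rw [e3]
  refine Submodule.add_mem_sup ?_ ?_
  · refine Ideal.add_mem _ (Ideal.mul_mem_left _ _ (Ideal.subset_span ?_))
      (Ideal.mul_mem_left _ _ (Ideal.subset_span ?_))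
    · exact Set.mem_insert _ _
    · exact Set.mem_insert_of_mem _ rfl
  · rw [smul_eq_mul]
    exact Ideal.mul_mem_mul (Ideal.mem_span_singleton_self ϖ) (sub_mem_ker W ψ hψW hψ ρ)

omit [IsDomain R] in
include hϖW hϖm hηm hξm hWm hgen hψW hψ in
/-- **The ideal of a rational point through the node is `(ξ - c, η - c')`.** -/
theorem ker_eq_span (hfg : (RingHom.ker ψ).FG) :
    RingHom.ker ψ = Ideal.span {ξ - ψ ξ, η - ψ η} := by
  refine le_antisymm ?_ ?_
  · refine Submodule.le_of_le_smul_of_le_jacobson_bot hfg ?_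
      (ker_le_sup W hϖW hηm hξm hWm hgen ψ hψW hψ)
    rw [IsLocalRing.jacobson_eq_maximalIdeal ⊥ bot_ne_top, Ideal.span_le,
      Set.singleton_subset_iff]
    exact hϖm
  · rw [Ideal.span_le]
    intro x hx
    rcases hx with rfl | rfl
    · exact sub_mem_ker W ψ hψW hψ ξ
    · exact sub_mem_ker W ψ hψW hψ η

omit [IsDomain R] in
include hϖW hϖm hηm hξm hWm hxy hgen hψW hψ in
/-- The key relation: `(c - ϖ ^ n * b) * (η - c') = (ϖ ^ n * a - η) * (ξ - c)` for suitable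
`a, b`. -/
theorem exists_relation (hfg : (RingHom.ker ψ).FG) :
    ∃ a b : R, (ψ ξ - ϖ ^ n * b) * (η - ψ η) = (ϖ ^ n * a - η) * (ξ - ψ ξ) := by
  have hmem : u - ψ u ∈ Ideal.span {ξ - ψ ξ, η - ψ η} := by
    rw [← ker_eq_span W hϖW hϖm hηm hξm hWm hgen ψ hψW hψ hfg]
    exact sub_mem_ker W ψ hψW hψ u
  obtain ⟨a, b, hab⟩ := Ideal.mem_span_pair.1 hmem
  refine ⟨a, b, ?_⟩
  have h1 : ψ ξ * ψ η = ϖ ^ n * ψ u := by
    rw [← map_mul, hxy, map_mul, map_pow, hψ ϖ hϖW]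
  have h2 : ξ * η - ψ ξ * ψ η = ϖ ^ n * (a * (ξ - ψ ξ) + b * (η - ψ η)) := by
    rw [hxy, h1, hab]
    ring
  have h3 : ξ * η - ψ ξ * ψ η = (ξ - ψ ξ) * η + ψ ξ * (η - ψ η) := by ring
  rw [h3] at h2
  linear_combination h2

include hϖW hϖ0 hϖm hηm hξm hWm hxy hu hgen hψW hψ in
/-- **The node coordinate is unramified at a rational point through the node**: every element
of the ideal of the point is, up to a factor which does not vanish at the point, a multiple of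
`ξ - c`. -/
theorem exists_mul_eq_mul_sub (hfg : (RingHom.ker ψ).FG) {r : R} (hr : ψ r = 0) :
    ∃ s a : R, ψ s ≠ 0 ∧ s * r = a * (ξ - ψ ξ) := by
  obtain ⟨a, b, hab⟩ := exists_relation W hϖW hϖm hηm hξm hWm hxy hgen ψ hψW hψ hfg
  have hmem : r ∈ Ideal.span {ξ - ψ ξ, η - ψ η} := by
    rw [← ker_eq_span W hϖW hϖm hηm hξm hWm hgen ψ hψW hψ hfg]
    exact hr
  obtain ⟨a₁, b₁, rfl⟩ := Ideal.mem_span_pair.1 hmem
  refine ⟨ψ ξ - ϖ ^ n * b, (ψ ξ - ϖ ^ n * b) * a₁ + b₁ * (ϖ ^ n * a - η), ?_, ?_⟩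
  · have h1 : ψ (ψ ξ - ϖ ^ n * b) = ψ ξ - ϖ ^ n * ψ b := by
      rw [map_sub, psi_psi W ψ hψW hψ, map_mul, map_pow, hψ ϖ hϖW]
    rw [h1]
    exact psi_xi_sub_ne W hϖW hϖ0 hηm hxy hu ψ hψW hψ (ψ b)
  · linear_combination b₁ * hab

include hϖW hϖ0 hϖm hηm hξm hWm hxy hu hgen hψW hψ in
/-- **The node coordinate is injective on the rational points through the node.** -/
theorem eq_of_apply_eq (hfg : (RingHom.ker ψ).FG)
    (ψ' : R →+* R) (hψ' : ∀ w ∈ W, ψ' w = w) (hξ : ψ' ξ = ψ ξ) :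
    ψ' = ψ := by
  obtain ⟨a, b, hab⟩ := exists_relation W hϖW hϖm hηm hξm hWm hxy hgen ψ hψW hψ hfg
  -- `ψ' η = ψ η`
  have hd : ψ' (η - ψ η) = 0 := by
    have h1 := congrArg ψ' hab
    rw [map_mul, map_mul, map_sub ψ' ξ, hξ, hψ' (ψ ξ) (hψW ξ), sub_self, mul_zero] at h1
    rcases mul_eq_zero.1 h1 with h2 | h2
    · exfalso
      rw [map_sub, hψ' (ψ ξ) (hψW ξ), map_mul, map_pow, hψ' ϖ hϖW] at h2
      exact psi_xi_sub_ne W hϖW hϖ0 hηm hxy hu ψ hψW hψ (ψ' b) h2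
    · exact h2
  have hker : ∀ r, ψ r = 0 → ψ' r = 0 := by
    intro r hr
    have hmem : r ∈ Ideal.span {ξ - ψ ξ, η - ψ η} := by
      rw [← ker_eq_span W hϖW hϖm hηm hξm hWm hgen ψ hψW hψ hfg]
      exact hr
    obtain ⟨a₁, b₁, rfl⟩ := Ideal.mem_span_pair.1 hmem
    rw [map_add, map_mul, map_mul, hd, map_sub ψ' ξ, hξ, hψ' (ψ ξ) (hψW ξ), sub_self, mul_zero,
      mul_zero, add_zero]
  refine RingHom.ext fun r => ?_
  have h1 := hker (r - ψ r) (sub_mem_ker W ψ hψW hψ r)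
  rw [map_sub, hψ' (ψ r) (hψW r), sub_eq_zero] at h1
  exact h1

omit [IsDomain R] in
include hϖW hϖm hηm hξm hWm hxy hu hgen hψW hψ in
/-- **Injectivity of the node coordinate, general second point.**  A local homomorphism `φ'`
from the node ring to a local domain `V` (a point of the generic fibre through the node, with
values in a valuation ring of any extension of the constants; `φ' ϖ ≠ 0`) which takes at `ξ` the
value `c = ψ ξ` of the rational point `ψ` factors through `ψ`. -/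
theorem apply_eq_of_local (hfg : (RingHom.ker ψ).FG) {V : Type*} [CommRing V] [IsDomain V]
    [IsLocalRing V] (φ' : R →+* V) [IsLocalHom φ'] (hϖ' : φ' ϖ ≠ 0)
    (hξ : φ' ξ = φ' (ψ ξ)) (r : R) : φ' r = φ' (ψ r) := by
  obtain ⟨a, b, hab⟩ := exists_relation W hϖW hϖm hηm hξm hWm hxy hgen ψ hψW hψ hfg
  have hd : φ' (η - ψ η) = 0 := by
    have h1 := congrArg φ' hab
    rw [map_mul, map_mul, map_sub φ' ξ, hξ, sub_self, mul_zero] at h1
    rcases mul_eq_zero.1 h1 with h2 | h2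
    · exfalso
      rw [map_sub, map_mul, map_pow, sub_eq_zero] at h2
      have h3 : φ' ξ * φ' η = φ' ϖ ^ n * φ' u := by
        rw [← map_mul, hxy, map_mul, map_pow]
      rw [hξ, h2, mul_assoc] at h3
      have h4 : φ' b * φ' η = φ' u := mul_left_cancel₀ (pow_ne_zero n hϖ') h3
      have h5 : ¬ IsUnit (φ' η) := fun h => hηm ((isUnit_map_iff φ' η).1 h)
      have h6 : IsUnit (φ' u) := hu.map φ'
      rw [← h4] at h6
      exact h5 (isUnit_of_mul_isUnit_right h6)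
    · exact h2
  have hmem : r - ψ r ∈ Ideal.span {ξ - ψ ξ, η - ψ η} := by
    rw [← ker_eq_span W hϖW hϖm hηm hξm hWm hgen ψ hψW hψ hfg]
    exact sub_mem_ker W ψ hψW hψ r
  obtain ⟨a₁, b₁, h1⟩ := Ideal.mem_span_pair.1 hmem
  have h2 := congrArg φ' h1
  rw [map_add, map_mul, map_mul, hd, map_sub φ' ξ, hξ, sub_self, mul_zero, mul_zero,
    add_zero, map_sub] at h2
  exact (sub_eq_zero.1 h2.symm)

/-! ### Noetherian node rings -/

omit [IsDomain R] in
include hϖW hϖm hηm hξm hWm hgen hψW hψ in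
/-- `ker_eq_span` for a Noetherian node ring. -/
theorem ker_eq_span_of_noetherian [IsNoetherianRing R] :
    RingHom.ker ψ = Ideal.span {ξ - ψ ξ, η - ψ η} :=
  ker_eq_span W hϖW hϖm hηm hξm hWm hgen ψ hψW hψ (IsNoetherian.noetherian _)

include hϖW hϖ0 hϖm hηm hξm hWm hxy hu hgen hψW hψ in
/-- `exists_mul_eq_mul_sub` for a Noetherian node ring. -/
theorem exists_mul_eq_mul_sub_of_noetherian [IsNoetherianRing R] {r : R} (hr : ψ r = 0) :
    ∃ s a : R, ψ s ≠ 0 ∧ s * r = a * (ξ - ψ ξ) :=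
  exists_mul_eq_mul_sub W hϖW hϖ0 hϖm hηm hξm hWm hxy hu hgen ψ hψW hψ
    (IsNoetherian.noetherian _) hr

include hϖW hϖ0 hϖm hηm hξm hWm hxy hu hgen hψW hψ in
/-- `eq_of_apply_eq` for a Noetherian node ring. -/
theorem eq_of_apply_eq_of_noetherian [IsNoetherianRing R]
    (ψ' : R →+* R) (hψ' : ∀ w ∈ W, ψ' w = w) (hξ : ψ' ξ = ψ ξ) :
    ψ' = ψ :=
  eq_of_apply_eq W hϖW hϖ0 hϖm hηm hξm hWm hxy hu hgen ψ hψW hψ
    (IsNoetherian.noetherian _) ψ' hψ' hξ

end Core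

end Fermat.Agent.TR.Node.AnnulusIdeal
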