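/-
TR / Node (helper75): THE ANNULUS COORDINATE LEMMA, quantitative form (Mathlib only).

Same setting as `TR/Node/Annulus.lean`, but for an arbitrary value group `Γ₀` of rank one
(hypothesis `harch : ∀ θ ε : Γ₀, θ < 1 → ε ≠ 0 → ∃ j : ℕ, θ ^ j < ε`), so that everything applies
to `A.valuation` for a valuation subring `A` of `Qb` directly.

`R` is the local ring of a node of the special fibre (`x * y = ϖ ^ n * u`, `u` a unit,
`R = S + x R + y R + ϖ R`), `φ φ' : R →+* Ω` two points of the residue annulus of the node.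

* `lipschitz` : a bounded `(φ, φ')`-derivation `δ` which kills the constants and `ϖ` satisfies
  `v (φ x) * v (δ r) ≤ v (δ x)` for every `r` (no hypothesis on `δ x`);
* `twisted_eq_zero'` : hence `δ = 0` if `δ x = 0`;
* `hom_lipschitz` : `v (φ x) * v (φ r - φ' r) ≤ v (φ x - φ' x)` — every function of the node ring
  is `1 / |x(P)|`-Lipschitz in the coordinate `x` on the residue annulus;
* `hom_ext_of_node'` : the coordinate is injective on the annulus.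

Second part (`section Span`): `T` a commutative `Ω`-algebra (the ring generated by the node ring
and the constants), points `ψ : T →ₐ[Ω] Ω`.

* `span_lipschitz` : every element of the `Ω`-span of the node ring is Lipschitz in `x` at a
  given point `ψ` of the annulus;
* `not_double_zero` : **the coordinate is unramified on the annulus** — if the points of the
  annulus accumulate at `ψ` in the coordinate `x`, a relation
  `a' ^ e * b = a * (x - x(ψ)) * b' ^ e` with `a'(ψ) = 0`, `a(ψ) ≠ 0`, `b'(ψ) ≠ 0`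
  (i.e. `x - x(ψ) = unit * π ^ e` with `π = a' / b'` vanishing at `ψ`) is impossible for `e ≥ 2`.

No completion, no Noetherian hypothesis, no boundedness hypothesis on Taylor coefficients.
-/
import Mathlib

set_option autoImplicit false

namespace Fermat.Agent.TR.Node.AnnulusLip

section Core

variable {R Ω Γ₀ : Type*} [CommRing R] [Field Ω] [LinearOrderedCommGroupWithZero Γ₀]
  (v : Valuation Ω Γ₀)

/-- A homomorphism with integral values sends units to elements of absolute value `1`. -/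
theorem map_isUnit_eq_one (φ : R →+* Ω) (hφ : ∀ r, v (φ r) ≤ 1) {u : R} (hu : IsUnit u) :
    v (φ u) = 1 := by
  obtain ⟨w, hw⟩ := hu.exists_right_inv
  have h1 : v (φ u) * v (φ w) = 1 := by rw [← map_mul, ← map_mul, hw, map_one, map_one]
  refine le_antisymm (hφ u) ?_
  calc (1 : Γ₀) = v (φ u) * v (φ w) := h1.symm
    _ ≤ v (φ u) * 1 := mul_le_mul' le_rfl (hφ w)
    _ = v (φ u) := mul_one _

variable (φ φ' : R →+* Ω) (δ : R → Ω)

/-- A twisted derivation kills `1`. -/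
theorem twisted_one (hmul : ∀ r s, δ (r * s) = φ r * δ s + δ r * φ' s) : δ 1 = 0 := by
  have h := hmul 1 1
  rw [mul_one, map_one, map_one, one_mul, mul_one] at h
  have h2 : δ 1 + δ 1 = δ 1 + 0 := by rw [add_zero]; exact h.symm
  exact add_left_cancel h2

/-- A twisted derivation which kills `ϖ` kills its powers. -/
theorem twisted_pow (hmul : ∀ r s, δ (r * s) = φ r * δ s + δ r * φ' s) {ϖ : R} (hϖ : δ ϖ = 0)
    (n : ℕ) : δ (ϖ ^ n) = 0 := by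
  induction n with
  | zero => rw [pow_zero]; exact twisted_one φ φ' δ hmul
  | succ n ih => rw [pow_succ, hmul, hϖ, ih, mul_zero, zero_mul, add_zero]

/-- The key identity at a node `x * y = ϖ ^ n * u` for a twisted derivation killing `ϖ`. -/
theorem twisted_node (hmul : ∀ r s, δ (r * s) = φ r * δ s + δ r * φ' s) {ϖ x y u : R} {n : ℕ}
    (hxy : x * y = ϖ ^ n * u) (hϖ : δ ϖ = 0) :
    φ x * (δ y * φ u) = φ x * (φ y * δ u) - δ x * φ' y * φ u := by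
  have h1 : δ (x * y) = φ x * δ y + δ x * φ' y := hmul x y
  have h2 : δ (ϖ ^ n * u) = φ (ϖ ^ n) * δ u := by
    rw [hmul, twisted_pow φ φ' δ hmul hϖ n, zero_mul, add_zero]
  have h3 : φ x * δ y + δ x * φ' y = φ (ϖ ^ n) * δ u := by rw [← h1, hxy, h2]
  have h4 : φ x * φ y = φ (ϖ ^ n) * φ u := by rw [← map_mul, hxy, map_mul]
  have h5 : φ x * δ y = φ (ϖ ^ n) * δ u - δ x * φ' y := by rw [← h3]; ring
  calc φ x * (δ y * φ u) = (φ x * δ y) * φ u := by ring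
    _ = (φ (ϖ ^ n) * δ u - δ x * φ' y) * φ u := by rw [h5]
    _ = (φ (ϖ ^ n) * φ u) * δ u - δ x * φ' y * φ u := by ring
    _ = (φ x * φ y) * δ u - δ x * φ' y * φ u := by rw [h4]
    _ = φ x * (φ y * δ u) - δ x * φ' y * φ u := by ring

/-- **One contraction step.** -/
theorem lip_step (hφ : ∀ r, v (φ r) ≤ 1)
    (hadd : ∀ r s, δ (r + s) = δ r + δ s)
    (hmul : ∀ r s, δ (r * s) = φ r * δ s + δ r * φ' s)
    (S : Set R) (hS : ∀ c ∈ S, δ c = 0)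
    {ϖ x y u : R} {n : ℕ} (hxy : x * y = ϖ ^ n * u) (hu : IsUnit u)
    (hϖ : δ ϖ = 0)
    (hgen : ∀ r : R, ∃ c ∈ S, ∃ α β γ : R, r = c + α * x + β * y + γ * ϖ)
    (θ : Γ₀) (hθ1 : θ ≤ 1) (hθx : v (φ' x) ≤ θ) (hθy : v (φ y) ≤ θ) (hθy' : v (φ' y) ≤ θ)
    (hθϖ : v (φ' ϖ) ≤ θ)
    (B : Γ₀) (hB : ∀ r, v (φ x) * v (δ r) ≤ B) (r : R) :
    v (φ x) * v (δ r) ≤ max (θ * B) (v (δ x)) := by
  obtain ⟨c, hc, α, β, γ, rfl⟩ := hgen r
  have hx1 : v (φ x) ≤ 1 := hφ x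
  have hy : v (φ x) * v (δ y) ≤ max (θ * B) (v (δ x)) := by
    have h1 := twisted_node φ φ' δ hmul hxy hϖ
    have h2 : v (φ x) * v (δ y) = v (φ x * (φ y * δ u) - δ x * φ' y * φ u) := by
      rw [← h1, map_mul, map_mul, map_isUnit_eq_one v φ hφ hu, mul_one]
    rw [h2]
    refine (v.map_sub _ _).trans (max_le_max ?_ ?_)
    · rw [map_mul, map_mul, mul_left_comm]
      exact mul_le_mul' hθy (hB u)
    · rw [map_mul, map_mul, map_isUnit_eq_one v φ hφ hu, mul_one]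
      calc v (δ x) * v (φ' y) ≤ v (δ x) * 1 := mul_le_mul' le_rfl (hθy'.trans hθ1)
        _ = v (δ x) := mul_one _
  have key : ∀ a b : Ω, v (φ x) * v a ≤ max (θ * B) (v (δ x)) →
      v (φ x) * v b ≤ max (θ * B) (v (δ x)) →
      v (φ x) * v (a + b) ≤ max (θ * B) (v (δ x)) := by
    intro a b ha hb
    rcases le_total (v a) (v b) with h | h
    · exact (mul_le_mul' le_rfl ((v.map_add _ _).trans (max_le h le_rfl))).trans hb
    · exact (mul_le_mul' le_rfl ((v.map_add _ _).trans (max_le le_rfl h))).trans ha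
  have e1 : δ (α * x) = φ α * δ x + δ α * φ' x := hmul α x
  have e2 : δ (β * y) = φ β * δ y + δ β * φ' y := hmul β y
  have e3 : δ (γ * ϖ) = δ γ * φ' ϖ := by rw [hmul, hϖ, mul_zero, zero_add]
  have b1 : v (φ x) * v (φ α * δ x) ≤ max (θ * B) (v (δ x)) := by
    refine le_trans ?_ (le_max_right _ _)
    calc v (φ x) * v (φ α * δ x) = (v (φ x) * v (φ α)) * v (δ x) := by rw [map_mul, mul_assoc]
      _ ≤ 1 * v (δ x) := mul_le_mul' (mul_le_one' hx1 (hφ α)) le_rfl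
      _ = v (δ x) := one_mul _
  have b2 : v (φ x) * v (δ α * φ' x) ≤ max (θ * B) (v (δ x)) := by
    refine le_trans ?_ (le_max_left _ _)
    rw [map_mul, ← mul_assoc, mul_comm]
    exact mul_le_mul' hθx (hB α)
  have b3 : v (φ x) * v (φ β * δ y) ≤ max (θ * B) (v (δ x)) := by
    calc v (φ x) * v (φ β * δ y) = v (φ β) * (v (φ x) * v (δ y)) := by
          rw [map_mul, mul_left_comm]
      _ ≤ 1 * max (θ * B) (v (δ x)) := mul_le_mul' (hφ β) hy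
      _ = max (θ * B) (v (δ x)) := one_mul _
  have b4 : v (φ x) * v (δ β * φ' y) ≤ max (θ * B) (v (δ x)) := by
    refine le_trans ?_ (le_max_left _ _)
    rw [map_mul, ← mul_assoc, mul_comm]
    exact mul_le_mul' hθy' (hB β)
  have b5 : v (φ x) * v (δ γ * φ' ϖ) ≤ max (θ * B) (v (δ x)) := by
    refine le_trans ?_ (le_max_left _ _)
    rw [map_mul, ← mul_assoc, mul_comm]
    exact mul_le_mul' hθϖ (hB γ)
  have e : δ (c + α * x + β * y + γ * ϖ)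
      = φ α * δ x + δ α * φ' x + (φ β * δ y + δ β * φ' y) + δ γ * φ' ϖ := by
    rw [hadd, hadd, hadd, hS c hc, zero_add, e1, e2, e3]
  rw [e]
  exact key _ _ (key _ _ (key _ _ b1 b2) (key _ _ b3 b4)) b5

/-- **The Lipschitz bound.**  A bounded `(φ, φ')`-derivation on the local ring of a node which
kills the constants and `ϖ` is controlled by its value at the node coordinate `x`. -/
theorem lipschitz (hφ : ∀ r, v (φ r) ≤ 1)
    (harch : ∀ θ ε : Γ₀, θ < 1 → ε ≠ 0 → ∃ j : ℕ, θ ^ j < ε)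
    (hadd : ∀ r s, δ (r + s) = δ r + δ s)
    (hmul : ∀ r s, δ (r * s) = φ r * δ s + δ r * φ' s)
    (S : Set R) (hS : ∀ c ∈ S, δ c = 0)
    {ϖ x y u : R} {n : ℕ} (hxy : x * y = ϖ ^ n * u) (hu : IsUnit u)
    (hϖ : δ ϖ = 0)
    (hvx : v (φ' x) < 1) (hvy : v (φ y) < 1) (hvy' : v (φ' y) < 1) (hvϖ : v (φ' ϖ) < 1)
    (hgen : ∀ r : R, ∃ c ∈ S, ∃ α β γ : R, r = c + α * x + β * y + γ * ϖ)
    (hbdd : ∃ C : Γ₀, ∀ r, v (δ r) ≤ C) (r : R) :
    v (φ x) * v (δ r) ≤ v (δ x) := by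
  obtain ⟨C, hC⟩ := hbdd
  set θ : Γ₀ := max (max (v (φ' x)) (v (φ y))) (max (v (φ' y)) (v (φ' ϖ))) with hθ
  have hθ1 : θ < 1 := max_lt (max_lt hvx hvy) (max_lt hvy' hvϖ)
  have hθx : v (φ' x) ≤ θ := le_trans (le_max_left _ _) (le_max_left _ _)
  have hθy : v (φ y) ≤ θ := le_trans (le_max_right _ _) (le_max_left _ _)
  have hθy' : v (φ' y) ≤ θ := le_trans (le_max_left _ _) (le_max_right _ _)
  have hθϖ : v (φ' ϖ) ≤ θ := le_trans (le_max_right _ _) (le_max_right _ _)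
  have hB0 : ∀ r, v (φ x) * v (δ r) ≤ C := fun r =>
    calc v (φ x) * v (δ r) ≤ 1 * C := mul_le_mul' (hφ x) (hC r)
      _ = C := one_mul _
  have key : ∀ j : ℕ, ∀ r, v (φ x) * v (δ r) ≤ max (θ ^ j * C) (v (δ x)) := by
    intro j
    induction j with
    | zero => intro r; rw [pow_zero, one_mul]; exact (hB0 r).trans (le_max_left _ _)
    | succ j ih =>
      intro r
      have h := lip_step v φ φ' δ hφ hadd hmul S hS hxy hu hϖ hgen θ hθ1.le hθx hθy hθy' hθϖ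
        (max (θ ^ j * C) (v (δ x))) ih r
      refine h.trans (max_le ?_ (le_max_right _ _))
      rcases le_total (θ ^ j * C) (v (δ x)) with h' | h'
      · rw [max_eq_right h']
        calc θ * v (δ x) ≤ 1 * v (δ x) := mul_le_mul' hθ1.le le_rfl
          _ = v (δ x) := one_mul _
          _ ≤ max (θ ^ (j + 1) * C) (v (δ x)) := le_max_right _ _
      · rw [max_eq_left h', ← mul_assoc, ← pow_succ']
        exact le_max_left _ _
  by_contra hne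
  rw [not_le] at hne
  have ht0 : v (φ x) * v (δ r) ≠ 0 := (lt_of_le_of_lt zero_le hne).ne'
  have hj : ∃ j : ℕ, θ ^ j * C < v (φ x) * v (δ r) := by
    by_cases hC0 : C = 0
    · exact ⟨0, by rw [hC0, mul_zero]; exact zero_lt_iff.2 ht0⟩
    · obtain ⟨j, hj⟩ := harch θ (v (φ x) * v (δ r) * C⁻¹) hθ1
        (mul_ne_zero ht0 (inv_ne_zero hC0))
      refine ⟨j, ?_⟩
      have h := mul_lt_mul_of_pos_right hj (zero_lt_iff.2 hC0)
      rwa [inv_mul_cancel_right₀ hC0] at h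
  obtain ⟨j, hj⟩ := hj
  exact absurd (key j r) (not_le.2 (max_lt hj hne))

/-- **The contraction lemma** (any value group of rank one). -/
theorem twisted_eq_zero' (hφ : ∀ r, v (φ r) ≤ 1)
    (harch : ∀ θ ε : Γ₀, θ < 1 → ε ≠ 0 → ∃ j : ℕ, θ ^ j < ε)
    (hadd : ∀ r s, δ (r + s) = δ r + δ s)
    (hmul : ∀ r s, δ (r * s) = φ r * δ s + δ r * φ' s)
    (S : Set R) (hS : ∀ c ∈ S, δ c = 0)
    {ϖ x y u : R} {n : ℕ} (hxy : x * y = ϖ ^ n * u) (hu : IsUnit u)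
    (hϖ : δ ϖ = 0) (hx : δ x = 0) (hx0 : φ x ≠ 0)
    (hvx : v (φ' x) < 1) (hvy : v (φ y) < 1) (hvy' : v (φ' y) < 1) (hvϖ : v (φ' ϖ) < 1)
    (hgen : ∀ r : R, ∃ c ∈ S, ∃ α β γ : R, r = c + α * x + β * y + γ * ϖ)
    (hbdd : ∃ C : Γ₀, ∀ r, v (δ r) ≤ C) (r : R) : δ r = 0 := by
  have h := lipschitz v φ φ' δ hφ harch hadd hmul S hS hxy hu hϖ hvx hvy hvy' hvϖ hgen hbdd r
  rw [hx, map_zero] at h
  have h2 : v (φ x) * v (δ r) = 0 := le_antisymm h zero_le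
  rcases mul_eq_zero.1 h2 with h3 | h3
  · exact absurd ((v.zero_iff).1 h3) hx0
  · exact (v.zero_iff).1 h3

/-- **Functions of the node ring are Lipschitz in the coordinate on the residue annulus.** -/
theorem hom_lipschitz (hφ : ∀ r, v (φ r) ≤ 1) (hφ' : ∀ r, v (φ' r) ≤ 1)
    (harch : ∀ θ ε : Γ₀, θ < 1 → ε ≠ 0 → ∃ j : ℕ, θ ^ j < ε)
    (S : Set R) (hS : ∀ c ∈ S, φ c = φ' c)
    {ϖ x y u : R} {n : ℕ} (hxy : x * y = ϖ ^ n * u) (hu : IsUnit u)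
    (hϖ : φ ϖ = φ' ϖ)
    (hvx : v (φ' x) < 1) (hvy : v (φ y) < 1) (hvy' : v (φ' y) < 1) (hvϖ : v (φ' ϖ) < 1)
    (hgen : ∀ r : R, ∃ c ∈ S, ∃ α β γ : R, r = c + α * x + β * y + γ * ϖ) (r : R) :
    v (φ x) * v (φ r - φ' r) ≤ v (φ x - φ' x) :=
  lipschitz v φ φ' (fun r => φ r - φ' r) hφ harch
    (fun r s => by rw [map_add, map_add]; ring)
    (fun r s => by rw [map_mul, map_mul]; ring)
    S (fun c hc => by rw [hS c hc, sub_self]) hxy hu (by rw [hϖ, sub_self]) hvx hvy hvy' hvϖ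
    hgen ⟨1, fun r => (v.map_sub _ _).trans (max_le (hφ r) (hφ' r))⟩ r

/-- **The coordinate is injective on the annulus** (any value group of rank one). -/
theorem hom_ext_of_node' (hφ : ∀ r, v (φ r) ≤ 1) (hφ' : ∀ r, v (φ' r) ≤ 1)
    (harch : ∀ θ ε : Γ₀, θ < 1 → ε ≠ 0 → ∃ j : ℕ, θ ^ j < ε)
    (S : Set R) (hS : ∀ c ∈ S, φ c = φ' c)
    {ϖ x y u : R} {n : ℕ} (hxy : x * y = ϖ ^ n * u) (hu : IsUnit u)
    (hϖ : φ ϖ = φ' ϖ) (hx : φ x = φ' x) (hx0 : φ x ≠ 0)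
    (hvx : v (φ x) < 1) (hvy : v (φ y) < 1) (hvy' : v (φ' y) < 1) (hvϖ : v (φ ϖ) < 1)
    (hgen : ∀ r : R, ∃ c ∈ S, ∃ α β γ : R, r = c + α * x + β * y + γ * ϖ) : φ = φ' := by
  refine RingHom.ext fun r => ?_
  have h := hom_lipschitz v φ φ' hφ hφ' harch S hS hxy hu hϖ (by rw [← hx]; exact hvx) hvy hvy'
    (by rw [← hϖ]; exact hvϖ) hgen r
  rw [hx, sub_self, map_zero, ← hx] at h
  have h2 : v (φ x) * v (φ r - φ' r) = 0 := le_antisymm h zero_le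
  rcases mul_eq_zero.1 h2 with h3 | h3
  · exact absurd ((v.zero_iff).1 h3) hx0
  · exact sub_eq_zero.1 ((v.zero_iff).1 h3)

end Core

section Span

variable {Ω Γ₀ T : Type*} [Field Ω] [LinearOrderedCommGroupWithZero Γ₀] (v : Valuation Ω Γ₀)
  [CommRing T] [Algebra Ω T]

/-- **Node data** in a commutative `Ω`-algebra `T`: a subring `Rs` (the local ring of the node)
with `x * y = ϖ ^ n * u`, `u` a unit of `Rs`, `ϖ` a constant, and
`Rs = (constants of Rs) + x Rs + y Rs + ϖ Rs`. -/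
structure IsNode (Ω : Type*) {T : Type*} [Field Ω] [CommRing T] [Algebra Ω T] (Rs : Subring T)
    (x y u ϖ : T) (n : ℕ) : Prop where
  x_mem : x ∈ Rs
  y_mem : y ∈ Rs
  u_mem : u ∈ Rs
  ϖ_mem : ϖ ∈ Rs
  ϖ_const : ∃ p0 : Ω, ϖ = algebraMap Ω T p0
  xy : x * y = ϖ ^ n * u
  u_unit : ∃ w ∈ Rs, u * w = 1
  gen : ∀ r ∈ Rs, ∃ a : Ω, algebraMap Ω T a ∈ Rs ∧ ∃ α ∈ Rs, ∃ β ∈ Rs, ∃ γ ∈ Rs,
    r = algebraMap Ω T a + α * x + β * y + γ * ϖ

/-- **Points of the residue annulus of the node**: `Ω`-points of `T` with integral values on the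
node ring and small values at `x`, `y`, `ϖ`. -/
structure IsPt (Rs : Subring T) (x y ϖ : T) (ψ : T →ₐ[Ω] Ω) : Prop where
  int : ∀ r ∈ Rs, v (ψ r) ≤ 1
  x_lt : v (ψ x) < 1
  y_lt : v (ψ y) < 1
  ϖ_lt : v (ψ ϖ) < 1

variable {v}

/-- The Lipschitz bound for two points of the annulus, on the node ring. -/
theorem pt_lipschitz (harch : ∀ θ ε : Γ₀, θ < 1 → ε ≠ 0 → ∃ j : ℕ, θ ^ j < ε)
    {Rs : Subring T} {x y u ϖ : T} {n : ℕ} (hN : IsNode Ω Rs x y u ϖ n)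
    {ψ ψ' : T →ₐ[Ω] Ω} (hψ : IsPt v Rs x y ϖ ψ) (hψ' : IsPt v Rs x y ϖ ψ') {r : T}
    (hr : r ∈ Rs) : v (ψ x) * v (ψ r - ψ' r) ≤ v (ψ x - ψ' x) := by
  obtain ⟨w, hw, huw⟩ := hN.u_unit
  obtain ⟨p0, hp0⟩ := hN.ϖ_const
  have h := hom_lipschitz v ((ψ : T →+* Ω).comp Rs.subtype) ((ψ' : T →+* Ω).comp Rs.subtype)
    (fun r => hψ.int r r.2) (fun r => hψ'.int r r.2) harch
    {c : Rs | ∃ a : Ω, (c : T) = algebraMap Ω T a}
    (fun c hc => by
      obtain ⟨a, ha⟩ := hc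
      show ψ (c : T) = ψ' (c : T)
      rw [ha, AlgHom.commutes, AlgHom.commutes])
    (ϖ := ⟨ϖ, hN.ϖ_mem⟩) (x := ⟨x, hN.x_mem⟩) (y := ⟨y, hN.y_mem⟩) (u := ⟨u, hN.u_mem⟩)
    (n := n) (Subtype.ext hN.xy)
    (IsUnit.of_mul_eq_one (⟨w, hw⟩ : Rs) (Subtype.ext huw))
    (by show ψ ϖ = ψ' ϖ; rw [hp0, AlgHom.commutes, AlgHom.commutes])
    hψ'.x_lt hψ.y_lt hψ'.y_lt hψ'.ϖ_lt
    (fun r => by
      obtain ⟨a, ha, α, hα, β, hβ, γ, hγ, e⟩ := hN.gen r r.2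
      exact ⟨⟨algebraMap Ω T a, ha⟩, ⟨a, rfl⟩, ⟨α, hα⟩, ⟨β, hβ⟩, ⟨γ, hγ⟩, Subtype.ext e⟩)
    ⟨r, hr⟩
  exact h

/-- Every element of the `Ω`-span of the node ring is Lipschitz in the coordinate `x` at a point
`ψ` of the annulus. -/
theorem span_lipschitz (harch : ∀ θ ε : Γ₀, θ < 1 → ε ≠ 0 → ∃ j : ℕ, θ ^ j < ε)
    {Rs : Subring T} {x y u ϖ : T} {n : ℕ} (hN : IsNode Ω Rs x y u ϖ n)
    {ψ : T →ₐ[Ω] Ω} (hψ : IsPt v Rs x y ϖ ψ) (hx0 : ψ x ≠ 0) {t : T}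
    (ht : t ∈ Submodule.span Ω (Rs : Set T)) :
    ∃ C : Γ₀, ∀ ψ' : T →ₐ[Ω] Ω, IsPt v Rs x y ϖ ψ' →
      v (ψ t - ψ' t) ≤ C * v (ψ x - ψ' x) := by
  induction ht using Submodule.span_induction with
  | mem r hr =>
    refine ⟨(v (ψ x))⁻¹, fun ψ' hψ' => ?_⟩
    have h := pt_lipschitz harch hN hψ hψ' hr
    have hvx : v (ψ x) ≠ 0 := (v.ne_zero_iff).2 hx0
    calc v (ψ r - ψ' r) = (v (ψ x))⁻¹ * (v (ψ x) * v (ψ r - ψ' r)) :=
          (inv_mul_cancel_left₀ hvx _).symm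
      _ ≤ (v (ψ x))⁻¹ * v (ψ x - ψ' x) := mul_le_mul' le_rfl h
  | zero => exact ⟨0, fun ψ' _ => by simp⟩
  | add s t _ _ ihs iht =>
    obtain ⟨C₁, h₁⟩ := ihs
    obtain ⟨C₂, h₂⟩ := iht
    refine ⟨max C₁ C₂, fun ψ' hψ' => ?_⟩
    have e : ψ (s + t) - ψ' (s + t) = (ψ s - ψ' s) + (ψ t - ψ' t) := by
      rw [map_add, map_add]; ring
    rw [e]
    refine (v.map_add _ _).trans (max_le ?_ ?_)
    · exact (h₁ ψ' hψ').trans (mul_le_mul' (le_max_left _ _) le_rfl)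
    · exact (h₂ ψ' hψ').trans (mul_le_mul' (le_max_right _ _) le_rfl)
  | smul a t _ iht =>
    obtain ⟨C₁, h₁⟩ := iht
    refine ⟨v a * C₁, fun ψ' hψ' => ?_⟩
    have e : ψ (a • t) - ψ' (a • t) = a * (ψ t - ψ' t) := by
      rw [map_smul, map_smul, smul_eq_mul, smul_eq_mul]; ring
    rw [e, map_mul, mul_assoc]
    exact mul_le_mul' le_rfl (h₁ ψ' hψ')

theorem min_ne_zero_aux {a b : Γ₀} (ha : a ≠ 0) (hb : b ≠ 0) : min a b ≠ 0 := by
  rcases min_choice a b with h | h <;> rw [h] <;> assumption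

/-- **The coordinate is unramified on the annulus.**  If the points of the annulus accumulate at
`ψ` in the coordinate `x`, then `x - x(ψ)` cannot be `unit * π ^ e` with `e ≥ 2` and `π`
vanishing at `ψ`: a relation `a' ^ e * b = a * (x - x(ψ)) * b' ^ e` between elements of the
`Ω`-span of the node ring with `a'(ψ) = 0`, `a(ψ) ≠ 0`, `b'(ψ) ≠ 0` is impossible. -/
theorem not_double_zero (harch : ∀ θ ε : Γ₀, θ < 1 → ε ≠ 0 → ∃ j : ℕ, θ ^ j < ε)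
    {Rs : Subring T} {x y u ϖ : T} {n : ℕ} (hN : IsNode Ω Rs x y u ϖ n)
    {ψ : T →ₐ[Ω] Ω} (hψ : IsPt v Rs x y ϖ ψ) (hx0 : ψ x ≠ 0)
    (hacc : ∀ ρ : Γ₀, ρ ≠ 0 → ∃ ψ' : T →ₐ[Ω] Ω, IsPt v Rs x y ϖ ψ' ∧ ψ' x ≠ ψ x ∧
      v (ψ x - ψ' x) < ρ)
    {a a' b b' : T} (ha : a ∈ Submodule.span Ω (Rs : Set T))
    (ha' : a' ∈ Submodule.span Ω (Rs : Set T)) (hb : b ∈ Submodule.span Ω (Rs : Set T))
    (hb' : b' ∈ Submodule.span Ω (Rs : Set T)) {e : ℕ} (he : 2 ≤ e)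
    (hrel : a' ^ e * b = a * (x - algebraMap Ω T (ψ x)) * b' ^ e)
    (ha'0 : ψ a' = 0) (ha0 : ψ a ≠ 0) (hb'0 : ψ b' ≠ 0) : False := by
  obtain ⟨Ca, hCa⟩ := span_lipschitz harch hN hψ hx0 ha
  obtain ⟨Ca', hCa'⟩ := span_lipschitz harch hN hψ hx0 ha'
  obtain ⟨Cb, hCb⟩ := span_lipschitz harch hN hψ hx0 hb
  obtain ⟨Cb', hCb'⟩ := span_lipschitz harch hN hψ hx0 hb'
  have hva : v (ψ a) ≠ 0 := (v.ne_zero_iff).2 ha0
  have hvb' : v (ψ b') ≠ 0 := (v.ne_zero_iff).2 hb'0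
  have hK0 : v (ψ a) * v (ψ b') ^ e ≠ 0 := mul_ne_zero hva (pow_ne_zero _ hvb')
  have hA10 : max Ca 1 ≠ 0 := (lt_of_lt_of_le zero_lt_one (le_max_right _ _)).ne'
  have hB10 : max Cb' 1 ≠ 0 := (lt_of_lt_of_le zero_lt_one (le_max_right _ _)).ne'
  have hD0 : max (Ca' ^ e * max (v (ψ b)) Cb) 1 ≠ 0 :=
    (lt_of_lt_of_le zero_lt_one (le_max_right _ _)).ne'
  obtain ⟨ψ', hψ', hne, hlt⟩ := hacc
    (min (min 1 (v (ψ a) * (max Ca 1)⁻¹))
      (min (v (ψ b') * (max Cb' 1)⁻¹)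
        (v (ψ a) * v (ψ b') ^ e * (max (Ca' ^ e * max (v (ψ b)) Cb) 1)⁻¹)))
    (min_ne_zero_aux (min_ne_zero_aux one_ne_zero (mul_ne_zero hva (inv_ne_zero hA10)))
      (min_ne_zero_aux (mul_ne_zero hvb' (inv_ne_zero hB10))
        (mul_ne_zero hK0 (inv_ne_zero hD0))))
  have hE0 : v (ψ x - ψ' x) ≠ 0 := (v.ne_zero_iff).2 (sub_ne_zero.2 (Ne.symm hne))
  have hE1 : v (ψ x - ψ' x) < 1 :=
    lt_of_lt_of_le hlt ((min_le_left _ _).trans (min_le_left _ _))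
  have hEa : v (ψ x - ψ' x) < v (ψ a) * (max Ca 1)⁻¹ :=
    lt_of_lt_of_le hlt ((min_le_left _ _).trans (min_le_right _ _))
  have hEb : v (ψ x - ψ' x) < v (ψ b') * (max Cb' 1)⁻¹ :=
    lt_of_lt_of_le hlt ((min_le_right _ _).trans (min_le_left _ _))
  have hEK : v (ψ x - ψ' x)
      < v (ψ a) * v (ψ b') ^ e * (max (Ca' ^ e * max (v (ψ b)) Cb) 1)⁻¹ :=
    lt_of_lt_of_le hlt ((min_le_right _ _).trans (min_le_right _ _))
  have key : ∀ (c : T) (C : Γ₀), (v (ψ c - ψ' c) ≤ C * v (ψ x - ψ' x)) →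
      v (ψ x - ψ' x) < v (ψ c) * (max C 1)⁻¹ → v (ψ' c) = v (ψ c) := by
    intro c C h1 h2
    have hC0 : max C 1 ≠ 0 := (lt_of_lt_of_le zero_lt_one (le_max_right _ _)).ne'
    have hlt2 : v (ψ c - ψ' c) < v (ψ c) := by
      calc v (ψ c - ψ' c) ≤ C * v (ψ x - ψ' x) := h1
        _ ≤ max C 1 * v (ψ x - ψ' x) := mul_le_mul' (le_max_left _ _) le_rfl
        _ < max C 1 * (v (ψ c) * (max C 1)⁻¹) :=
            mul_lt_mul_of_pos_left h2 (zero_lt_iff.2 hC0)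
        _ = v (ψ c) := by rw [mul_comm, mul_assoc, inv_mul_cancel₀ hC0, mul_one]
    have e2 : ψ' c = ψ c - (ψ c - ψ' c) := by ring
    rw [e2]
    exact Valuation.map_sub_eq_of_lt_left v hlt2
  have h1 : v (ψ' a') ≤ Ca' * v (ψ x - ψ' x) := by
    have h := hCa' ψ' hψ'
    rwa [ha'0, zero_sub, Valuation.map_neg] at h
  have h2 : v (ψ' a) = v (ψ a) := key a Ca (hCa ψ' hψ') hEa
  have h3 : v (ψ' b') = v (ψ b') := key b' Cb' (hCb' ψ' hψ') hEb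
  have h4 : v (ψ' b) ≤ max (v (ψ b)) Cb := by
    have e4 : ψ' b = ψ b - (ψ b - ψ' b) := by ring
    rw [e4]
    refine (v.map_sub _ _).trans (max_le_max le_rfl ?_)
    calc v (ψ b - ψ' b) ≤ Cb * v (ψ x - ψ' x) := hCb ψ' hψ'
      _ ≤ Cb * 1 := mul_le_mul' le_rfl hE1.le
      _ = Cb := mul_one _
  have h5 : ψ' a' ^ e * ψ' b = ψ' a * (ψ' x - ψ x) * ψ' b' ^ e := by
    have h := congrArg ψ' hrel
    rwa [map_mul, map_pow, map_mul, map_mul, map_pow, map_sub, AlgHom.commutes] at h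
  have h6 : v (ψ' a') ^ e * v (ψ' b)
      = v (ψ a) * v (ψ b') ^ e * v (ψ x - ψ' x) := by
    have h := congrArg v h5
    rw [map_mul, map_pow, map_mul, map_mul, map_pow, h2, h3, Valuation.map_sub_swap] at h
    rw [h, mul_right_comm]
  have h7 : v (ψ a) * v (ψ b') ^ e * v (ψ x - ψ' x)
      ≤ max (Ca' ^ e * max (v (ψ b)) Cb) 1 * (v (ψ x - ψ' x) * v (ψ x - ψ' x)) := by
    rw [← h6]
    have hpow : v (ψ x - ψ' x) ^ e ≤ v (ψ x - ψ' x) * v (ψ x - ψ' x) := by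
      obtain ⟨k, rfl⟩ := Nat.exists_eq_add_of_le he
      rw [pow_add, pow_two]
      calc v (ψ x - ψ' x) * v (ψ x - ψ' x) * v (ψ x - ψ' x) ^ k
          ≤ v (ψ x - ψ' x) * v (ψ x - ψ' x) * 1 :=
            mul_le_mul' le_rfl (pow_le_one' hE1.le k)
        _ = v (ψ x - ψ' x) * v (ψ x - ψ' x) := mul_one _
    calc v (ψ' a') ^ e * v (ψ' b) ≤ (Ca' * v (ψ x - ψ' x)) ^ e * max (v (ψ b)) Cb :=
          mul_le_mul' (pow_le_pow_left' h1 e) h4
      _ = (Ca' ^ e * max (v (ψ b)) Cb) * v (ψ x - ψ' x) ^ e := by rw [mul_pow, mul_right_comm]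
      _ ≤ max (Ca' ^ e * max (v (ψ b)) Cb) 1 * (v (ψ x - ψ' x) * v (ψ x - ψ' x)) :=
          mul_le_mul' (le_max_left _ _) hpow
  have h8 : v (ψ a) * v (ψ b') ^ e
      ≤ max (Ca' ^ e * max (v (ψ b)) Cb) 1 * v (ψ x - ψ' x) := by
    have h := mul_le_mul' h7 (le_refl (v (ψ x - ψ' x))⁻¹)
    rwa [mul_inv_cancel_right₀ hE0, ← mul_assoc, mul_inv_cancel_right₀ hE0] at h
  have h9 : max (Ca' ^ e * max (v (ψ b)) Cb) 1 * v (ψ x - ψ' x)
      < v (ψ a) * v (ψ b') ^ e := by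
    calc max (Ca' ^ e * max (v (ψ b)) Cb) 1 * v (ψ x - ψ' x)
        < max (Ca' ^ e * max (v (ψ b)) Cb) 1 *
            (v (ψ a) * v (ψ b') ^ e * (max (Ca' ^ e * max (v (ψ b)) Cb) 1)⁻¹) :=
          mul_lt_mul_of_pos_left hEK (zero_lt_iff.2 hD0)
      _ = v (ψ a) * v (ψ b') ^ e := by rw [mul_comm, mul_assoc, inv_mul_cancel₀ hD0, mul_one]
  exact absurd h8 (not_le.2 h9)

end Span

end Fermat.Agent.TR.Node.AnnulusLip
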