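/-
TR / Node (helper75), PL-D (b): THE ANNULUS COORDINATE LEMMA FOR PLACES.

`F/K` a function field (`K = Qb`), `v : Valuation K Γ₀` of rank one (`harch`), `R ⊆ F` the local
ring of a node of the special fibre: `IsNode K R x y u ϖ n` (`x * y = ϖ ^ n * u`, `u` a unit of
`R`, `ϖ` a constant, `R = (constants of R) + x R + y R + ϖ R`), with `v ϖ < 1`.

A place `P` of `F/K` is **through the node** (`Through v R x y P`) if its residue field is `K`,
every function of `R` is regular at `P` with integral value, and `|x(P)| < 1`, `|y(P)| < 1`.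

* `through_lipschitz` : `v (x(P)) * v (g(P) - g(P')) ≤ v (x(P) - x(P'))` for `g ∈ R`, `P`, `P'`
  through the node;
* `pval_eq_of_coord_eq` : `x(P) = x(P') ≠ 0` implies `g(P) = g(P')` for all `g` in the `K`-span of
  `R`;
* `eq_of_coord_eq` : hence `P = P'` if the local ring of `P` is generated by `R` over `K`
  (`LocAt R P`: every `f` regular at `P` is `a / b` with `a, b` in the `K`-span of `R`,
  `b(P) ≠ 0`) — **the coordinate `x` is injective on the places through the node**;
* `ord_coord_eq_one` : `ord_P (x - x(P)) = 1` if moreover the places through the node accumulate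
  at `P` in the coordinate — **the coordinate is unramified**;
* `ord_coord_sub` : `ord_P (x - c) = 1` if `x(P) = c`, `0` otherwise;
* `ord_aeval_eq` : for a split polynomial `N ≠ 0` over `K`,
  `ord_P (N(x)) = rootMultiplicity (x(P)) N`.
-/
import Mathlib
import Fermat.Agent.TR.Node.AnnulusLip
import Fermat.Agent.MW.HtM.PVal

set_option autoImplicit false

noncomputable section

namespace Fermat.Agent.TR.Node.AnnulusPlace

open AlgebraicCurve Fermat.Agent.Lib.FF Fermat.Agent.MW.HtM Fermat.Agent.TR.Node.AnnulusLip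

variable {K F Γ₀ : Type*} [Field K] [Field F] [Algebra K F]
  [LinearOrderedCommGroupWithZero Γ₀]

/-- A place through the node. -/
structure Through (v : Valuation K Γ₀) (R : Subring F) (x y : F) (P : Place K F) : Prop where
  res : RR.ResK P
  mem : ∀ g ∈ R, g ∈ P.toValuationSubring
  int : ∀ g ∈ R, v (pval P g) ≤ 1
  x_lt : v (pval P x) < 1
  y_lt : v (pval P y) < 1

/-- The local ring of `P` is generated by `R` over the constants. -/
def LocAt (R : Subring F) (P : Place K F) : Prop :=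
  ∀ f ∈ P.toValuationSubring, ∃ a ∈ Submodule.span K (R : Set F),
    ∃ b ∈ Submodule.span K (R : Set F), pval P b ≠ 0 ∧ f * b = a

/-- The `K`-algebra generated by the node ring. -/
def nodeAlg (K : Type*) {F : Type*} [Field K] [Field F] [Algebra K F] (R : Subring F) :
    Subalgebra K F := Algebra.adjoin K (R : Set F)

theorem mem_nodeAlg {R : Subring F} {g : F} (hg : g ∈ R) : g ∈ nodeAlg K R :=
  Algebra.subset_adjoin hg

/-- The node ring as a subring of `nodeAlg K R`. -/
def nodeSub (K : Type*) {F : Type*} [Field K] [Field F] [Algebra K F] (R : Subring F) :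
    Subring (nodeAlg K R) := R.comap (nodeAlg K R).val.toRingHom

theorem mem_nodeSub {R : Subring F} {t : nodeAlg K R} : t ∈ nodeSub K R ↔ (t : F) ∈ R :=
  Iff.rfl

theorem exists_span_lift {R : Subring F} {g : F} (hg : g ∈ Submodule.span K (R : Set F)) :
    ∃ t : nodeAlg K R, (t : F) = g ∧
      t ∈ Submodule.span K (nodeSub K R : Set (nodeAlg K R)) := by
  induction hg using Submodule.span_induction with
  | mem r hr => exact ⟨⟨r, mem_nodeAlg hr⟩, rfl, Submodule.subset_span hr⟩
  | zero => exact ⟨0, rfl, Submodule.zero_mem _⟩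
  | add s t _ _ ihs iht =>
    obtain ⟨s', rfl, hs'⟩ := ihs
    obtain ⟨t', rfl, ht'⟩ := iht
    exact ⟨s' + t', rfl, Submodule.add_mem _ hs' ht'⟩
  | smul a t _ iht =>
    obtain ⟨t', rfl, ht'⟩ := iht
    exact ⟨a • t', rfl, Submodule.smul_mem _ a ht'⟩

theorem isNode_nodeSub {R : Subring F} {x y u ϖ : F} {n : ℕ} (hN : IsNode K R x y u ϖ n) :
    IsNode K (nodeSub K R) (⟨x, mem_nodeAlg hN.x_mem⟩ : nodeAlg K R)
      ⟨y, mem_nodeAlg hN.y_mem⟩ ⟨u, mem_nodeAlg hN.u_mem⟩ ⟨ϖ, mem_nodeAlg hN.ϖ_mem⟩ n where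
  x_mem := hN.x_mem
  y_mem := hN.y_mem
  u_mem := hN.u_mem
  ϖ_mem := hN.ϖ_mem
  ϖ_const := by
    obtain ⟨p0, hp0⟩ := hN.ϖ_const
    exact ⟨p0, Subtype.ext hp0⟩
  xy := Subtype.ext hN.xy
  u_unit := by
    obtain ⟨w, hw, h⟩ := hN.u_unit
    exact ⟨⟨w, mem_nodeAlg hw⟩, hw, Subtype.ext h⟩
  gen := by
    intro r hr
    obtain ⟨a, ha, α, hα, β, hβ, γ, hγ, e⟩ := hN.gen (r : F) hr
    exact ⟨a, ha, ⟨α, mem_nodeAlg hα⟩, hα, ⟨β, mem_nodeAlg hβ⟩, hβ, ⟨γ, mem_nodeAlg hγ⟩, hγ,
      Subtype.ext e⟩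

variable {v : Valuation K Γ₀} {R : Subring F} {x y u ϖ : F} {n : ℕ}

namespace Through

variable {P : Place K F}

theorem nodeAlg_le (h : Through v R x y P) : ∀ a ∈ nodeAlg K R, a ∈ P.toValuationSubring := by
  intro a ha
  have hle : nodeAlg K R ≤
      (⟨P.toValuationSubring.toSubring.toSubsemiring, fun c => P.algebraMap_mem' c⟩ :
        Subalgebra K F) := Algebra.adjoin_le h.mem
  exact hle ha

theorem span_mem (h : Through v R x y P) {g : F} (hg : g ∈ Submodule.span K (R : Set F)) :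
    g ∈ P.toValuationSubring := by
  obtain ⟨t, rfl, -⟩ := exists_span_lift hg
  exact h.nodeAlg_le _ t.2

/-- The point of `nodeAlg K R` defined by a place through the node. -/
def pt (h : Through v R x y P) : nodeAlg K R →ₐ[K] K :=
  pvalAlgHom P h.res (nodeAlg K R) h.nodeAlg_le

theorem pt_apply (h : Through v R x y P) (t : nodeAlg K R) : h.pt t = pval P (t : F) := rfl

theorem isPt (h : Through v R x y P) (hN : IsNode K R x y u ϖ n)
    (hϖ : ∀ p0 : K, ϖ = algebraMap K F p0 → v p0 < 1) :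
    IsPt v (nodeSub K R) (⟨x, mem_nodeAlg hN.x_mem⟩ : nodeAlg K R) ⟨y, mem_nodeAlg hN.y_mem⟩
      ⟨ϖ, mem_nodeAlg hN.ϖ_mem⟩ h.pt where
  int := fun r hr => h.int (r : F) hr
  x_lt := h.x_lt
  y_lt := h.y_lt
  ϖ_lt := by
    obtain ⟨p0, hp0⟩ := hN.ϖ_const
    show v (pval P ϖ) < 1
    rw [hp0, pval_algebraMap]
    exact hϖ p0 hp0

end Through

/-- **Lipschitz bound**: every function of the node ring is `1 / |x(P)|`-Lipschitz in the
coordinate `x` on the places through the node. -/
theorem through_lipschitz (harch : ∀ θ ε : Γ₀, θ < 1 → ε ≠ 0 → ∃ j : ℕ, θ ^ j < ε)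
    (hN : IsNode K R x y u ϖ n) (hϖ : ∀ p0 : K, ϖ = algebraMap K F p0 → v p0 < 1)
    {P P' : Place K F} (hP : Through v R x y P) (hP' : Through v R x y P') {g : F}
    (hg : g ∈ R) : v (pval P x) * v (pval P g - pval P' g) ≤ v (pval P x - pval P' x) :=
  pt_lipschitz harch (isNode_nodeSub hN) (hP.isPt hN hϖ) (hP'.isPt hN hϖ)
    (r := (⟨g, mem_nodeAlg hg⟩ : nodeAlg K R)) hg

/-- Two places through the node with the same value of the coordinate have the same values on
the `K`-span of the node ring. -/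
theorem pval_eq_of_coord_eq (harch : ∀ θ ε : Γ₀, θ < 1 → ε ≠ 0 → ∃ j : ℕ, θ ^ j < ε)
    (hN : IsNode K R x y u ϖ n) (hϖ : ∀ p0 : K, ϖ = algebraMap K F p0 → v p0 < 1)
    {P P' : Place K F} (hP : Through v R x y P) (hP' : Through v R x y P')
    (hx0 : pval P x ≠ 0) (hx : pval P x = pval P' x) {g : F}
    (hg : g ∈ Submodule.span K (R : Set F)) : pval P g = pval P' g := by
  obtain ⟨t, rfl, ht⟩ := exists_span_lift hg
  obtain ⟨C, hC⟩ := span_lipschitz harch (isNode_nodeSub hN) (hP.isPt hN hϖ)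
    (show hP.pt ⟨x, mem_nodeAlg hN.x_mem⟩ ≠ 0 from hx0) ht
  have h := hC hP'.pt (hP'.isPt hN hϖ)
  have h0 : hP.pt ⟨x, mem_nodeAlg hN.x_mem⟩ - hP'.pt ⟨x, mem_nodeAlg hN.x_mem⟩ = 0 :=
    sub_eq_zero.2 hx
  rw [h0, map_zero, mul_zero] at h
  exact sub_eq_zero.1 ((v.zero_iff).1 (le_antisymm h zero_le))

/-- **The coordinate is injective on the places through the node.** -/
theorem eq_of_coord_eq (harch : ∀ θ ε : Γ₀, θ < 1 → ε ≠ 0 → ∃ j : ℕ, θ ^ j < ε)
    (hN : IsNode K R x y u ϖ n) (hϖ : ∀ p0 : K, ϖ = algebraMap K F p0 → v p0 < 1)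
    {P P' : Place K F} (hP : Through v R x y P) (hP' : Through v R x y P')
    (hloc : LocAt R P) (hx0 : pval P x ≠ 0) (hx : pval P x = pval P' x) : P = P' := by
  refine Fermat.Agent.S24.place_eq_of_le fun f hf => ?_
  obtain ⟨a, ha, b, hb, hb0, hab⟩ := hloc f hf
  have hb' : pval P' b ≠ 0 := by
    rw [← pval_eq_of_coord_eq harch hN hϖ hP hP' hx0 hx hb]; exact hb0
  have hbP' : b ∈ P'.toValuationSubring := hP'.span_mem hb
  have haP' : a ∈ P'.toValuationSubring := hP'.span_mem ha
  have hb00 : b ≠ 0 := by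
    rintro rfl
    exact hb' (pval_zero P')
  have hbinv : b⁻¹ ∈ P'.toValuationSubring := by
    have hval : P'.adicValuation b = 1 := by
      have h1 := P'.adicValuation_le_one_of_mem hbP'
      refine le_antisymm h1 (not_lt.mp fun h => hb' ((pval_eq_zero_iff hP'.res hbP').mpr h))
    exact RR.mem_of_val_le_one P' (by rw [map_inv₀, hval, inv_one])
  have hf' : f = a * b⁻¹ := by rw [← hab, mul_assoc, mul_inv_cancel₀ hb00, mul_one]
  rw [hf']
  exact mul_mem haP' hbinv

theorem ord_npow (P : Place K F) (f : F) (m : ℕ) : P.ord (f ^ m) = m * P.ord f := by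
  rw [← zpow_natCast, P.ord_zpow]

theorem exists_ord_eq_one (P : Place K F) : ∃ π : F, P.ord π = 1 := by
  obtain ⟨π, hπ⟩ := IsDiscreteValuationRing.exists_irreducible P.toValuationSubring
  exact ⟨π, P.ord_coe_irreducible hπ⟩

/-- **The coordinate is unramified on the places through the node**: `x - x(P)` has a simple zero
at `P`, provided the local ring of `P` is generated by `R` over `K` and the places through the
node accumulate at `P` in the coordinate. -/
theorem ord_coord_eq_one (harch : ∀ θ ε : Γ₀, θ < 1 → ε ≠ 0 → ∃ j : ℕ, θ ^ j < ε)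
    (hN : IsNode K R x y u ϖ n) (hϖ : ∀ p0 : K, ϖ = algebraMap K F p0 → v p0 < 1)
    {P : Place K F} (hP : Through v R x y P) (hloc : LocAt R P) (hx0 : pval P x ≠ 0)
    (hacc : ∀ ρ : Γ₀, ρ ≠ 0 → ∃ P' : Place K F, Through v R x y P' ∧ pval P' x ≠ pval P x ∧
      v (pval P x - pval P' x) < ρ) :
    P.ord (x - algebraMap K F (pval P x)) = 1 := by
  have hres := hP.res
  have hxP : x ∈ P.toValuationSubring := hP.mem x hN.x_mem
  have hzP : x - algebraMap K F (pval P x) ∈ P.toValuationSubring :=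
    sub_mem hxP (P.algebraMap_mem' _)
  have hz0 : x - algebraMap K F (pval P x) ≠ 0 := by
    intro h0
    obtain ⟨P', -, hne, -⟩ := hacc 1 one_ne_zero
    apply hne
    have hxc : x = algebraMap K F (pval P x) := sub_eq_zero.1 h0
    conv_lhs => rw [hxc]
    rw [pval_algebraMap]
  have hpz : pval P (x - algebraMap K F (pval P x)) = 0 := by
    rw [pval_sub hres hxP (P.algebraMap_mem' _), pval_algebraMap, sub_self]
  have hpos : 0 < P.ord (x - algebraMap K F (pval P x)) :=
    (pval_eq_zero_iff_ord hres hz0 (Fermat.Agent.S24.ord_nonneg_of_mem P hzP)).1 hpz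
  by_contra hne1
  obtain ⟨e, he⟩ : ∃ e : ℕ, P.ord (x - algebraMap K F (pval P x)) = e :=
    ⟨(P.ord (x - algebraMap K F (pval P x))).toNat, (Int.toNat_of_nonneg hpos.le).symm⟩
  have he2 : 2 ≤ e := by omega
  obtain ⟨π, hπ⟩ := exists_ord_eq_one P
  have hπ0 : π ≠ 0 := by
    rintro rfl
    rw [P.ord_zero] at hπ
    exact zero_ne_one hπ
  have hπP : π ∈ P.toValuationSubring := Fermat.Agent.S24.mem_of_ord_nonneg P (by omega)
  have hpπ : pval P π = 0 := pval_eq_zero_of_ord_pos (by omega)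
  have hΘ0 : π ^ e * (x - algebraMap K F (pval P x))⁻¹ ≠ 0 :=
    mul_ne_zero (pow_ne_zero _ hπ0) (inv_ne_zero hz0)
  have hΘord : P.ord (π ^ e * (x - algebraMap K F (pval P x))⁻¹) = 0 := by
    rw [P.ord_mul (pow_ne_zero _ hπ0) (inv_ne_zero hz0), P.ord_inv, ord_npow, hπ, he]
    ring
  have hΘP : π ^ e * (x - algebraMap K F (pval P x))⁻¹ ∈ P.toValuationSubring :=
    Fermat.Agent.S24.mem_of_ord_nonneg P hΘord.ge
  have hpΘ : pval P (π ^ e * (x - algebraMap K F (pval P x))⁻¹) ≠ 0 :=
    pval_ne_zero_of_ord_eq_zero hres hΘ0 hΘord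
  obtain ⟨a, ha, b, hb, hb0, hab⟩ := hloc _ hΘP
  obtain ⟨a', ha', b', hb', hb'0, hab'⟩ := hloc π hπP
  have hbP : b ∈ P.toValuationSubring := hP.span_mem hb
  have hb'P : b' ∈ P.toValuationSubring := hP.span_mem hb'
  have hrelF : a' ^ e * b = a * (x - algebraMap K F (pval P x)) * b' ^ e := by
    rw [← hab', ← hab, mul_pow]
    have h1 : π ^ e * (x - algebraMap K F (pval P x))⁻¹ * b * (x - algebraMap K F (pval P x))
        * b' ^ e = π ^ e * b' ^ e * b
          * ((x - algebraMap K F (pval P x))⁻¹ * (x - algebraMap K F (pval P x))) := by ring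
    rw [h1, inv_mul_cancel₀ hz0, mul_one]
  have ha'0 : pval P a' = 0 := by rw [← hab', pval_mul hres hπP hb'P, hpπ, zero_mul]
  have ha0 : pval P a ≠ 0 := by
    rw [← hab, pval_mul hres hΘP hbP]
    exact mul_ne_zero hpΘ hb0
  obtain ⟨ta, rfl, hta⟩ := exists_span_lift ha
  obtain ⟨ta', rfl, hta'⟩ := exists_span_lift ha'
  obtain ⟨tb, rfl, htb⟩ := exists_span_lift hb
  obtain ⟨tb', rfl, htb'⟩ := exists_span_lift hb'
  refine not_double_zero harch (isNode_nodeSub hN) (hP.isPt hN hϖ)
    (show hP.pt ⟨x, mem_nodeAlg hN.x_mem⟩ ≠ 0 from hx0) ?_ hta hta' htb htb' he2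
    (Subtype.ext hrelF) ha'0 ha0 hb'0
  intro ρ hρ
  obtain ⟨P', hP', hne, hlt⟩ := hacc ρ hρ
  exact ⟨hP'.pt, hP'.isPt hN hϖ, hne, hlt⟩

/-- The coordinate is not a constant (as soon as it has a simple zero somewhere). -/
theorem coord_sub_ne_zero {P : Place K F} (h1 : P.ord (x - algebraMap K F (pval P x)) = 1)
    (c : K) : x - algebraMap K F c ≠ 0 := by
  intro h0
  have hxc : x = algebraMap K F c := sub_eq_zero.1 h0
  have h2 : x - algebraMap K F (pval P x) = 0 := by
    conv_lhs => rw [hxc]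
    rw [pval_algebraMap, sub_self]
  rw [h2, P.ord_zero] at h1
  exact zero_ne_one h1

open Classical in
/-- `ord_P (x - c)` is `1` if `x(P) = c` and `0` otherwise. -/
theorem ord_coord_sub {P : Place K F} (hres : RR.ResK P) (hxP : x ∈ P.toValuationSubring)
    (h1 : P.ord (x - algebraMap K F (pval P x)) = 1) (c : K) :
    P.ord (x - algebraMap K F c) = if pval P x = c then 1 else 0 := by
  split_ifs with h
  · rw [← h]; exact h1
  · have hmem : x - algebraMap K F c ∈ P.toValuationSubring :=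
      sub_mem hxP (P.algebraMap_mem' c)
    have hp : pval P (x - algebraMap K F c) ≠ 0 := by
      rw [pval_sub hres hxP (P.algebraMap_mem' c), pval_algebraMap]
      exact sub_ne_zero.2 h
    have h0 := Fermat.Agent.S24.ord_nonneg_of_mem P hmem
    by_contra hne
    exact hp ((pval_eq_zero_iff_ord hres (coord_sub_ne_zero h1 c) h0).2
      (lt_of_le_of_ne h0 (Ne.symm hne)))

open Classical in
theorem ord_prod_coord {P : Place K F} (hres : RR.ResK P) (hxP : x ∈ P.toValuationSubring)
    (h1 : P.ord (x - algebraMap K F (pval P x)) = 1) (s : Multiset K) :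
    (s.map fun r => x - algebraMap K F r).prod ≠ 0 ∧
      P.ord (s.map fun r => x - algebraMap K F r).prod = (s.count (pval P x) : ℤ) := by
  induction s using Multiset.induction_on with
  | empty => simp
  | cons r s ih =>
    obtain ⟨ih0, ih1⟩ := ih
    have hr0 : x - algebraMap K F r ≠ 0 := coord_sub_ne_zero h1 r
    rw [Multiset.map_cons, Multiset.prod_cons]
    refine ⟨mul_ne_zero hr0 ih0, ?_⟩
    rw [P.ord_mul hr0 ih0, ih1, ord_coord_sub hres hxP h1 r, Multiset.count_cons]
    split_ifs with h <;> push_cast <;> ring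

/-- **Order of a polynomial in the coordinate** at a place where the coordinate is unramified:
`ord_P (N(x)) = rootMultiplicity (x(P)) N` for a split polynomial `N ≠ 0`. -/
theorem ord_aeval_eq {P : Place K F} (hres : RR.ResK P) (hxP : x ∈ P.toValuationSubring)
    (h1 : P.ord (x - algebraMap K F (pval P x)) = 1) (N : Polynomial K) (hN0 : N ≠ 0)
    (hsplit : N.Splits) :
    P.ord (Polynomial.aeval x N) = (N.rootMultiplicity (pval P x) : ℤ) := by
  classical
  have hlc : N.leadingCoeff ≠ 0 := Polynomial.leadingCoeff_ne_zero.2 hN0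
  obtain ⟨h0, h2⟩ := ord_prod_coord hres hxP h1 N.roots
  have e : Polynomial.aeval x N
      = algebraMap K F N.leadingCoeff * (N.roots.map fun r => x - algebraMap K F r).prod := by
    conv_lhs => rw [hsplit.eq_prod_roots]
    rw [map_mul, Polynomial.aeval_C, map_multiset_prod, Multiset.map_map]
    congr 2
    refine Multiset.map_congr rfl fun r _ => ?_
    simp
  rw [e, P.ord_mul ((map_ne_zero (algebraMap K F)).2 hlc) h0, Fermat.Agent.S24.ord_algebraMap,
    zero_add, h2, Polynomial.count_roots]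

end Fermat.Agent.TR.Node.AnnulusPlace
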