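/-
TR / Node (helper75), (GEN) place form: THE COORDINATE OF A NODE IS INJECTIVE AND UNRAMIFIED ON
THE PLACES REDUCING TO THE NODE — in the `RedNode` / `Cong` vocabulary of `TR/Node/HorUnit.lean`
(the literal hypotheses `(inj)`, `(unr)` of `TR/PL/GenProd`).

Abstract setting: `F/L` a function field, `A` a valuation subring of `L` of rank one
(`harchA`, the shape of `BadSetup.harch`), `R ≤ Rh` two subrings of `F` (`R` the DISCRETE node
ring — `IsNode L R ξ η u ϖ n`, `ϖ` a constant of absolute value `< 1` — and `Rh` the node ring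
over the big field), `RedNode A Rh Q` = "`Q` reduces to the node".  Inputs:

* `hsmall` : the annulus — `ξ(Q)`, `η(Q)` are small and `ξ(Q) ≠ 0` (`RedNode.annulus`);
* `hloc`   : `LocAt R Q` — the local ring of `Q` is generated by `R` over `L`
             (`locAt_of_span` below: from Riemann–Roch and `L(N • E) ⊆ span_L R`);
* `hsurj`  : surjectivity of the coordinate near a value (`exists_redNode_cong`).

Results: `locAt_of_span`, `through_of_redNode`, `harch_of`, **`redNode_inj`**, **`redNode_unr`**,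
`redNode_ord_sub` (`ord_{Q'} (ξ - ξ(Q)) = 1` if `Q' = Q`, `0` otherwise).
-/
import Mathlib
import Fermat.Agent.TR.Node.AnnulusPlace
import Fermat.Agent.TR.Node.HorUnit
import Fermat.Agent.Lib.FF.RRApprox

set_option autoImplicit false

noncomputable section

namespace Fermat.Agent.TR.Node.AnnulusRedNode

open AlgebraicCurve Fermat.Agent.Lib.FF Fermat.Agent.MW.HtM Fermat.Agent.BAD.NodalRiemann
  Fermat.Agent.TR.Node.AnnulusLip Fermat.Agent.TR.Node.AnnulusPlace Fermat.Agent.TR.Node.HorUnit

variable {L F : Type*} [Field L] [Field F] [Algebra L F]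

theorem val_le_one_iff_mem (Q : Place L F) (g : F) :
    Q.adicValuation g ≤ 1 ↔ g ∈ Q.toValuationSubring :=
  ⟨fun h => RR.mem_of_val_le_one Q h, fun h => Q.adicValuation_le_one_of_mem h⟩

theorem val_le_one_iff_ord (Q : Place L F) (g : F) : Q.adicValuation g ≤ 1 ↔ 0 ≤ Q.ord g := by
  rw [val_le_one_iff_mem, Fermat.Agent.S24.mem_iff_ord_nonneg]

/-- **(LOC) from Riemann–Roch.**  If every `L(N • E)` lies in the `L`-span of `R`, then the local
ring of a place `P` off the support of `E` is generated by `R` over `L`. -/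
theorem locAt_of_span {x₀ : F} (h : IsFF1 L F x₀) {E : Divisor L F} (hE : 0 ≤ E)
    {P₀ : Place L F} (hP₀ : E P₀ ≠ 0) (R : Subring F)
    (hspan : ∀ N : ℕ, ∀ f ∈ riemannRochSpace (N • E), f ∈ Submodule.span L (R : Set F))
    {P : Place L F} (hPE : E P = 0) : LocAt R P := by
  classical
  intro f hf
  have hpd := h.hasPrincipalDivisors
  have hfin := Res.Adele.finite_poles (K := L) f
  have hP₀S : P₀ ∉ insert P (hfin.toFinset.filter fun v => E v = 0) := by
    rw [Finset.mem_insert, Finset.mem_filter]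
    rintro (rfl | ⟨-, h0⟩)
    · exact hP₀ hPE
    · exact hP₀ h0
  obtain ⟨b, hb0, hbS, hbout⟩ := h.exists_ord_eq _ P₀ hP₀S
    (fun v => if v = P then 0 else -v.ord f)
  have hbP : P.ord b = 0 := by
    rw [hbS P (Finset.mem_insert_self _ _), if_pos rfl]
  have hfP : 0 ≤ P.ord f := Fermat.Agent.S24.ord_nonneg_of_mem P hf
  -- the order of `b` at the places off `supp E`
  have hbord : ∀ Q : Place L F, E Q = 0 → 0 ≤ Q.ord b ∧ 0 ≤ Q.ord f + Q.ord b := by
    intro Q hQ
    by_cases hQP : Q = P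
    · rw [hQP, hbP]
      exact ⟨le_rfl, by omega⟩
    by_cases hpole : Q.adicValuation f ≤ 1
    · have h1 : 0 ≤ Q.ord f := (val_le_one_iff_ord Q f).1 hpole
      have h2 : 0 ≤ Q.ord b := by
        by_cases hQS : Q ∈ insert P (hfin.toFinset.filter fun v => E v = 0)
        · rw [Finset.mem_insert, Finset.mem_filter, Set.Finite.mem_toFinset] at hQS
          rcases hQS with h3 | ⟨h3, -⟩
          · exact absurd h3 hQP
          · exact absurd hpole h3
        · exact hbout Q hQS (fun e => hP₀ (e ▸ hQ))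
      exact ⟨h2, by omega⟩
    · have hQS : Q ∈ insert P (hfin.toFinset.filter fun v => E v = 0) := by
        rw [Finset.mem_insert, Finset.mem_filter, Set.Finite.mem_toFinset]
        exact Or.inr ⟨hpole, hQ⟩
      have h1 : Q.ord f < 0 := by
        by_contra hcon
        exact hpole ((val_le_one_iff_ord Q f).2 (not_lt.1 hcon))
      rw [hbS Q hQS, if_neg hQP]
      exact ⟨by omega, by omega⟩
  have hbreg : ∀ Q : Place L F, E Q = 0 → Q.adicValuation b ≤ 1 := fun Q hQ =>
    (val_le_one_iff_ord Q b).2 (hbord Q hQ).1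
  have hareg : ∀ Q : Place L F, E Q = 0 → Q.adicValuation (f * b) ≤ 1 := by
    intro Q hQ
    by_cases hf0 : f = 0
    · rw [hf0, zero_mul, map_zero]; exact zero_le_one
    · rw [val_le_one_iff_ord, Q.ord_mul hf0 hb0]
      exact (hbord Q hQ).2
  obtain ⟨Nb, hNb⟩ := exists_mem_L_of_regular hE hbreg
  obtain ⟨Na, hNa⟩ := exists_mem_L_of_regular hE hareg
  exact ⟨f * b, hspan Na _ hNa, b, hspan Nb _ hNb,
    pval_ne_zero_of_ord_eq_zero (h.resK P) hb0 hbP, rfl⟩

variable {A : ValuationSubring L}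

/-- The rank-one property of the value group, from its element form (`BadSetup.harch`). -/
theorem harch_of
    (harchA : ∀ a Δ : L, A.valuation a < 1 → Δ ≠ 0 → ∃ k : ℕ, A.valuation (a ^ k) < A.valuation Δ)
    (θ ε : A.ValueGroup) (hθ : θ < 1) (hε : ε ≠ 0) : ∃ j : ℕ, θ ^ j < ε := by
  obtain ⟨a, rfl⟩ := A.valuation_surjective θ
  obtain ⟨Δ, rfl⟩ := A.valuation_surjective ε
  have hΔ : Δ ≠ 0 := by
    rintro rfl
    exact hε (map_zero _)
  obtain ⟨k, hk⟩ := harchA a Δ hθ hΔ
  exact ⟨k, by rwa [map_pow] at hk⟩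

variable {R Rh : Subring F} {ξ η u ϖ : F} {n : ℕ}

theorem cong_mem {Q : Place L F} {g : F} {c : L} (hc : Cong Q g c) :
    g ∈ Q.toValuationSubring := by
  have h1 : g - algebraMap L F c ∈ Q.toValuationSubring := RR.mem_of_val_le_one Q (le_of_lt hc)
  have h2 : g = (g - algebraMap L F c) + algebraMap L F c := by ring
  rw [h2]
  exact add_mem h1 (Q.algebraMap_mem' c)

/-- A place reducing to the node is a place through the node. -/
theorem through_of_redNode (hres : ∀ Q : Place L F, RR.ResK Q) (hRRh : R ≤ Rh)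
    (hN : IsNode L R ξ η u ϖ n)
    (hsmall : ∀ Q : Place L F, RedNode A Rh Q → ∀ a b : L, Cong Q ξ a → Cong Q η b →
      A.valuation a < 1 ∧ A.valuation b < 1 ∧ a ≠ 0)
    {Q : Place L F} (hQ : RedNode A Rh Q) : Through A.valuation R ξ η Q := by
  obtain ⟨a, -, ha⟩ := hQ ξ (hRRh hN.x_mem)
  obtain ⟨b, -, hb⟩ := hQ η (hRRh hN.y_mem)
  obtain ⟨h1, h2, -⟩ := hsmall Q hQ a b ha hb
  refine ⟨hres Q, fun g hg => ?_, fun g hg => ?_, ?_, ?_⟩
  · obtain ⟨c, -, hc⟩ := hQ g (hRRh hg)
    exact cong_mem hc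
  · obtain ⟨c, hcA, hc⟩ := hQ g (hRRh hg)
    rw [pval_eq Q hc]
    exact (A.valuation_le_one_iff c).2 hcA
  · rw [pval_eq Q ha]; exact h1
  · rw [pval_eq Q hb]; exact h2

section Main

variable
  (harchA : ∀ a Δ : L, A.valuation a < 1 → Δ ≠ 0 → ∃ k : ℕ, A.valuation (a ^ k) < A.valuation Δ)
  (hres : ∀ Q : Place L F, RR.ResK Q) (hRRh : R ≤ Rh) (hN : IsNode L R ξ η u ϖ n)
  (hϖ : ∀ p0 : L, ϖ = algebraMap L F p0 → A.valuation p0 < 1)
  (hsmall : ∀ Q : Place L F, RedNode A Rh Q → ∀ a b : L, Cong Q ξ a → Cong Q η b →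
    A.valuation a < 1 ∧ A.valuation b < 1 ∧ a ≠ 0)
  (hloc : ∀ Q : Place L F, RedNode A Rh Q → LocAt R Q)

include harchA hres hRRh hN hϖ hsmall hloc in
/-- **(inj)** The coordinate `ξ` is injective on the places reducing to the node. -/
theorem redNode_inj {P P' : Place L F} {c : L} (hP : RedNode A Rh P) (hP' : RedNode A Rh P')
    (hc : Cong P ξ c) (hc' : Cong P' ξ c) : P' = P := by
  obtain ⟨b, -, hb⟩ := hP η (hRRh hN.y_mem)
  obtain ⟨-, -, hc0⟩ := hsmall P hP c b hc hb
  have hT := through_of_redNode hres hRRh hN hsmall hP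
  have hT' := through_of_redNode hres hRRh hN hsmall hP'
  exact (eq_of_coord_eq (harch_of harchA) hN hϖ hT hT' (hloc P hP)
    (by rw [pval_eq P hc]; exact hc0) (by rw [pval_eq P hc, pval_eq P' hc'])).symm

include harchA hres hRRh hN hϖ hsmall hloc in
/-- **(unr)** The coordinate `ξ` is unramified at the places reducing to the node, provided it
is surjective near each of its values. -/
theorem redNode_unr
    (hsurj : ∀ Q : Place L F, RedNode A Rh Q → ∀ c : L, Cong Q ξ c → ∀ c' : L, c' ≠ 0 →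
      A.valuation (c - c') < A.valuation c → ∃ Q' : Place L F, RedNode A Rh Q' ∧ Cong Q' ξ c')
    {P : Place L F} {c : L} (hP : RedNode A Rh P) (hc : Cong P ξ c) :
    P.ord (ξ - algebraMap L F c) = 1 := by
  obtain ⟨b, -, hb⟩ := hP η (hRRh hN.y_mem)
  obtain ⟨hc1, -, hc0⟩ := hsmall P hP c b hc hb
  have hT := through_of_redNode hres hRRh hN hsmall hP
  have hpc : pval P ξ = c := pval_eq P hc
  have hvc0 : A.valuation c ≠ 0 := (Valuation.ne_zero_iff _).2 hc0
  have key := ord_coord_eq_one (harch_of harchA) hN hϖ hT (hloc P hP)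
    (by rw [hpc]; exact hc0) (fun ρ hρ => by
      obtain ⟨Δ, rfl⟩ := A.valuation_surjective ρ
      have hΔ : Δ ≠ 0 := by
        rintro rfl
        exact hρ (map_zero _)
      obtain ⟨k, hk⟩ := harchA c Δ hc1 hΔ
      have hck0 : c ^ (k + 2) ≠ 0 := pow_ne_zero _ hc0
      have hsub : c - (c + c ^ (k + 2)) = -c ^ (k + 2) := by ring
      have hlt1 : A.valuation (c ^ (k + 2)) < A.valuation c := by
        rw [pow_succ, map_mul]
        calc A.valuation (c ^ (k + 1)) * A.valuation c < 1 * A.valuation c :=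
              mul_lt_mul_of_pos_right
                (by rw [map_pow]; exact pow_lt_one₀ zero_le hc1 (Nat.succ_ne_zero k))
                (zero_lt_iff.2 hvc0)
          _ = A.valuation c := one_mul _
      have hlt2 : A.valuation (c ^ (k + 2)) < A.valuation Δ := by
        refine lt_of_le_of_lt ?_ hk
        rw [pow_add, map_mul]
        calc A.valuation (c ^ k) * A.valuation (c ^ 2) ≤ A.valuation (c ^ k) * 1 :=
              mul_le_mul' le_rfl (by rw [map_pow]; exact pow_le_one' hc1.le 2)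
          _ = A.valuation (c ^ k) := mul_one _
      have hc'0 : c + c ^ (k + 2) ≠ 0 := by
        intro h0
        have h1 : c = -c ^ (k + 2) := by linear_combination h0
        have h2 : A.valuation c = A.valuation (c ^ (k + 2)) := by
          conv_lhs => rw [h1]
          rw [Valuation.map_neg]
        exact absurd h2 (ne_of_gt hlt1)
      obtain ⟨Q', hQ', hcQ'⟩ := hsurj P hP c hc (c + c ^ (k + 2)) hc'0
        (by rw [hsub, Valuation.map_neg]; exact hlt1)
      refine ⟨Q', through_of_redNode hres hRRh hN hsmall hQ', ?_, ?_⟩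
      · rw [pval_eq Q' hcQ', hpc]
        intro h0
        exact hck0 (by linear_combination h0)
      · rw [pval_eq Q' hcQ', hpc, hsub, Valuation.map_neg]
        exact hlt2)
  rw [hpc] at key
  exact key

open Classical in
include harchA hres hRRh hN hϖ hsmall hloc in
/-- `ord_{Q'} (ξ - ξ(Q))` at the places reducing to the node: `1` at `Q`, `0` elsewhere. -/
theorem redNode_ord_sub
    (hsurj : ∀ Q : Place L F, RedNode A Rh Q → ∀ c : L, Cong Q ξ c → ∀ c' : L, c' ≠ 0 →
      A.valuation (c - c') < A.valuation c → ∃ Q' : Place L F, RedNode A Rh Q' ∧ Cong Q' ξ c')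
    {P P' : Place L F} {c : L} (hP : RedNode A Rh P) (hP' : RedNode A Rh P')
    (hc : Cong P ξ c) : P'.ord (ξ - algebraMap L F c) = if P' = P then 1 else 0 := by
  obtain ⟨c', -, hc'⟩ := hP' ξ (hRRh hN.x_mem)
  have h1 := redNode_unr harchA hres hRRh hN hϖ hsmall hloc hsurj hP' hc'
  have hpc' : pval P' ξ = c' := pval_eq P' hc'
  have h2 := ord_coord_sub (hres P') (cong_mem hc') (by rw [hpc']; exact h1) c
  rw [h2, hpc']
  by_cases hPP : P' = P
  · rw [if_pos hPP]
    subst hPP
    have : c' = c := by rw [← hpc', pval_eq P' hc]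
    rw [if_pos this]
  · rw [if_neg hPP, if_neg]
    rintro rfl
    exact hPP (redNode_inj harchA hres hRRh hN hϖ hsmall hloc hP hP' hc hc')

end Main

end Fermat.Agent.TR.Node.AnnulusRedNode
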