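import Mathlib
import Fermat.Agent.TR.Node.NodeRing
import Fermat.Agent.TR.Node.RedNodeEval
import Fermat.Agent.TR.Node.AnnulusRedNode

/-!
# TR / node side: the annulus of a node at the modular objects (instance wiring)

Setting of `TR/Node/NodeRing.lean` (the conjuncts of `KerRed.NodalFibreFor` as hypotheses):
`S := NodeRing.nodeRing h W E1 e₁ e₂ i` is the inertia-fixed node ring (discrete: its maximal
ideal is `(x, y, q)`), `T := NodeRingAbs.nodeRing (redPair h W) ⊤ E1 e₁ e₂ i` the node ring over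
`ℚ̄`, and `RedNode A T Q` says that the place `Q` of the generic fibre passes through the node.

This file discharges the instance-side hypotheses of `AnnulusRedNode.redNode_inj` /
`redNode_unr` / `redNode_ord_sub` for node coordinates `x * y = q ^ k * u` as produced by
`NodeRing.exists_nodePkg` / `exists_nodePkg_delta`:

* `exists_const_lift` : residue constants lift to inertia-fixed integral constants;
* `isNode` : `AnnulusLip.IsNode ℚ̄ S x y u q k` (the maximal ideal of `S` is `(x, y, q)` modulo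
  inertia-fixed constants);
* `valuation_lt_one_of_eq` : the `hϖ` hypothesis; `le_top_nodeRing : S ≤ T`;
* `rr_le_span` : the chart functions are `ℚ̄`-combinations of functions of `S` (descent);
* `redNode_apply_eq_zero` : places through the node lie off the chart divisor;
* `locAt` : `AnnulusPlace.LocAt S Q` for the places through the node;
* `small` : the values of `x`, `y` at the places through the node are small, that of `x` is
  non-zero (`hsmall`);
* `node_inj`, `node_unr`, `node_ord_sub` : **(inj)**, **(unr)** and the order formula for the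
  places through the node, in terms of the value of the coordinate `x` (with the accumulation
  hypothesis `hsurj` of `redNode_unr` as a named hypothesis);
* `node_surj` : the accumulation hypothesis `hsurj` at the modular objects
  (`c' / (x - c')` reduces to `(0, -1)`, which does not glue at the node);
* `node_unr'`, `node_ord_sub'` : the closed forms (no hypothesis beyond the node package).
-/

set_option autoImplicit false

noncomputable section

namespace Fermat.Agent.TR.Node.AnnulusInst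

open AlgebraicCurve ModularCurve WithZero Fermat.Agent.Lib.FF Fermat.Agent.Lib.Red.Deform
  Fermat.Agent.BAD.NodalRiemann Fermat.Agent.BAD.TwoVal Fermat.Agent.BAD.LatFixedInst
  Fermat.Agent.BAD.LatFixedRing Fermat.Agent.TR.Node.NodeRing
  Fermat.Agent.TR.Node.AnnulusLip Fermat.Agent.TR.Node.AnnulusPlace
  Fermat.Agent.TR.Node.AnnulusRedNode Fermat.Agent.TR.Node.HorUnit

local notation "Qb" => AlgebraicClosure ℚ

local notation "K₀" => Fermat.Agent.CAR.K0.inertiaField

variable {A : ValuationSubring Qb} {k : Type} [Field k] {π : A →+* k} {M q : ℕ} [NeZero M]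
  [NeZero q]

/-- **Residue constants lift to inertia-fixed integral constants.** -/
theorem exists_const_lift (hA : A.LiesOverPrime q) (hπ : Function.Surjective π)
    (h : BadSetup A π M q) (c : k) :
    ∃ (a : Qb) (ha : a ∈ A), a ∈ K₀ A ∧ π ⟨a, ha⟩ = c := by
  obtain ⟨a0, rfl⟩ := hπ c
  obtain ⟨w, hwK, hwA, hlt⟩ :=
    Fermat.Agent.CAR.K0.exists_mem_inertiaField_valuation_sub_lt_one h.hℓ A hA a0.2
  refine ⟨w, hwA, hwK, ?_⟩
  have h0 : π (a0 - ⟨w, hwA⟩) = 0 := (h.pi_eq_zero_iff _).2 hlt
  rw [map_sub, sub_eq_zero] at h0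
  exact h0.symm

omit [NeZero M] in
/-- The hypothesis `hϖ` of the annulus lemmas: `q` has valuation `< 1`. -/
theorem valuation_lt_one_of_eq (hA : A.LiesOverPrime q) (p0 : Qb)
    (e : ((q : ℕ) : laurentBaseChange Qb (modularFunctionFieldFull (M * q))) =
      algebraMap Qb (laurentBaseChange Qb (modularFunctionFieldFull (M * q))) p0) :
    A.valuation p0 < 1 := by
  have e' : p0 = ((q : ℕ) : Qb) := by
    apply (algebraMap Qb (laurentBaseChange Qb (modularFunctionFieldFull (M * q)))).injective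
    rw [← e, map_natCast]
  have hA' : ((q : ℕ) : Qb) ∈ A.nonunits := hA
  rw [e']
  exact A.mem_nonunits_iff.1 hA'

section Datum

variable [IsAlgClosed k] (hA : A.LiesOverPrime q) (hπ : Function.Surjective π)
  (h : BadSetup A π M q)
  (W : laurentBaseChange Qb (modularFunctionFieldFull (M * q)) ≃ₐ[Qb]
    laurentBaseChange Qb (modularFunctionFieldFull (M * q))) (hW : IsAL M q W)
  (E1 E2 : Divisor Qb (laurentBaseChange Qb (modularFunctionFieldFull (M * q))))
  {ι : Type}
  (e₁ e₂ : ι → Place k (modularFunctionFieldFullC k M))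
  (P₁ Z₁ P₂ Z₂ : Divisor k (modularFunctionFieldFullC k M))
  (hgalE : ∀ σ ∈ A.inertiaSubgroupIn ℚ,
    arithmeticGalois (modularFunctionFieldFull (M * q)) σ • E1 = E1 ∧
    arithmeticGalois (modularFunctionFieldFull (M * q)) σ • E2 = E2)
  (hS2 : ∃ N₀ : ℕ, ∀ n₁ n₂ : ℕ, N₀ ≤ n₁ + n₂ →
    ∀ t : ↥(modularFunctionFieldFullC k M) × ↥(modularFunctionFieldFullC k M),
      (∃ y : OPair h W,
          (y : laurentBaseChange Qb (modularFunctionFieldFull (M * q))) ∈
            riemannRochSpace (n₁ • E1 + n₂ • E2) ∧ redPair h W y = t) ↔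
        t ∈ gluedSpace e₁ e₂ (fun _ => (1 : k))
          (n₁ • P₁ + n₂ • Z₁) (n₁ • P₂ + n₂ • Z₂))
  (i : ι)

omit [IsAlgClosed k] in
/-- Inertia-fixed integral constants lie in the node ring. -/
theorem algebraMap_mem_nodeRing (hE1 : ∀ v, 0 ≤ E1 v) {a : Qb} (ha : a ∈ A) (haK : a ∈ K₀ A) :
    algebraMap Qb (laurentBaseChange Qb (modularFunctionFieldFull (M * q))) a ∈
      nodeRing h W E1 e₁ e₂ i :=
  NodeRingAbs.algebraMap_mem (fun x => OPair_hOA h x) (redPair h W)
    (fixedSubring A (M * q)) (E1_nonneg E1 hE1) e₁ e₂ i ha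
    (Fermat.Agent.BAD.LatFixedRing.algebraMap_mem haK)

omit [IsAlgClosed k] in
/-- The inertia-fixed node ring lies in the node ring over `ℚ̄`. -/
theorem le_top_nodeRing :
    nodeRing h W E1 e₁ e₂ i ≤ NodeRingAbs.nodeRing (redPair h W) ⊤ E1 e₁ e₂ i := by
  intro g hg
  obtain ⟨-, N, t, htL, -, htc, hy⟩ := NodeRingAbs.mem_nodeRing.1 hg
  exact NodeRingAbs.mem_nodeRing.2 ⟨Subring.mem_top _, N, t, htL, Subring.mem_top _, htc, hy⟩

include hA hπ hS2 in
omit [IsAlgClosed k] in
/-- **The node structure of the inertia-fixed node ring**: `x * y = q ^ k * u`, `u` a unit, and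
every function of the ring is an inertia-fixed integral constant modulo `(x, y, q)`. -/
theorem isNode (hE1 : ∀ v, 0 ≤ E1 v) {k' : ℕ} {x y u : nodeRing h W E1 e₁ e₂ i}
    (hu : IsUnit u)
    (hxy : x * y = ((q : ℕ) : nodeRing h W E1 e₁ e₂ i) ^ k' * u)
    (hgen : ∀ g : nodeRing h W E1 e₁ e₂ i,
      Cong (e₁ i) (redInf h ⟨g, mem_OInf h W E1 e₁ e₂ i g.2⟩) 0 →
      ∃ α β γ : nodeRing h W E1 e₁ e₂ i, g = α * x + β * y +
        γ * ((q : ℕ) : nodeRing h W E1 e₁ e₂ i)) :
    IsNode Qb (nodeRing h W E1 e₁ e₂ i)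
      (x : laurentBaseChange Qb (modularFunctionFieldFull (M * q)))
      (y : laurentBaseChange Qb (modularFunctionFieldFull (M * q)))
      (u : laurentBaseChange Qb (modularFunctionFieldFull (M * q)))
      ((q : ℕ) : laurentBaseChange Qb (modularFunctionFieldFull (M * q))) k' where
  x_mem := x.2
  y_mem := y.2
  u_mem := u.2
  ϖ_mem := natCast_mem_nodeRing h W E1 e₁ e₂ i hE1 q
  ϖ_const := ⟨((q : ℕ) : Qb), natCast_eq_algebraMap q⟩
  xy := by
    have e := congrArg Subtype.val hxy
    simpa using e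
  u_unit := by
    obtain ⟨w, hw⟩ := hu.exists_right_inv
    refine ⟨w, w.2, ?_⟩
    have e := congrArg Subtype.val hw
    simpa using e
  gen := by
    intro r hr
    obtain ⟨c, hc1, -⟩ := exists_cong h W E1 E2 e₁ e₂ P₁ Z₁ P₂ Z₂ hE1 hS2 i hr
    obtain ⟨a, ha, haK, hπa⟩ := exists_const_lift hA hπ h c
    have haS := algebraMap_mem_nodeRing h W E1 e₁ e₂ i hE1 ha haK
    have hg0 : Cong (e₁ i) (redInf h ⟨((⟨r, hr⟩ - ⟨_, haS⟩ : nodeRing h W E1 e₁ e₂ i) :
        laurentBaseChange Qb (modularFunctionFieldFull (M * q))),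
        mem_OInf h W E1 e₁ e₂ i (Subtype.property _)⟩) 0 := by
      have e : (⟨((⟨r, hr⟩ - ⟨_, haS⟩ : nodeRing h W E1 e₁ e₂ i) :
          laurentBaseChange Qb (modularFunctionFieldFull (M * q))),
          mem_OInf h W E1 e₁ e₂ i (Subtype.property _)⟩ : OInf h) =
          ⟨r, mem_OInf h W E1 e₁ e₂ i hr⟩ - ⟨_, mem_OInf h W E1 e₁ e₂ i haS⟩ := rfl
      rw [e, map_sub, redInf_algebraMap h ⟨a, ha⟩ (mem_OInf h W E1 e₁ e₂ i haS), hπa]
      rw [cong_iff, map_zero, sub_zero]
      exact hc1
    obtain ⟨α, β, γ, e⟩ := hgen _ hg0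
    refine ⟨a, haS, α, α.2, β, β.2, γ, γ.2, ?_⟩
    have e' : r - algebraMap Qb (laurentBaseChange Qb (modularFunctionFieldFull (M * q))) a =
        (α : laurentBaseChange Qb (modularFunctionFieldFull (M * q))) * x + β * y +
          γ * ((q : ℕ) : laurentBaseChange Qb (modularFunctionFieldFull (M * q))) :=
      congrArg Subtype.val e
    linear_combination e'

include hA hπ hW hgalE in
omit [IsAlgClosed k] in
/-- **Descent**: the chart functions are `ℚ̄`-combinations of functions of the inertia-fixed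
node ring. -/
theorem rr_le_span (hE1 : ∀ v, 0 ≤ E1 v) (N : ℕ) :
    ∀ f ∈ riemannRochSpace (N • E1),
      f ∈ Submodule.span Qb ((nodeRing h W E1 e₁ e₂ i :
        Subring (laurentBaseChange Qb (modularFunctionFieldFull (M * q)))) :
        Set (laurentBaseChange Qb (modularFunctionFieldFull (M * q)))) := by
  intro f hf
  obtain ⟨n, b, hbfix, -, hspan, hbO, -⟩ := exists_fixed_ortho_basis_rr h.hℓ hA h hπ hW
    (N • E1) (fun σ hσ => by rw [smul_comm, (hgalE σ hσ).1])
  rw [← hspan] at hf
  refine Submodule.span_mono ?_ hf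
  rintro _ ⟨j, rfl⟩
  have hbL : b j ∈ riemannRochSpace (N • E1) := by
    rw [← hspan]
    exact Submodule.subset_span ⟨j, rfl⟩
  exact chart_mem h W E1 e₁ e₂ i hE1 (hbO j) hbL (hbfix j)

include hA hπ hW hgalE in
omit [IsAlgClosed k] in
/-- A place through the node lies off the chart divisor. -/
theorem redNode_apply_eq_zero (hE1 : ∀ v, 0 ≤ E1 v) (hdegE1 : 0 < Divisor.degree E1)
    {Q : Place Qb (laurentBaseChange Qb (modularFunctionFieldFull (M * q)))}
    (hQ : RedNode A (NodeRingAbs.nodeRing (redPair h W) ⊤ E1 e₁ e₂ i) Q) : E1 Q = 0 := by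
  refine Fermat.Agent.BAD.HenselPlace.apply_eq_zero_of_regular (isFF1_xL Qb (M * q))
    (E1_nonneg E1 hE1) hdegE1 Q (fun N f hf => ?_)
  have h1 := rr_le_span hA hπ h W hW E1 E2 e₁ e₂ hgalE i hE1 N f hf
  rw [val_le_one_iff_mem]
  refine Submodule.span_induction (p := fun f _ => f ∈ Q.toValuationSubring) ?_ ?_ ?_ ?_ h1
  · intro g hg
    obtain ⟨c, -, hc⟩ := hQ g (le_top_nodeRing h W E1 e₁ e₂ i hg)
    exact cong_mem hc
  · exact zero_mem _
  · intro a b _ _ ha hb
    exact add_mem ha hb
  · intro c a _ ha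
    rw [Algebra.smul_def]
    exact mul_mem (cong_mem (cong_algebraMap Q c)) ha

include hA hπ hW hgalE in
omit [IsAlgClosed k] in
/-- **(LOC)**: the local ring of a place through the node is generated over `ℚ̄` by the
inertia-fixed node ring. -/
theorem locAt (hE1 : ∀ v, 0 ≤ E1 v) (hdegE1 : 0 < Divisor.degree E1)
    {Q : Place Qb (laurentBaseChange Qb (modularFunctionFieldFull (M * q)))}
    (hQ : RedNode A (NodeRingAbs.nodeRing (redPair h W) ⊤ E1 e₁ e₂ i) Q) :
    LocAt (nodeRing h W E1 e₁ e₂ i) Q := by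
  obtain ⟨P₀, hP₀⟩ : ∃ P₀, E1 P₀ ≠ 0 := by
    by_contra hne
    push_neg at hne
    have e0 : E1 = 0 := Finsupp.ext hne
    rw [e0, map_zero] at hdegE1
    exact lt_irrefl _ hdegE1
  exact locAt_of_span (isFF1_xL Qb (M * q)) (E1_nonneg E1 hE1) hP₀ _
    (rr_le_span hA hπ h W hW E1 E2 e₁ e₂ hgalE i hE1)
    (redNode_apply_eq_zero hA hπ h W hW E1 E2 e₁ e₂ hgalE i hE1 hdegE1 hQ)

include hS2 in
omit [IsAlgClosed k] in
/-- **The annulus** (`hsmall`): at a place through the node the values of `x` and `y` are small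
and larger than `|q| ^ k`. -/
theorem small (hE1 : ∀ v, 0 ≤ E1 v) {k' : ℕ} {x y u : nodeRing h W E1 e₁ e₂ i}
    (hu : IsUnit u)
    (hxy : x * y = ((q : ℕ) : nodeRing h W E1 e₁ e₂ i) ^ k' * u)
    (hx0 : Cong (e₁ i) (redInf h ⟨x, mem_OInf h W E1 e₁ e₂ i x.2⟩) 0)
    (hy0 : Cong (e₁ i) (redInf h ⟨y, mem_OInf h W E1 e₁ e₂ i y.2⟩) 0)
    {Q : Place Qb (laurentBaseChange Qb (modularFunctionFieldFull (M * q)))}
    (hQ : RedNode A (NodeRingAbs.nodeRing (redPair h W) ⊤ E1 e₁ e₂ i) Q) {a b : Qb}
    (ha : Cong Q (x : laurentBaseChange Qb (modularFunctionFieldFull (M * q))) a)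
    (hb : Cong Q (y : laurentBaseChange Qb (modularFunctionFieldFull (M * q))) b) :
    A.valuation a < 1 ∧ A.valuation b < 1 ∧ A.valuation ((q : ℕ) : Qb) ^ k' < A.valuation a ∧
      A.valuation ((q : ℕ) : Qb) ^ k' < A.valuation b := by
  obtain ⟨w, hw⟩ := hu.exists_right_inv
  have hw' : (u : laurentBaseChange Qb (modularFunctionFieldFull (M * q))) *
      (w : laurentBaseChange Qb (modularFunctionFieldFull (M * q))) = 1 := by
    have e := congrArg Subtype.val hw
    simpa using e
  have hu0 : (u : laurentBaseChange Qb (modularFunctionFieldFull (M * q))) ≠ 0 :=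
    left_ne_zero_of_mul_eq_one hw'
  have hinv : (u : laurentBaseChange Qb (modularFunctionFieldFull (M * q)))⁻¹ =
      (w : laurentBaseChange Qb (modularFunctionFieldFull (M * q))) :=
    (eq_inv_of_mul_eq_one_right hw').symm
  have hxy' : (x : laurentBaseChange Qb (modularFunctionFieldFull (M * q))) *
      (y : laurentBaseChange Qb (modularFunctionFieldFull (M * q))) =
      algebraMap Qb (laurentBaseChange Qb (modularFunctionFieldFull (M * q)))
        ((q : ℕ) : Qb) ^ k' * (u : laurentBaseChange Qb (modularFunctionFieldFull (M * q))) := by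
    have e := congrArg Subtype.val hxy
    rw [map_natCast]
    simpa using e
  exact RedNode.annulus (fun x => OPair_hOA h x) (OPair_hval h) (redPair h W) π
    h.pi_eq_zero_iff (hconst h W) (redPair_eq_zero_iff h) E1 (E1_nonneg E1 hE1) e₁ e₂ i
    (charts_E1 h W E1 E2 e₁ e₂ P₁ Z₁ P₂ Z₂ hS2) hQ (p := ((q : ℕ) : Qb))
    (Nat.cast_ne_zero.2 (NeZero.ne q))
    (le_top_nodeRing h W E1 e₁ e₂ i x.2) (le_top_nodeRing h W E1 e₁ e₂ i y.2)
    (le_top_nodeRing h W E1 e₁ e₂ i u.2)
    (by rw [hinv]; exact le_top_nodeRing h W E1 e₁ e₂ i w.2) hu0 hxy' hx0 hy0 ha hb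

omit [NeZero M] [NeZero q] [IsAlgClosed k] in
/-- A function of order one at a place has the value zero there. -/
theorem cong_zero_of_ord_eq_one {K F : Type*} [Field K] [Field F] [Algebra K F] (P : Place K F)
    {f : F} (hf : P.ord f = 1) : Cong P f 0 := by
  have hf0 : f ≠ 0 := by
    rintro rfl
    rw [Place.ord_zero] at hf
    exact zero_ne_one hf
  rw [cong_iff, map_zero, sub_zero, P.adicValuation_eq_exp_neg_ord hf0, hf, ← exp_zero,
    exp_lt_exp]
  norm_num

/-! ### (inj), (unr) and the order formula at the modular objects -/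

section Main

variable {k' : ℕ} {x y u : nodeRing h W E1 e₁ e₂ i} (hu : IsUnit u)
  (hxy : x * y = ((q : ℕ) : nodeRing h W E1 e₁ e₂ i) ^ k' * u)
  (hx1 : (e₁ i).ord (redInf h ⟨x, mem_OInf h W E1 e₁ e₂ i x.2⟩) = 1)
  (hy0 : redInf h ⟨y, mem_OInf h W E1 e₁ e₂ i y.2⟩ = 0)
  (hgen : ∀ g : nodeRing h W E1 e₁ e₂ i,
    Cong (e₁ i) (redInf h ⟨g, mem_OInf h W E1 e₁ e₂ i g.2⟩) 0 →
    ∃ α β γ : nodeRing h W E1 e₁ e₂ i, g = α * x + β * y +
      γ * ((q : ℕ) : nodeRing h W E1 e₁ e₂ i))

include hS2 hu hxy hx1 hy0 in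
omit [IsAlgClosed k] in
/-- `hsmall` in the literal shape of `AnnulusRedNode`. -/
theorem small' (hE1 : ∀ v, 0 ≤ E1 v) :
    ∀ Q : Place Qb (laurentBaseChange Qb (modularFunctionFieldFull (M * q))),
      RedNode A (NodeRingAbs.nodeRing (redPair h W) ⊤ E1 e₁ e₂ i) Q → ∀ a b : Qb,
      Cong Q (x : laurentBaseChange Qb (modularFunctionFieldFull (M * q))) a →
      Cong Q (y : laurentBaseChange Qb (modularFunctionFieldFull (M * q))) b →
      A.valuation a < 1 ∧ A.valuation b < 1 ∧ a ≠ 0 := by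
  intro Q hQ a b ha hb
  obtain ⟨h1, h2, h3, -⟩ := small h W E1 E2 e₁ e₂ P₁ Z₁ P₂ Z₂ hS2 i hE1 hu hxy
    (cong_zero_of_ord_eq_one _ hx1) (by rw [hy0]; exact cong_zero _) hQ ha hb
  refine ⟨h1, h2, ?_⟩
  rintro rfl
  rw [map_zero] at h3
  exact not_lt_zero' h3

include hA hπ hW hgalE hS2 hu hxy hx1 hy0 hgen in
omit [IsAlgClosed k] in
/-- **(inj) at the modular objects**: two places of the generic fibre through the node `i` with
the same value of the node coordinate `x` are equal. -/
theorem node_inj (hE1 : ∀ v, 0 ≤ E1 v) (hdegE1 : 0 < Divisor.degree E1)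
    {P P' : Place Qb (laurentBaseChange Qb (modularFunctionFieldFull (M * q)))} {c : Qb}
    (hP : RedNode A (NodeRingAbs.nodeRing (redPair h W) ⊤ E1 e₁ e₂ i) P)
    (hP' : RedNode A (NodeRingAbs.nodeRing (redPair h W) ⊤ E1 e₁ e₂ i) P')
    (hc : Cong P (x : laurentBaseChange Qb (modularFunctionFieldFull (M * q))) c)
    (hc' : Cong P' (x : laurentBaseChange Qb (modularFunctionFieldFull (M * q))) c) :
    P' = P :=
  redNode_inj (fun a Δ => h.harch a Δ) (fun Q => (isFF1_xL Qb (M * q)).resK Q)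
    (le_top_nodeRing h W E1 e₁ e₂ i)
    (isNode hA hπ h W E1 E2 e₁ e₂ P₁ Z₁ P₂ Z₂ hS2 i hE1 hu hxy hgen)
    (valuation_lt_one_of_eq hA)
    (small' h W E1 E2 e₁ e₂ P₁ Z₁ P₂ Z₂ hS2 i hu hxy hx1 hy0 hE1)
    (fun Q hQ => locAt hA hπ h W hW E1 E2 e₁ e₂ hgalE i hE1 hdegE1 hQ) hP hP' hc hc'

include hA hπ hW hgalE hS2 hu hxy hx1 hy0 hgen in
omit [IsAlgClosed k] in
/-- **(unr) at the modular objects**: the node coordinate `x` minus its value is a local
parameter at every place through the node (given the accumulation hypothesis `hsurj`). -/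
theorem node_unr (hE1 : ∀ v, 0 ≤ E1 v) (hdegE1 : 0 < Divisor.degree E1)
    (hsurj : ∀ Q : Place Qb (laurentBaseChange Qb (modularFunctionFieldFull (M * q))),
      RedNode A (NodeRingAbs.nodeRing (redPair h W) ⊤ E1 e₁ e₂ i) Q → ∀ c : Qb,
      Cong Q (x : laurentBaseChange Qb (modularFunctionFieldFull (M * q))) c → ∀ c' : Qb,
      c' ≠ 0 → A.valuation (c - c') < A.valuation c →
      ∃ Q' : Place Qb (laurentBaseChange Qb (modularFunctionFieldFull (M * q))),
        RedNode A (NodeRingAbs.nodeRing (redPair h W) ⊤ E1 e₁ e₂ i) Q' ∧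
        Cong Q' (x : laurentBaseChange Qb (modularFunctionFieldFull (M * q))) c')
    {P : Place Qb (laurentBaseChange Qb (modularFunctionFieldFull (M * q)))} {c : Qb}
    (hP : RedNode A (NodeRingAbs.nodeRing (redPair h W) ⊤ E1 e₁ e₂ i) P)
    (hc : Cong P (x : laurentBaseChange Qb (modularFunctionFieldFull (M * q))) c) :
    P.ord ((x : laurentBaseChange Qb (modularFunctionFieldFull (M * q))) -
      algebraMap Qb (laurentBaseChange Qb (modularFunctionFieldFull (M * q))) c) = 1 :=
  redNode_unr (fun a Δ => h.harch a Δ) (fun Q => (isFF1_xL Qb (M * q)).resK Q)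
    (le_top_nodeRing h W E1 e₁ e₂ i)
    (isNode hA hπ h W E1 E2 e₁ e₂ P₁ Z₁ P₂ Z₂ hS2 i hE1 hu hxy hgen)
    (valuation_lt_one_of_eq hA)
    (small' h W E1 E2 e₁ e₂ P₁ Z₁ P₂ Z₂ hS2 i hu hxy hx1 hy0 hE1)
    (fun Q hQ => locAt hA hπ h W hW E1 E2 e₁ e₂ hgalE i hE1 hdegE1 hQ) hsurj hP hc

open Classical in
include hA hπ hW hgalE hS2 hu hxy hx1 hy0 hgen in
omit [IsAlgClosed k] in
/-- **The order formula at the modular objects**: among the places through the node, `x - c_P`
vanishes exactly at `P`, to order one. -/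
theorem node_ord_sub (hE1 : ∀ v, 0 ≤ E1 v) (hdegE1 : 0 < Divisor.degree E1)
    (hsurj : ∀ Q : Place Qb (laurentBaseChange Qb (modularFunctionFieldFull (M * q))),
      RedNode A (NodeRingAbs.nodeRing (redPair h W) ⊤ E1 e₁ e₂ i) Q → ∀ c : Qb,
      Cong Q (x : laurentBaseChange Qb (modularFunctionFieldFull (M * q))) c → ∀ c' : Qb,
      c' ≠ 0 → A.valuation (c - c') < A.valuation c →
      ∃ Q' : Place Qb (laurentBaseChange Qb (modularFunctionFieldFull (M * q))),
        RedNode A (NodeRingAbs.nodeRing (redPair h W) ⊤ E1 e₁ e₂ i) Q' ∧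
        Cong Q' (x : laurentBaseChange Qb (modularFunctionFieldFull (M * q))) c')
    {P P' : Place Qb (laurentBaseChange Qb (modularFunctionFieldFull (M * q)))} {c : Qb}
    (hP : RedNode A (NodeRingAbs.nodeRing (redPair h W) ⊤ E1 e₁ e₂ i) P)
    (hP' : RedNode A (NodeRingAbs.nodeRing (redPair h W) ⊤ E1 e₁ e₂ i) P')
    (hc : Cong P (x : laurentBaseChange Qb (modularFunctionFieldFull (M * q))) c) :
    P'.ord ((x : laurentBaseChange Qb (modularFunctionFieldFull (M * q))) -
      algebraMap Qb (laurentBaseChange Qb (modularFunctionFieldFull (M * q))) c) =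
      if P' = P then 1 else 0 :=
  redNode_ord_sub (fun a Δ => h.harch a Δ) (fun Q => (isFF1_xL Qb (M * q)).resK Q)
    (le_top_nodeRing h W E1 e₁ e₂ i)
    (isNode hA hπ h W E1 E2 e₁ e₂ P₁ Z₁ P₂ Z₂ hS2 i hE1 hu hxy hgen)
    (valuation_lt_one_of_eq hA)
    (small' h W E1 E2 e₁ e₂ P₁ Z₁ P₂ Z₂ hS2 i hu hxy hx1 hy0 hE1)
    (fun Q hQ => locAt hA hπ h W hW E1 E2 e₁ e₂ hgalE i hE1 hdegE1 hQ) hsurj hP hP' hc

include hS2 hu hxy hx1 hy0 in
omit [IsAlgClosed k] in
/-- **Accumulation / surjectivity of the node coordinate** (`hsurj`): every non-zero constant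
close to the value of `x` at a place through the node is the value of `x` at a place through the
node. -/
theorem node_surj (hE1 : ∀ v, 0 ≤ E1 v)
    (hy1 : (e₂ i).ord (redZero h W ⟨y, mem_OZero h W E1 e₁ e₂ i y.2⟩) = 1) :
    ∀ Q : Place Qb (laurentBaseChange Qb (modularFunctionFieldFull (M * q))),
      RedNode A (NodeRingAbs.nodeRing (redPair h W) ⊤ E1 e₁ e₂ i) Q → ∀ c : Qb,
      Cong Q (x : laurentBaseChange Qb (modularFunctionFieldFull (M * q))) c → ∀ c' : Qb,
      c' ≠ 0 → A.valuation (c - c') < A.valuation c →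
      ∃ Q' : Place Qb (laurentBaseChange Qb (modularFunctionFieldFull (M * q))),
        RedNode A (NodeRingAbs.nodeRing (redPair h W) ⊤ E1 e₁ e₂ i) Q' ∧
        Cong Q' (x : laurentBaseChange Qb (modularFunctionFieldFull (M * q))) c' := by
  intro Q hQ c hc c' hc'0 hlt
  obtain ⟨b, -, hb⟩ := hQ (y : laurentBaseChange Qb (modularFunctionFieldFull (M * q)))
    (le_top_nodeRing h W E1 e₁ e₂ i y.2)
  obtain ⟨h1, -, h3, -⟩ := small h W E1 E2 e₁ e₂ P₁ Z₁ P₂ Z₂ hS2 i hE1 hu hxy
    (cong_zero_of_ord_eq_one _ hx1) (by rw [hy0]; exact cong_zero _) hQ hc hb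
  have hvc' : A.valuation c' = A.valuation c := by
    have e : c' = c - (c - c') := by ring
    rw [e]
    exact Valuation.map_sub_eq_of_lt_left _ hlt
  have hc'1 : A.valuation c' < 1 := hvc' ▸ h1
  have hc'q : A.valuation ((q : ℕ) : Qb) ^ k' < A.valuation c' := hvc' ▸ h3
  have hc'A : c' ∈ A := (A.valuation_le_one_iff c').1 hc'1.le
  have hcF0 : algebraMap Qb (laurentBaseChange Qb (modularFunctionFieldFull (M * q))) c' ≠ 0 :=
    (map_ne_zero _).2 hc'0
  -- the `∞`-side: `x` is a unit, `c'` is small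
  have hxI : (x : laurentBaseChange Qb (modularFunctionFieldFull (M * q))) ∈ OInf h :=
    mem_OInf h W E1 e₁ e₂ i x.2
  have hxI1 : (OInf h).valuation
      (x : laurentBaseChange Qb (modularFunctionFieldFull (M * q))) = 1 := by
    refine le_antisymm (((OInf h).valuation_le_one_iff _).2 hxI) (not_lt.1 fun hlt' => ?_)
    have e0 : redInf h ⟨x, hxI⟩ = 0 :=
      (redInf_eq_zero_iff_nonunit h _).2 ((OInf h).mem_nonunits_iff.2 hlt')
    rw [e0, Place.ord_zero] at hx1
    exact zero_ne_one hx1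
  have hcI : (OInf h).valuation
      (algebraMap Qb (laurentBaseChange Qb (modularFunctionFieldFull (M * q))) c') < 1 := by
    have hmem : algebraMap Qb (laurentBaseChange Qb (modularFunctionFieldFull (M * q))) c' ∈
        OInf h := (algebraMap_mem_OInf_iff h c').2 hc'A
    have e0 : redInf h ⟨_, hmem⟩ = 0 := by
      rw [redInf_algebraMap h ⟨c', hc'A⟩ hmem, (h.pi_eq_zero_iff ⟨c', hc'A⟩).2 hc'1, map_zero]
    exact (OInf h).mem_nonunits_iff.1 ((redInf_eq_zero_iff_nonunit h _).1 e0)
  have hsubI : (OInf h).valuation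
      ((x : laurentBaseChange Qb (modularFunctionFieldFull (M * q))) -
        algebraMap Qb (laurentBaseChange Qb (modularFunctionFieldFull (M * q))) c') = 1 := by
    rw [Valuation.map_sub_eq_of_lt_left _ (by rw [hxI1]; exact hcI), hxI1]
  have hsub0 : (x : laurentBaseChange Qb (modularFunctionFieldFull (M * q))) -
      algebraMap Qb (laurentBaseChange Qb (modularFunctionFieldFull (M * q))) c' ≠ 0 := by
    intro h0
    rw [h0, map_zero] at hsubI
    exact zero_ne_one hsubI
  have hYI : (OInf h).valuation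
      (algebraMap Qb (laurentBaseChange Qb (modularFunctionFieldFull (M * q))) c' /
        ((x : laurentBaseChange Qb (modularFunctionFieldFull (M * q))) -
          algebraMap Qb (laurentBaseChange Qb (modularFunctionFieldFull (M * q))) c')) < 1 := by
    rw [map_div₀, hsubI, div_one]
    exact hcI
  -- the `0`-side: `y` is a unit, `x / c'` is small
  have hyZ : (y : laurentBaseChange Qb (modularFunctionFieldFull (M * q))) ∈ OZero h W :=
    mem_OZero h W E1 e₁ e₂ i y.2
  have hyZ1 : (OZero h W).valuation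
      (y : laurentBaseChange Qb (modularFunctionFieldFull (M * q))) = 1 := by
    refine le_antisymm (((OZero h W).valuation_le_one_iff _).2 hyZ) (not_lt.1 fun hlt' => ?_)
    have e0 : redZero h W ⟨y, hyZ⟩ = 0 :=
      (redZero_eq_zero_iff_nonunit h _).2 ((OZero h W).mem_nonunits_iff.2 hlt')
    rw [e0, Place.ord_zero] at hy1
    exact zero_ne_one hy1
  have hyF0 : (y : laurentBaseChange Qb (modularFunctionFieldFull (M * q))) ≠ 0 := by
    intro h0
    rw [h0, map_zero] at hyZ1
    exact zero_ne_one hyZ1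
  have huZ : (OZero h W).valuation
      (u : laurentBaseChange Qb (modularFunctionFieldFull (M * q))) ≤ 1 :=
    ((OZero h W).valuation_le_one_iff _).2 (mem_OZero h W E1 e₁ e₂ i u.2)
  have hv : A.valuation (((q : ℕ) : Qb) ^ k' / c') < 1 := by
    rw [map_div₀, map_pow]
    exact (div_lt_one₀ (zero_lt_iff.2 ((Valuation.ne_zero_iff _).2 hc'0))).2 hc'q
  have hvA : ((q : ℕ) : Qb) ^ k' / c' ∈ A := (A.valuation_le_one_iff _).1 hv.le
  have hqc : (OZero h W).valuation
      (algebraMap Qb (laurentBaseChange Qb (modularFunctionFieldFull (M * q)))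
        (((q : ℕ) : Qb) ^ k' / c')) < 1 := by
    have hmem : algebraMap Qb (laurentBaseChange Qb (modularFunctionFieldFull (M * q)))
        (((q : ℕ) : Qb) ^ k' / c') ∈ OZero h W := (algebraMap_mem_OZero_iff h _).2 hvA
    have e0 : redZero h W ⟨_, hmem⟩ = 0 := by
      rw [redZero_algebraMap h ⟨_, hvA⟩ hmem, (h.pi_eq_zero_iff ⟨_, hvA⟩).2 hv, map_zero]
    exact (OZero h W).mem_nonunits_iff.1 ((redZero_eq_zero_iff_nonunit h _).1 e0)
  have hxy' : (x : laurentBaseChange Qb (modularFunctionFieldFull (M * q))) *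
      (y : laurentBaseChange Qb (modularFunctionFieldFull (M * q))) =
      algebraMap Qb (laurentBaseChange Qb (modularFunctionFieldFull (M * q)))
        ((q : ℕ) : Qb) ^ k' * (u : laurentBaseChange Qb (modularFunctionFieldFull (M * q))) := by
    have e := congrArg Subtype.val hxy
    rw [map_natCast]
    simpa using e
  have hxdiv : (x : laurentBaseChange Qb (modularFunctionFieldFull (M * q))) /
      algebraMap Qb (laurentBaseChange Qb (modularFunctionFieldFull (M * q))) c' =
      algebraMap Qb (laurentBaseChange Qb (modularFunctionFieldFull (M * q)))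
        (((q : ℕ) : Qb) ^ k' / c') *
        ((u : laurentBaseChange Qb (modularFunctionFieldFull (M * q))) *
          (y : laurentBaseChange Qb (modularFunctionFieldFull (M * q)))⁻¹) := by
    rw [map_div₀, map_pow]
    field_simp
    exact hxy'
  have hxc : (OZero h W).valuation
      ((x : laurentBaseChange Qb (modularFunctionFieldFull (M * q))) /
        algebraMap Qb (laurentBaseChange Qb (modularFunctionFieldFull (M * q))) c') < 1 := by
    rw [hxdiv, map_mul, map_mul, map_inv₀, hyZ1, inv_one, mul_one]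
    calc _ ≤ (OZero h W).valuation
          (algebraMap Qb (laurentBaseChange Qb (modularFunctionFieldFull (M * q)))
            (((q : ℕ) : Qb) ^ k' / c')) * 1 := mul_le_mul' le_rfl huZ
      _ < 1 := by rw [mul_one]; exact hqc
  have hsubZ : (OZero h W).valuation
      ((x : laurentBaseChange Qb (modularFunctionFieldFull (M * q))) /
        algebraMap Qb (laurentBaseChange Qb (modularFunctionFieldFull (M * q))) c' - 1) = 1 := by
    rw [Valuation.map_sub_eq_of_lt_right _ (by rw [map_one]; exact hxc), map_one]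
  have hY1 : (OZero h W).valuation
      (algebraMap Qb (laurentBaseChange Qb (modularFunctionFieldFull (M * q))) c' /
        ((x : laurentBaseChange Qb (modularFunctionFieldFull (M * q))) -
          algebraMap Qb (laurentBaseChange Qb (modularFunctionFieldFull (M * q))) c') + 1) <
      1 := by
    have e : algebraMap Qb (laurentBaseChange Qb (modularFunctionFieldFull (M * q))) c' /
        ((x : laurentBaseChange Qb (modularFunctionFieldFull (M * q))) -
          algebraMap Qb (laurentBaseChange Qb (modularFunctionFieldFull (M * q))) c') + 1 =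
        ((x : laurentBaseChange Qb (modularFunctionFieldFull (M * q))) /
          algebraMap Qb (laurentBaseChange Qb (modularFunctionFieldFull (M * q))) c') /
        ((x : laurentBaseChange Qb (modularFunctionFieldFull (M * q))) /
          algebraMap Qb (laurentBaseChange Qb (modularFunctionFieldFull (M * q))) c' - 1) := by
      rw [div_add_one hsub0, div_sub_one hcF0, div_div_div_cancel_right₀ hcF0, add_sub_cancel]
    rw [e, map_div₀, hsubZ, div_one]
    exact hxc
  have hYOI : algebraMap Qb (laurentBaseChange Qb (modularFunctionFieldFull (M * q))) c' /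
      ((x : laurentBaseChange Qb (modularFunctionFieldFull (M * q))) -
        algebraMap Qb (laurentBaseChange Qb (modularFunctionFieldFull (M * q))) c') ∈ OInf h :=
    ((OInf h).valuation_le_one_iff _).1 hYI.le
  have hYOZ : algebraMap Qb (laurentBaseChange Qb (modularFunctionFieldFull (M * q))) c' /
      ((x : laurentBaseChange Qb (modularFunctionFieldFull (M * q))) -
        algebraMap Qb (laurentBaseChange Qb (modularFunctionFieldFull (M * q))) c') ∈
      OZero h W := by
    have h2 := (OZero h W).sub_mem (((OZero h W).valuation_le_one_iff _).1 hY1.le)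
      (OZero h W).one_mem
    rwa [add_sub_cancel_right] at h2
  have hYO : algebraMap Qb (laurentBaseChange Qb (modularFunctionFieldFull (M * q))) c' /
      ((x : laurentBaseChange Qb (modularFunctionFieldFull (M * q))) -
        algebraMap Qb (laurentBaseChange Qb (modularFunctionFieldFull (M * q))) c') ∈
      OPair h W := (mem_OPair_iff h _).2 ⟨hYOI, hYOZ⟩
  haveI := (isFF1_xL Qb (M * q)).hasPrincipalDivisors
  obtain ⟨Q', -, hQ', hcQ'⟩ := exists_redNode_cong (fun x => OPair_hOA h x) (OPair_hval h)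
    (redPair h W) π h.pi_eq_zero_iff (hconst h W) (redPair_eq_zero_iff h) E1
    (E1_nonneg E1 hE1) e₁ e₂ i (charts_E1 h W E1 E2 e₁ e₂ P₁ Z₁ P₂ Z₂ hS2)
    (fun Q => (isFF1_xL Qb (M * q)).resK Q) hc'0 hYO (by
      rintro ⟨d, hd1, hd2⟩
      have e1 : redInf h ⟨_, hYOI⟩ = 0 :=
        (redInf_eq_zero_iff_nonunit h _).2 ((OInf h).mem_nonunits_iff.2 hYI)
      have e2 : redZero h W ⟨_, hYOZ⟩ = -1 := by
        have e3 : redZero h W (⟨_, hYOZ⟩ + 1) = 0 :=
          (redZero_eq_zero_iff_nonunit h _).2 ((OZero h W).mem_nonunits_iff.2 hY1)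
        rw [map_add, map_one] at e3
        exact eq_neg_of_add_eq_zero_left e3
      have hd1' : Cong (e₁ i) (redInf h ⟨_, hYOI⟩) d := hd1
      have hd2' : Cong (e₂ i) (redZero h W ⟨_, hYOZ⟩) d := hd2
      rw [e1] at hd1'
      rw [e2] at hd2'
      have hd0 : d = 0 := hd1'.unique (cong_zero _)
      have hdm : (-1 : k) = d := by
        have h4 : Cong (e₂ i) (algebraMap k (modularFunctionFieldFullC k M) (-1)) d := by
          rwa [map_neg, map_one]
        exact (cong_algebraMap_iff _).1 h4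
      rw [hd0] at hdm
      exact one_ne_zero (neg_eq_zero.1 hdm))
  exact ⟨Q', hQ', hcQ'⟩

include hA hπ hW hgalE hS2 hu hxy hx1 hy0 hgen in
omit [IsAlgClosed k] in
/-- **(unr) at the modular objects, closed form**: for node coordinates `x * y = q ^ k * u` as in
`NodeRing.exists_nodePkg`, `x - x(P)` is a local parameter at every place `P` of the generic
fibre through the node. -/
theorem node_unr' (hE1 : ∀ v, 0 ≤ E1 v) (hdegE1 : 0 < Divisor.degree E1)
    (hy1 : (e₂ i).ord (redZero h W ⟨y, mem_OZero h W E1 e₁ e₂ i y.2⟩) = 1)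
    {P : Place Qb (laurentBaseChange Qb (modularFunctionFieldFull (M * q)))} {c : Qb}
    (hP : RedNode A (NodeRingAbs.nodeRing (redPair h W) ⊤ E1 e₁ e₂ i) P)
    (hc : Cong P (x : laurentBaseChange Qb (modularFunctionFieldFull (M * q))) c) :
    P.ord ((x : laurentBaseChange Qb (modularFunctionFieldFull (M * q))) -
      algebraMap Qb (laurentBaseChange Qb (modularFunctionFieldFull (M * q))) c) = 1 :=
  node_unr hA hπ h W hW E1 E2 e₁ e₂ P₁ Z₁ P₂ Z₂ hgalE hS2 i hu hxy hx1 hy0 hgen hE1 hdegE1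
    (node_surj h W E1 E2 e₁ e₂ P₁ Z₁ P₂ Z₂ hS2 i hu hxy hx1 hy0 hE1 hy1) hP hc

open Classical in
include hA hπ hW hgalE hS2 hu hxy hx1 hy0 hgen in
omit [IsAlgClosed k] in
/-- **The order formula at the modular objects, closed form**: among the places through the
node, `x - x(P)` vanishes exactly at `P`, to order one. -/
theorem node_ord_sub' (hE1 : ∀ v, 0 ≤ E1 v) (hdegE1 : 0 < Divisor.degree E1)
    (hy1 : (e₂ i).ord (redZero h W ⟨y, mem_OZero h W E1 e₁ e₂ i y.2⟩) = 1)
    {P P' : Place Qb (laurentBaseChange Qb (modularFunctionFieldFull (M * q)))} {c : Qb}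
    (hP : RedNode A (NodeRingAbs.nodeRing (redPair h W) ⊤ E1 e₁ e₂ i) P)
    (hP' : RedNode A (NodeRingAbs.nodeRing (redPair h W) ⊤ E1 e₁ e₂ i) P')
    (hc : Cong P (x : laurentBaseChange Qb (modularFunctionFieldFull (M * q))) c) :
    P'.ord ((x : laurentBaseChange Qb (modularFunctionFieldFull (M * q))) -
      algebraMap Qb (laurentBaseChange Qb (modularFunctionFieldFull (M * q))) c) =
      if P' = P then 1 else 0 :=
  node_ord_sub hA hπ h W hW E1 E2 e₁ e₂ P₁ Z₁ P₂ Z₂ hgalE hS2 i hu hxy hx1 hy0 hgen hE1 hdegE1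
    (node_surj h W E1 E2 e₁ e₂ P₁ Z₁ P₂ Z₂ hS2 i hu hxy hx1 hy0 hE1 hy1) hP hP' hc

include hS2 hu hxy hx1 hy0 in
omit [IsAlgClosed k] in
/-- **The annulus is filled**: every constant `c` with `|q| ^ k < |c| < 1` is the value of `x`
at a place through the node, provided one such place exists with a value close to `c`; the
unconditional form: `c / (x - c)` does not glue at the node. -/
theorem exists_redNode_cong_node (hE1 : ∀ v, 0 ≤ E1 v)
    (hy1 : (e₂ i).ord (redZero h W ⟨y, mem_OZero h W E1 e₁ e₂ i y.2⟩) = 1)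
    {Q : Place Qb (laurentBaseChange Qb (modularFunctionFieldFull (M * q)))}
    (hQ : RedNode A (NodeRingAbs.nodeRing (redPair h W) ⊤ E1 e₁ e₂ i) Q) {c : Qb}
    (hc : Cong Q (x : laurentBaseChange Qb (modularFunctionFieldFull (M * q))) c) {c' : Qb}
    (hc'0 : c' ≠ 0) (hlt : A.valuation (c - c') < A.valuation c) :
    ∃ Q' : Place Qb (laurentBaseChange Qb (modularFunctionFieldFull (M * q))),
      RedNode A (NodeRingAbs.nodeRing (redPair h W) ⊤ E1 e₁ e₂ i) Q' ∧
      Cong Q' (x : laurentBaseChange Qb (modularFunctionFieldFull (M * q))) c' :=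
  node_surj h W E1 E2 e₁ e₂ P₁ Z₁ P₂ Z₂ hS2 i hu hxy hx1 hy0 hE1 hy1 Q hQ c hc c' hc'0 hlt

end Main

end Datum

end Fermat.Agent.TR.Node.AnnulusInst
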