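import Mathlib
import Fermat.Agent.Lib.FF.RRApprox
import Fermat.Agent.BAD.NodalPlaces
import Fermat.Agent.TR.Node.AnnulusPlace

/-!
# TR / Node, brick (LOC), generic half: the local ring of a place is a localisation of the
chart ring

`F/K` a function field in the sense of `IsFF1 K F x`, `finRing K x` the chart ring of `x ≠ ∞`
(functions regular wherever `x` is regular), `P` a place at which `x` is regular.

* `exists_finRing_frac` : every `f` regular at `P` is `a / b` with `a, b ∈ finRing K x`,
  `ord_P b = 0` (strong approximation with poles allowed only at one pole `P₀` of `x`);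
* `locAt_of_finRing_le` : hence `AnnulusPlace.LocAt R P` for every subring `R` whose `K`-span
  contains the chart ring.
-/

set_option autoImplicit false

noncomputable section

namespace Fermat.Agent.TR.Node.LocAtFF

open AlgebraicCurve WithZero Fermat.Agent.Lib.FF Fermat.Agent.MW.HtM
  Fermat.Agent.BAD.NodalPlaces Fermat.Agent.TR.Node.AnnulusPlace

variable {K F : Type*} [Field K] [Field F] [Algebra K F] {x : F}

/-- **(LOC), chart form.** If `x` is regular at `P` then every function regular at `P` is a
quotient `a / b` of two functions of the chart ring of `x`, with `b` a unit at `P`. -/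
theorem exists_finRing_frac (h : IsFF1 K F x) (P : Place K F) (hxP : P.adicValuation x ≤ 1)
    (f : F) (hf : P.adicValuation f ≤ 1) :
    ∃ a ∈ finRing K x, ∃ b ∈ finRing K x, b ≠ 0 ∧ P.ord b = 0 ∧ f * b = a := by
  classical
  by_cases hf0 : f = 0
  · refine ⟨0, Subalgebra.zero_mem _, 1, Subalgebra.one_mem _, one_ne_zero, Place.ord_one P, ?_⟩
    rw [hf0, zero_mul]
  have hx0 : x ≠ 0 := fun h0 => h.transcendental (h0 ▸ isAlgebraic_zero)
  have hreg : ∀ v : Place K F, v.adicValuation x ≤ 1 → 0 ≤ v.ord x := fun v hv =>
    (v.adicValuation_le_one_iff.mp hv).resolve_left hx0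
  obtain ⟨P₀, hP₀⟩ := h.exists_pole
  have hne : P ≠ P₀ := by
    rintro rfl
    have := hreg P hxP
    omega
  have := h.hasPrincipalDivisors
  obtain ⟨D, hD, -⟩ := HasPrincipalDivisors.exists_divisor (K := K) f hf0
  set S : Finset (Place K F) := (insert P D.support).erase P₀ with hS
  have hPS : P ∈ S := Finset.mem_erase.mpr ⟨hne, Finset.mem_insert_self _ _⟩
  obtain ⟨b, hb1, hb2⟩ := h.strong_approximation_ord S P₀ (Finset.notMem_erase _ _)
    (fun v => if v = P then 1 else 0) (fun v => if v = P then 1 else max 0 (-v.ord f))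
  have hfP : 0 ≤ P.ord f := (P.adicValuation_le_one_iff.mp hf).resolve_left hf0
  -- the value of `b` at `P`
  have hbP := hb1 P hPS
  simp only [if_true] at hbP
  have hbval : P.adicValuation b = 1 := by
    rcases hbP with hb | hb
    · rw [hb, map_one]
    · have h1 : P.adicValuation (b - 1) ≤ exp (-1 : ℤ) :=
        P.adicValuation_le_exp_iff.mpr (Or.inr (by simpa using hb))
      have h2 : P.adicValuation (b - 1) < 1 := lt_of_le_of_lt h1 (by
        rw [← exp_zero, exp_lt_exp]; norm_num)
      have h3 : b = 1 + (b - 1) := by ring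
      rw [h3]
      exact Valuation.map_one_add_of_lt _ h2
  have hb0 : b ≠ 0 := by
    rintro rfl
    rw [map_zero] at hbval
    exact zero_ne_one hbval
  have hbord : P.ord b = 0 := by
    unfold Place.ord
    rw [hbval]
    simp
  -- `b` away from `P`
  have hbS : ∀ v ∈ S, v ≠ P → max 0 (-v.ord f) ≤ v.ord b := by
    intro v hv hvP
    have := hb1 v hv
    simp only [if_neg hvP, sub_zero] at this
    exact this.resolve_left hb0
  have hout : ∀ v : Place K F, v ∉ S → v ≠ P₀ → v.ord f = 0 := by
    intro v hv hv0
    have h1 : v ∉ insert P D.support := fun hmem => hv (Finset.mem_erase.mpr ⟨hv0, hmem⟩)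
    have h2 : v ∉ D.support := fun hmem => h1 (Finset.mem_insert_of_mem hmem)
    rw [← hD v]
    exact Finsupp.notMem_support_iff.mp h2
  have hbreg : ∀ v : Place K F, v.adicValuation x ≤ 1 → 0 ≤ v.ord b := by
    intro v hv
    have hv0 : v ≠ P₀ := by
      rintro rfl
      have := hreg v hv
      omega
    by_cases hvS : v ∈ S
    · by_cases hvP : v = P
      · rw [hvP, hbord]
      · exact le_trans (le_max_left _ _) (hbS v hvS hvP)
    · exact hb2 v hvS hv0
  refine ⟨f * b, ?_, b, ?_, hb0, hbord, rfl⟩
  · intro v hv
    have hv0 : v ≠ P₀ := by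
      rintro rfl
      have := hreg v hv
      omega
    rw [v.adicValuation_le_one_iff]
    right
    rw [Place.ord_mul v hf0 hb0]
    by_cases hvS : v ∈ S
    · by_cases hvP : v = P
      · rw [hvP, hbord]
        omega
      · have := le_trans (le_max_right _ _) (hbS v hvS hvP)
        omega
    · rw [hout v hvS hv0, zero_add]
      exact hb2 v hvS hv0
  · intro v hv
    rw [v.adicValuation_le_one_iff]
    exact Or.inr (hbreg v hv)

/-- **(LOC)** in the vocabulary of `AnnulusPlace`: if the `K`-span of `R` contains the chart ring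
of `x`, then the local ring of every place at which `x` is regular is generated by `R`. -/
theorem locAt_of_finRing_le (h : IsFF1 K F x) (R : Subring F)
    (hR : ∀ a ∈ finRing K x, a ∈ Submodule.span K (R : Set F)) (P : Place K F)
    (hxP : P.adicValuation x ≤ 1) : LocAt R P := by
  intro f hf
  obtain ⟨a, ha, b, hb, hb0, hbP, hfb⟩ :=
    exists_finRing_frac h P hxP f (P.adicValuation_le_one_of_mem hf)
  exact ⟨a, hR a ha, b, hR b hb, pval_ne_zero_of_ord_eq_zero (h.resK P) hb0 hbP, hfb⟩

end Fermat.Agent.TR.Node.LocAtFF
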