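import Mathlib
import Fermat.Agent.TR.Node.LocAtFF
import Fermat.Agent.TR.Node.NodeRingAbs

/-!
# TR / Node, brick (LOC) for the node ring (abstract nodal setting of `NodeRingAbs`)

`nodeRing red ⊤ E e₁ e₂ i` is the node ring at the level of the constant field `L` itself
(`Fx = ⊤`).  If `x` is a chart coordinate whose poles lie in the support of the chart divisor `E`
(e.g. `E = poleDiv x`), then

* `finRing_le_span_nodeRing` : the chart ring `finRing L x` lies in the `L`-span of the node ring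
  (scale a chart function into `O`, then `NodeRingAbs.chart_mem`);
* `locAt_nodeRing` : `AnnulusPlace.LocAt (nodeRing red ⊤ E e₁ e₂ i) P` for EVERY place `P` off the
  chart divisor (`E P = 0`) — the hypothesis `hloc` of `AnnulusPlace.eq_of_coord_eq` and
  `AnnulusPlace.ord_coord_eq_one`.

A version for a general subring `Fx` (`finRing_le_span_nodeRing_of`, `locAt_nodeRing_of`) takes the
spanning property of the `Fx`-chart functions as a hypothesis.
-/

set_option autoImplicit false

noncomputable section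

namespace Fermat.Agent.TR.Node.LocAtNode

open AlgebraicCurve WithZero Fermat.Agent.Lib.FF Fermat.Agent.MW.HtM
  Fermat.Agent.BAD.NodalPlaces Fermat.Agent.TR.Node.AnnulusPlace Fermat.Agent.TR.Node.NodeRingAbs
  Fermat.Agent.TR.Node.LocAtFF Fermat.Agent.Lib.Red.Deform

variable {L F : Type*} [Field L] [Field F] [Algebra L F] {O : Subring F}
  {k F₁ F₂ : Type*} [Field k] [Field F₁] [Field F₂] [Algebra k F₁] [Algebra k F₂]
  {ι : Type*} {x : F}

/-- A chart function lies in `L(N • E)` for some `N`, if the poles of the chart coordinate lie in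
the support of `E`. -/
theorem exists_mem_L_nsmul (h : IsFF1 L F x) {E : Divisor L F} (hE : 0 ≤ E)
    (hEx : ∀ P : Place L F, P.ord x < 0 → 0 < E P) {a : F} (ha : a ∈ finRing L x) :
    ∃ N : ℕ, a ∈ riemannRochSpace (N • E) := by
  classical
  have hx0 : x ≠ 0 := fun h0 => h.transcendental (h0 ▸ isAlgebraic_zero)
  obtain ⟨hfin, -⟩ := h.poles_le
  refine ⟨∑ v ∈ hfin.toFinset, (v.ord a).natAbs, ?_⟩
  rw [mem_riemannRochSpace_iff]
  intro v
  by_cases ha0 : a = 0
  · exact Or.inl ha0
  right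
  rw [Finsupp.smul_apply, nsmul_eq_mul]
  have hEv : 0 ≤ E v := hE v
  by_cases hv : v.ord x < 0
  · have hmem : v ∈ hfin.toFinset := hfin.mem_toFinset.mpr hv
    have h1 : (v.ord a).natAbs ≤ ∑ w ∈ hfin.toFinset, (w.ord a).natAbs :=
      Finset.single_le_sum (f := fun w => (w.ord a).natAbs) (fun _ _ => Nat.zero_le _) hmem
    have h2 : (1 : ℤ) ≤ E v := hEx v hv
    have h3 : ((v.ord a).natAbs : ℤ) ≤ ((∑ w ∈ hfin.toFinset, (w.ord a).natAbs : ℕ) : ℤ) := by
      exact_mod_cast h1
    have h4 : -((v.ord a).natAbs : ℤ) ≤ v.ord a := by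
      omega
    have h5 : (0 : ℤ) ≤ ((∑ w ∈ hfin.toFinset, (w.ord a).natAbs : ℕ) : ℤ) := Int.natCast_nonneg _
    nlinarith
  · have hreg : v.adicValuation x ≤ 1 := by
      rw [v.adicValuation_le_one_iff]
      exact Or.inr (not_lt.mp hv)
    have h1 : 0 ≤ v.ord a := (v.adicValuation_le_one_iff.mp (ha v hreg)).resolve_left ha0
    have h5 : (0 : ℤ) ≤ ((∑ w ∈ hfin.toFinset, (w.ord a).natAbs : ℕ) : ℤ) := Int.natCast_nonneg _
    nlinarith

variable {A : ValuationSubring L}

/-- The chart ring lies in the `L`-span of the node ring, for a general `Fx`, given that the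
integral chart functions are spanned by the node ring. -/
theorem finRing_le_span_nodeRing_of (h : IsFF1 L F x)
    (hval : ∀ y : F, y ≠ 0 → ∃ c : L, c ≠ 0 ∧ algebraMap L F c * y ∈ O ∧
      ¬ Small A O (algebraMap L F c * y))
    (red : O →+* F₁ × F₂) (Fx : Subring F) {E : Divisor L F} (hE : 0 ≤ E)
    (hEx : ∀ P : Place L F, P.ord x < 0 → 0 < E P)
    (e₁ : ι → Place k F₁) (e₂ : ι → Place k F₂) (i : ι)
    (hFx : ∀ (N : ℕ) (y : F), y ∈ O → y ∈ riemannRochSpace (N • E) →
      y ∈ Submodule.span L ((nodeRing red Fx E e₁ e₂ i : Subring F) : Set F))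
    {a : F} (ha : a ∈ finRing L x) :
    a ∈ Submodule.span L ((nodeRing red Fx E e₁ e₂ i : Subring F) : Set F) := by
  by_cases ha0 : a = 0
  · rw [ha0]
    exact Submodule.zero_mem _
  obtain ⟨N, hN⟩ := exists_mem_L_nsmul h hE hEx ha
  obtain ⟨c, hc0, hcO, -⟩ := hval a ha0
  have h1 : algebraMap L F c * a ∈ riemannRochSpace (N • E) := by
    have := (riemannRochSpace (N • E)).smul_mem c hN
    rwa [Algebra.smul_def] at this
  have h2 := hFx N _ hcO h1
  have h3 : a = c⁻¹ • (algebraMap L F c * a) := by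
    rw [Algebra.smul_def, ← mul_assoc, ← map_mul, inv_mul_cancel₀ hc0, map_one, one_mul]
  rw [h3]
  exact Submodule.smul_mem _ _ h2

/-- **The chart ring lies in the `L`-span of the `L`-level node ring** (`Fx = ⊤`). -/
theorem finRing_le_span_nodeRing (h : IsFF1 L F x)
    (hval : ∀ y : F, y ≠ 0 → ∃ c : L, c ≠ 0 ∧ algebraMap L F c * y ∈ O ∧
      ¬ Small A O (algebraMap L F c * y))
    (red : O →+* F₁ × F₂) {E : Divisor L F} (hE : 0 ≤ E)
    (hEx : ∀ P : Place L F, P.ord x < 0 → 0 < E P)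
    (e₁ : ι → Place k F₁) (e₂ : ι → Place k F₂) (i : ι)
    {a : F} (ha : a ∈ finRing L x) :
    a ∈ Submodule.span L ((nodeRing red ⊤ E e₁ e₂ i : Subring F) : Set F) :=
  finRing_le_span_nodeRing_of h hval red ⊤ hE hEx e₁ e₂ i
    (fun _ _ hyO hyL => Submodule.subset_span
      (chart_mem red ⊤ hE e₁ e₂ i hyO hyL (Subring.mem_top _))) ha

/-- **(LOC) for the node ring**, general `Fx`. -/
theorem locAt_nodeRing_of (h : IsFF1 L F x)
    (hval : ∀ y : F, y ≠ 0 → ∃ c : L, c ≠ 0 ∧ algebraMap L F c * y ∈ O ∧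
      ¬ Small A O (algebraMap L F c * y))
    (red : O →+* F₁ × F₂) (Fx : Subring F) {E : Divisor L F} (hE : 0 ≤ E)
    (hEx : ∀ P : Place L F, P.ord x < 0 → 0 < E P)
    (e₁ : ι → Place k F₁) (e₂ : ι → Place k F₂) (i : ι)
    (hFx : ∀ (N : ℕ) (y : F), y ∈ O → y ∈ riemannRochSpace (N • E) →
      y ∈ Submodule.span L ((nodeRing red Fx E e₁ e₂ i : Subring F) : Set F))
    (P : Place L F) (hP : E P = 0) : LocAt (nodeRing red Fx E e₁ e₂ i) P := by
  refine locAt_of_finRing_le h _
    (fun a ha => finRing_le_span_nodeRing_of h hval red Fx hE hEx e₁ e₂ i hFx ha) P ?_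
  rw [P.adicValuation_le_one_iff]
  right
  by_contra hneg
  have := hEx P (not_le.mp hneg)
  omega

/-- **(LOC) for the `L`-level node ring** (`Fx = ⊤`): the local ring of every place off the chart
divisor is generated by the node ring over the constants. -/
theorem locAt_nodeRing (h : IsFF1 L F x)
    (hval : ∀ y : F, y ≠ 0 → ∃ c : L, c ≠ 0 ∧ algebraMap L F c * y ∈ O ∧
      ¬ Small A O (algebraMap L F c * y))
    (red : O →+* F₁ × F₂) {E : Divisor L F} (hE : 0 ≤ E)
    (hEx : ∀ P : Place L F, P.ord x < 0 → 0 < E P)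
    (e₁ : ι → Place k F₁) (e₂ : ι → Place k F₂) (i : ι)
    (P : Place L F) (hP : E P = 0) : LocAt (nodeRing red ⊤ E e₁ e₂ i) P :=
  locAt_nodeRing_of h hval red ⊤ hE hEx e₁ e₂ i
    (fun _ _ hyO hyL => Submodule.subset_span
      (chart_mem red ⊤ hE e₁ e₂ i hyO hyL (Subring.mem_top _))) P hP

end Fermat.Agent.TR.Node.LocAtNode
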