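import Mathlib
import Fermat.Agent.TR.Node.NodeRing
import Fermat.Agent.TR.Node.LocAtNode
import Fermat.Agent.TR.Node.AnnulusRedNode
import Fermat.Agent.BAD.HenselPlace

/-!
# TR / Node, brick (LOC) at the modular objects (`BadSetup`, nodal datum of `NodeRing.lean`)

Setting of `TR/Node/NodeRing.lean`: `h : BadSetup A π M q`, `O = OPair h W`, `redPair h W`, a chart
divisor `E1 ≥ 0` of positive degree, stable under the inertia group of `A`.  Two node rings at the
node `i`:

* `Rh = NodeRingAbs.nodeRing (redPair h W) ⊤ E1 e₁ e₂ i` (the node ring over `ℚ̄`),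
* `R  = NodeRing.nodeRing h W E1 e₁ e₂ i` (the inertia-fixed, discrete node ring), `R ≤ Rh`.

Results:

* `nodeRing_le_top` : `R ≤ Rh` (the binder `hRRh` of `AnnulusRedNode`);
* `span_top`, `span_K0` : every chart space `L(N • E1)` lies in the `ℚ̄`-span of `Rh`, resp. of `R`
  (scaling into `O`, resp. inertia-fixed orthonormal bases `LatFixedInst.exists_fixed_ortho_basis_rr`);
* `apply_eq_zero_of_redNode` : a place reducing to the node (`HorUnit.RedNode A Rh Q`) lies off the
  chart divisor;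
* `locAt_top`, `locAt_K0` : `AnnulusPlace.LocAt Rh Q`, `AnnulusPlace.LocAt R Q` for `E1 Q = 0`;
* **`hloc`, `hloc_top`** : `∀ Q, RedNode A Rh Q → LocAt R Q` (resp. `LocAt Rh Q`) — verbatim the
  binder `hloc` of `AnnulusRedNode.redNode_inj` / `redNode_unr` / `redNode_ord_sub`.
-/

set_option autoImplicit false

noncomputable section

namespace Fermat.Agent.TR.Node.LocAtBad

open AlgebraicCurve ModularCurve WithZero Fermat.Agent.Lib.FF Fermat.Agent.Lib.Red.Deform
  Fermat.Agent.BAD.NodalRiemann Fermat.Agent.BAD.TwoVal Fermat.Agent.BAD.LatFixedInst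
  Fermat.Agent.BAD.LatFixedRing Fermat.Agent.TR.Node.AnnulusPlace Fermat.Agent.TR.Node.HorUnit

local notation "Qb" => AlgebraicClosure ℚ

variable {A : ValuationSubring Qb} {k : Type} [Field k] {π : A →+* k} {M q : ℕ} [NeZero M]
  [NeZero q]
  (h : BadSetup A π M q)
  (W : laurentBaseChange Qb (modularFunctionFieldFull (M * q)) ≃ₐ[Qb]
    laurentBaseChange Qb (modularFunctionFieldFull (M * q)))
  (E1 : Divisor Qb (laurentBaseChange Qb (modularFunctionFieldFull (M * q))))
  {ι : Type} (e₁ e₂ : ι → Place k (modularFunctionFieldFullC k M)) (i : ι)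

/-- The inertia-fixed node ring lies in the node ring over `ℚ̄`. -/
theorem nodeRing_le_top :
    NodeRing.nodeRing h W E1 e₁ e₂ i ≤ NodeRingAbs.nodeRing (redPair h W) ⊤ E1 e₁ e₂ i := by
  rintro g ⟨-, N, t, htL, -, hc, y, hy, hyL⟩
  exact ⟨Subring.mem_top _, N, t, htL, Subring.mem_top _, hc, y, hy, hyL⟩

/-- Every chart space `L(N • E1)` lies in the `ℚ̄`-span of the node ring over `ℚ̄`. -/
theorem span_top (hE1 : ∀ v, 0 ≤ E1 v) (N : ℕ)
    {f : laurentBaseChange Qb (modularFunctionFieldFull (M * q))}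
    (hf : f ∈ riemannRochSpace (N • E1)) :
    f ∈ Submodule.span Qb ((NodeRingAbs.nodeRing (redPair h W) ⊤ E1 e₁ e₂ i :
      Subring (laurentBaseChange Qb (modularFunctionFieldFull (M * q)))) :
      Set (laurentBaseChange Qb (modularFunctionFieldFull (M * q)))) := by
  by_cases hf0 : f = 0
  · rw [hf0]
    exact Submodule.zero_mem _
  obtain ⟨c, hc0, hcO, -⟩ := OPair_hval (W := W) h f hf0
  have h1 : algebraMap Qb (laurentBaseChange Qb (modularFunctionFieldFull (M * q))) c * f ∈
      riemannRochSpace (N • E1) := by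
    have := (riemannRochSpace (N • E1)).smul_mem c hf
    rwa [Algebra.smul_def] at this
  have h2 : algebraMap Qb (laurentBaseChange Qb (modularFunctionFieldFull (M * q))) c * f ∈
      NodeRingAbs.nodeRing (redPair h W) ⊤ E1 e₁ e₂ i :=
    NodeRingAbs.chart_mem (redPair h W) ⊤ (NodeRing.E1_nonneg E1 hE1) e₁ e₂ i hcO h1
      (Subring.mem_top _)
  have h3 : f = c⁻¹ • (algebraMap Qb (laurentBaseChange Qb (modularFunctionFieldFull (M * q))) c
      * f) := by
    rw [Algebra.smul_def, ← mul_assoc, ← map_mul, inv_mul_cancel₀ hc0, map_one, one_mul]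
  rw [h3]
  exact Submodule.smul_mem _ _ (Submodule.subset_span h2)

/-- Every chart space `L(N • E1)` of an inertia-invariant chart divisor lies in the `ℚ̄`-span of
the inertia-fixed node ring (inertia-fixed orthonormal bases). -/
theorem span_K0 (hA : A.LiesOverPrime q) (hπ : Function.Surjective π) (hW : IsAL M q W)
    (hE1 : ∀ v, 0 ≤ E1 v)
    (hgalE1 : ∀ σ ∈ A.inertiaSubgroupIn ℚ,
      arithmeticGalois (modularFunctionFieldFull (M * q)) σ • E1 = E1) (N : ℕ)
    {f : laurentBaseChange Qb (modularFunctionFieldFull (M * q))}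
    (hf : f ∈ riemannRochSpace (N • E1)) :
    f ∈ Submodule.span Qb ((NodeRing.nodeRing h W E1 e₁ e₂ i :
      Subring (laurentBaseChange Qb (modularFunctionFieldFull (M * q)))) :
      Set (laurentBaseChange Qb (modularFunctionFieldFull (M * q)))) := by
  obtain ⟨n, b, hbfix, -, hbspan, hbO, -⟩ :=
    exists_fixed_ortho_basis_rr h.hℓ hA h hπ hW (N • E1)
      (fun σ hσ => by rw [smul_comm, hgalE1 σ hσ])
  have hf' : f ∈ Submodule.span Qb (Set.range b) := by
    rw [hbspan]
    exact hf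
  refine Submodule.span_mono ?_ hf'
  rintro _ ⟨j, rfl⟩
  have hbL : b j ∈ riemannRochSpace (N • E1) := by
    rw [← hbspan]
    exact Submodule.subset_span ⟨j, rfl⟩
  exact NodeRing.chart_mem h W E1 e₁ e₂ i hE1 (hbO j) hbL (fun σ hσ => hbfix j σ hσ)

omit [NeZero M] [NeZero q] in
/-- The elements of the `ℚ̄`-span of a ring whose elements have values at `Q` are regular at
`Q`. -/
theorem val_le_one_of_mem_span {R : Subring (laurentBaseChange Qb (modularFunctionFieldFull (M * q)))}
    {Q : Place Qb (laurentBaseChange Qb (modularFunctionFieldFull (M * q)))}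
    (hQ : RedNode A R Q) {f : laurentBaseChange Qb (modularFunctionFieldFull (M * q))}
    (hf : f ∈ Submodule.span Qb (R : Set (laurentBaseChange Qb (modularFunctionFieldFull (M * q))))) :
    Q.adicValuation f ≤ 1 := by
  induction hf using Submodule.span_induction with
  | mem g hg =>
    obtain ⟨c, -, hc⟩ := hQ g hg
    exact hc.le_one
  | zero =>
    rw [map_zero]
    exact zero_le_one
  | add g g' _ _ hg hg' =>
    exact (Q.adicValuation.map_add_le hg hg')
  | smul a g _ hg =>
    rw [Algebra.smul_def, map_mul]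
    exact mul_le_one' (Q.adicValuation_algebraMap_le_one a) hg

/-- **A place reducing to the node lies off the chart divisor.** -/
theorem apply_eq_zero_of_redNode (hE1 : ∀ v, 0 ≤ E1 v) (hdegE1 : 0 < Divisor.degree E1)
    {Q : Place Qb (laurentBaseChange Qb (modularFunctionFieldFull (M * q)))}
    (hQ : RedNode A (NodeRingAbs.nodeRing (redPair h W) ⊤ E1 e₁ e₂ i) Q) : E1 Q = 0 :=
  Fermat.Agent.BAD.HenselPlace.apply_eq_zero_of_regular
    (Fermat.Agent.Lib.FF.isFF1_xL Qb (M * q)) (NodeRing.E1_nonneg E1 hE1) hdegE1 Q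
    (fun N _ hf => val_le_one_of_mem_span hQ (span_top h W E1 e₁ e₂ i hE1 N hf))

omit [NeZero M] [NeZero q] in
/-- A divisor of positive degree is non-zero at some place. -/
theorem exists_apply_ne_zero (hdegE1 : 0 < Divisor.degree E1) :
    ∃ P₀ : Place Qb (laurentBaseChange Qb (modularFunctionFieldFull (M * q))), E1 P₀ ≠ 0 := by
  by_contra hne
  push Not at hne
  have h0 : E1 = 0 := Finsupp.ext hne
  rw [h0, map_zero] at hdegE1
  exact lt_irrefl _ hdegE1

/-- **(LOC), node ring over `ℚ̄`**: off the chart divisor. -/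
theorem locAt_top (hE1 : ∀ v, 0 ≤ E1 v) (hdegE1 : 0 < Divisor.degree E1)
    {Q : Place Qb (laurentBaseChange Qb (modularFunctionFieldFull (M * q)))} (hQ : E1 Q = 0) :
    LocAt (NodeRingAbs.nodeRing (redPair h W) ⊤ E1 e₁ e₂ i) Q := by
  obtain ⟨P₀, hP₀⟩ := exists_apply_ne_zero E1 hdegE1
  exact AnnulusRedNode.locAt_of_span (Fermat.Agent.Lib.FF.isFF1_xL Qb (M * q))
    (NodeRing.E1_nonneg E1 hE1) hP₀ _ (fun N _ hf => span_top h W E1 e₁ e₂ i hE1 N hf) hQ

/-- **(LOC), inertia-fixed node ring**: off the chart divisor. -/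
theorem locAt_K0 (hA : A.LiesOverPrime q) (hπ : Function.Surjective π) (hW : IsAL M q W)
    (hE1 : ∀ v, 0 ≤ E1 v) (hdegE1 : 0 < Divisor.degree E1)
    (hgalE1 : ∀ σ ∈ A.inertiaSubgroupIn ℚ,
      arithmeticGalois (modularFunctionFieldFull (M * q)) σ • E1 = E1)
    {Q : Place Qb (laurentBaseChange Qb (modularFunctionFieldFull (M * q)))} (hQ : E1 Q = 0) :
    LocAt (NodeRing.nodeRing h W E1 e₁ e₂ i) Q := by
  obtain ⟨P₀, hP₀⟩ := exists_apply_ne_zero E1 hdegE1
  exact AnnulusRedNode.locAt_of_span (Fermat.Agent.Lib.FF.isFF1_xL Qb (M * q))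
    (NodeRing.E1_nonneg E1 hE1) hP₀ _
    (fun N _ hf => span_K0 h W E1 e₁ e₂ i hA hπ hW hE1 hgalE1 N hf) hQ

/-- **`hloc` of `AnnulusRedNode` for the node ring over `ℚ̄`.** -/
theorem hloc_top (hE1 : ∀ v, 0 ≤ E1 v) (hdegE1 : 0 < Divisor.degree E1) :
    ∀ Q : Place Qb (laurentBaseChange Qb (modularFunctionFieldFull (M * q))),
      RedNode A (NodeRingAbs.nodeRing (redPair h W) ⊤ E1 e₁ e₂ i) Q →
      LocAt (NodeRingAbs.nodeRing (redPair h W) ⊤ E1 e₁ e₂ i) Q :=
  fun _ hQ => locAt_top h W E1 e₁ e₂ i hE1 hdegE1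
    (apply_eq_zero_of_redNode h W E1 e₁ e₂ i hE1 hdegE1 hQ)

/-- **`hloc` of `AnnulusRedNode.redNode_inj` / `redNode_unr` at the modular objects**: the local
ring of every place reducing to the node `i` is generated over `ℚ̄` by the inertia-fixed node
ring. -/
theorem hloc (hA : A.LiesOverPrime q) (hπ : Function.Surjective π) (hW : IsAL M q W)
    (hE1 : ∀ v, 0 ≤ E1 v) (hdegE1 : 0 < Divisor.degree E1)
    (hgalE1 : ∀ σ ∈ A.inertiaSubgroupIn ℚ,
      arithmeticGalois (modularFunctionFieldFull (M * q)) σ • E1 = E1) :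
    ∀ Q : Place Qb (laurentBaseChange Qb (modularFunctionFieldFull (M * q))),
      RedNode A (NodeRingAbs.nodeRing (redPair h W) ⊤ E1 e₁ e₂ i) Q →
      LocAt (NodeRing.nodeRing h W E1 e₁ e₂ i) Q :=
  fun _ hQ => locAt_K0 h W E1 e₁ e₂ i hA hπ hW hE1 hdegE1 hgalE1
    (apply_eq_zero_of_redNode h W E1 e₁ e₂ i hE1 hdegE1 hQ)

end Fermat.Agent.TR.Node.LocAtBad
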