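import Mathlib
import Fermat.Agent.CAR.Local.LocalThm
import Fermat.Agent.CAR.Local.VertHartogs
import Fermat.Agent.CAR.Formal.DiscVal

/-!
# TR (N), step (1): the local ring of a node of the special fibre

Abstract setting (no modular objects; vocabulary of `CAR/Local`): `A` a Noetherian integrally
closed domain with fraction field `F` (a chart ring of the normal model over a discrete valuation
ring with uniformiser `p`), `O₁, O₂ ⊇ A` the valuation rings of the two components of the special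
fibre, with residue maps `red_i : O_i → κ_i`; `p` is a uniformiser of both and the centres of
`O₁`, `O₂` are the only primes of `A` minimal over `(p)`.

A **node** is a point lying on both components: places `Vs₁` of `κ₁` and `Vs₂` of `κ₂` with the
same point ideal `𝔫 = pointIdeal O₁ red₁ Vs₁ = pointIdeal O₂ red₂ Vs₂`.  `R_s := pointRing F 𝔫`
is its local ring.  Inputs at the node: (LIFT) on the two branches, and two functions `x₀, y₀ ∈ A`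
lifting the branch uniformisers: `x₀` vanishes on the second component and reduces to a
uniformiser of `Vs₁`, `y₀` vanishes on the first component and reduces to a uniformiser of `Vs₂`.

* `vert` : vertical Hartogs for two components (`p ^ n z ∈ A`, `z ∈ O₁ ∩ O₂` ⟹ `z ∈ A`);
* `exists_mul_eq_three` : `𝔫 A_𝔫 = (x₀, y₀, p)`, in `A`: every `m ∈ 𝔫` satisfies
  `s m = a x₀ + b y₀ + c p` with `s ∉ 𝔫`;
* `sat` : (SAT) `R_s = O₁ ∩ O₂ ∩ R_s[1/p]`;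
* `reduced` : `g ∈ R_s` vanishing on both components is `p r`, `r ∈ R_s`;
* `gen` : (GEN) every non-unit of `R_s` is `α x₀ + β y₀ + γ p`;
* `rho` : the reduction `R_s → κ₁` on the first branch, with values in `Vs₁`
  (`rho_mem`), kernel = the non-units of `O₁` (`rho_eq_zero_iff`), `isUnit_iff_rho`;
* `uniformiser_of_ord_eq_one` : the hypothesis "reduces to a uniformiser" from `IsUnif` / `ord`.
-/

set_option autoImplicit false

namespace Fermat.Agent.TR.Node.LocalRing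

open IsLocalRing Fermat.Agent.CAR.Local Fermat.Agent.CAR.Formal

/-- An element of order one of a discrete valuation ring generates its non-units. -/
theorem uniformiser_of_ord_eq_one {κ : Type*} [Field κ] {Vs : ValuationSubring κ} {t : κ}
    (hVs : IsUnif Vs t) {c₀ : κ} (hc₀ : c₀ ≠ 0) (h1 : hVs.ord c₀ = 1) :
    c₀ ∈ Vs.nonunits ∧ ∀ c ∈ Vs.nonunits, ∃ c' ∈ Vs, c = c' * c₀ := by
  have hc₀' : c₀ ∈ Vs.nonunits := (hVs.ord_pos_iff hc₀).1 (by rw [h1]; exact one_pos)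
  refine ⟨hc₀', fun c hc => ?_⟩
  by_cases hc0 : c = 0
  · exact ⟨0, Vs.zero_mem, by rw [hc0, zero_mul]⟩
  · refine ⟨c / c₀, ?_, by field_simp⟩
    have h2 : 0 < hVs.ord c := (hVs.ord_pos_iff hc0).2 hc
    have h3 : c / c₀ ≠ 0 := div_ne_zero hc0 hc₀
    rw [← hVs.ord_nonneg_iff h3, hVs.ord_div hc0 hc₀, h1]
    omega

section Node

variable {A F κ₁ κ₂ : Type*} [CommRing A] [IsDomain A] [IsNoetherianRing A]
  [IsIntegrallyClosed A] [Field F] [Algebra A F] [IsFractionRing A F] [Field κ₁] [Field κ₂]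
  (O₁ O₂ : ValuationSubring F)
  (red₁ : O₁ →+* κ₁) (hred₁ : ∀ x : O₁, red₁ x = 0 ↔ x ∈ maximalIdeal O₁)
  (red₂ : O₂ →+* κ₂) (hred₂ : ∀ x : O₂, red₂ x = 0 ↔ x ∈ maximalIdeal O₂)
  (hAO₁ : ∀ a : A, algebraMap A F a ∈ O₁) (hAO₂ : ∀ a : A, algebraMap A F a ∈ O₂)
  (Vs₁ : ValuationSubring κ₁) (Vs₂ : ValuationSubring κ₂)
  (hA₁ : ∀ a : A, algebraMap A F a ∈ compositeSubring O₁ red₁ hred₁ Vs₁)
  (hA₂ : ∀ a : A, algebraMap A F a ∈ compositeSubring O₂ red₂ hred₂ Vs₂)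
  {p : A}

omit [Field κ₁] [Field κ₂] in
/-- **Vertical Hartogs for two components.** -/
theorem vert (hp0 : p ≠ 0)
    (hmin : ∀ 𝔮 ∈ (Ideal.span {p}).minimalPrimes, 𝔮 = centre O₁ hAO₁ ∨ 𝔮 = centre O₂ hAO₂)
    (z : F) (n : ℕ) (b : A) (hk : algebraMap A F p ^ n * z = algebraMap A F b)
    (hz₁ : z ∈ O₁) (hz₂ : z ∈ O₂) : z ∈ (algebraMap A F).range := by
  refine VertH.mem_range_of_pow_mul_eq (fun i : Bool => cond i O₁ O₂)
    (fun i a => by cases i <;> simp [hAO₁ a, hAO₂ a]) hp0 ?_ z n b hk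
    (fun i => by cases i <;> simp [hz₁, hz₂])
  intro 𝔮 h𝔮
  rcases hmin 𝔮 h𝔮 with h | h
  · exact ⟨true, h⟩
  · exact ⟨false, h⟩

/-- **Three generators, in `A`.**  Every element of the node is, up to a factor outside the
node, a combination of `x₀`, `y₀` and `p`. -/
theorem exists_mul_eq_three (hp0 : p ≠ 0)
    (hunif₁ : ∀ z ∈ O₁.nonunits, z / algebraMap A F p ∈ O₁)
    (hunif₂ : ∀ z ∈ O₂.nonunits, z / algebraMap A F p ∈ O₂)
    (hmin : ∀ 𝔮 ∈ (Ideal.span {p}).minimalPrimes, 𝔮 = centre O₁ hAO₁ ∨ 𝔮 = centre O₂ hAO₂)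
    (hnode : pointIdeal O₁ red₁ hred₁ Vs₁ hA₁ = pointIdeal O₂ red₂ hred₂ Vs₂ hA₂)
    (hlift₁ : ∀ c ∈ Vs₁, ∃ a b : A, redOn O₁ red₁ hAO₁ b ∉ Vs₁.nonunits ∧
      redOn O₁ red₁ hAO₁ a = c * redOn O₁ red₁ hAO₁ b)
    (hlift₂ : ∀ c ∈ Vs₂, ∃ a b : A, redOn O₂ red₂ hAO₂ b ∉ Vs₂.nonunits ∧
      redOn O₂ red₂ hAO₂ a = c * redOn O₂ red₂ hAO₂ b)
    {x₀ y₀ : A} (hx₀ : x₀ ∈ centre O₂ hAO₂)
    (hx : ∀ c ∈ Vs₁.nonunits, ∃ c' ∈ Vs₁, c = c' * redOn O₁ red₁ hAO₁ x₀)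
    (hy₀ : y₀ ∈ centre O₁ hAO₁)
    (hy : ∀ c ∈ Vs₂.nonunits, ∃ c' ∈ Vs₂, c = c' * redOn O₂ red₂ hAO₂ y₀)
    {m : A} (hm : m ∈ pointIdeal O₁ red₁ hred₁ Vs₁ hA₁) :
    ∃ s a b c : A, s ∉ pointIdeal O₁ red₁ hred₁ Vs₁ hA₁ ∧ s * m = a * x₀ + b * y₀ + c * p := by
  have hinj : Function.Injective (algebraMap A F) := IsFractionRing.injective A F
  have hpF : algebraMap A F p ≠ 0 := fun h0 => hp0 (hinj (by rw [h0, map_zero]))
  -- first branch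
  obtain ⟨a₁, b₁, hb₁, hw⟩ :=
    LThm.exists_mul_sub_mul_mem_centre O₁ red₁ hred₁ hAO₁ Vs₁ hA₁ hx hlift₁ hm
  -- `w := b₁ m - a₁ x₀` lies in the node
  have hx₀n : x₀ ∈ pointIdeal O₁ red₁ hred₁ Vs₁ hA₁ := by
    rw [hnode]
    exact centre_le_pointIdeal O₂ red₂ hred₂ hAO₂ Vs₂ hA₂ hx₀
  have hwn : b₁ * m - a₁ * x₀ ∈ pointIdeal O₂ red₂ hred₂ Vs₂ hA₂ := by
    rw [← hnode]
    exact Ideal.sub_mem _ (Ideal.mul_mem_left _ _ hm) (Ideal.mul_mem_left _ _ hx₀n)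
  -- second branch
  obtain ⟨a₂, b₂, hb₂, hw'⟩ :=
    LThm.exists_mul_sub_mul_mem_centre O₂ red₂ hred₂ hAO₂ Vs₂ hA₂ hy hlift₂ hwn
  -- `w' := b₂ w - a₂ y₀` vanishes on both components
  have hw'₁ : b₂ * (b₁ * m - a₁ * x₀) - a₂ * y₀ ∈ centre O₁ hAO₁ :=
    Ideal.sub_mem _ (Ideal.mul_mem_left _ _ hw) (Ideal.mul_mem_left _ _ hy₀)
  have h1 : algebraMap A F (b₂ * (b₁ * m - a₁ * x₀) - a₂ * y₀) / algebraMap A F p ∈ O₁ :=
    hunif₁ _ ((mem_centre_iff O₁ hAO₁ _).1 hw'₁)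
  have h2 : algebraMap A F (b₂ * (b₁ * m - a₁ * x₀) - a₂ * y₀) / algebraMap A F p ∈ O₂ :=
    hunif₂ _ ((mem_centre_iff O₂ hAO₂ _).1 hw')
  obtain ⟨c, hc⟩ := vert O₁ O₂ hAO₁ hAO₂ hp0 hmin _ 1 (b₂ * (b₁ * m - a₁ * x₀) - a₂ * y₀)
    (by rw [pow_one, mul_div_cancel₀ _ hpF]) h1 h2
  refine ⟨b₂ * b₁, b₂ * a₁, a₂, c, ?_, ?_⟩
  · intro h
    rcases Ideal.IsPrime.mem_or_mem inferInstance h with h' | h'
    · exact hb₂ (hnode ▸ h')
    · exact hb₁ h'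
  · apply hinj
    have e : algebraMap A F c * algebraMap A F p
        = algebraMap A F (b₂ * (b₁ * m - a₁ * x₀) - a₂ * y₀) := by
      rw [hc, div_mul_cancel₀ _ hpF]
    have e' : c * p = b₂ * (b₁ * m - a₁ * x₀) - a₂ * y₀ := by
      apply hinj
      rw [map_mul, e]
    rw [e']
    congr 1
    ring

omit [Field κ₂] in
/-- **(SAT)**: the local ring of the node is `O₁ ∩ O₂ ∩ R_s[1/p]`. -/
theorem sat (hp0 : p ≠ 0)
    (hmin : ∀ 𝔮 ∈ (Ideal.span {p}).minimalPrimes, 𝔮 = centre O₁ hAO₁ ∨ 𝔮 = centre O₂ hAO₂)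
    (g : F) (hg₁ : g ∈ O₁) (hg₂ : g ∈ O₂)
    (hg : ∃ n : ℕ, algebraMap A F p ^ n * g ∈ pointRing F (pointIdeal O₁ red₁ hred₁ Vs₁ hA₁)) :
    g ∈ pointRing F (pointIdeal O₁ red₁ hred₁ Vs₁ hA₁) := by
  have hinj : Function.Injective (algebraMap A F) := IsFractionRing.injective A F
  obtain ⟨n, hn⟩ := hg
  obtain ⟨a, s, hs, has⟩ := mem_pointRing_iff.1 hn
  have hsF : algebraMap A F s ≠ 0 := fun h0 =>
    hs (by
      have : s = 0 := hinj (by rw [h0, map_zero])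
      rw [this]
      exact Ideal.zero_mem _)
  obtain ⟨b, hb⟩ := vert O₁ O₂ hAO₁ hAO₂ hp0 hmin (g * algebraMap A F s) n a
    (by rw [← mul_assoc, has, inv_mul_cancel_right₀ hsF])
    (O₁.mul_mem _ _ hg₁ (hAO₁ s)) (O₂.mul_mem _ _ hg₂ (hAO₂ s))
  refine mem_pointRing_iff.2 ⟨b, s, hs, ?_⟩
  rw [hb, mul_inv_cancel_right₀ hsF]

omit [Field κ₂] in
/-- **Reducedness of the special fibre at the node**: an element of the local ring vanishing on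
both components is divisible by `p`. -/
theorem reduced (hp0 : p ≠ 0)
    (hunif₁ : ∀ z ∈ O₁.nonunits, z / algebraMap A F p ∈ O₁)
    (hunif₂ : ∀ z ∈ O₂.nonunits, z / algebraMap A F p ∈ O₂)
    (hmin : ∀ 𝔮 ∈ (Ideal.span {p}).minimalPrimes, 𝔮 = centre O₁ hAO₁ ∨ 𝔮 = centre O₂ hAO₂)
    (g : F) (hg : g ∈ pointRing F (pointIdeal O₁ red₁ hred₁ Vs₁ hA₁))
    (hg₁ : g ∈ O₁.nonunits) (hg₂ : g ∈ O₂.nonunits) :
    ∃ r ∈ pointRing F (pointIdeal O₁ red₁ hred₁ Vs₁ hA₁), g = algebraMap A F p * r := by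
  have hinj : Function.Injective (algebraMap A F) := IsFractionRing.injective A F
  have hpF : algebraMap A F p ≠ 0 := fun h0 => hp0 (hinj (by rw [h0, map_zero]))
  refine ⟨g / algebraMap A F p, ?_, by rw [mul_div_cancel₀ _ hpF]⟩
  refine sat O₁ O₂ red₁ hred₁ hAO₁ hAO₂ Vs₁ hA₁ hp0 hmin _ (hunif₁ g hg₁) (hunif₂ g hg₂) ⟨1, ?_⟩
  rw [pow_one, mul_div_cancel₀ _ hpF]
  exact hg

/-- **(GEN)**: the maximal ideal of the local ring of the node is `(x₀, y₀, p)`. -/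
theorem gen (hp0 : p ≠ 0)
    (hunif₁ : ∀ z ∈ O₁.nonunits, z / algebraMap A F p ∈ O₁)
    (hunif₂ : ∀ z ∈ O₂.nonunits, z / algebraMap A F p ∈ O₂)
    (hmin : ∀ 𝔮 ∈ (Ideal.span {p}).minimalPrimes, 𝔮 = centre O₁ hAO₁ ∨ 𝔮 = centre O₂ hAO₂)
    (hnode : pointIdeal O₁ red₁ hred₁ Vs₁ hA₁ = pointIdeal O₂ red₂ hred₂ Vs₂ hA₂)
    (hlift₁ : ∀ c ∈ Vs₁, ∃ a b : A, redOn O₁ red₁ hAO₁ b ∉ Vs₁.nonunits ∧
      redOn O₁ red₁ hAO₁ a = c * redOn O₁ red₁ hAO₁ b)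
    (hlift₂ : ∀ c ∈ Vs₂, ∃ a b : A, redOn O₂ red₂ hAO₂ b ∉ Vs₂.nonunits ∧
      redOn O₂ red₂ hAO₂ a = c * redOn O₂ red₂ hAO₂ b)
    {x₀ y₀ : A} (hx₀ : x₀ ∈ centre O₂ hAO₂)
    (hx : ∀ c ∈ Vs₁.nonunits, ∃ c' ∈ Vs₁, c = c' * redOn O₁ red₁ hAO₁ x₀)
    (hy₀ : y₀ ∈ centre O₁ hAO₁)
    (hy : ∀ c ∈ Vs₂.nonunits, ∃ c' ∈ Vs₂, c = c' * redOn O₂ red₂ hAO₂ y₀)
    (r : pointRing F (pointIdeal O₁ red₁ hred₁ Vs₁ hA₁))
    (hr : r ∈ maximalIdeal (pointRing F (pointIdeal O₁ red₁ hred₁ Vs₁ hA₁))) :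
    ∃ α β γ : pointRing F (pointIdeal O₁ red₁ hred₁ Vs₁ hA₁),
      r = α * algebraMap A (pointRing F (pointIdeal O₁ red₁ hred₁ Vs₁ hA₁)) x₀ +
        β * algebraMap A (pointRing F (pointIdeal O₁ red₁ hred₁ Vs₁ hA₁)) y₀ +
        γ * algebraMap A (pointRing F (pointIdeal O₁ red₁ hred₁ Vs₁ hA₁)) p := by
  obtain ⟨m, s₁, hs₁, hms⟩ := LThm.exists_mul_eq (pointIdeal O₁ red₁ hred₁ Vs₁ hA₁) r
  have hmP : m ∈ pointIdeal O₁ red₁ hred₁ Vs₁ hA₁ := by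
    rw [← algebraMap_mem_maximalIdeal_pointRing_iff F (pointIdeal O₁ red₁ hred₁ Vs₁ hA₁) m,
      ← hms]
    exact Ideal.mul_mem_right _ _ hr
  obtain ⟨s₂, a, b, c, hs₂, h3⟩ := exists_mul_eq_three O₁ O₂ red₁ hred₁ red₂ hred₂ hAO₁ hAO₂
    Vs₁ Vs₂ hA₁ hA₂ hp0 hunif₁ hunif₂ hmin hnode hlift₁ hlift₂ hx₀ hx hy₀ hy hmP
  obtain ⟨w₁, hw₁⟩ := (LThm.isUnit_algebraMap (F := F) _ hs₁).exists_right_inv
  obtain ⟨w₂, hw₂⟩ := (LThm.isUnit_algebraMap (F := F) _ hs₂).exists_right_inv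
  have h4 : algebraMap A (pointRing F (pointIdeal O₁ red₁ hred₁ Vs₁ hA₁)) s₂ *
      algebraMap A (pointRing F (pointIdeal O₁ red₁ hred₁ Vs₁ hA₁)) m =
      algebraMap A _ a * algebraMap A _ x₀ + algebraMap A _ b * algebraMap A _ y₀ +
        algebraMap A _ c * algebraMap A _ p := by
    rw [← map_mul, h3]
    simp only [map_add, map_mul]
  refine ⟨w₁ * w₂ * algebraMap A _ a, w₁ * w₂ * algebraMap A _ b, w₁ * w₂ * algebraMap A _ c, ?_⟩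
  calc r = r * (algebraMap A (pointRing F (pointIdeal O₁ red₁ hred₁ Vs₁ hA₁)) s₁ * w₁) := by
        rw [hw₁, mul_one]
    _ = (r * algebraMap A (pointRing F (pointIdeal O₁ red₁ hred₁ Vs₁ hA₁)) s₁) * w₁ *
          (algebraMap A (pointRing F (pointIdeal O₁ red₁ hred₁ Vs₁ hA₁)) s₂ * w₂) := by
        rw [hw₂, mul_one]
        ring
    _ = w₁ * w₂ * (algebraMap A (pointRing F (pointIdeal O₁ red₁ hred₁ Vs₁ hA₁)) s₂ *
          algebraMap A (pointRing F (pointIdeal O₁ red₁ hred₁ Vs₁ hA₁)) m) := by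
        rw [hms]
        ring
    _ = _ := by
        rw [h4]
        ring

/-! ### The reduction of the local ring on the first branch -/

include hAO₁ in
omit [IsNoetherianRing A] [IsIntegrallyClosed A] in
/-- The local ring of the node lies in the valuation ring of the first component. -/
theorem le_O₁ (r : pointRing F (pointIdeal O₁ red₁ hred₁ Vs₁ hA₁)) : (r : F) ∈ O₁ :=
  pointRing_le_of_centre_le _ O₁ hAO₁ (centre_le_pointIdeal O₁ red₁ hred₁ hAO₁ Vs₁ hA₁) r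

/-- **The reduction `R_s → κ₁`** on the first branch. -/
noncomputable def rho : pointRing F (pointIdeal O₁ red₁ hred₁ Vs₁ hA₁) →+* κ₁ :=
  red₁.comp ((algebraMap (pointRing F (pointIdeal O₁ red₁ hred₁ Vs₁ hA₁)) F).codRestrict O₁
    (le_O₁ O₁ red₁ hred₁ hAO₁ Vs₁ hA₁))

omit [IsNoetherianRing A] [IsIntegrallyClosed A] in
theorem rho_apply (r : pointRing F (pointIdeal O₁ red₁ hred₁ Vs₁ hA₁)) :
    rho O₁ red₁ hred₁ hAO₁ Vs₁ hA₁ r = red₁ ⟨(r : F), le_O₁ O₁ red₁ hred₁ hAO₁ Vs₁ hA₁ r⟩ :=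
  rfl

omit [IsNoetherianRing A] [IsIntegrallyClosed A] in
theorem rho_algebraMap (a : A) :
    rho O₁ red₁ hred₁ hAO₁ Vs₁ hA₁
      (algebraMap A (pointRing F (pointIdeal O₁ red₁ hred₁ Vs₁ hA₁)) a) =
      redOn O₁ red₁ hAO₁ a :=
  rfl

omit [IsNoetherianRing A] [IsIntegrallyClosed A] in
/-- The reduction has values in the germ ring `Vs₁` of the branch. -/
theorem rho_mem (r : pointRing F (pointIdeal O₁ red₁ hred₁ Vs₁ hA₁)) :
    rho O₁ red₁ hred₁ hAO₁ Vs₁ hA₁ r ∈ Vs₁ := by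
  obtain ⟨hx, h⟩ := (mem_compositeSubring_iff O₁ red₁ hred₁ Vs₁ (r : F)).1
    (pointRing_le_of_centre_le (pointIdeal O₁ red₁ hred₁ Vs₁ hA₁)
      (compositeSubring O₁ red₁ hred₁ Vs₁) hA₁ le_rfl r)
  exact h

omit [IsNoetherianRing A] [IsIntegrallyClosed A] in
/-- The kernel of the reduction: the elements vanishing on the first component. -/
theorem rho_eq_zero_iff (r : pointRing F (pointIdeal O₁ red₁ hred₁ Vs₁ hA₁)) :
    rho O₁ red₁ hred₁ hAO₁ Vs₁ hA₁ r = 0 ↔ (r : F) ∈ O₁.nonunits := by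
  rw [rho_apply, hred₁]
  exact (ValuationSubring.coe_mem_nonunits_iff
    (a := (⟨(r : F), le_O₁ O₁ red₁ hred₁ hAO₁ Vs₁ hA₁ r⟩ : O₁))).symm

omit [IsNoetherianRing A] [IsIntegrallyClosed A] in
/-- The maximal ideal of the local ring: the elements whose reduction vanishes at the node. -/
theorem mem_maximalIdeal_iff_rho (r : pointRing F (pointIdeal O₁ red₁ hred₁ Vs₁ hA₁)) :
    r ∈ maximalIdeal (pointRing F (pointIdeal O₁ red₁ hred₁ Vs₁ hA₁)) ↔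
      rho O₁ red₁ hred₁ hAO₁ Vs₁ hA₁ r ∈ Vs₁.nonunits := by
  rw [mem_maximalIdeal_pointRing_iff O₁ red₁ hred₁ Vs₁ hA₁ r]
  exact ⟨fun ⟨_, h⟩ => h, fun h => ⟨_, h⟩⟩

omit [IsNoetherianRing A] [IsIntegrallyClosed A] in
/-- Units of the local ring: the elements whose reduction does not vanish at the node. -/
theorem isUnit_iff_rho (r : pointRing F (pointIdeal O₁ red₁ hred₁ Vs₁ hA₁)) :
    IsUnit r ↔ rho O₁ red₁ hred₁ hAO₁ Vs₁ hA₁ r ∉ Vs₁.nonunits := by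
  rw [← mem_maximalIdeal_iff_rho, IsLocalRing.mem_maximalIdeal, mem_nonunits_iff, not_not]

end Node

end Fermat.Agent.TR.Node.LocalRing
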