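import Mathlib
import Fermat.Agent.TR.Node.LocalRing
import Fermat.Agent.TR.Node.Thickness

/-!
# TR (N): the thickness of a node, for the local ring of a normal chart

`LocalRing` (the local ring `R_s = pointRing F 𝔫` of a normal Noetherian chart `A` at a node `𝔫`
satisfies (SAT), (GEN), and carries the reduction `rho`) fed into `Thickness.exists_thickness`:
the node coordinate exists and `a_s * k_s = c`.

What is left for an instance: a chart `A` with exactly two vertical components (`hmin`),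
`p` a uniformiser of both (`IsUnif`), (LIFT) on both branches, the node (`hnode`), lifts
`x₀, y₀ ∈ A` of the two branch uniformisers, and a function `f` with `v₁ f = 0`, `v₂ f = c > 0`,
`f ∈ R_s`, `f⁻¹ ∈ R_s[1/p]`.
-/

set_option autoImplicit false

namespace Fermat.Agent.TR.Node.LocalThick

open IsLocalRing Fermat.Agent.CAR.Local Fermat.Agent.CAR.Formal Fermat.Agent.TR.Node.LocalRing

/-- A uniformiser divides the non-units. -/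
theorem div_mem_of_isUnif {F : Type*} [Field F] {O : ValuationSubring F} {π : F}
    (h : IsUnif O π) (z : F) (hz : z ∈ O.nonunits) : z / π ∈ O := by
  by_cases hz0 : z = 0
  · rw [hz0, zero_div]
    exact O.zero_mem
  · have h1 : 0 < h.ord z := (h.ord_pos_iff hz0).2 hz
    have h2 : z / π ≠ 0 := div_ne_zero hz0 h.ne_zero
    rw [← h.ord_nonneg_iff h2, h.ord_div hz0 h.ne_zero]
    have h3 : h.ord π = 1 :=
      h.ord_eq (u := 1) O.one_mem (by rw [inv_one]; exact O.one_mem) one_ne_zero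
        (by rw [zpow_one, mul_one])
    omega

section Node

variable {A F κ₁ κ₂ : Type*} [CommRing A] [IsDomain A] [IsNoetherianRing A]
  [IsIntegrallyClosed A] [Field F] [Algebra A F] [IsFractionRing A F] [Field κ₁] [Field κ₂]
  (O₁ O₂ : ValuationSubring F)
  (red₁ : O₁ →+* κ₁) (hred₁ : ∀ x : O₁, red₁ x = 0 ↔ x ∈ maximalIdeal O₁)
  (red₂ : O₂ →+* κ₂) (hred₂ : ∀ x : O₂, red₂ x = 0 ↔ x ∈ maximalIdeal O₂)
  (hAO₁ : ∀ a : A, algebraMap A F a ∈ O₁) (hAO₂ : ∀ a : A, algebraMap A F a ∈ O₂)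
  (Vs₁ : ValuationSubring κ₁) (Vs₂ : ValuationSubring κ₂)
  (hA₁ : ∀ a : A, algebraMap A F a ∈ compositeSubring O₁ red₁ hred₁ Vs₁)
  (hA₂ : ∀ a : A, algebraMap A F a ∈ compositeSubring O₂ red₂ hred₂ Vs₂)
  {p : A}

/-- **(N) for the local ring of a normal chart at a node.**  `A` a Noetherian integrally closed
domain, `O₁, O₂` the valuation rings of the two components of its special fibre (`hmin`), `p` a
uniformiser of both, `𝔫` a node (`hnode`) with (LIFT) on both branches and lifts `x₀, y₀ ∈ A` of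
the branch uniformisers, `f ∈ R_s` with `v₁ f = 0`, `v₂ f = c > 0`, `f⁻¹ ∈ R_s[1/p]`.  Then there
are `k ≥ 1` and `x, y, u ∈ R_s`, `u` a unit, with `x y = p ^ k u`, `x ≡ x₀`, `y ≡ y₀ (mod p R_s)`,
`red₁ x = red₁ x₀`, `v₂ x = k = v₁ y` and `ord_s (red₁ f) * k = c`. -/
theorem exists_thickness (hO₁ : IsUnif O₁ (algebraMap A F p))
    (hO₂ : IsUnif O₂ (algebraMap A F p))
    (hmin : ∀ 𝔮 ∈ (Ideal.span {p}).minimalPrimes, 𝔮 = centre O₁ hAO₁ ∨ 𝔮 = centre O₂ hAO₂)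
    (hnode : pointIdeal O₁ red₁ hred₁ Vs₁ hA₁ = pointIdeal O₂ red₂ hred₂ Vs₂ hA₂)
    (hlift₁ : ∀ c ∈ Vs₁, ∃ a b : A, redOn O₁ red₁ hAO₁ b ∉ Vs₁.nonunits ∧
      redOn O₁ red₁ hAO₁ a = c * redOn O₁ red₁ hAO₁ b)
    (hlift₂ : ∀ c ∈ Vs₂, ∃ a b : A, redOn O₂ red₂ hAO₂ b ∉ Vs₂.nonunits ∧
      redOn O₂ red₂ hAO₂ a = c * redOn O₂ red₂ hAO₂ b)
    {t₁ : κ₁} (hVs₁ : IsUnif Vs₁ t₁) {t₂ : κ₂} (hVs₂ : IsUnif Vs₂ t₂)
    {x₀ y₀ : A} (hx₀ : x₀ ∈ centre O₂ hAO₂) (hx : hVs₁.ord (redOn O₁ red₁ hAO₁ x₀) = 1)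
    (hy₀ : y₀ ∈ centre O₁ hAO₁) (hy : hVs₂.ord (redOn O₂ red₂ hAO₂ y₀) = 1)
    {f : pointRing F (pointIdeal O₁ red₁ hred₁ Vs₁ hA₁)} (hfi : (f : F) ∉ O₁.nonunits)
    {c : ℤ} (hfz : hO₂.ord (f : F) = c) (hc : 0 < c)
    (hfinv : ∃ n : ℕ, algebraMap A F p ^ n * (f : F)⁻¹ ∈
      pointRing F (pointIdeal O₁ red₁ hred₁ Vs₁ hA₁)) :
    ∃ (k : ℕ) (x y u : pointRing F (pointIdeal O₁ red₁ hred₁ Vs₁ hA₁)), 0 < k ∧ IsUnit u ∧
      x * y = algebraMap A _ p ^ k * u ∧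
      (∃ r, x = algebraMap A _ x₀ + algebraMap A _ p * r) ∧
      (∃ r, y = algebraMap A _ y₀ + algebraMap A _ p * r) ∧
      rho O₁ red₁ hred₁ hAO₁ Vs₁ hA₁ x = redOn O₁ red₁ hAO₁ x₀ ∧
      hO₂.ord (x : F) = k ∧ hO₁.ord (y : F) = k ∧
      hVs₁.ord (rho O₁ red₁ hred₁ hAO₁ Vs₁ hA₁ f) * k = c := by
  have hinj : Function.Injective (algebraMap A F) := IsFractionRing.injective A F
  have hp0 : p ≠ 0 := fun h0 => hO₁.ne_zero (by rw [h0, map_zero])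
  have hunif₁ := div_mem_of_isUnif hO₁
  have hunif₂ := div_mem_of_isUnif hO₂
  have hx₀ne : redOn O₁ red₁ hAO₁ x₀ ≠ 0 := fun h0 => by
    rw [h0, IsUnif.ord_zero] at hx
    exact zero_ne_one hx
  have hy₀ne : redOn O₂ red₂ hAO₂ y₀ ≠ 0 := fun h0 => by
    rw [h0, IsUnif.ord_zero] at hy
    exact zero_ne_one hy
  have hx' := (uniformiser_of_ord_eq_one hVs₁ hx₀ne hx).2
  have hy' := (uniformiser_of_ord_eq_one hVs₂ hy₀ne hy).2
  -- the subring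
  set R : Subring F := (pointRing F (pointIdeal O₁ red₁ hred₁ Vs₁ hA₁)).toSubring with hR
  have hRi : ∀ g ∈ R, g ∈ O₁ := fun g hg => le_O₁ O₁ red₁ hred₁ hAO₁ Vs₁ hA₁ ⟨g, hg⟩
  have hRz : ∀ g ∈ R, g ∈ O₂ := fun g hg => by
    have h1 : pointIdeal O₁ red₁ hred₁ Vs₁ hA₁ = pointIdeal O₂ red₂ hred₂ Vs₂ hA₂ := hnode
    exact pointRing_le_of_centre_le _ O₂ hAO₂
      (h1 ▸ centre_le_pointIdeal O₂ red₂ hred₂ hAO₂ Vs₂ hA₂) ⟨g, hg⟩
  have hp : algebraMap A F p ∈ R :=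
    (algebraMap A (pointRing F (pointIdeal O₁ red₁ hred₁ Vs₁ hA₁)) p).2
  have hsat : ∀ g : F, g ∈ O₁ → g ∈ O₂ → (∃ n : ℕ, algebraMap A F p ^ n * g ∈ R) → g ∈ R :=
    fun g h1 h2 h3 => sat O₁ O₂ red₁ hred₁ hAO₁ hAO₂ Vs₁ hA₁ hp0 hmin g h1 h2 h3
  let ρ : R →+* κ₁ := rho O₁ red₁ hred₁ hAO₁ Vs₁ hA₁
  have hρV : ∀ g : R, ρ g ∈ Vs₁ := fun g => rho_mem O₁ red₁ hred₁ hAO₁ Vs₁ hA₁ g
  have hρker : ∀ g : R, ρ g = 0 ↔ (g : F) ∈ O₁.nonunits :=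
    fun g => rho_eq_zero_iff O₁ red₁ hred₁ hAO₁ Vs₁ hA₁ g
  let X₀ : R := algebraMap A (pointRing F (pointIdeal O₁ red₁ hred₁ Vs₁ hA₁)) x₀
  let Y₀ : R := algebraMap A (pointRing F (pointIdeal O₁ red₁ hred₁ Vs₁ hA₁)) y₀
  have hx₀z : (X₀ : F) ∈ O₂.nonunits := (mem_centre_iff O₂ hAO₂ x₀).1 hx₀
  have hy₀i : (Y₀ : F) ∈ O₁.nonunits := (mem_centre_iff O₁ hAO₁ y₀).1 hy₀
  have hy₀z : (Y₀ : F) ∉ O₂.nonunits := fun h => by
    apply hy₀ne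
    rw [redOn_apply, hred₂]
    exact (ValuationSubring.coe_mem_nonunits_iff
      (a := (⟨algebraMap A F y₀, hAO₂ y₀⟩ : O₂))).1 h
  have hx₀ρ : hVs₁.ord (ρ X₀) = 1 := hx
  have hgen : ∀ g : R, ¬ IsUnit g → ∃ α β γ : R, g = α * X₀ + β * Y₀ + γ * ⟨algebraMap A F p, hp⟩ := by
    intro g hg
    exact gen O₁ O₂ red₁ hred₁ red₂ hred₂ hAO₁ hAO₂ Vs₁ Vs₂ hA₁ hA₂ hp0 hunif₁ hunif₂ hmin hnode
      hlift₁ hlift₂ hx₀ hx' hy₀ hy' g hg
  exact Thickness.exists_thickness hO₁ hO₂ hRi hRz hp hsat hVs₁ ρ hρV hρker hx₀z hy₀i hy₀z hx₀ρ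
    hgen (f := f) hfi hfz hc hfinv

end Node

end Fermat.Agent.TR.Node.LocalThick
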