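/-
TR, node side (helper45): **the Newton relation at a node** (PL-F and the tame case of the
architect's design, ruling #1 of helper40).

Setting = `TR/Node/Thickness.lean` / `TR/Node/LocalFactor.lean`: two discrete valuation subrings
`Oi`, `Oz` of `F` with uniformiser `p` (the components `C_∞`, `C_0`), the local ring `R` of a node
`s` (saturated), a node coordinate `x * y = p ^ k * u`; here the reduction `redi : Oi →+* κ` is
given on the whole valuation ring of `C_∞` (its restriction to `R` is the `ρ` of `Thickness`), and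
`Vs ⊆ κ` is the germ ring of the branch at `s`.

* `redT redi g` : `redi g` for `g ∈ Oi`, `0` otherwise (total version);
* `mOrd f` : the order at `s` of the reduction of the normalised function `f / p ^ ord_i f`
  (`ord_s (redInf f)` for `v_∞ f = 0`; `f` may have poles through `s`);
* `defect k f := ord_z f - ord_i f - k * mOrd f`.

`mOrd` and `defect` are homomorphisms `Fˣ → ℤ` (`mOrd_mul`, `defect_mul`, `defect_zpow`,
`defect_prod`), and

* `defect_eq_zero` : `defect k g = 0` for every unit `g` of `R[1/p]` (no horizontal zero or pole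
  through the node);
* `newton` : if `f / ∏ π j ^ n j` is a unit of `R[1/p]`, then
  `ord_z f - ord_i f = k * mOrd f + ∑ n j * defect k (π j)`;
* `defect_of_coord` : `defect k π = ord_z π - k * ord_s (redi π)` for `π` a unit of `Oi`;
* `newton_tame` : if a prime `q` divides all `n j` then `k * mOrd f ≡ ord_z f - ord_i f  [ZMOD q]`;
* `newton_wild` : if moreover `k = q * k'` then `ord_z f - ord_i f = q * V` with
  `k' * mOrd f ≡ V - ∑ n' j * (ord_z (π j) - ord_i (π j))  [ZMOD q]`.
-/
import Mathlib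
import Fermat.Agent.CAR.Formal.DiscVal
import Fermat.Agent.TR.Node.Thickness
import Fermat.Agent.TR.Node.LocalFactor

set_option autoImplicit false

namespace Fermat.Agent.TR.Node.Newton

open Fermat.Agent.CAR.Formal Fermat.Agent.TR.Node.Thickness Fermat.Agent.TR.Node.LocalFactor

/-! ### The total reduction map -/

section Red

variable {F κ : Type*} [Field F] [Field κ] {Oi : ValuationSubring F} (redi : Oi →+* κ)

open Classical in
/-- `redi` extended by zero outside `Oi`. -/
noncomputable def redT (g : F) : κ := if h : g ∈ Oi then redi ⟨g, h⟩ else 0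

theorem redT_of_mem {g : F} (h : g ∈ Oi) : redT redi g = redi ⟨g, h⟩ := by
  rw [redT, dif_pos h]

theorem redT_zero : redT redi 0 = 0 := by
  rw [redT_of_mem redi Oi.zero_mem]
  exact map_zero redi

theorem redT_one : redT redi 1 = 1 := by
  rw [redT_of_mem redi Oi.one_mem]
  exact map_one redi

theorem redT_mul {g g' : F} (h : g ∈ Oi) (h' : g' ∈ Oi) :
    redT redi (g * g') = redT redi g * redT redi g' := by
  rw [redT_of_mem redi h, redT_of_mem redi h', redT_of_mem redi (Oi.mul_mem _ _ h h'), ← map_mul]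
  rfl

theorem redT_add {g g' : F} (h : g ∈ Oi) (h' : g' ∈ Oi) :
    redT redi (g + g') = redT redi g + redT redi g' := by
  rw [redT_of_mem redi h, redT_of_mem redi h', redT_of_mem redi (Oi.add_mem _ _ h h'), ← map_add]
  rfl

/-- A unit of `Oi` has nonzero reduction. -/
theorem redT_ne_zero {g : F} (h : g ∈ Oi) (h' : g⁻¹ ∈ Oi) (h0 : g ≠ 0) : redT redi g ≠ 0 := by
  have h1 : redT redi g * redT redi g⁻¹ = 1 := by
    rw [← redT_mul redi h h', mul_inv_cancel₀ h0, redT_one]
  exact left_ne_zero_of_mul_eq_one h1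

end Red

/-! ### `mOrd` and `defect` -/

section Defs

variable {F κ : Type*} [Field F] [Field κ] {p : F} {Oi Oz : ValuationSubring F}
  (hOi : IsUnif Oi p) (hOz : IsUnif Oz p)
  {Vs : ValuationSubring κ} {t : κ} (hVs : IsUnif Vs t) (redi : Oi →+* κ)

/-- The order at the node of the reduction of the normalised function `f / p ^ ord_i f`. -/
noncomputable def mOrd (f : F) : ℤ := hVs.ord (redT redi (f / p ^ hOi.ord f))

/-- The Newton defect `ord_z f - ord_i f - k * mOrd f`. -/
noncomputable def defect (k : ℕ) (f : F) : ℤ :=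
  hOz.ord f - hOi.ord f - k * mOrd hOi hVs redi f

include hOi in
/-- The normalised function is a unit of `Oi`. -/
theorem norm_unit {f : F} (hf : f ≠ 0) :
    f / p ^ hOi.ord f ∈ Oi ∧ (f / p ^ hOi.ord f)⁻¹ ∈ Oi ∧ f / p ^ hOi.ord f ≠ 0 := by
  obtain ⟨u, hu, hu', hu0, he⟩ := hOi.exists_unit_eq hf
  have h1 : f / p ^ hOi.ord f = u := by
    rw [div_eq_iff (zpow_ne_zero _ hOi.ne_zero), mul_comm]
    exact he
  rw [h1]
  exact ⟨hu, hu', hu0⟩

theorem mOrd_one : mOrd hOi hVs redi 1 = 0 := by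
  rw [mOrd, hOi.ord_one, zpow_zero, div_one, redT_one, hVs.ord_one]

theorem mOrd_mul {f f' : F} (hf : f ≠ 0) (hf' : f' ≠ 0) :
    mOrd hOi hVs redi (f * f') = mOrd hOi hVs redi f + mOrd hOi hVs redi f' := by
  obtain ⟨h1, h1', h10⟩ := norm_unit hOi hf
  obtain ⟨h2, h2', h20⟩ := norm_unit hOi hf'
  have e : f * f' / p ^ hOi.ord (f * f') = (f / p ^ hOi.ord f) * (f' / p ^ hOi.ord f') := by
    rw [hOi.ord_mul hf hf', zpow_add₀ hOi.ne_zero]
    field_simp
  rw [mOrd, e, redT_mul redi h1 h2,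
    hVs.ord_mul (redT_ne_zero redi h1 h1' h10) (redT_ne_zero redi h2 h2' h20)]
  rfl

theorem mOrd_inv {f : F} (hf : f ≠ 0) : mOrd hOi hVs redi f⁻¹ = -mOrd hOi hVs redi f := by
  have h := mOrd_mul hOi hVs redi hf (inv_ne_zero hf)
  rw [mul_inv_cancel₀ hf, mOrd_one] at h
  omega

theorem defect_one (k : ℕ) : defect hOi hOz hVs redi k 1 = 0 := by
  rw [defect, hOz.ord_one, hOi.ord_one, mOrd_one]
  ring

theorem defect_mul (k : ℕ) {f f' : F} (hf : f ≠ 0) (hf' : f' ≠ 0) :
    defect hOi hOz hVs redi k (f * f') =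
      defect hOi hOz hVs redi k f + defect hOi hOz hVs redi k f' := by
  rw [defect, defect, defect, hOz.ord_mul hf hf', hOi.ord_mul hf hf', mOrd_mul hOi hVs redi hf hf']
  ring

theorem defect_inv (k : ℕ) {f : F} (hf : f ≠ 0) :
    defect hOi hOz hVs redi k f⁻¹ = -defect hOi hOz hVs redi k f := by
  have h := defect_mul hOi hOz hVs redi k hf (inv_ne_zero hf)
  rw [mul_inv_cancel₀ hf, defect_one] at h
  omega

theorem defect_div (k : ℕ) {f f' : F} (hf : f ≠ 0) (hf' : f' ≠ 0) :
    defect hOi hOz hVs redi k (f / f') =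
      defect hOi hOz hVs redi k f - defect hOi hOz hVs redi k f' := by
  rw [div_eq_mul_inv, defect_mul hOi hOz hVs redi k hf (inv_ne_zero hf'),
    defect_inv hOi hOz hVs redi k hf']
  ring

theorem defect_pow (k : ℕ) {f : F} (hf : f ≠ 0) (n : ℕ) :
    defect hOi hOz hVs redi k (f ^ n) = n * defect hOi hOz hVs redi k f := by
  induction n with
  | zero => rw [pow_zero, defect_one]; simp
  | succ n ih =>
    rw [pow_succ, defect_mul hOi hOz hVs redi k (pow_ne_zero _ hf) hf, ih]
    push_cast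
    ring

theorem defect_zpow (k : ℕ) {f : F} (hf : f ≠ 0) (n : ℤ) :
    defect hOi hOz hVs redi k (f ^ n) = n * defect hOi hOz hVs redi k f := by
  obtain ⟨m, rfl | rfl⟩ := Int.eq_nat_or_neg n
  · rw [zpow_natCast, defect_pow hOi hOz hVs redi k hf]
  · rw [zpow_neg, zpow_natCast, defect_inv hOi hOz hVs redi k (pow_ne_zero _ hf),
      defect_pow hOi hOz hVs redi k hf]
    ring

theorem defect_prod (k : ℕ) {ι : Type*} (s : Finset ι) (π : ι → F) (n : ι → ℤ)
    (hπ : ∀ j ∈ s, π j ≠ 0) :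
    defect hOi hOz hVs redi k (∏ j ∈ s, π j ^ n j) =
      ∑ j ∈ s, n j * defect hOi hOz hVs redi k (π j) := by
  classical
  induction s using Finset.induction_on with
  | empty => rw [Finset.prod_empty, Finset.sum_empty, defect_one]
  | insert a s ha ih =>
    have h1 : π a ^ n a ≠ 0 := zpow_ne_zero _ (hπ a (Finset.mem_insert_self a s))
    have h2 : ∏ j ∈ s, π j ^ n j ≠ 0 :=
      Finset.prod_ne_zero_iff.2 fun j hj => zpow_ne_zero _ (hπ j (Finset.mem_insert_of_mem hj))
    rw [Finset.prod_insert ha, Finset.sum_insert ha, defect_mul hOi hOz hVs redi k h1 h2,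
      defect_zpow hOi hOz hVs redi k (hπ a (Finset.mem_insert_self a s)),
      ih fun j hj => hπ j (Finset.mem_insert_of_mem hj)]

/-- The defect of a unit of `Oi`. -/
theorem defect_of_coord (k : ℕ) {π : F} (hπi : hOi.ord π = 0) :
    defect hOi hOz hVs redi k π = hOz.ord π - k * hVs.ord (redT redi π) := by
  rw [defect, mOrd, hπi, zpow_zero, div_one]
  ring

end Defs

/-! ### The Newton relation -/

section Node

variable {F κ : Type*} [Field F] [Field κ] {p : F} {Oi Oz : ValuationSubring F}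
  (hOi : IsUnif Oi p) (hOz : IsUnif Oz p) {R : Subring F}
  (hRi : ∀ g ∈ R, g ∈ Oi) (hRz : ∀ g ∈ R, g ∈ Oz) (hp : p ∈ R)
  (hsat : ∀ g : F, g ∈ Oi → g ∈ Oz → (∃ n : ℕ, p ^ n * g ∈ R) → g ∈ R)
  {Vs : ValuationSubring κ} {t : κ} (hVs : IsUnif Vs t)
  (redi : Oi →+* κ) (hredi : ∀ g : Oi, redi g = 0 ↔ (g : F) ∈ Oi.nonunits)
  (hρV : ∀ g ∈ R, redT redi g ∈ Vs)
  (hloc : ∀ g : R, ¬ IsUnit g → redT redi (g : F) ∈ Vs.nonunits)
  {k : ℕ} {x y u : R} (hk : 0 < k) (hu : IsUnit u) (hxy : x * y = ⟨p, hp⟩ ^ k * u)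
  (hρx : hVs.ord (redT redi (x : F)) = 1) (hxord : hOz.ord (x : F) = k)

/-- The reduction restricted to the local ring `R` (the `ρ` of `Thickness`). -/
noncomputable def rho : R →+* κ where
  toFun g := redT redi (g : F)
  map_one' := redT_one redi
  map_mul' a b := redT_mul redi (hRi _ a.2) (hRi _ b.2)
  map_zero' := redT_zero redi
  map_add' a b := redT_add redi (hRi _ a.2) (hRi _ b.2)

theorem rho_apply (g : R) : rho hRi redi g = redT redi (g : F) := rfl

include hredi in
theorem rho_eq_zero_iff (g : R) : rho hRi redi g = 0 ↔ (g : F) ∈ Oi.nonunits := by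
  rw [rho_apply, redT_of_mem redi (hRi _ g.2)]
  exact hredi _

include hOi hOz hRi hRz hsat hredi hρV hloc hk hu hxy hρx hxord in
/-- **Newton relation without horizontal part**: the defect of a unit of `R[1/p]` vanishes. -/
theorem defect_eq_zero {g : F} (hg : GenUnit R p g) : defect hOi hOz hVs redi k g = 0 := by
  have hρV' : ∀ g : R, rho hRi redi g ∈ Vs := fun g => hρV _ g.2
  have hρker := rho_eq_zero_iff hRi redi hredi
  have hloc' : ∀ g : R, ¬ IsUnit g → rho hRi redi g ∈ Vs.nonunits := hloc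
  have hρx' : hVs.ord (rho hRi redi x) = 1 := hρx
  obtain ⟨c, A, υ, hυ, he⟩ :=
    exists_factor hOi hOz hRi hRz hp hsat hVs (rho hRi redi) hρV' hρker hloc' hk hu hxy hρx' hxord
      hg
  have hx0 : (x : F) ≠ 0 := x_ne_zero hVs (rho hRi redi) hρker hρx'
  have hp0 : p ≠ 0 := hOi.ne_zero
  have hυ0 : (υ : F) ≠ 0 := (GenUnit.of_isUnit (p := p) hυ).1
  -- the three basic defects
  have hxi : hOi.ord (x : F) = 0 := ord_i_x hOi hRi hVs (rho hRi redi) hρker hρx'
  have dx : defect hOi hOz hVs redi k (x : F) = 0 := by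
    rw [defect_of_coord hOi hOz hVs redi k hxi, hxord, hρx]
    ring
  have dp : defect hOi hOz hVs redi k p = 0 := by
    rw [defect, mOrd, hOz.ord_self, hOi.ord_self, zpow_one, div_self hp0, redT_one, hVs.ord_one]
    ring
  have dυ : defect hOi hOz hVs redi k (υ : F) = 0 := by
    obtain ⟨hυi, hυz⟩ := ord_of_isUnit hOi hOz hRi hRz hυ
    rw [defect_of_coord hOi hOz hVs redi k hυi, hυz]
    obtain ⟨v, rfl⟩ := hυ
    have h1 : rho hRi redi (v : R) * rho hRi redi ((v⁻¹ : Rˣ) : R) = 1 := by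
      rw [← map_mul, Units.mul_inv, map_one]
    have h0 : rho hRi redi (v : R) ≠ 0 := left_ne_zero_of_mul_eq_one h1
    have h2 : hVs.ord (rho hRi redi (v : R)) = 0 :=
      hVs.ord_unit (hρV' _) (by rw [← eq_inv_of_mul_eq_one_right h1]; exact hρV' _) h0
    rw [rho_apply] at h2
    rw [h2]
    ring
  rw [he, defect_mul hOi hOz hVs redi k
      (mul_ne_zero (zpow_ne_zero _ hx0) (zpow_ne_zero _ hp0)) hυ0,
    defect_mul hOi hOz hVs redi k (zpow_ne_zero _ hx0) (zpow_ne_zero _ hp0),
    defect_zpow hOi hOz hVs redi k hx0, defect_zpow hOi hOz hVs redi k hp0, dx, dp, dυ]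
  ring

include hOi hOz hRi hRz hsat hredi hρV hloc hk hu hxy hρx hxord in
/-- If `f / W` is a unit of `R[1/p]` then `f` and `W` have the same defect. -/
theorem defect_eq_of_div {f W : F} (hf : GenUnit R p (f / W)) :
    defect hOi hOz hVs redi k f = defect hOi hOz hVs redi k W := by
  have h0 := hf.1
  have hf0 : f ≠ 0 := fun h => h0 (by rw [h, zero_div])
  have hW0 : W ≠ 0 := fun h => h0 (by rw [h, div_zero])
  have h1 := defect_eq_zero hOi hOz hRi hRz hp hsat hVs redi hredi hρV hloc hk hu hxy hρx hxord hf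
  rw [defect_div hOi hOz hVs redi k hf0 hW0] at h1
  omega

include hOi hOz hRi hRz hsat hredi hρV hloc hk hu hxy hρx hxord in
/-- **The Newton relation at a node.**  If `f / ∏ π j ^ n j` has no horizontal zero or pole
through the node, then `ord_z f - ord_i f = k * mOrd f + ∑ n j * defect (π j)`. -/
theorem newton {ι : Type*} (s : Finset ι) (π : ι → F) (n : ι → ℤ) (hπ : ∀ j ∈ s, π j ≠ 0)
    {f : F} (hf : GenUnit R p (f / ∏ j ∈ s, π j ^ n j)) :
    hOz.ord f - hOi.ord f =
      k * mOrd hOi hVs redi f + ∑ j ∈ s, n j * defect hOi hOz hVs redi k (π j) := by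
  have h1 := defect_eq_of_div hOi hOz hRi hRz hp hsat hVs redi hredi hρV hloc hk hu hxy hρx hxord
    hf
  rw [defect_prod hOi hOz hVs redi k s π n hπ] at h1
  rw [← h1, defect]
  ring

include hOi hOz hRi hRz hsat hredi hρV hloc hk hu hxy hρx hxord in
/-- **Tame case.**  If `q` divides all the horizontal multiplicities `n j` (a Kummer function:
`div f = q • D`), then `k * mOrd f ≡ ord_z f - ord_i f  [ZMOD q]`. -/
theorem newton_tame {ι : Type*} (s : Finset ι) (π : ι → F) (n : ι → ℤ) (hπ : ∀ j ∈ s, π j ≠ 0)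
    {f : F} (hf : GenUnit R p (f / ∏ j ∈ s, π j ^ n j)) (q : ℤ) (hq : ∀ j ∈ s, q ∣ n j) :
    (k : ℤ) * mOrd hOi hVs redi f ≡ hOz.ord f - hOi.ord f [ZMOD q] := by
  have h1 := newton hOi hOz hRi hRz hp hsat hVs redi hredi hρV hloc hk hu hxy hρx hxord s π n hπ hf
  rw [Int.modEq_iff_dvd, h1]
  have h2 : q ∣ ∑ j ∈ s, n j * defect hOi hOz hVs redi k (π j) :=
    Finset.dvd_sum fun j hj => Dvd.dvd.mul_right (hq j hj) _
  have e : (k : ℤ) * mOrd hOi hVs redi f + ∑ j ∈ s, n j * defect hOi hOz hVs redi k (π j) -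
      k * mOrd hOi hVs redi f = ∑ j ∈ s, n j * defect hOi hOz hVs redi k (π j) := by ring
  rw [e]
  exact h2

include hOi hOz hRi hRz hsat hredi hρV hloc hk hu hxy hρx hxord in
/-- **Wild case.**  If `k = q * k'` and `n j = q * n' j`, then `ord_z f - ord_i f = q * V` with
`k' * mOrd f ≡ V - ∑ n' j * (ord_z (π j) - ord_i (π j))  [ZMOD q]`. -/
theorem newton_wild {ι : Type*} (s : Finset ι) (π : ι → F) (n' : ι → ℤ) (hπ : ∀ j ∈ s, π j ≠ 0)
    (q : ℤ) {f : F} (hf : GenUnit R p (f / ∏ j ∈ s, π j ^ (q * n' j))) (k' : ℤ)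
    (hk' : (k : ℤ) = q * k') :
    ∃ V : ℤ, hOz.ord f - hOi.ord f = q * V ∧
      k' * mOrd hOi hVs redi f ≡
        V - ∑ j ∈ s, n' j * (hOz.ord (π j) - hOi.ord (π j)) [ZMOD q] := by
  have h1 := newton hOi hOz hRi hRz hp hsat hVs redi hredi hρV hloc hk hu hxy hρx hxord s π
    (fun j => q * n' j) hπ hf
  set m := mOrd hOi hVs redi f with hm
  refine ⟨k' * m + ∑ j ∈ s, n' j * defect hOi hOz hVs redi k (π j), ?_, ?_⟩
  · rw [h1, hk', mul_add, Finset.mul_sum]
    congr 1
    · ring
    · exact Finset.sum_congr rfl fun j _ => by ring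
  · rw [Int.modEq_iff_dvd]
    have e : k' * m + ∑ j ∈ s, n' j * defect hOi hOz hVs redi k (π j) -
        ∑ j ∈ s, n' j * (hOz.ord (π j) - hOi.ord (π j)) - k' * m =
        ∑ j ∈ s, q * (-(n' j * (k' * mOrd hOi hVs redi (π j)))) := by
      have e2 : ∀ j ∈ s, n' j * defect hOi hOz hVs redi k (π j) -
          n' j * (hOz.ord (π j) - hOi.ord (π j)) =
          q * (-(n' j * (k' * mOrd hOi hVs redi (π j)))) := by
        intro j _
        rw [defect, hk']
        ring
      rw [← Finset.sum_congr rfl e2, Finset.sum_sub_distrib]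
      ring
    rw [e]
    exact Finset.dvd_sum fun j _ => Dvd.intro _ rfl

end Node

end Fermat.Agent.TR.Node.Newton
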