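/-
TR / node side — THE NORMAL FORM OF A NODE, abstract commutative algebra (Mathlib-only).

`R` a commutative ring, `m` a prime ideal ("the node"), `p ∈ R`, and `x, y ∈ R` ("lifts of the
two branch uniformisers") such that
  * `x * y ∈ p R`                                  (the two branches meet transversally mod `p`),
  * `m` is generated by `x, y, p` up to elements outside `m`
    (`hgen : ∀ u ∈ m, ∃ w ∉ m, ∃ α β γ, w * u = α * x + β * y + γ * p`).
Then the pair can be corrected `p`-adically: for every `j`, EITHER there are `k ≤ j`, `w ∉ m`,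
`x' ≡ w x`, `y' ≡ w y (mod p)` with `x' * y' = p ^ k * u'`, `u' ∉ m`  (the node has thickness
`k`),  OR there are such `x', y'` with `x' * y' ∈ p ^ (j + 1) R`.
(`step`: if `x y = p^(j+1) u` and `w u = α x + β y + γ p` then
 `(w x − p^(j+1) β)(w y − p^(j+1) α) = p^(j+2) (w γ + p^j α β)`.)
With a bound `B` excluding the second alternative at `j = B` (in the application: a valuation
`v₀` with `v₀ y' = 1` and `v₀ x' > v₀ p ^ (B + 1)` for all such `x'`, `y'`), the node has a
thickness `1 ≤ k ≤ B`: `exists_normal_form`, `exists_normal_form_of_valuation`.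
-/
import Mathlib

set_option autoImplicit false

namespace Fermat.Agent.TR.Node.NormalForm

variable {R : Type*} [CommRing R]

/-- One correction step. -/
theorem step {p x y u w α β γ : R} {j : ℕ} (hxy : x * y = p ^ (j + 1) * u)
    (hu : w * u = α * x + β * y + γ * p) :
    (w * x - p ^ (j + 1) * β) * (w * y - p ^ (j + 1) * α)
      = p ^ (j + 2) * (w * γ + p ^ j * α * β) := by
  have e1 : (w * x - p ^ (j + 1) * β) * (w * y - p ^ (j + 1) * α)
      = w ^ 2 * (x * y) - p ^ (j + 1) * w * (α * x + β * y) + p ^ (2 * j + 2) * α * β := by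
    ring
  rw [e1, hxy]
  have e2 : α * x + β * y = w * u - γ * p := by rw [hu]; ring
  rw [e2]
  ring

/-- The generation hypothesis transfers to a corrected pair. -/
theorem gen_of_congr {m : Ideal R} [m.IsPrime] {p x y : R}
    (hgen : ∀ u ∈ m, ∃ w ∉ m, ∃ α β γ : R, w * u = α * x + β * y + γ * p)
    {w₀ x' y' : R} (hw₀ : w₀ ∉ m) (hx' : x' - w₀ * x ∈ Ideal.span {p})
    (hy' : y' - w₀ * y ∈ Ideal.span {p}) :
    ∀ u ∈ m, ∃ w ∉ m, ∃ α β γ : R, w * u = α * x' + β * y' + γ * p := by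
  intro u hu
  obtain ⟨w, hw, α, β, γ, h⟩ := hgen u hu
  obtain ⟨a, ha⟩ := Ideal.mem_span_singleton'.mp hx'
  obtain ⟨b, hb⟩ := Ideal.mem_span_singleton'.mp hy'
  refine ⟨w₀ * w, fun hmem => ?_, α, β, w₀ * γ - α * a - β * b, ?_⟩
  · rcases (Ideal.IsPrime.mem_or_mem inferInstance hmem) with h1 | h1
    · exact hw₀ h1
    · exact hw h1
  · have hx'' : x' = w₀ * x + a * p := by rw [ha]; ring
    have hy'' : y' = w₀ * y + b * p := by rw [hb]; ring
    rw [hx'', hy'', mul_assoc, h]
    ring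

/-- **The dichotomy.**  For every `j`: a normal form of thickness `k ≤ j`, or a corrected pair
with product divisible by `p ^ (j + 1)`. -/
theorem exists_normal_form_or (m : Ideal R) [m.IsPrime] (p x y : R)
    (hgen : ∀ u ∈ m, ∃ w ∉ m, ∃ α β γ : R, w * u = α * x + β * y + γ * p)
    (hxy : ∃ u, x * y = p * u) (j : ℕ) :
    (∃ k : ℕ, 1 ≤ k ∧ k ≤ j ∧ ∃ w x' y' u' : R, w ∉ m ∧ x' - w * x ∈ Ideal.span {p} ∧
        y' - w * y ∈ Ideal.span {p} ∧ x' * y' = p ^ k * u' ∧ u' ∉ m) ∨
      (∃ w x' y' u' : R, w ∉ m ∧ x' - w * x ∈ Ideal.span {p} ∧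
        y' - w * y ∈ Ideal.span {p} ∧ x' * y' = p ^ (j + 1) * u') := by
  induction j with
  | zero =>
    right
    obtain ⟨u, hu⟩ := hxy
    refine ⟨1, x, y, u, ?_, by simp, by simp, by simpa using hu⟩
    exact fun h1 => (inferInstance : m.IsPrime).ne_top ((Ideal.eq_top_iff_one m).mpr h1)
  | succ j ih =>
    rcases ih with ⟨k, hk1, hkj, hk⟩ | ⟨w₀, x', y', u', hw₀, hx', hy', hprod⟩
    · exact Or.inl ⟨k, hk1, hkj.trans (Nat.le_succ j), hk⟩
    · by_cases hu' : u' ∈ m
      · right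
        obtain ⟨w, hw, α, β, γ, h⟩ := gen_of_congr hgen hw₀ hx' hy' u' hu'
        refine ⟨w * w₀, w * x' - p ^ (j + 1) * β, w * y' - p ^ (j + 1) * α,
          w * γ + p ^ j * α * β, fun hmem => ?_, ?_, ?_, step hprod h⟩
        · rcases (Ideal.IsPrime.mem_or_mem inferInstance hmem) with h1 | h1
          · exact hw h1
          · exact hw₀ h1
        · obtain ⟨a, ha⟩ := Ideal.mem_span_singleton'.mp hx'
          refine Ideal.mem_span_singleton'.mpr ⟨w * a - p ^ j * β, ?_⟩
          have hx'' : x' = w₀ * x + a * p := by rw [ha]; ring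
          rw [hx'']
          ring
        · obtain ⟨b, hb⟩ := Ideal.mem_span_singleton'.mp hy'
          refine Ideal.mem_span_singleton'.mpr ⟨w * b - p ^ j * α, ?_⟩
          have hy'' : y' = w₀ * y + b * p := by rw [hb]; ring
          rw [hy'']
          ring
      · exact Or.inl ⟨j + 1, Nat.succ_le_succ (Nat.zero_le j), le_rfl, w₀, x', y', u', hw₀, hx',
          hy', hprod, hu'⟩

/-- **Normal form of a node.**  If no corrected pair has product divisible by `p ^ (B + 1)`,
the node has a thickness `1 ≤ k ≤ B`: `x' * y' = p ^ k * u'` with `u' ∉ m`, `x' ≡ w x`,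
`y' ≡ w y (mod p)`, `w ∉ m`. -/
theorem exists_normal_form (m : Ideal R) [m.IsPrime] (p x y : R)
    (hgen : ∀ u ∈ m, ∃ w ∉ m, ∃ α β γ : R, w * u = α * x + β * y + γ * p)
    (hxy : ∃ u, x * y = p * u) (B : ℕ)
    (hB : ∀ w x' y' u' : R, w ∉ m → x' - w * x ∈ Ideal.span {p} →
      y' - w * y ∈ Ideal.span {p} → x' * y' ≠ p ^ (B + 1) * u') :
    ∃ k : ℕ, 1 ≤ k ∧ k ≤ B ∧ ∃ w x' y' u' : R, w ∉ m ∧ x' - w * x ∈ Ideal.span {p} ∧
      y' - w * y ∈ Ideal.span {p} ∧ x' * y' = p ^ k * u' ∧ u' ∉ m := by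
  rcases exists_normal_form_or m p x y hgen hxy B with h | ⟨w, x', y', u', hw, hx', hy', hprod⟩
  · exact h
  · exact absurd hprod (hB w x' y' u' hw hx' hy')

/-- **Normal form, valuation criterion for termination.**  `v₀` a valuation on a field `F ⊇ R`
("the second component") with `v₀ ≤ 1` on `R`, `v₀ (w y + p b) = 1` for `w ∉ m` (the corrected
`y` stay units of the second component), and `v₀ p ^ (B + 1) < v₀ x'` for every corrected `x'`
(in the application: `a_s · v₀(ξ) ≤ 12` from the gluing property applied to `ξ^a / f^b`). -/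
theorem exists_normal_form_of_valuation {F Γ : Type*} [Field F] [Algebra R F]
    [LinearOrderedCommGroupWithZero Γ] (v₀ : Valuation F Γ) (m : Ideal R) [m.IsPrime]
    (p x y : R)
    (hgen : ∀ u ∈ m, ∃ w ∉ m, ∃ α β γ : R, w * u = α * x + β * y + γ * p)
    (hxy : ∃ u, x * y = p * u) (B : ℕ)
    (hR : ∀ r : R, v₀ (algebraMap R F r) ≤ 1)
    (hy : ∀ w y' : R, w ∉ m → y' - w * y ∈ Ideal.span {p} → v₀ (algebraMap R F y') = 1)
    (hx : ∀ w x' : R, w ∉ m → x' - w * x ∈ Ideal.span {p} →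
      v₀ (algebraMap R F p) ^ (B + 1) < v₀ (algebraMap R F x')) :
    ∃ k : ℕ, 1 ≤ k ∧ k ≤ B ∧ ∃ w x' y' u' : R, w ∉ m ∧ x' - w * x ∈ Ideal.span {p} ∧
      y' - w * y ∈ Ideal.span {p} ∧ x' * y' = p ^ k * u' ∧ u' ∉ m := by
  refine exists_normal_form m p x y hgen hxy B (fun w x' y' u' hw hx' hy' hprod => ?_)
  have h1 := congrArg (fun r => v₀ (algebraMap R F r)) hprod
  simp only [map_mul, map_pow] at h1
  rw [hy w y' hw hy', mul_one] at h1
  have h2 := hx w x' hw hx'
  rw [h1] at h2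
  exact absurd (mul_le_of_le_one_right' (hR u')) (not_le.mpr h2)

end Fermat.Agent.TR.Node.NormalForm
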