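/-
TR / node side (helper5): the rank-one hypothesis `harch` of `TR/Node/AnnulusLip.lean` /
`AnnulusPlace.lean` (value-group form) from the rank-one facts already in the library.

* `harch_of_forall` : element form (`BAD.TwoVal.BadSetup.harch`) ⟹ value-group form;
* `harch_of_badSetup` : for the base valuation ring of a `BadSetup`;
* `harch_of_liesOver` : for a valuation subring of `AlgebraicClosure ℚ` above a prime.
-/
import Fermat.Agent.BAD.TwoVal.Arch
import Fermat.Agent.BAD.TwoVal.Instance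

set_option autoImplicit false

namespace Fermat.Agent.TR.Node.RankOneBad

open Fermat.Agent.BAD.TwoVal

/-- The element form of rank one gives the value-group form. -/
theorem harch_of_forall {L : Type*} [Field L] (A : ValuationSubring L)
    (h : ∀ a Δ : L, A.valuation a < 1 → Δ ≠ 0 → ∃ n : ℕ, A.valuation (a ^ n) < A.valuation Δ) :
    ∀ θ ε : A.ValueGroup, θ < 1 → ε ≠ 0 → ∃ j : ℕ, θ ^ j < ε := by
  intro θ ε hθ hε
  obtain ⟨a, rfl⟩ := A.valuation_surjective θ
  obtain ⟨Δ, rfl⟩ := A.valuation_surjective ε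
  obtain ⟨n, hn⟩ := h a Δ hθ ((Valuation.ne_zero_iff _).mp hε)
  exact ⟨n, by rwa [map_pow] at hn⟩

/-- Rank one, value-group form, for the base valuation ring of a `BadSetup`. -/
theorem harch_of_badSetup {L : Type*} [Field L] {A : ValuationSubring L} {k : Type} [Field k]
    {π : A →+* k} {M ℓ : ℕ} (h : BadSetup A π M ℓ) :
    ∀ θ ε : A.ValueGroup, θ < 1 → ε ≠ 0 → ∃ j : ℕ, θ ^ j < ε :=
  harch_of_forall A h.harch

/-- Rank one in divisibility form gives the element form. -/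
theorem harch_elem_of_hrank {L : Type*} [Field L] (A : ValuationSubring L)
    (hrank : ∀ d e : A, ¬ IsUnit d → e ≠ 0 → ∃ r : ℕ, e ∣ d ^ r)
    (a Δ : L) (ha : A.valuation a < 1) (hΔ : Δ ≠ 0) :
    ∃ n : ℕ, A.valuation (a ^ n) < A.valuation Δ := by
  have hvΔ : A.valuation Δ ≠ 0 := (Valuation.ne_zero_iff _).mpr hΔ
  by_cases ha0 : a = 0
  · refine ⟨1, ?_⟩
    rw [ha0, pow_one, map_zero]
    exact lt_of_le_of_ne zero_le (Ne.symm hvΔ)
  have haA : a ∈ A := (A.valuation_le_one_iff a).mp ha.le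
  have hnu : ¬ IsUnit (⟨a, haA⟩ : A) := by
    intro hu
    have := (ValuationSubring.valuation_eq_one_iff A ⟨a, haA⟩).mp hu
    rw [this] at ha
    exact lt_irrefl _ ha
  obtain ⟨Δ', hΔ'A, hΔ'0, hΔ'le⟩ : ∃ Δ' : L, Δ' ∈ A ∧ Δ' ≠ 0 ∧
      A.valuation Δ' ≤ A.valuation Δ := by
    by_cases hΔA : Δ ∈ A
    · exact ⟨Δ, hΔA, hΔ, le_rfl⟩
    · refine ⟨1, A.one_mem, one_ne_zero, ?_⟩
      rw [map_one]
      by_contra hlt
      exact hΔA ((A.valuation_le_one_iff Δ).mp (le_of_not_ge hlt))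
  obtain ⟨r, hr⟩ := hrank ⟨a, haA⟩ ⟨Δ', hΔ'A⟩ hnu (fun h0 => hΔ'0 (congrArg Subtype.val h0))
  obtain ⟨c, hc⟩ := hr
  have hc' : a ^ r = Δ' * (c : L) := by
    have := congrArg (Subtype.val : A → L) hc
    simpa using this
  have hle : A.valuation (a ^ r) ≤ A.valuation Δ' := by
    rw [hc', map_mul]
    calc A.valuation Δ' * A.valuation (c : L) ≤ A.valuation Δ' * 1 :=
          mul_le_mul' le_rfl (A.valuation_le_one c)
      _ = A.valuation Δ' := mul_one _
  refine ⟨r + 1, ?_⟩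
  have hpos : 0 < A.valuation (a ^ r) :=
    lt_of_le_of_ne zero_le (Ne.symm ((Valuation.ne_zero_iff _).mpr (pow_ne_zero r ha0)))
  calc A.valuation (a ^ (r + 1)) = A.valuation (a ^ r) * A.valuation a := by
        rw [pow_succ, map_mul]
    _ < A.valuation (a ^ r) * 1 := mul_lt_mul_of_pos_left ha hpos
    _ = A.valuation (a ^ r) := mul_one _
    _ ≤ A.valuation Δ' := hle
    _ ≤ A.valuation Δ := hΔ'le

/-- Rank one, value-group form, for a valuation subring of `AlgebraicClosure ℚ` above a prime: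
the hypothesis `harch` of `TR/Node/AnnulusLip.lean` and `AnnulusPlace.lean` with
`v := A.valuation`. -/
theorem harch_of_liesOver (A : ValuationSubring (AlgebraicClosure ℚ)) {ℓ : ℕ} (hℓ : ℓ.Prime)
    (hA : A.LiesOverPrime ℓ) :
    ∀ θ ε : A.ValueGroup, θ < 1 → ε ≠ 0 → ∃ j : ℕ, θ ^ j < ε :=
  harch_of_forall A (harch_elem_of_hrank A (hrank_of_liesOver A hℓ hA))

/-- The element form of rank one for a valuation subring of `AlgebraicClosure ℚ` above a prime. -/
theorem harch_elem_of_liesOver (A : ValuationSubring (AlgebraicClosure ℚ)) {ℓ : ℕ} (hℓ : ℓ.Prime)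
    (hA : A.LiesOverPrime ℓ) (a Δ : AlgebraicClosure ℚ) (ha : A.valuation a < 1) (hΔ : Δ ≠ 0) :
    ∃ n : ℕ, A.valuation (a ^ n) < A.valuation Δ :=
  harch_elem_of_hrank A (hrank_of_liesOver A hℓ hA) a Δ ha hΔ

end Fermat.Agent.TR.Node.RankOneBad
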