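/-
TR / Node (helper91): BOUNDED TAYLOR DERIVATIONS and the SIMPLE ZERO of the node coordinate.

The annulus coordinate lemma (`TR/Node/Annulus.lean`, helper75) needs a BOUND for the first
Taylor coefficient `δ g = ((g - g(P)) / τ)(P)` of the elements `g` of the node ring at a point
`P` of the residue annulus.  The bound is free as soon as the chart ring is a FINITE module over
`A[x]` (`BAD/LatChart.exists_chart_gen_finRing`): for `v = ∑ e_i(x) β_i` with coefficients in
`A` and `x(P), β_i(P) ∈ A` one has `|δ v| ≤ max (|δ x|, |δ β_i|)`, and the same bound holds for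
fractions `v / t` with `|t(P)| = 1`.

* `twisted_eq_zero_on` : the contraction lemma for a bounded twisted derivation, ANY value group
  (rank one in the form `∀ ε ≠ 0, ∃ j, θ ^ j < ε`), node ring a subset of a bigger ring;
* `IsPt O ev τ`, `taylor ev τ` : an abstract point (evaluation `ev` on the ring `O`, local
  parameter `τ`) and its first Taylor coefficient; additivity, Leibniz rule, linearity;
* `taylor_bdd` : the bound on the chart ring and on fractions;
* `taylor_coord_ne_zero` : **the node coordinate has nonzero first Taylor coefficient**;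
* `ev_eq_of_coord_eq` : two points of the annulus with the same coordinate agree on the node
  ring;
* Place forms (`pval`): `isPt_place`, **`ord_coord_sub_eq_one`**, `pval_eq_of_coord_eq`,
  `place_eq_of_coord_eq`.
-/
import Mathlib
import Fermat.Agent.MW.HtM.PVal
import Fermat.Agent.S24.PlaceBasic

set_option autoImplicit false

namespace Fermat.Agent.TR.Node.TaylorBdd

open Polynomial

/-! ### The contraction lemma, any value group -/

section Contraction

variable {O' Ω Γ₀ : Type*} [CommRing O'] [Field Ω] [LinearOrderedCommGroupWithZero Γ₀]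
  (v : Valuation Ω Γ₀)

/-- The key identity: `δ y * φ u = φ y * δ u` if `x * y = w * u` and `δ` kills `x` and `w`. -/
theorem twisted_node_id (φ φ' : O' →+* Ω) (δ : O' → Ω)
    (hmul : ∀ r s, δ (r * s) = φ r * δ s + δ r * φ' s) {w x y u : O'}
    (hxy : x * y = w * u) (hw : δ w = 0) (hx : δ x = 0) (hx0 : φ x ≠ 0) :
    δ y * φ u = φ y * δ u := by
  have h1 : δ (x * y) = φ x * δ y := by rw [hmul, hx, zero_mul, add_zero]
  have h2 : δ (w * u) = φ w * δ u := by rw [hmul, hw, zero_mul, add_zero]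
  have h3 : φ x * δ y = φ w * δ u := by rw [← h1, hxy, h2]
  have h4 : φ x * φ y = φ w * φ u := by rw [← map_mul, hxy, map_mul]
  apply mul_left_cancel₀ hx0
  calc φ x * (δ y * φ u) = (φ x * δ y) * φ u := by ring
    _ = (φ w * δ u) * φ u := by rw [h3]
    _ = (φ w * φ u) * δ u := by ring
    _ = (φ x * φ y) * δ u := by rw [h4]
    _ = φ x * (φ y * δ u) := by ring

/-- **One contraction step.** -/
theorem twisted_step_on (φ φ' : O' →+* Ω) (δ : O' → Ω)
    (hadd : ∀ r s, δ (r + s) = δ r + δ s)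
    (hmul : ∀ r s, δ (r * s) = φ r * δ s + δ r * φ' s)
    (R : Set O') (hφR : ∀ r ∈ R, v (φ r) ≤ 1)
    {w ϖ x y u : O'} (hxy : x * y = w * u) (huR : u ∈ R) (hu : v (φ u) = 1)
    (hw : δ w = 0) (hϖ : δ ϖ = 0) (hx : δ x = 0) (hx0 : φ x ≠ 0)
    (S : Set O') (hS : ∀ c ∈ S, δ c = 0)
    (hgen : ∀ r ∈ R, ∃ c ∈ S, ∃ α ∈ R, ∃ β ∈ R, ∃ γ ∈ R, r = c + α * x + β * y + γ * ϖ)
    (θ : Γ₀) (hθx : v (φ' x) ≤ θ) (hθy : v (φ y) ≤ θ) (hθy' : v (φ' y) ≤ θ)
    (hθϖ : v (φ' ϖ) ≤ θ)
    (B : Γ₀) (hB : ∀ r ∈ R, v (δ r) ≤ B) : ∀ r ∈ R, v (δ r) ≤ θ * B := by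
  intro r hr
  obtain ⟨c, hc, α, hα, β, hβ, γ, hγ, rfl⟩ := hgen r hr
  have hy : v (δ y) ≤ θ * B := by
    have h1 := twisted_node_id φ φ' δ hmul hxy hw hx hx0
    have h2 : v (δ y) * v (φ u) = v (φ y) * v (δ u) := by rw [← map_mul, ← map_mul, h1]
    rw [hu, mul_one] at h2
    rw [h2]
    exact mul_le_mul' hθy (hB u huR)
  have e1 : δ (α * x) = δ α * φ' x := by rw [hmul, hx, mul_zero, zero_add]
  have e2 : δ (β * y) = φ β * δ y + δ β * φ' y := hmul β y
  have e3 : δ (γ * ϖ) = δ γ * φ' ϖ := by rw [hmul, hϖ, mul_zero, zero_add]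
  rw [hadd, hadd, hadd, hS c hc, zero_add, e1, e2, e3]
  have b1 : v (δ α * φ' x) ≤ θ * B := by
    rw [map_mul, mul_comm]; exact mul_le_mul' hθx (hB α hα)
  have b2 : v (φ β * δ y) ≤ θ * B := by
    rw [map_mul]
    calc v (φ β) * v (δ y) ≤ 1 * (θ * B) := mul_le_mul' (hφR β hβ) hy
      _ = θ * B := one_mul _
  have b3 : v (δ β * φ' y) ≤ θ * B := by
    rw [map_mul, mul_comm]; exact mul_le_mul' hθy' (hB β hβ)
  have b4 : v (δ γ * φ' ϖ) ≤ θ * B := by
    rw [map_mul, mul_comm]; exact mul_le_mul' hθϖ (hB γ hγ)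
  exact v.map_add_le (v.map_add_le b1 (v.map_add_le b2 b3)) b4

/-- **The contraction lemma.**  A twisted `(φ, φ')`-derivation `δ` on a ring `O'` which is
BOUNDED on the node ring `R ⊆ O'` (`x * y = w * u`, `R = S + x R + y R + ϖ R`) and kills the
constants `S`, `w`, `ϖ` and the node coordinate `x` vanishes on `R`, provided
`|φ' x|, |φ y|, |φ' y|, |φ' ϖ| ≤ θ < 1` and the value group is of rank one along `θ`. -/
theorem twisted_eq_zero_on (φ φ' : O' →+* Ω) (δ : O' → Ω)
    (hadd : ∀ r s, δ (r + s) = δ r + δ s)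
    (hmul : ∀ r s, δ (r * s) = φ r * δ s + δ r * φ' s)
    (R : Set O') (hφR : ∀ r ∈ R, v (φ r) ≤ 1)
    {w ϖ x y u : O'} (hxy : x * y = w * u) (huR : u ∈ R) (hu : v (φ u) = 1)
    (hw : δ w = 0) (hϖ : δ ϖ = 0) (hx : δ x = 0) (hx0 : φ x ≠ 0)
    (S : Set O') (hS : ∀ c ∈ S, δ c = 0)
    (hgen : ∀ r ∈ R, ∃ c ∈ S, ∃ α ∈ R, ∃ β ∈ R, ∃ γ ∈ R, r = c + α * x + β * y + γ * ϖ)
    (θ : Γ₀) (hθx : v (φ' x) ≤ θ) (hθy : v (φ y) ≤ θ) (hθy' : v (φ' y) ≤ θ)
    (hθϖ : v (φ' ϖ) ≤ θ)
    (harch : ∀ ε : Γ₀, ε ≠ 0 → ∃ j : ℕ, θ ^ j < ε)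
    (hbdd : ∃ B : Γ₀, ∀ r ∈ R, v (δ r) ≤ B) : ∀ r ∈ R, δ r = 0 := by
  obtain ⟨B, hB⟩ := hbdd
  have key : ∀ j : ℕ, ∀ r ∈ R, v (δ r) ≤ θ ^ j * B := by
    intro j
    induction j with
    | zero => intro r hr; rw [pow_zero, one_mul]; exact hB r hr
    | succ j ih =>
      intro r hr
      have := twisted_step_on v φ φ' δ hadd hmul R hφR hxy huR hu hw hϖ hx hx0 S hS hgen θ
        hθx hθy hθy' hθϖ (θ ^ j * B) ih r hr
      rwa [← mul_assoc, ← pow_succ'] at this
  intro r hr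
  by_contra hne
  have hpos : v (δ r) ≠ 0 := (v.ne_zero_iff).2 hne
  have hB0 : B ≠ 0 := by
    rintro rfl
    exact hpos (le_antisymm (hB r hr) zero_le)
  obtain ⟨j, hj⟩ := harch (v (δ r) * B⁻¹) (mul_ne_zero hpos (inv_ne_zero hB0))
  have h1 : θ ^ j * B < v (δ r) := by
    have h2 : θ ^ j * B < v (δ r) * B⁻¹ * B :=
      mul_lt_mul_of_pos_right hj (zero_lt_iff.2 hB0)
    rwa [inv_mul_cancel_right₀ hB0] at h2
  exact absurd (key j r hr) (not_le.2 h1)

end Contraction

/-! ### Abstract points and the first Taylor coefficient -/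

section Taylor

variable {K F : Type*} [Field K] [Field F] [Algebra K F]

/-- An abstract point of `F/K`: an evaluation `ev` on the ring `O` (a total function, junk
outside `O`) which is a `K`-algebra homomorphism on `O`, and a local parameter `τ`
(`g ∈ O`, `ev g = 0` implies `g / τ ∈ O`). -/
structure IsPt (O : Subring F) (ev : F → K) (τ : F) : Prop where
  add : ∀ f ∈ O, ∀ g ∈ O, ev (f + g) = ev f + ev g
  mul : ∀ f ∈ O, ∀ g ∈ O, ev (f * g) = ev f * ev g
  const_mem : ∀ c : K, algebraMap K F c ∈ O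
  const : ∀ c : K, ev (algebraMap K F c) = c
  div_mem : ∀ g ∈ O, ev g = 0 → g / τ ∈ O

/-- The first Taylor coefficient at the point: the value of `(g - g(P)) / τ`. -/
def taylor (ev : F → K) (τ : F) (g : F) : K := ev ((g - algebraMap K F (ev g)) / τ)

namespace IsPt

variable {O : Subring F} {ev : F → K} {τ : F} (h : IsPt O ev τ)

include h

theorem ev_zero : ev 0 = 0 := by
  have := h.const 0
  rwa [map_zero] at this

theorem ev_one : ev 1 = 1 := by
  have := h.const 1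
  rwa [map_one] at this

theorem ev_sub {f g : F} (hf : f ∈ O) (hg : g ∈ O) : ev (f - g) = ev f - ev g := by
  have h1 := h.add (f - g) (O.sub_mem hf hg) g hg
  rw [sub_add_cancel] at h1
  rw [h1, add_sub_cancel_right]

theorem ev_const_mul (c : K) {g : F} (hg : g ∈ O) : ev (algebraMap K F c * g) = c * ev g := by
  rw [h.mul _ (h.const_mem c) _ hg, h.const]

theorem ev_neg {g : F} (hg : g ∈ O) : ev (-g) = -ev g := by
  have h1 := h.ev_const_mul (-1) hg
  rwa [map_neg, map_one, neg_one_mul, neg_one_mul] at h1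

/-- `g - g(P)` lies in `O` and vanishes at the point. -/
theorem sub_const_mem {g : F} (hg : g ∈ O) : g - algebraMap K F (ev g) ∈ O :=
  O.sub_mem hg (h.const_mem _)

theorem ev_sub_const {g : F} (hg : g ∈ O) : ev (g - algebraMap K F (ev g)) = 0 := by
  rw [h.ev_sub hg (h.const_mem _), h.const, sub_self]

/-- `(g - g(P)) / τ ∈ O`. -/
theorem quot_mem {g : F} (hg : g ∈ O) : (g - algebraMap K F (ev g)) / τ ∈ O :=
  h.div_mem _ (h.sub_const_mem hg) (h.ev_sub_const hg)

theorem taylor_add {f g : F} (hf : f ∈ O) (hg : g ∈ O) :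
    taylor ev τ (f + g) = taylor ev τ f + taylor ev τ g := by
  unfold taylor
  rw [← h.add _ (h.quot_mem hf) _ (h.quot_mem hg), h.add f hf g hg]
  congr 1
  rw [map_add]
  ring

/-- **Leibniz rule.** -/
theorem taylor_mul {f g : F} (hf : f ∈ O) (hg : g ∈ O) :
    taylor ev τ (f * g) = ev f * taylor ev τ g + taylor ev τ f * ev g := by
  unfold taylor
  have e : (f * g - algebraMap K F (ev (f * g))) / τ
      = algebraMap K F (ev f) * ((g - algebraMap K F (ev g)) / τ)
        + (f - algebraMap K F (ev f)) / τ * g := by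
    rw [h.mul f hf g hg, map_mul]
    ring
  rw [e, h.add _ (O.mul_mem (h.const_mem _) (h.quot_mem hg)) _ (O.mul_mem (h.quot_mem hf) hg),
    h.ev_const_mul _ (h.quot_mem hg), h.mul _ (h.quot_mem hf) _ hg]

theorem taylor_const (c : K) : taylor ev τ (algebraMap K F c) = 0 := by
  unfold taylor
  rw [h.const, sub_self, zero_div, h.ev_zero]

theorem taylor_zero : taylor ev τ (0 : F) = 0 := by
  have := h.taylor_const 0
  rwa [map_zero] at this

theorem taylor_one : taylor ev τ (1 : F) = 0 := by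
  have := h.taylor_const 1
  rwa [map_one] at this

theorem taylor_const_mul (c : K) {g : F} (hg : g ∈ O) :
    taylor ev τ (algebraMap K F c * g) = c * taylor ev τ g := by
  rw [h.taylor_mul (h.const_mem c) hg, h.taylor_const, zero_mul, add_zero, h.const]

theorem taylor_neg {g : F} (hg : g ∈ O) : taylor ev τ (-g) = -taylor ev τ g := by
  have h1 := h.taylor_const_mul (-1) hg
  rwa [map_neg, map_one, neg_one_mul, neg_one_mul] at h1

theorem taylor_sub {f g : F} (hf : f ∈ O) (hg : g ∈ O) :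
    taylor ev τ (f - g) = taylor ev τ f - taylor ev τ g := by
  rw [sub_eq_add_neg, h.taylor_add hf (O.neg_mem hg), h.taylor_neg hg, sub_eq_add_neg]

/-- A function which kills a set `R ⊆ O` kills its `K`-span (for `ev`: agreement). -/
theorem span_mem {R : Set F} (hRO : ∀ r ∈ R, r ∈ O) {a : F}
    (ha : a ∈ Submodule.span K R) : a ∈ O := by
  induction ha using Submodule.span_induction with
  | mem r hr => exact hRO r hr
  | zero => exact O.zero_mem
  | add x y _ _ hx hy => exact O.add_mem hx hy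
  | smul c x _ hx => rw [Algebra.smul_def]; exact O.mul_mem (h.const_mem c) hx

/-- The Taylor coefficient is `K`-linear: if it vanishes on `R ⊆ O`, it vanishes on the
`K`-span of `R`. -/
theorem taylor_span_eq_zero {R : Set F} (hRO : ∀ r ∈ R, r ∈ O)
    (hR : ∀ r ∈ R, taylor ev τ r = 0) {a : F} (ha : a ∈ Submodule.span K R) :
    taylor ev τ a = 0 := by
  have key : a ∈ O ∧ taylor ev τ a = 0 := by
    induction ha using Submodule.span_induction with
    | mem r hr => exact ⟨hRO r hr, hR r hr⟩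
    | zero => exact ⟨O.zero_mem, h.taylor_zero⟩
    | add x y _ _ hx hy =>
      exact ⟨O.add_mem hx.1 hy.1, by rw [h.taylor_add hx.1 hy.1, hx.2, hy.2, add_zero]⟩
    | smul c x _ hx =>
      rw [Algebra.smul_def]
      exact ⟨O.mul_mem (h.const_mem c) hx.1, by rw [h.taylor_const_mul c hx.1, hx.2, mul_zero]⟩
  exact key.2

end IsPt

end Taylor

/-! ### The bound: finite generation over `A[x]` -/

section Bound

variable {K F : Type*} [Field K] [Field F] [Algebra K F]
variable {O : Subring F} {ev : F → K} {τ : F}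

/-- The subring of the elements of `O` with value in `A` and Taylor coefficient bounded by
`B`. -/
def bddRing (h : IsPt O ev τ) (A : ValuationSubring K) (B : A.ValueGroup) : Subring F where
  carrier := {g | g ∈ O ∧ ev g ∈ A ∧ A.valuation (taylor ev τ g) ≤ B}
  zero_mem' := ⟨O.zero_mem, by rw [h.ev_zero]; exact A.zero_mem, by
    rw [h.taylor_zero, map_zero]; exact zero_le⟩
  one_mem' := ⟨O.one_mem, by rw [h.ev_one]; exact A.one_mem, by
    rw [h.taylor_one, map_zero]; exact zero_le⟩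
  add_mem' := by
    rintro f g ⟨hf, hfA, hfB⟩ ⟨hg, hgA, hgB⟩
    refine ⟨O.add_mem hf hg, by rw [h.add f hf g hg]; exact A.add_mem _ _ hfA hgA, ?_⟩
    rw [h.taylor_add hf hg]
    exact Valuation.map_add_le _ hfB hgB
  neg_mem' := by
    rintro f ⟨hf, hfA, hfB⟩
    refine ⟨O.neg_mem hf, by rw [h.ev_neg hf]; exact A.neg_mem _ hfA, ?_⟩
    rw [h.taylor_neg hf, Valuation.map_neg]
    exact hfB
  mul_mem' := by
    rintro f g ⟨hf, hfA, hfB⟩ ⟨hg, hgA, hgB⟩
    refine ⟨O.mul_mem hf hg, by rw [h.mul f hf g hg]; exact A.mul_mem _ _ hfA hgA, ?_⟩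
    rw [h.taylor_mul hf hg]
    refine Valuation.map_add_le _ ?_ ?_
    · rw [map_mul]
      calc A.valuation (ev f) * A.valuation (taylor ev τ g) ≤ 1 * B :=
            mul_le_mul' ((A.valuation_le_one_iff _).2 hfA) hgB
        _ = B := one_mul _
    · rw [map_mul]
      calc A.valuation (taylor ev τ f) * A.valuation (ev g) ≤ B * 1 :=
            mul_le_mul' hfB ((A.valuation_le_one_iff _).2 hgA)
        _ = B := mul_one _

theorem mem_bddRing (h : IsPt O ev τ) (A : ValuationSubring K) (B : A.ValueGroup) {g : F} :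
    g ∈ bddRing h A B ↔ g ∈ O ∧ ev g ∈ A ∧ A.valuation (taylor ev τ g) ≤ B := Iff.rfl

theorem const_mem_bddRing (h : IsPt O ev τ) (A : ValuationSubring K) (B : A.ValueGroup)
    {c : K} (hc : c ∈ A) : algebraMap K F c ∈ bddRing h A B :=
  ⟨h.const_mem c, by rw [h.const]; exact hc, by rw [h.taylor_const, map_zero]; exact zero_le⟩

theorem bddRing_mono (h : IsPt O ev τ) (A : ValuationSubring K) {B B' : A.ValueGroup}
    (hBB : B ≤ B') : bddRing h A B ≤ bddRing h A B' :=
  fun _ hg => ⟨hg.1, hg.2.1, hg.2.2.trans hBB⟩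

/-- Polynomials with coefficients in `A` in an element of `bddRing`. -/
theorem aeval_mem_bddRing (h : IsPt O ev τ) (A : ValuationSubring K) (B : A.ValueGroup)
    {x : F} (hx : x ∈ bddRing h A B) (e : K[X]) (he : ∀ j, e.coeff j ∈ A) :
    aeval x e ∈ bddRing h A B := by
  rw [aeval_eq_sum_range]
  refine Subring.sum_mem _ fun j _ => ?_
  rw [Algebra.smul_def]
  exact Subring.mul_mem _ (const_mem_bddRing h A B (he j)) (Subring.pow_mem _ hx j)

/-- **(FIN) ⟹ bound.**  The elements `∑ e_i(x) β_i` (coefficients in `A`) lie in `bddRing`. -/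
theorem sum_aeval_mem_bddRing (h : IsPt O ev τ) (A : ValuationSubring K) (B : A.ValueGroup)
    {m : ℕ} {x : F} {β : Fin m → F} (hx : x ∈ bddRing h A B) (hβ : ∀ i, β i ∈ bddRing h A B)
    (e : Fin m → K[X]) (he : ∀ i j, (e i).coeff j ∈ A) :
    ∑ i, aeval x (e i) * β i ∈ bddRing h A B :=
  Subring.sum_mem _ fun i _ =>
    Subring.mul_mem _ (aeval_mem_bddRing h A B hx (e i) (he i)) (hβ i)

/-- Finitely many elements of `O` with values in `A` lie in a common `bddRing`. -/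
theorem exists_bddRing (h : IsPt O ev τ) (A : ValuationSubring K) {m : ℕ} {x : F}
    {β : Fin m → F} (hx : x ∈ O) (hxA : ev x ∈ A) (hβ : ∀ i, β i ∈ O)
    (hβA : ∀ i, ev (β i) ∈ A) :
    ∃ B : A.ValueGroup, x ∈ bddRing h A B ∧ ∀ i, β i ∈ bddRing h A B := by
  classical
  obtain ⟨B, hB⟩ := (insert (A.valuation (taylor ev τ x))
    (Finset.univ.image fun i => A.valuation (taylor ev τ (β i)))).exists_le
  refine ⟨B, ⟨hx, hxA, hB _ (Finset.mem_insert_self _ _)⟩, fun i => ⟨hβ i, hβA i, ?_⟩⟩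
  exact hB _ (Finset.mem_insert_of_mem (Finset.mem_image_of_mem _ (Finset.mem_univ i)))

/-- Fractions: `g * t = v` with `v, t ∈ bddRing` and `|t(P)| = 1`. -/
theorem frac_mem_bddRing (h : IsPt O ev τ) (A : ValuationSubring K) (B : A.ValueGroup)
    {g t v : F} (hg : g ∈ O) (ht : t ∈ bddRing h A B) (hv : v ∈ bddRing h A B)
    (hgt : g * t = v) (ht1 : A.valuation (ev t) = 1) : g ∈ bddRing h A B := by
  have hev : ev g * ev t = ev v := by rw [← h.mul g hg t ht.1, hgt]
  have hgA1 : A.valuation (ev g) ≤ 1 := by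
    have h1 : A.valuation (ev g) * A.valuation (ev t) = A.valuation (ev v) := by
      rw [← map_mul, hev]
    rw [ht1, mul_one] at h1
    rw [h1]
    exact (A.valuation_le_one_iff _).2 hv.2.1
  refine ⟨hg, (A.valuation_le_one_iff _).1 hgA1, ?_⟩
  have hT : taylor ev τ g * ev t = taylor ev τ v - ev g * taylor ev τ t := by
    have h1 := h.taylor_mul hg ht.1
    rw [hgt] at h1
    rw [h1]
    ring
  have h2 : A.valuation (taylor ev τ g) * A.valuation (ev t)
      = A.valuation (taylor ev τ v - ev g * taylor ev τ t) := by rw [← map_mul, hT]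
  rw [ht1, mul_one] at h2
  rw [h2]
  refine Valuation.map_sub_le _ hv.2.2 ?_
  rw [map_mul]
  calc A.valuation (ev g) * A.valuation (taylor ev τ t) ≤ 1 * B := mul_le_mul' hgA1 ht.2.2
    _ = B := one_mul _

/-- **`hbdd` from (FIN).**  If every element of `R ⊆ O` is a fraction `v / t` of elements
`v, t = ∑ e_i(x) β_i` (coefficients in `A`) with `|t(P)| = 1`, and `x`, `β i` have values in
`A`, then the Taylor coefficient is bounded on `R` (and the values of `R` are in `A`). -/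
theorem taylor_bdd (h : IsPt O ev τ) (A : ValuationSubring K) {m : ℕ} {x : F} {β : Fin m → F}
    (hx : x ∈ O) (hxA : ev x ∈ A) (hβ : ∀ i, β i ∈ O) (hβA : ∀ i, ev (β i) ∈ A)
    (R : Set F) (hRO : ∀ r ∈ R, r ∈ O)
    (hfrac : ∀ r ∈ R, ∃ e e' : Fin m → K[X], (∀ i j, (e i).coeff j ∈ A) ∧
      (∀ i j, (e' i).coeff j ∈ A) ∧ A.valuation (ev (∑ i, aeval x (e' i) * β i)) = 1 ∧
      r * ∑ i, aeval x (e' i) * β i = ∑ i, aeval x (e i) * β i) :
    ∃ B : A.ValueGroup, ∀ r ∈ R, ev r ∈ A ∧ A.valuation (taylor ev τ r) ≤ B := by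
  obtain ⟨B, hxB, hβB⟩ := exists_bddRing h A hx hxA hβ hβA
  refine ⟨B, fun r hr => ?_⟩
  obtain ⟨e, e', he, he', h1, hrt⟩ := hfrac r hr
  have := frac_mem_bddRing h A B (hRO r hr) (sum_aeval_mem_bddRing h A B hxB hβB e' he')
    (sum_aeval_mem_bddRing h A B hxB hβB e he) hrt h1
  exact ⟨this.2.1, this.2.2⟩

end Bound

/-! ### The node coordinate: nonzero Taylor coefficient, injectivity -/

section Node

variable {K F : Type*} [Field K] [Field F] [Algebra K F]

/-- The evaluation as a ring homomorphism on a subring of `O`. -/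
def IsPt.evHomOf {O : Subring F} {ev : F → K} {τ : F} (h : IsPt O ev τ) (O' : Subring F)
    (hle : O' ≤ O) : O' →+* K where
  toFun r := ev (r : F)
  map_one' := h.ev_one
  map_mul' a b := h.mul _ (hle a.2) _ (hle b.2)
  map_zero' := h.ev_zero
  map_add' a b := h.add _ (hle a.2) _ (hle b.2)

@[simp] theorem IsPt.evHomOf_apply {O : Subring F} {ev : F → K} {τ : F} (h : IsPt O ev τ)
    (O' : Subring F) (hle : O' ≤ O) (r : O') : h.evHomOf O' hle r = ev (r : F) := rfl

/-- A unit of the node ring has a value of absolute value `1`. -/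
theorem IsPt.valuation_ev_unit {O : Subring F} {ev : F → K} {τ : F} (h : IsPt O ev τ)
    (A : ValuationSubring K) {u u' : F} (hu : u ∈ O) (hu' : u' ∈ O) (huA : ev u ∈ A)
    (hu'A : ev u' ∈ A) (huu : u * u' = 1) : A.valuation (ev u) = 1 := by
  have h1 : ev u * ev u' = 1 := by rw [← h.mul u hu u' hu', huu, h.ev_one]
  have h2 : A.valuation (ev u) * A.valuation (ev u') = 1 := by rw [← map_mul, h1, map_one]
  refine le_antisymm ((A.valuation_le_one_iff _).2 huA) ?_
  calc (1 : A.ValueGroup) = A.valuation (ev u) * A.valuation (ev u') := h2.symm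
    _ ≤ A.valuation (ev u) * 1 := mul_le_mul' le_rfl ((A.valuation_le_one_iff _).2 hu'A)
    _ = A.valuation (ev u) := mul_one _

/-- **The node coordinate is unramified on the annulus (abstract form).**  `R ⊆ O` the node
ring (`ξ * η = ϖ ^ n * u`, `R = K + ξ R + η R + ϖ R`), with values in `A` at the point and
BOUNDED Taylor coefficients; the point lies in the residue annulus (`|ξ(P)|, |η(P)|, |ϖ| < 1`);
some element of the `K`-span of `R` has nonzero Taylor coefficient.  Then the Taylor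
coefficient of the coordinate `ξ` is nonzero. -/
theorem taylor_coord_ne_zero {O : Subring F} {ev : F → K} {τ : F} (h : IsPt O ev τ)
    (A : ValuationSubring K)
    (harch : ∀ θ ε : A.ValueGroup, θ < 1 → ε ≠ 0 → ∃ j : ℕ, θ ^ j < ε)
    (R : Set F) (hRO : ∀ r ∈ R, r ∈ O) (hRA : ∀ r ∈ R, ev r ∈ A)
    (hbdd : ∃ B : A.ValueGroup, ∀ r ∈ R, A.valuation (taylor ev τ r) ≤ B)
    {ϖ : K} {ξ η u u' : F} {n : ℕ} (hξ : ξ ∈ R) (hη : η ∈ R) (hu : u ∈ R) (hu' : u' ∈ R)
    (huu : u * u' = 1) (hxy : ξ * η = algebraMap K F ϖ ^ n * u)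
    (hgen : ∀ r ∈ R, ∃ c : K, ∃ α ∈ R, ∃ β ∈ R, ∃ γ ∈ R,
      r = algebraMap K F c + α * ξ + β * η + γ * algebraMap K F ϖ)
    (hvξ : A.valuation (ev ξ) < 1) (hvη : A.valuation (ev η) < 1) (hvϖ : A.valuation ϖ < 1)
    (hϖ0 : ϖ ≠ 0) (hloc : ∃ a ∈ Submodule.span K R, taylor ev τ a ≠ 0) :
    taylor ev τ ξ ≠ 0 := by
  intro h0
  obtain ⟨a, ha, hane⟩ := hloc
  apply hane
  have hu1 : A.valuation (ev u) = 1 :=
    h.valuation_ev_unit A (hRO u hu) (hRO u' hu') (hRA u hu) (hRA u' hu') huu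
  have hevu : ev u ≠ 0 := by
    intro h1
    rw [h1, map_zero] at hu1
    exact zero_ne_one hu1
  have hxy' : ξ * η = algebraMap K F (ϖ ^ n) * u := by rw [map_pow]; exact hxy
  have hx0 : ev ξ ≠ 0 := by
    intro h1
    have h2 : ev ξ * ev η = ϖ ^ n * ev u := by
      rw [← h.mul ξ (hRO ξ hξ) η (hRO η hη), hxy', h.ev_const_mul _ (hRO u hu)]
    rw [h1, zero_mul] at h2
    exact mul_ne_zero (pow_ne_zero n hϖ0) hevu h2.symm
  set θ : A.ValueGroup := max (A.valuation (ev ξ)) (max (A.valuation (ev η)) (A.valuation ϖ))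
    with hθ
  have hθ1 : θ < 1 := max_lt hvξ (max_lt hvη hvϖ)
  -- the data in the ring `O`
  let φ : O →+* K := h.evHomOf O le_rfl
  let δ : O → K := fun r => taylor ev τ (r : F)
  let R' : Set O := {r | (r : F) ∈ R}
  let S' : Set O := {c | ∃ k : K, (c : F) = algebraMap K F k}
  have key : ∀ r ∈ R', δ r = 0 := by
    refine twisted_eq_zero_on A.valuation φ φ δ (fun r s => h.taylor_add r.2 s.2)
      (fun r s => h.taylor_mul r.2 s.2) R'
      (fun r hr => (A.valuation_le_one_iff _).2 (hRA _ hr))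
      (w := ⟨algebraMap K F (ϖ ^ n), h.const_mem _⟩) (ϖ := ⟨algebraMap K F ϖ, h.const_mem _⟩)
      (x := ⟨ξ, hRO ξ hξ⟩) (y := ⟨η, hRO η hη⟩) (u := ⟨u, hRO u hu⟩)
      (Subtype.ext hxy') hu hu1 (h.taylor_const _) (h.taylor_const _) h0 hx0 S' ?_ ?_ θ
      (le_max_left _ _) (le_max_of_le_right (le_max_left _ _))
      (le_max_of_le_right (le_max_left _ _)) ?_ (fun ε hε => harch θ ε hθ1 hε) ?_
    · rintro c ⟨k, hk⟩
      show taylor ev τ (c : F) = 0
      rw [hk]
      exact h.taylor_const k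
    · intro r hr
      obtain ⟨c, α, hα, β, hβ, γ, hγ, e⟩ := hgen (r : F) hr
      exact ⟨⟨algebraMap K F c, h.const_mem c⟩, ⟨c, rfl⟩, ⟨α, hRO α hα⟩, hα, ⟨β, hRO β hβ⟩, hβ,
        ⟨γ, hRO γ hγ⟩, hγ, Subtype.ext e⟩
    · show A.valuation (ev (algebraMap K F ϖ)) ≤ θ
      rw [h.const]
      exact le_max_of_le_right (le_max_right _ _)
    · obtain ⟨B, hB⟩ := hbdd
      exact ⟨B, fun r hr => hB _ hr⟩
  exact h.taylor_span_eq_zero hRO (fun r hr => key ⟨r, hRO r hr⟩ hr) ha

/-- **The node coordinate is injective on the annulus (abstract form).**  Two points of the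
residue annulus of the node with the same value of the coordinate `ξ` agree on the node
ring. -/
theorem ev_eq_of_coord_eq {O₁ O₂ : Subring F} {ev₁ ev₂ : F → K} {τ₁ τ₂ : F}
    (h₁ : IsPt O₁ ev₁ τ₁) (h₂ : IsPt O₂ ev₂ τ₂) (A : ValuationSubring K)
    (harch : ∀ θ ε : A.ValueGroup, θ < 1 → ε ≠ 0 → ∃ j : ℕ, θ ^ j < ε)
    (R : Set F) (hRO₁ : ∀ r ∈ R, r ∈ O₁) (hRO₂ : ∀ r ∈ R, r ∈ O₂)
    (hRA₁ : ∀ r ∈ R, ev₁ r ∈ A) (hRA₂ : ∀ r ∈ R, ev₂ r ∈ A)
    {ϖ : K} {ξ η u u' : F} {n : ℕ} (hξ : ξ ∈ R) (hη : η ∈ R) (hu : u ∈ R) (hu' : u' ∈ R)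
    (huu : u * u' = 1) (hxy : ξ * η = algebraMap K F ϖ ^ n * u)
    (hgen : ∀ r ∈ R, ∃ c : K, ∃ α ∈ R, ∃ β ∈ R, ∃ γ ∈ R,
      r = algebraMap K F c + α * ξ + β * η + γ * algebraMap K F ϖ)
    (hvξ : A.valuation (ev₁ ξ) < 1) (hvη₁ : A.valuation (ev₁ η) < 1)
    (hvη₂ : A.valuation (ev₂ η) < 1) (hvϖ : A.valuation ϖ < 1) (hϖ0 : ϖ ≠ 0)
    (hcoord : ev₁ ξ = ev₂ ξ) : ∀ r ∈ R, ev₁ r = ev₂ r := by
  have hu1 : A.valuation (ev₁ u) = 1 :=
    h₁.valuation_ev_unit A (hRO₁ u hu) (hRO₁ u' hu') (hRA₁ u hu) (hRA₁ u' hu') huu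
  have hevu : ev₁ u ≠ 0 := by
    intro h1
    rw [h1, map_zero] at hu1
    exact zero_ne_one hu1
  have hxy' : ξ * η = algebraMap K F (ϖ ^ n) * u := by rw [map_pow]; exact hxy
  have hx0 : ev₁ ξ ≠ 0 := by
    intro h1
    have h2 : ev₁ ξ * ev₁ η = ϖ ^ n * ev₁ u := by
      rw [← h₁.mul ξ (hRO₁ ξ hξ) η (hRO₁ η hη), hxy', h₁.ev_const_mul _ (hRO₁ u hu)]
    rw [h1, zero_mul] at h2
    exact mul_ne_zero (pow_ne_zero n hϖ0) hevu h2.symm
  set θ : A.ValueGroup := max (A.valuation (ev₁ ξ))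
    (max (A.valuation (ev₁ η)) (max (A.valuation (ev₂ η)) (A.valuation ϖ))) with hθ
  have hθ1 : θ < 1 := max_lt hvξ (max_lt hvη₁ (max_lt hvη₂ hvϖ))
  let O' : Subring F := O₁ ⊓ O₂
  let φ : O' →+* K := h₁.evHomOf O' inf_le_left
  let φ' : O' →+* K := h₂.evHomOf O' inf_le_right
  let δ : O' → K := fun r => ev₁ (r : F) - ev₂ (r : F)
  let R' : Set O' := {r | (r : F) ∈ R}
  let S' : Set O' := {c | ∃ k : K, (c : F) = algebraMap K F k}
  have hRO' : ∀ r ∈ R, r ∈ O' := fun r hr => ⟨hRO₁ r hr, hRO₂ r hr⟩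
  have hc' : ∀ k : K, algebraMap K F k ∈ O' := fun k => ⟨h₁.const_mem k, h₂.const_mem k⟩
  have key : ∀ r ∈ R', δ r = 0 := by
    refine twisted_eq_zero_on A.valuation φ φ' δ ?_ ?_ R'
      (fun r hr => (A.valuation_le_one_iff _).2 (hRA₁ _ hr))
      (w := ⟨algebraMap K F (ϖ ^ n), hc' _⟩) (ϖ := ⟨algebraMap K F ϖ, hc' _⟩)
      (x := ⟨ξ, hRO' ξ hξ⟩) (y := ⟨η, hRO' η hη⟩) (u := ⟨u, hRO' u hu⟩)
      (Subtype.ext hxy') hu hu1 ?_ ?_ ?_ hx0 S' ?_ ?_ θ ?_
      (le_max_of_le_right (le_max_left _ _))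
      (le_max_of_le_right (le_max_of_le_right (le_max_left _ _))) ?_
      (fun ε hε => harch θ ε hθ1 hε) ?_
    · intro r s
      show ev₁ ((r : F) + (s : F)) - ev₂ ((r : F) + (s : F)) = _
      rw [h₁.add _ r.2.1 _ s.2.1, h₂.add _ r.2.2 _ s.2.2]
      ring
    · intro r s
      show ev₁ ((r : F) * (s : F)) - ev₂ ((r : F) * (s : F))
        = ev₁ (r : F) * (ev₁ (s : F) - ev₂ (s : F)) + (ev₁ (r : F) - ev₂ (r : F)) * ev₂ (s : F)
      rw [h₁.mul _ r.2.1 _ s.2.1, h₂.mul _ r.2.2 _ s.2.2]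
      ring
    · show ev₁ (algebraMap K F (ϖ ^ n)) - ev₂ (algebraMap K F (ϖ ^ n)) = 0
      rw [h₁.const, h₂.const, sub_self]
    · show ev₁ (algebraMap K F ϖ) - ev₂ (algebraMap K F ϖ) = 0
      rw [h₁.const, h₂.const, sub_self]
    · show ev₁ ξ - ev₂ ξ = 0
      rw [hcoord, sub_self]
    · rintro c ⟨k, hk⟩
      show ev₁ (c : F) - ev₂ (c : F) = 0
      rw [hk, h₁.const, h₂.const, sub_self]
    · intro r hr
      obtain ⟨c, α, hα, β, hβ, γ, hγ, e⟩ := hgen (r : F) hr
      exact ⟨⟨algebraMap K F c, hc' c⟩, ⟨c, rfl⟩, ⟨α, hRO' α hα⟩, hα, ⟨β, hRO' β hβ⟩, hβ,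
        ⟨γ, hRO' γ hγ⟩, hγ, Subtype.ext e⟩
    · show A.valuation (ev₂ ξ) ≤ θ
      rw [← hcoord]
      exact le_max_left _ _
    · show A.valuation (ev₂ (algebraMap K F ϖ)) ≤ θ
      rw [h₂.const]
      exact le_max_of_le_right (le_max_of_le_right (le_max_right _ _))
    · refine ⟨1, fun r hr => ?_⟩
      exact Valuation.map_sub_le _ ((A.valuation_le_one_iff _).2 (hRA₁ _ hr))
        ((A.valuation_le_one_iff _).2 (hRA₂ _ hr))
  intro r hr
  exact sub_eq_zero.1 (key ⟨r, hRO' r hr⟩ hr)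

end Node

/-! ### Place forms -/

section PlaceForm

open AlgebraicCurve Fermat.Agent.Lib.FF Fermat.Agent.MW.HtM Fermat.Agent.S24

variable {K F : Type*} [Field K] [Field F] [Algebra K F]

/-- A place with residue field `K` and a uniformiser `τ` is an abstract point, with `ev = pval`. -/
theorem isPt_place (P : Place K F) (hres : RR.ResK P) {τ : F} (hτ : P.ord τ = 1) :
    IsPt P.toValuationSubring.toSubring (pval P) τ where
  add f hf g hg := pval_add hres hf hg
  mul f hf g hg := pval_mul hres hf hg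
  const_mem c := P.algebraMap_mem' c
  const c := pval_algebraMap P c
  div_mem g hg h0 := by
    rcases eq_or_ne g 0 with rfl | hg0
    · rw [zero_div]; exact P.toValuationSubring.zero_mem
    have hτ0 : τ ≠ 0 := by
      rintro rfl
      rw [Place.ord_zero] at hτ
      exact zero_ne_one hτ
    have h1 : 0 < P.ord g := (pval_eq_zero_iff_ord hres hg0 (ord_nonneg_of_mem P hg)).1 h0
    refine mem_of_ord_nonneg P ?_
    rw [div_eq_mul_inv, P.ord_mul hg0 (inv_ne_zero hτ0), P.ord_inv, hτ]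
    omega

/-- A place with residue field `K` is an abstract point with the trivial parameter `1` (enough
for the statements which do not use the Taylor coefficient). -/
theorem isPt_place_one (P : Place K F) (hres : RR.ResK P) :
    IsPt P.toValuationSubring.toSubring (pval P) 1 where
  add f hf g hg := pval_add hres hf hg
  mul f hf g hg := pval_mul hres hf hg
  const_mem c := P.algebraMap_mem' c
  const c := pval_algebraMap P c
  div_mem g hg _ := by rw [div_one]; exact hg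

/-- Rank one: from the element form (`BadSetup.harch`) to the value-group form. -/
theorem harch_valueGroup (A : ValuationSubring K)
    (harch : ∀ a Δ : K, A.valuation a < 1 → Δ ≠ 0 →
      ∃ n : ℕ, A.valuation (a ^ n) < A.valuation Δ) :
    ∀ θ ε : A.ValueGroup, θ < 1 → ε ≠ 0 → ∃ j : ℕ, θ ^ j < ε := by
  intro θ ε hθ hε
  obtain ⟨a, rfl⟩ := A.valuation_surjective θ
  obtain ⟨Δ, rfl⟩ := A.valuation_surjective ε
  have hΔ : Δ ≠ 0 := by
    rintro rfl
    exact hε (map_zero _)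
  obtain ⟨n, hn⟩ := harch a Δ hθ hΔ
  exact ⟨n, by rwa [map_pow] at hn⟩

/-- The Taylor coefficient w.r.t. a uniformiser detects simple zeros: for `g` regular at `P`,
`taylor g ≠ 0` iff `g - g(P)` has a zero of order exactly `1`. -/
theorem taylor_ne_zero_iff (P : Place K F) (hres : RR.ResK P) {τ : F} (hτ : P.ord τ = 1)
    {g : F} (hg : g ∈ P.toValuationSubring) :
    taylor (pval P) τ g ≠ 0 ↔ P.ord (g - algebraMap K F (pval P g)) = 1 := by
  have hpt := isPt_place P hres hτ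
  have hτ0 : τ ≠ 0 := by
    rintro rfl
    rw [Place.ord_zero] at hτ
    exact zero_ne_one hτ
  set w : F := g - algebraMap K F (pval P g) with hw
  have hwO : w ∈ P.toValuationSubring := hpt.sub_const_mem hg
  have hqO : w / τ ∈ P.toValuationSubring := hpt.quot_mem hg
  rcases eq_or_ne w 0 with hw0 | hw0
  · constructor
    · intro h
      exfalso
      apply h
      show pval P (w / τ) = 0
      rw [hw0, zero_div, pval_zero]
    · intro h
      rw [hw0, Place.ord_zero] at h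
      exact absurd h zero_ne_one
  have hq0 : w / τ ≠ 0 := div_ne_zero hw0 hτ0
  have hord : P.ord (w / τ) = P.ord w - 1 := by
    rw [div_eq_mul_inv, P.ord_mul hw0 (inv_ne_zero hτ0), P.ord_inv, hτ]
    ring
  have hnn : 0 ≤ P.ord (w / τ) := ord_nonneg_of_mem P hqO
  have hiff := pval_eq_zero_iff_ord hres hq0 hnn
  constructor
  · intro h
    have h1 : ¬ 0 < P.ord (w / τ) := fun h2 => h (hiff.2 h2)
    omega
  · intro h h2
    have h3 : 0 < P.ord (w / τ) := hiff.1 h2
    omega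

/-- **The node coordinate has a SIMPLE zero at every point of the residue annulus.**
`P` a place with residue field `K`; `R` the node ring: regular at `P` with values in `A`
(`P` is "through the node"), every element a fraction `v / t` of chart functions
`∑ e_i(x) β_i` (coefficients in `A`; `x`, `β i` regular at `P` with values in `A`) with
`|t(P)| = 1`; node equation `ξ * η = ϖ ^ n * u`, `u` a unit of `R`, and
`R = K + ξ R + η R + ϖ R`; `|ξ(P)|, |η(P)|, |ϖ| < 1`; some element of the `K`-span of `R` is a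
uniformiser at `P`.  Then `ξ - ξ(P)` is a uniformiser at `P`. -/
theorem ord_coord_sub_eq_one (P : Place K F) (hres : RR.ResK P) (A : ValuationSubring K)
    (harch : ∀ a Δ : K, A.valuation a < 1 → Δ ≠ 0 →
      ∃ n : ℕ, A.valuation (a ^ n) < A.valuation Δ)
    (R : Set F) (hRO : ∀ r ∈ R, r ∈ P.toValuationSubring)
    {m : ℕ} {x : F} {β : Fin m → F} (hx : x ∈ P.toValuationSubring) (hxA : pval P x ∈ A)
    (hβ : ∀ i, β i ∈ P.toValuationSubring) (hβA : ∀ i, pval P (β i) ∈ A)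
    (hfrac : ∀ r ∈ R, ∃ e e' : Fin m → K[X], (∀ i j, (e i).coeff j ∈ A) ∧
      (∀ i j, (e' i).coeff j ∈ A) ∧ A.valuation (pval P (∑ i, aeval x (e' i) * β i)) = 1 ∧
      r * ∑ i, aeval x (e' i) * β i = ∑ i, aeval x (e i) * β i)
    {ϖ : K} {ξ η u u' : F} {n : ℕ} (hξ : ξ ∈ R) (hη : η ∈ R) (hu : u ∈ R) (hu' : u' ∈ R)
    (huu : u * u' = 1) (hxy : ξ * η = algebraMap K F ϖ ^ n * u)
    (hgen : ∀ r ∈ R, ∃ c : K, ∃ α ∈ R, ∃ β ∈ R, ∃ γ ∈ R,
      r = algebraMap K F c + α * ξ + β * η + γ * algebraMap K F ϖ)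
    (hvξ : A.valuation (pval P ξ) < 1) (hvη : A.valuation (pval P η) < 1)
    (hvϖ : A.valuation ϖ < 1) (hϖ0 : ϖ ≠ 0)
    (hloc : ∃ a ∈ Submodule.span K R, P.ord a = 1) :
    P.ord (ξ - algebraMap K F (pval P ξ)) = 1 := by
  obtain ⟨τ, hτR, hτ⟩ := hloc
  have hpt := isPt_place P hres hτ
  obtain ⟨B, hB⟩ := taylor_bdd hpt A hx hxA hβ hβA R hRO hfrac
  have hτO : τ ∈ P.toValuationSubring := hpt.span_mem hRO hτR
  have hττ : taylor (pval P) τ τ ≠ 0 := by
    rw [taylor_ne_zero_iff P hres hτ hτO, pval_eq_zero_of_ord_pos (by omega), map_zero,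
      sub_zero]
    exact hτ
  have key := taylor_coord_ne_zero hpt A (harch_valueGroup A harch) R hRO
    (fun r hr => (hB r hr).1) ⟨B, fun r hr => (hB r hr).2⟩ hξ hη hu hu' huu hxy hgen hvξ hvη
    hvϖ hϖ0 ⟨τ, hτR, hττ⟩
  exact (taylor_ne_zero_iff P hres hτ (hRO ξ hξ)).1 key

/-- **The node coordinate is injective on the residue annulus (place form).**  Two places
through the node with the same value of `ξ` have the same values on the node ring. -/
theorem pval_eq_of_coord_eq (P P' : Place K F) (hres : RR.ResK P) (hres' : RR.ResK P')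
    (A : ValuationSubring K)
    (harch : ∀ a Δ : K, A.valuation a < 1 → Δ ≠ 0 →
      ∃ n : ℕ, A.valuation (a ^ n) < A.valuation Δ)
    (R : Set F) (hRO : ∀ r ∈ R, r ∈ P.toValuationSubring)
    (hRO' : ∀ r ∈ R, r ∈ P'.toValuationSubring)
    (hRA : ∀ r ∈ R, pval P r ∈ A) (hRA' : ∀ r ∈ R, pval P' r ∈ A)
    {ϖ : K} {ξ η u u' : F} {n : ℕ} (hξ : ξ ∈ R) (hη : η ∈ R) (hu : u ∈ R) (hu' : u' ∈ R)
    (huu : u * u' = 1) (hxy : ξ * η = algebraMap K F ϖ ^ n * u)
    (hgen : ∀ r ∈ R, ∃ c : K, ∃ α ∈ R, ∃ β ∈ R, ∃ γ ∈ R,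
      r = algebraMap K F c + α * ξ + β * η + γ * algebraMap K F ϖ)
    (hvξ : A.valuation (pval P ξ) < 1) (hvη : A.valuation (pval P η) < 1)
    (hvη' : A.valuation (pval P' η) < 1) (hvϖ : A.valuation ϖ < 1) (hϖ0 : ϖ ≠ 0)
    (hcoord : pval P ξ = pval P' ξ) : ∀ r ∈ R, pval P r = pval P' r :=
  ev_eq_of_coord_eq (isPt_place_one P hres) (isPt_place_one P' hres') A
    (harch_valueGroup A harch) R hRO hRO' hRA hRA' hξ hη hu hu' huu hxy hgen hvξ hvη hvη' hvϖ
    hϖ0 hcoord

/-- Two places through the node with the same value of `ξ` are EQUAL, as soon as the local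
ring at `P` consists of fractions of elements of the `K`-span of the node ring. -/
theorem place_eq_of_coord_eq (P P' : Place K F) (hres : RR.ResK P) (hres' : RR.ResK P')
    (A : ValuationSubring K)
    (harch : ∀ a Δ : K, A.valuation a < 1 → Δ ≠ 0 →
      ∃ n : ℕ, A.valuation (a ^ n) < A.valuation Δ)
    (R : Set F) (hRO : ∀ r ∈ R, r ∈ P.toValuationSubring)
    (hRO' : ∀ r ∈ R, r ∈ P'.toValuationSubring)
    (hRA : ∀ r ∈ R, pval P r ∈ A) (hRA' : ∀ r ∈ R, pval P' r ∈ A)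
    {ϖ : K} {ξ η u u' : F} {n : ℕ} (hξ : ξ ∈ R) (hη : η ∈ R) (hu : u ∈ R) (hu' : u' ∈ R)
    (huu : u * u' = 1) (hxy : ξ * η = algebraMap K F ϖ ^ n * u)
    (hgen : ∀ r ∈ R, ∃ c : K, ∃ α ∈ R, ∃ β ∈ R, ∃ γ ∈ R,
      r = algebraMap K F c + α * ξ + β * η + γ * algebraMap K F ϖ)
    (hvξ : A.valuation (pval P ξ) < 1) (hvη : A.valuation (pval P η) < 1)
    (hvη' : A.valuation (pval P' η) < 1) (hvϖ : A.valuation ϖ < 1) (hϖ0 : ϖ ≠ 0)
    (hcoord : pval P ξ = pval P' ξ)
    (hsep : ∀ f ∈ P.toValuationSubring, ∃ a ∈ Submodule.span K R, ∃ b ∈ Submodule.span K R,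
      pval P b ≠ 0 ∧ f * b = a) : P = P' := by
  have hR := pval_eq_of_coord_eq P P' hres hres' A harch R hRO hRO' hRA hRA' hξ hη hu hu' huu
    hxy hgen hvξ hvη hvη' hvϖ hϖ0 hcoord
  -- agreement on the span
  have hspan : ∀ a ∈ Submodule.span K R, a ∈ P.toValuationSubring ∧
      a ∈ P'.toValuationSubring ∧ pval P a = pval P' a := by
    intro a ha
    induction ha using Submodule.span_induction with
    | mem r hr => exact ⟨hRO r hr, hRO' r hr, hR r hr⟩
    | zero => exact ⟨P.toValuationSubring.zero_mem, P'.toValuationSubring.zero_mem, by simp⟩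
    | add y z _ _ hy hz =>
      exact ⟨add_mem hy.1 hz.1, add_mem hy.2.1 hz.2.1, by
        rw [pval_add hres hy.1 hz.1, pval_add hres' hy.2.1 hz.2.1, hy.2.2, hz.2.2]⟩
    | smul c y _ hy =>
      refine ⟨?_, ?_, ?_⟩
      · rw [Algebra.smul_def]; exact mul_mem (P.algebraMap_mem' c) hy.1
      · rw [Algebra.smul_def]; exact mul_mem (P'.algebraMap_mem' c) hy.2.1
      · rw [pval_smul hres c hy.1, pval_smul hres' c hy.2.1, hy.2.2]
  refine place_eq_of_le fun f hf => ?_
  obtain ⟨a, ha, b, hb, hb0, hfb⟩ := hsep f hf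
  obtain ⟨-, haO', -⟩ := hspan a ha
  obtain ⟨-, hbO', hbe⟩ := hspan b hb
  have hb0' : pval P' b ≠ 0 := by rw [← hbe]; exact hb0
  have hbne : b ≠ 0 := by
    rintro rfl
    exact hb0 (pval_zero P)
  have hval : P'.adicValuation b = 1 := by
    have h1 := P'.adicValuation_le_one_of_mem hbO'
    exact le_antisymm h1 (not_lt.mp fun h => hb0' ((pval_eq_zero_iff hres' hbO').mpr h))
  have hinv : b⁻¹ ∈ P'.toValuationSubring :=
    RR.mem_of_val_le_one P' (by rw [map_inv₀, hval, inv_one])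
  have hf' : f = a * b⁻¹ := by rw [← hfb, mul_inv_cancel_right₀ hbne]
  rw [hf']
  exact mul_mem haO' hinv

end PlaceForm

end Fermat.Agent.TR.Node.TaylorBdd
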