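/-
TR / Node (helper91), (GEN) place form, the TaylorBdd route: **THE COORDINATE OF A NODE IS
UNRAMIFIED AT THE PLACES REDUCING TO THE NODE — without any surjectivity / accumulation
hypothesis.**

Same setting and vocabulary as `TR/Node/AnnulusRedNode.lean` (helper75): `F/L` a function field,
`A` a valuation subring of `L` of rank one (`harchA` = the shape of `BadSetup.harch`), `R ≤ Rh`
subrings of `F` (`R` the discrete node ring, `IsNode L R ξ η u ϖ n`; `Rh` the node ring over the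
big field), `RedNode A Rh Q` = "`Q` reduces to the node".  The hypothesis `hsurj` of
`AnnulusRedNode.redNode_unr` is replaced by **(FIN)**, the finite generation of the chart ring
over `A[x]` (`BAD.LatChart.exists_chart_gen_finRing`):

* `x`, `β i ∈ Rh`, a set `C ⊆ Rh` of "integral chart functions" every element of which is
  `∑ i, e_i(x) * β i` with `e_i ∈ A[X]` (`hCfin`);
* every `r ∈ R` is a fraction `v / t` with `v, t ∈ C`, `t` a unit of `Rh` (`hfrac`).

Results: `redNode_mem`, `redNode_val_eq_one`, `exists_span_ord_eq_one`, **`redNode_unr_fin`**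
(`ord_P (ξ - c) = 1` if `ξ(P) = c`), `redNode_ord_sub_fin` (`1` at `P`, `0` at the other places
reducing to the node), `redNode_ord_sub_self`.
-/
import Mathlib
import Fermat.Agent.TR.Node.TaylorBdd
import Fermat.Agent.TR.Node.AnnulusRedNode

set_option autoImplicit false

noncomputable section

namespace Fermat.Agent.TR.Node.TaylorRedNode

open AlgebraicCurve Polynomial Fermat.Agent.Lib.FF Fermat.Agent.MW.HtM
  Fermat.Agent.BAD.NodalRiemann Fermat.Agent.TR.Node.AnnulusLip
  Fermat.Agent.TR.Node.AnnulusPlace Fermat.Agent.TR.Node.HorUnit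
  Fermat.Agent.TR.Node.AnnulusRedNode

variable {L F : Type*} [Field L] [Field F] [Algebra L F] {A : ValuationSubring L}

/-- A function of `Rh` is regular at a place reducing to the node. -/
theorem redNode_mem {Rh : Subring F} {P : Place L F} (hP : RedNode A Rh P) {g : F}
    (hg : g ∈ Rh) : g ∈ P.toValuationSubring := by
  obtain ⟨c, -, hc⟩ := hP g hg
  exact cong_mem hc

/-- The value of a function of `Rh` at a place reducing to the node is integral. -/
theorem redNode_pval_mem {Rh : Subring F} {P : Place L F} (hP : RedNode A Rh P) {g : F}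
    (hg : g ∈ Rh) : pval P g ∈ A := by
  obtain ⟨c, hcA, hc⟩ := hP g hg
  rw [pval_eq P hc]
  exact hcA

/-- A unit of `Rh` has a value of absolute value one at a place reducing to the node. -/
theorem redNode_val_eq_one {Rh : Subring F} {P : Place L F} (hres : RR.ResK P)
    (hP : RedNode A Rh P) {t : F} (ht0 : t ≠ 0) (ht : t ∈ Rh) (hti : t⁻¹ ∈ Rh) :
    A.valuation (pval P t) = 1 := by
  have h1 := pval_mul hres (redNode_mem hP ht) (redNode_mem hP hti)
  rw [mul_inv_cancel₀ ht0, pval_one] at h1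
  have h2 : A.valuation (pval P t) * A.valuation (pval P t⁻¹) = 1 := by
    rw [← map_mul, ← h1, map_one]
  have h3 : A.valuation (pval P t) ≤ 1 := (A.valuation_le_one_iff _).2 (redNode_pval_mem hP ht)
  have h4 : A.valuation (pval P t⁻¹) ≤ 1 := (A.valuation_le_one_iff _).2 (redNode_pval_mem hP hti)
  refine le_antisymm h3 ?_
  calc (1 : A.ValueGroup) = A.valuation (pval P t) * A.valuation (pval P t⁻¹) := h2.symm
    _ ≤ A.valuation (pval P t) * 1 := mul_le_mul' le_rfl h4
    _ = A.valuation (pval P t) := mul_one _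

/-- **(LOC) gives a uniformiser in the span**: if the local ring of `P` is generated by `R` over
the constants and the functions of `R` are regular at `P`, some element of the `L`-span of `R`
has a simple zero at `P`. -/
theorem exists_span_ord_eq_one {R : Subring F} {P : Place L F}
    (hRO : ∀ r ∈ R, r ∈ P.toValuationSubring) (hloc : LocAt R P) :
    ∃ a ∈ Submodule.span L (R : Set F), P.ord a = 1 := by
  obtain ⟨τ, hτ⟩ := exists_ord_eq_one P
  have hτO : τ ∈ P.toValuationSubring := Fermat.Agent.S24.mem_of_ord_nonneg P (by omega)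
  obtain ⟨a, ha, b, hb, hb0, hab⟩ := hloc τ hτO
  have hτ0 : τ ≠ 0 := by
    rintro rfl
    simp at hτ
  have hb00 : b ≠ 0 := by
    rintro rfl
    exact hb0 (pval_zero P)
  have hbO : b ∈ P.toValuationSubring := by
    have hle : Submodule.span L (R : Set F) ≤
        (⟨P.toValuationSubring.toSubring.toSubsemiring, fun c => P.algebraMap_mem' c⟩ :
          Subalgebra L F).toSubmodule := Submodule.span_le.2 hRO
    exact hle hb
  have hb1 : P.ord b = 0 := by
    have h1 := Fermat.Agent.S24.ord_nonneg_of_mem P hbO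
    by_contra hne
    exact hb0 (pval_eq_zero_of_ord_pos (by omega))
  refine ⟨a, ha, ?_⟩
  rw [← hab, P.ord_mul hτ0 hb00, hτ, hb1]
  rfl

variable {R Rh : Subring F} {ξ η u ϖ : F} {n : ℕ}

/-- **(unr) from (FIN), local form.**  `P` a place reducing to the node with `|ξ(P)| < 1`,
`|η(P)| < 1`, whose local ring is generated by `R`; then `ξ - ξ(P)` has a simple zero at `P`. -/
theorem redNode_unr_fin_at
    (harchA : ∀ a Δ : L, A.valuation a < 1 → Δ ≠ 0 → ∃ k : ℕ, A.valuation (a ^ k) < A.valuation Δ)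
    (hRRh : R ≤ Rh) (hN : IsNode L R ξ η u ϖ n)
    (hϖ : ∀ p0 : L, ϖ = algebraMap L F p0 → A.valuation p0 < 1) (hϖ0 : ϖ ≠ 0)
    {m : ℕ} {x : F} {β : Fin m → F} (hx : x ∈ Rh) (hβ : ∀ i, β i ∈ Rh)
    (C : Set F) (hCfin : ∀ v ∈ C, ∃ e : Fin m → L[X], (∀ i j, (e i).coeff j ∈ A) ∧
      v = ∑ i, aeval x (e i) * β i)
    (hfrac : ∀ r ∈ R, ∃ t ∈ C, t ≠ 0 ∧ t ∈ Rh ∧ t⁻¹ ∈ Rh ∧ r * t ∈ C)
    {P : Place L F} (hres : RR.ResK P) (hP : RedNode A Rh P) (hloc : LocAt R P)
    {c b : L} (hc : Cong P ξ c) (hb : Cong P η b) (hc1 : A.valuation c < 1)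
    (hb1 : A.valuation b < 1) :
    P.ord (ξ - algebraMap L F c) = 1 := by
  have hRO : ∀ r ∈ (R : Set F), r ∈ P.toValuationSubring := fun r hr =>
    redNode_mem hP (hRRh hr)
  obtain ⟨p0, hp0⟩ := hN.ϖ_const
  obtain ⟨w, hw, huw⟩ := hN.u_unit
  have hp00 : p0 ≠ 0 := by
    rintro rfl
    exact hϖ0 (by rw [hp0, map_zero])
  have key := TaylorBdd.ord_coord_sub_eq_one P hres A harchA (R : Set F) hRO
    (x := x) (β := β) (redNode_mem hP hx) (redNode_pval_mem hP hx)
    (fun i => redNode_mem hP (hβ i)) (fun i => redNode_pval_mem hP (hβ i))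
    (fun r hr => by
      obtain ⟨t, htC, ht0, htRh, htiRh, hrt⟩ := hfrac r hr
      obtain ⟨e', he'A, he'⟩ := hCfin t htC
      obtain ⟨e, heA, he⟩ := hCfin (r * t) hrt
      refine ⟨e, e', heA, he'A, ?_, ?_⟩
      · rw [← he']
        exact redNode_val_eq_one hres hP ht0 htRh htiRh
      · rw [← he', ← he])
    (ϖ := p0) (ξ := ξ) (η := η) (u := u) (u' := w) (n := n)
    hN.x_mem hN.y_mem hN.u_mem hw huw (by rw [← hp0]; exact hN.xy)
    (fun r hr => by
      obtain ⟨a, -, α, hα, β', hβ', γ, hγ, e⟩ := hN.gen r hr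
      exact ⟨a, α, hα, β', hβ', γ, hγ, by rw [← hp0]; exact e⟩)
    (by rw [pval_eq P hc]; exact hc1) (by rw [pval_eq P hb]; exact hb1)
    (hϖ p0 hp0) hp00 (exists_span_ord_eq_one (fun r hr => hRO r hr) hloc)
  rwa [pval_eq P hc] at key

section Main

variable
  (harchA : ∀ a Δ : L, A.valuation a < 1 → Δ ≠ 0 → ∃ k : ℕ, A.valuation (a ^ k) < A.valuation Δ)
  (hres : ∀ Q : Place L F, RR.ResK Q) (hRRh : R ≤ Rh) (hN : IsNode L R ξ η u ϖ n)
  (hϖ : ∀ p0 : L, ϖ = algebraMap L F p0 → A.valuation p0 < 1) (hϖ0 : ϖ ≠ 0)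
  (hsmall : ∀ Q : Place L F, RedNode A Rh Q → ∀ a b : L, Cong Q ξ a → Cong Q η b →
    A.valuation a < 1 ∧ A.valuation b < 1 ∧ a ≠ 0)
  (hloc : ∀ Q : Place L F, RedNode A Rh Q → LocAt R Q)
  {m : ℕ} {x : F} {β : Fin m → F} (hx : x ∈ Rh) (hβ : ∀ i, β i ∈ Rh)
  (C : Set F) (hCfin : ∀ v ∈ C, ∃ e : Fin m → L[X], (∀ i j, (e i).coeff j ∈ A) ∧
    v = ∑ i, aeval x (e i) * β i)
  (hfrac : ∀ r ∈ R, ∃ t ∈ C, t ≠ 0 ∧ t ∈ Rh ∧ t⁻¹ ∈ Rh ∧ r * t ∈ C)

include harchA hres hRRh hN hϖ hϖ0 hsmall hloc hx hβ hCfin hfrac in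
/-- **(unr) from (FIN)** — `AnnulusRedNode.redNode_unr` with the surjectivity hypothesis
replaced by the finite generation of the chart ring over `A[x]`. -/
theorem redNode_unr_fin {P : Place L F} {c : L} (hP : RedNode A Rh P) (hc : Cong P ξ c) :
    P.ord (ξ - algebraMap L F c) = 1 := by
  obtain ⟨b, -, hb⟩ := hP η (hRRh hN.y_mem)
  obtain ⟨hc1, hb1, -⟩ := hsmall P hP c b hc hb
  exact redNode_unr_fin_at harchA hRRh hN hϖ hϖ0 hx hβ C hCfin hfrac (hres P) hP (hloc P hP)
    hc hb hc1 hb1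

open Classical in
include harchA hres hRRh hN hϖ hϖ0 hsmall hloc hx hβ hCfin hfrac in
/-- `ord_{P'} (ξ - ξ(P))` at the places reducing to the node: `1` at `P`, `0` elsewhere —
`AnnulusRedNode.redNode_ord_sub` from (FIN). -/
theorem redNode_ord_sub_fin {P P' : Place L F} {c : L} (hP : RedNode A Rh P)
    (hP' : RedNode A Rh P') (hc : Cong P ξ c) :
    P'.ord (ξ - algebraMap L F c) = if P' = P then 1 else 0 := by
  obtain ⟨c', -, hc'⟩ := hP' ξ (hRRh hN.x_mem)
  have h1 := redNode_unr_fin harchA hres hRRh hN hϖ hϖ0 hsmall hloc hx hβ C hCfin hfrac hP' hc'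
  have hpc' : pval P' ξ = c' := pval_eq P' hc'
  have h2 := ord_coord_sub (hres P') (cong_mem hc') (by rw [hpc']; exact h1) c
  rw [h2, hpc']
  by_cases hPP : P' = P
  · rw [if_pos hPP]
    subst hPP
    have : c' = c := by rw [← hpc', pval_eq P' hc]
    rw [if_pos this]
  · rw [if_neg hPP, if_neg]
    rintro rfl
    exact hPP (redNode_inj harchA hres hRRh hN hϖ hsmall hloc hP hP' hc hc')

end Main

end Fermat.Agent.TR.Node.TaylorRedNode
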