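/-
TR / Node (helper91), (GEN) at the nodes, the TaylorBdd route at the modular objects:
**(FIN) for the chart of the nodal datum and the fraction form of the node ring.**

* `exists_frac` (abstract, setting of `NodeRingAbs`): every function of the node ring is a
  fraction `v / t` of integral chart functions, `t` a unit of the node ring over the big field;
* `ChartFin h W E1` : **(FIN)** — the ring of integral functions of the chart `X ∖ E1`
  (`OPair h W ∩ ⋃ L(N • E1)`) is generated, as a module over `A[x]`, by finitely many of its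
  elements (`x` one of them);
* `chartFin_of_chartBase` : (FIN) for `E1 = (x)_∞`, `x = α^* X · β^* X`, `X` a chart base
  (`LatChart.exists_chart_gen_finRing`);
* `nodalFibreFor_J_fin` : the nodal datum of `JDatum.nodalFibreFor_J` with the extra conjunct
  `ChartFin h W E1`.

With `exists_frac` at `S_i ≤ T_i` (the node rings of `TR/Node/NodeRing.lean`) and `ChartFin`,
`TaylorRedNode.redNode_unr_fin` gives (unr) at the modular objects with no surjectivity input;
the instance of record for (unr) is `TR/Node/AnnulusHartInst.lean` / `TR/Node/AnnulusInst.lean`.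
-/
import Mathlib
import Fermat.Agent.TR.Node.TaylorRedNode
import Fermat.Agent.TR.Node.NodePkgFull
import Fermat.Agent.TR.Node.JDatum

set_option autoImplicit false

noncomputable section

namespace Fermat.Agent.TR.Node.TaylorInst

open AlgebraicCurve ModularCurve Polynomial WithZero Fermat.Agent.Lib.FF
  Fermat.Agent.Lib.Red.Deform Fermat.Agent.BAD.NodalRiemann Fermat.Agent.BAD.TwoVal

/-! ### The abstract fraction lemma -/

section Abs

open Fermat.Agent.TR.Node.NodeRingAbs Fermat.Agent.TR.Node.NodalLocal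

variable {L F : Type*} [Field L] [Field F] [Algebra L F] {A : ValuationSubring L} {O : Subring F}
  {k F₁ F₂ : Type*} [Field k] [Field F₁] [Field F₂] [Algebra k F₁] [Algebra k F₂]
  {ι : Type*}

/-- **Every function of the node ring is a fraction of integral chart functions**, with a
denominator which is a unit of the node ring over the big field. -/
theorem exists_frac (hOA : ∀ x : L, algebraMap L F x ∈ O ↔ x ∈ A)
    (hval : ∀ y : F, y ≠ 0 → ∃ c : L, c ≠ 0 ∧ algebraMap L F c * y ∈ O ∧
      ¬ Small A O (algebraMap L F c * y))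
    (red : O →+* F₁ × F₂) (π : A →+* k)
    (hπker : ∀ a : A, π a = 0 ↔ A.valuation (a : L) < 1)
    (hconst : ∀ a : A, red ⟨algebraMap L F (a : L), (hOA _).2 a.2⟩ =
      algebraMap k (F₁ × F₂) (π a))
    (hker : ∀ y : O, red y = 0 ↔ Small A O (y : F))
    (Fx : Subring F) (E : Divisor L F) (e₁ : ι → Place k F₁) (e₂ : ι → Place k F₂) (i : ι)
    (hE : 0 ≤ E) {D₁ : Divisor k F₁} {D₂ : Divisor k F₂}
    (hS : ∃ N₀ : ℕ, ∀ N, N₀ ≤ N → ∀ t : F₁ × F₂,
      (∃ y : O, (y : F) ∈ riemannRochSpace (N • E) ∧ red y = t) ↔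
        t ∈ gluedSpace e₁ e₂ (fun _ => (1 : k)) (N • D₁) (N • D₂))
    {g : F} (hg : g ∈ nodeRing red Fx E e₁ e₂ i) :
    ∃ t : F, (t ∈ O ∧ ∃ N : ℕ, t ∈ riemannRochSpace (N • E)) ∧ t ≠ 0 ∧
      t ∈ nodeRing red ⊤ E e₁ e₂ i ∧ t⁻¹ ∈ nodeRing red ⊤ E e₁ e₂ i ∧
      (g * t ∈ O ∧ ∃ N : ℕ, g * t ∈ riemannRochSpace (N • E)) := by
  obtain ⟨-, N, t, htL, -, ⟨c, hc0, hc1, -⟩, y, hy, hyL⟩ := hg
  have htT : (t : F) ∈ nodeRing red ⊤ E e₁ e₂ i :=
    chart_mem red ⊤ hE e₁ e₂ i t.2 htL (Subring.mem_top _)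
  have hti : (t : F)⁻¹ ∈ nodeRing red ⊤ E e₁ e₂ i := by
    refine inv_mem hOA hval red π hπker hconst hker ⊤ E e₁ e₂ i hE hS
      (fun _ _ => Subring.mem_top _) htT ?_
    intro h0
    exact hc0 (hc1.unique h0)
  have ht0 : (t : F) ≠ 0 := by
    intro h0
    have ht : t = 0 := Subtype.ext h0
    rw [ht, map_zero] at hc1
    exact hc0 (hc1.unique (cong_zero _))
  refine ⟨t, ⟨t.2, N, htL⟩, ht0, htT, hti, ?_, N, ?_⟩
  · rw [mul_comm, ← hy]
    exact y.2
  · rw [mul_comm, ← hy]
    exact hyL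

end Abs

/-! ### (FIN) at the modular objects -/

local notation "Qb" => AlgebraicClosure ℚ

variable {A : ValuationSubring Qb} {k : Type} [Field k] {π : A →+* k} {M q : ℕ} [NeZero M]
  [NeZero q]

/-- **(FIN)**: the integral functions of the chart `X ∖ E1` form a finitely generated module
over `A[x]`, `x` one of them. -/
def ChartFin (h : BadSetup A π M q)
    (W : laurentBaseChange Qb (modularFunctionFieldFull (M * q)) ≃ₐ[Qb]
      laurentBaseChange Qb (modularFunctionFieldFull (M * q)))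
    (E1 : Divisor Qb (laurentBaseChange Qb (modularFunctionFieldFull (M * q)))) : Prop :=
  ∃ (x : laurentBaseChange Qb (modularFunctionFieldFull (M * q))) (m : ℕ)
    (β : Fin m → laurentBaseChange Qb (modularFunctionFieldFull (M * q))),
    (x ∈ OPair h W ∧ ∃ N : ℕ, x ∈ riemannRochSpace (N • E1)) ∧
    (∀ j, β j ∈ OPair h W ∧ ∃ N : ℕ, β j ∈ riemannRochSpace (N • E1)) ∧
    ∀ v ∈ OPair h W, (∃ N : ℕ, v ∈ riemannRochSpace (N • E1)) →
      ∃ e : Fin m → Qb[X], (∀ j l, (e j).coeff l ∈ A) ∧ v = ∑ j, aeval x (e j) * β j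

section ChartBase

open Fermat.Agent.Lib.Red Fermat.Agent.BAD Fermat.Agent.BAD.NodalPlaces
  Fermat.Agent.BAD.SpecialFibre Fermat.Agent.BAD.ChartDiv Fermat.Agent.BAD.KerRed
  Fermat.Agent.ESJ.Cong.LevelGen

variable {W : laurentBaseChange Qb (modularFunctionFieldFull (M * q)) ≃ₐ[Qb]
    laurentBaseChange Qb (modularFunctionFieldFull (M * q))}

/-- **(FIN) for the chart of a chart base**: `E1 = (x)_∞`, `x = α^* X · β^* X`. -/
theorem chartFin_of_chartBase [Fact q.Prime] [CharP k q] [IsAlgClosed k] (h : BadSetup A π M q)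
    (hW : IsAL M q W)
    {X : ↥(laurentBaseChange Qb (modularFunctionFieldFull M))} (hX : IsChartBase h X)
    (hFN : IsFF1 Qb ↥(laurentBaseChange Qb (modularFunctionFieldFull (M * q))) (xN Qb M q X)) :
    ChartFin h W hFN.poleDiv := by
  obtain ⟨r, β, hβO, hβR, hgen⟩ := LatChart.exists_chart_gen_finRing h hW X hX
  refine ⟨xN Qb M q X, r, β,
    ⟨SpecialFibre.xN_mem_OPair_X h hW hX,
      FrobDescent.exists_mem_L_of_mem_finRing hFN self_mem_finRing⟩,
    fun j => ⟨hβO j, FrobDescent.exists_mem_L_of_mem_finRing hFN (hβR j)⟩, ?_⟩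
  rintro v hvO ⟨N, hvL⟩
  exact hgen v hvO (FrobDescent.mem_finRing_of_mem_L hFN hvL)

/-- **The nodal datum at residue characteristic `≥ 5` with (FIN)**: `JDatum.nodalFibreFor_J`
with the extra conjunct `ChartFin h W E1`. -/
theorem nodalFibreFor_J_fin (A : ValuationSubring Qb) (M q : ℕ) [NeZero M] [NeZero q]
    (h : BadSetup A (IsLocalRing.residue A) M q) (hq5 : 5 ≤ q)
    (W : laurentBaseChange Qb (modularFunctionFieldFull (M * q)) ≃ₐ[Qb]
      laurentBaseChange Qb (modularFunctionFieldFull (M * q))) (hW : IsAL M q W) :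
    ∃ E1 E2 : Divisor Qb ↥(laurentBaseChange Qb (modularFunctionFieldFull (M * q))),
      NodalFibreFor h W E1 E2 ∧
      (∀ g : ↥(laurentBaseChange Qb (modularFunctionFieldFull (M * q))),
        IsIntegral (Algebra.adjoin Qb
          ({heckeAlphaBar Qb M q (jLevel Qb M)} :
            Set ↥(laurentBaseChange Qb (modularFunctionFieldFull (M * q))))) g →
        ∃ n : ℕ, g ∈ riemannRochSpace (n • E1)) ∧
      ChartFin h W E1 := by
  have : IsAlgClosed (IsLocalRing.ResidueField A) := CharP.isAlgClosed_residueField A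
  have : Fact q.Prime := ⟨h.hℓ⟩
  have : CharP (IsLocalRing.ResidueField A) q := h.charP
  have h1728 : ((1728 : ℕ) : IsLocalRing.ResidueField A) ≠ 0 := by
    refine natCast_ne_zero_of_badSetup h 1728 ?_
    intro hd
    have e : (1728 : ℕ) = 2 ^ 6 * 3 ^ 3 := by norm_num
    rw [e] at hd
    rcases (Nat.Prime.dvd_mul h.hℓ).1 hd with hd | hd
    · have := Nat.le_of_dvd (by norm_num) (h.hℓ.dvd_of_dvd_pow hd)
      omega
    · have := Nat.le_of_dvd (by norm_num) (h.hℓ.dvd_of_dvd_pow hd)
      omega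
  have hX : IsChartBase h (xL Qb M) :=
    isChartBase_ofJ h IsLocalRing.residue_surjective (by exact_mod_cast h1728)
  have hFN := SpecialFibre.isFF1_xN_X h hW hX
  have hdat := JDatum.nodalFibreFor_chartBase h hW IsLocalRing.residue_surjective hX
    (NodeCountInst.genusFF_add_le_good M q h.hℓ h.not_dvd (Or.inl hq5) A (IsLocalRing.residue A)
      h.hπ IsLocalRing.residue_surjective h.hℓk) hFN
  have hfin := chartFin_of_chartBase h hW hX hFN
  exact ⟨_, _, hdat, fun g hg => JDatum.exists_mem_L_of_isIntegral_alpha_jLevel hFN hg, hfin⟩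

end ChartBase

end Fermat.Agent.TR.Node.TaylorInst
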